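import Fermat.Agent.JAC.Additive
import Mathlib.Algebra.Module.ZLattice.Basic
import Mathlib.LinearAlgebra.Dual.Lemmas
import Mathlib.LinearAlgebra.Complex.FiniteDimensional

/-!
# `Pic⁰` of a complex function field is a complex torus; torsion counts

The main results are `exists_uniformisation` and `natCard_torsion_complex`.
-/

set_option autoImplicit false

noncomputable section

open AlgebraicCurve Metric Filter Topology Set

namespace Fermat.JAC

open Fermat.FF

section Globalise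

variable {E G : Type*} [NormedAddCommGroup E] [NormedSpace ℂ E] [AddCommGroup G]
  {σ : E → G} {η : ℝ}

/-- A locally additive map is linear on multiples inside the ball. -/
theorem local_nsmul (hη : 0 < η) (h0 : σ 0 = 0)
    (hadd : ∀ v ∈ ball (0 : E) η, ∀ w ∈ ball (0 : E) η, v + w ∈ ball (0 : E) η →
      σ (v + w) = σ v + σ w) (u : E) (k : ℕ) (hk : (k : ℝ) * ‖u‖ < η) :
    σ (k • u) = k • σ u := by
  induction k with
  | zero => simp [h0]
  | succ k ih =>
    push_cast at hk
    have hk' : (k : ℝ) * ‖u‖ < η := by nlinarith [norm_nonneg u]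
    have hn : ∀ m : ℕ, ‖m • u‖ = (m : ℝ) * ‖u‖ := fun m => by
      rw [← Nat.cast_smul_eq_nsmul ℂ, norm_smul, Complex.norm_natCast]
    have h1 : u ∈ ball (0 : E) η := by
      rw [mem_ball_zero_iff]
      nlinarith [norm_nonneg u, (Nat.cast_nonneg k : (0 : ℝ) ≤ k)]
    have h2 : k • u ∈ ball (0 : E) η := by rw [mem_ball_zero_iff, hn]; exact hk'
    have h3 : k • u + u ∈ ball (0 : E) η := by
      rw [← succ_nsmul, mem_ball_zero_iff, hn]; push_cast; linarith
    rw [succ_nsmul, succ_nsmul, hadd _ h2 _ h1 h3, ih hk']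

/-- A sum of values near a point stays in a neighbourhood of the sum. -/
theorem eventually_add_mem {X Y : Type*} [TopologicalSpace X] [TopologicalSpace Y] [Add Y]
    [ContinuousAdd Y] {f : X → Y} {e : X} (hf : ContinuousAt f e) {T : Set Y}
    (hT : T ∈ 𝓝 (f e + f e)) : ∀ᶠ p : X × X in 𝓝 (e, e), f p.1 + f p.2 ∈ T := by
  have h : Tendsto (fun p : X × X => f p.1 + f p.2) (𝓝 e ×ˢ 𝓝 e) (𝓝 (f e + f e)) :=
    (hf.tendsto.comp tendsto_fst).add (hf.tendsto.comp tendsto_snd)
  rw [nhds_prod_eq]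
  exact h.eventually hT

/-- A locally additive map extends to a homomorphism. -/
theorem exists_hom_extension (hη : 0 < η) (h0 : σ 0 = 0)
    (hadd : ∀ v ∈ ball (0 : E) η, ∀ w ∈ ball (0 : E) η, v + w ∈ ball (0 : E) η →
      σ (v + w) = σ v + σ w) :
    ∃ Φ : E →+ G, ∀ v ∈ ball (0 : E) η, Φ v = σ v := by
  -- extend by `n σ (v / n)` for large `n`
  let T : E → ℕ → G := fun v n => n • σ ((n : ℂ)⁻¹ • v)
  have hnorm : ∀ (v : E) (n : ℕ), ‖(n : ℂ)⁻¹ • v‖ = ‖v‖ / n := fun v n => by
    rw [norm_smul, norm_inv, Complex.norm_natCast]; ring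
  -- `n • σ (v / n)` does not depend on `n` once `v / n` lies in the ball.
  have hmul : ∀ (v : E) (n m : ℕ), 0 < n → 0 < m → ‖v‖ < η * n → T v (n * m) = T v n := by
    intro v n m hn hm hv
    have hk : ((m : ℝ)) * ‖((n * m : ℕ) : ℂ)⁻¹ • v‖ < η := by
      rw [hnorm]
      have hn' : (0 : ℝ) < n := by exact_mod_cast hn
      push_cast
      rw [show (m : ℝ) * (‖v‖ / (n * m)) = ‖v‖ / n by field_simp, div_lt_iff₀ hn']
      exact hv
    have h := local_nsmul hη h0 hadd _ m hk
    have e : m • (((n * m : ℕ) : ℂ)⁻¹ • v) = (n : ℂ)⁻¹ • v := by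
      rw [← Nat.cast_smul_eq_nsmul ℂ, smul_smul]
      congr 1
      have hm' : (m : ℂ) ≠ 0 := by exact_mod_cast hm.ne'
      push_cast
      field_simp
    rw [e] at h
    change (n * m) • σ _ = n • σ _
    rw [h, mul_smul]
  let N : E → ℕ := fun v => ⌈‖v‖ / η⌉₊ + 1
  have hN : ∀ v, ‖v‖ < η * N v := fun v => by
    have := Nat.le_ceil (‖v‖ / η)
    rw [div_le_iff₀ hη] at this
    simp only [N]; push_cast; nlinarith
  have hNpos : ∀ v, 0 < N v := fun v => Nat.succ_pos _
  have hind : ∀ (v : E) (n : ℕ), 0 < n → ‖v‖ < η * n → T v n = T v (N v) := fun v n hn hv => by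
    rw [← hmul v n (N v) hn (hNpos v) hv, ← hmul v (N v) n (hNpos v) hn (hN v), mul_comm]
  -- This common value is additive and agrees with `σ` on the ball.
  refine ⟨AddMonoidHom.mk' (fun v => T v (N v)) fun v w => ?_, fun v hv => ?_⟩
  · set n := N v + N w + N (v + w) with hn
    have hpos : 0 < n := by have := hNpos v; omega
    have hb : ∀ x, N x ≤ n → ‖x‖ < η * n := fun x hx => (hN x).trans_le
      (mul_le_mul_of_nonneg_left (by exact_mod_cast hx) hη.le)
    have hvb := hb v (by omega)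
    have hwb := hb w (by omega)
    have hvwb := hb (v + w) (by omega)
    rw [← hind v n hpos hvb, ← hind w n hpos hwb, ← hind (v + w) n hpos hvwb]
    have hball : ∀ x, ‖x‖ < η * n → (n : ℂ)⁻¹ • x ∈ ball (0 : E) η := fun x hx => by
      rw [mem_ball_zero_iff, hnorm, div_lt_iff₀ (by exact_mod_cast hpos)]; exact hx
    change n • σ _ = n • σ _ + n • σ _
    rw [smul_add, hadd _ (hball v hvb) _ (hball w hwb) (by rw [← smul_add]; exact hball _ hvwb),
      nsmul_add]
  · change T v (N v) = σ v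
    rw [← hind v 1 one_pos (by rw [mem_ball_zero_iff] at hv; simpa using hv)]
    simp [T]

end Globalise

variable {F : Type*} [Field F] [Algebra ℂ F] [IsFunctionField ℂ F]

/-- Open sets of parameters have open images in `Pic⁰`. -/
theorem isOpen_image_abel_tuple (D : LogData F) {W : Set (Fin (genusFF ℂ F) → Place ℂ F)}
    (hWell : ∀ A ∈ W, ell (pts A) ≤ 1) {S : Set (Fin (genusFF ℂ F) → ℂ)} (hS : IsOpen S)
    (hSO : S ⊆ univ.pi fun _ => ball (0 : ℂ) D.r) (hSW : ∀ z ∈ S, D.tuple z ∈ W) :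
    IsOpen (abel '' (D.tuple '' S)) := by
  refine LogData.isOpen_image_abel (F := F) (W := W) hWell ?_ ?_
  · have heq : D.tuple '' S = D.box ∩ (fun A j => (D.ch j).coord (A j)) ⁻¹' S := by
      ext A
      constructor
      · rintro ⟨z, hz, rfl⟩
        have hzp := hSO hz
        refine ⟨fun j => ⟨z j, hzp j trivial, rfl⟩, ?_⟩
        have : (fun j => (D.ch j).coord (D.tuple z j)) = z :=
          funext fun j => Chart.coord_param (D.ball_subset j (hzp j trivial))
        rw [mem_preimage, this]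
        exact hz
      · rintro ⟨hA, hS'⟩
        refine ⟨_, hS', funext fun j => ?_⟩
        obtain ⟨z, hz, hzA⟩ := hA j
        exact Chart.param_coord ⟨z, D.ball_subset j hz, hzA⟩
    rw [heq]
    refine ContinuousOn.isOpen_inter_preimage (continuousOn_pi.2 fun j => ?_) D.isOpen_box hS
    refine (Chart.continuousOn_coord (ch := D.ch j)).comp (continuous_apply j).continuousOn ?_
    intro A hA
    obtain ⟨z, hz, hzA⟩ := hA j
    exact ⟨z, D.ball_subset j hz, hzA⟩
  · rintro _ ⟨z, hz, rfl⟩; exact hSW z hz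
/-- `Pic⁰` is locally the additive group of `ℂ^g`. -/
theorem exists_local_iso (D : LogData F) :
    ∃ (η : ℝ) (σ : (Fin (genusFF ℂ F) → ℂ) → Pic0 ℂ F), 0 < η ∧ σ 0 = 0 ∧
      (∀ᶠ z in 𝓝 (0 : Fin (genusFF ℂ F) → ℂ), D.logCoord z ∈ ball 0 η ∧
        σ (D.logCoord z) = abel (D.tuple z) - abel D.e) ∧
      InjOn σ (ball 0 η) ∧ (∀ S : Set (Fin (genusFF ℂ F) → ℂ), IsOpen S → S ⊆ ball 0 η →
        IsOpen (σ '' S)) ∧
      ∀ v ∈ ball (0 : Fin (genusFF ℂ F) → ℂ) η, ∀ w ∈ ball (0 : Fin (genusFF ℂ F) → ℂ) η,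
        v + w ∈ ball (0 : Fin (genusFF ℂ F) → ℂ) η → σ (v + w) = σ v + σ w := by
  obtain ⟨W, hWo, hWe, hWbox, hWell⟩ := D.exists_nbhd_ell_le
  obtain ⟨U, hUo, hUe, -, hadd⟩ := D.exists_additive
  let h := D.hasStrictFDerivAt_logCoord.toOpenPartialHomeomorph D.logCoord
  have hh0 : (0 : Fin (genusFF ℂ F) → ℂ) ∈ h.source :=
    D.hasStrictFDerivAt_logCoord.mem_toOpenPartialHomeomorph_source
  set poly : Set (Fin (genusFF ℂ F) → ℂ) := univ.pi fun _ => ball (0 : ℂ) D.r
  have hpoly : IsOpen poly := isOpen_set_pi finite_univ fun _ _ => isOpen_ball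
  have hpoly0 : (0 : Fin (genusFF ℂ F) → ℂ) ∈ poly := fun _ _ => mem_ball_self D.r_pos
  have htc : ContinuousOn D.tuple poly := continuousOn_pi.2 fun j =>
    ((Chart.continuousOn_param (ch := D.ch j)).mono (D.ball_subset j)).comp
      (continuous_apply j).continuousOn fun z hz => hz j trivial
  set O := h.source ∩ (poly ∩ D.tuple ⁻¹' (W ∩ U))
  have hOo : IsOpen O := h.open_source.inter (htc.isOpen_inter_preimage hpoly (hWo.inter hUo))
  have hO0 : (0 : Fin (genusFF ℂ F) → ℂ) ∈ O :=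
    ⟨hh0, hpoly0, by rw [mem_preimage, D.tuple_zero]; exact ⟨hWe, hUe⟩⟩
  have hlog0 : D.logCoord 0 = 0 := funext fun i => by simp [LogData.logCoord, D.prim_zero]
  have hVo : IsOpen (h '' O) := h.isOpen_image_of_subset_source hOo inter_subset_left
  have hV0 : (0 : Fin (genusFF ℂ F) → ℂ) ∈ h '' O := ⟨0, hO0, hlog0⟩
  obtain ⟨η, hη, hball⟩ := Metric.isOpen_iff.1 hVo 0 hV0
  have hsymm : ∀ v ∈ ball (0 : Fin (genusFF ℂ F) → ℂ) η, h.symm v ∈ O ∧ h (h.symm v) = v := by
    intro v hv
    obtain ⟨z, hz, rfl⟩ := hball hv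
    rw [h.left_inv hz.1]
    exact ⟨hz, rfl⟩
  -- open sets of parameters give open sets of tuples
  have himage : ∀ S : Set (Fin (genusFF ℂ F) → ℂ), IsOpen S → S ⊆ O →
      IsOpen (abel '' (D.tuple '' S)) := fun S hS hSO =>
    isOpen_image_abel_tuple D hWell hS (fun z hz => (hSO hz).2.1) fun z hz => (hSO hz).2.2.1
  set σ := fun v => abel (D.tuple (h.symm v)) - abel D.e with hσ
  have hσ0 : σ 0 = 0 := by
    have : h.symm 0 = 0 := by
      conv_lhs => rw [← hlog0]
      exact h.left_inv hh0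
    simp [hσ, this, D.tuple_zero]
  have hlog : ∀ z ∈ O, D.logDiv (pts (D.tuple z)) = h z := fun z hz =>
    D.logDiv_tuple fun j => hz.2.1 j trivial
  have hinj : InjOn σ (ball 0 η) := by
    intro v hv w hw heq
    have := D.injOn_abel hWbox hWell (hsymm v hv).1.2.2.1 (hsymm w hw).1.2.2.1 (sub_left_inj.1 heq)
    have h2 := congrArg (fun A => D.logDiv (pts A)) this
    simp only [hlog _ (hsymm v hv).1, hlog _ (hsymm w hw).1, (hsymm v hv).2, (hsymm w hw).2] at h2
    exact h2
  have hopen : ∀ S : Set (Fin (genusFF ℂ F) → ℂ), IsOpen S → S ⊆ ball 0 η →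
      IsOpen (σ '' S) := by
    intro S hS hSb
    have hT : IsOpen (h.symm '' S) := h.symm.isOpen_image_of_subset_source hS fun v hv => by
      obtain ⟨z, hz, rfl⟩ := hball (hSb hv)
      exact h.map_source hz.1
    have := himage _ hT (by rintro _ ⟨v, hv, rfl⟩; exact (hsymm v (hSb hv)).1)
    rw [show σ '' S = (fun x => x - abel D.e) '' (abel '' (D.tuple '' (h.symm '' S))) by
      simp only [image_image]; rfl]
    exact (Homeomorph.subRight (abel D.e)).isOpenMap _ this
  -- pairs whose sum is again near zero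
  have hc : ContinuousAt h.symm 0 :=
    h.symm.continuousAt (by
      change (0 : Fin (genusFF ℂ F) → ℂ) ∈ h.target
      exact hlog0 ▸ h.map_source hh0)
  have hs0 : h.symm (0 : Fin (genusFF ℂ F) → ℂ) = 0 := by
    conv_lhs => rw [← hlog0]
    exact h.left_inv hh0
  have hct : ContinuousAt D.tuple (h.symm 0) := by
    rw [hs0]; exact htc.continuousAt (hpoly.mem_nhds hpoly0)
  have hca : ContinuousAt (fun v => abel (D.tuple (h.symm v))) 0 :=
    ContinuousAt.comp' (g := abel (F := F)) continuous_abel.continuousAt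
      (ContinuousAt.comp' (g := D.tuple) hct hc)
  have hσc : ContinuousAt σ 0 := ContinuousAt.sub hca continuousAt_const
  have hmem : σ '' ball 0 η ∈ 𝓝 (σ 0 + σ 0) :=
    (hopen _ isOpen_ball subset_rfl).mem_nhds ⟨0, mem_ball_self hη, by rw [hσ0, add_zero]⟩
  have hnb := eventually_add_mem hσc hmem
  obtain ⟨δ, hδ, hδnb⟩ := Metric.eventually_nhds_iff_ball.1 hnb
  have hloc : ∀ᶠ z in 𝓝 (0 : Fin (genusFF ℂ F) → ℂ), D.logCoord z ∈ ball 0 (min η δ) ∧
      σ (D.logCoord z) = abel (D.tuple z) - abel D.e := by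
    have hcl : ContinuousAt D.logCoord 0 := D.hasStrictFDerivAt_logCoord.continuousAt
    rw [ContinuousAt, hlog0] at hcl
    filter_upwards [hcl.eventually (ball_mem_nhds _ (lt_min hη hδ)),
      h.open_source.mem_nhds hh0] with z hz hzs
    refine ⟨hz, ?_⟩
    change abel (D.tuple (h.symm (h z))) - _ = _
    rw [h.left_inv hzs]
  refine ⟨min η δ, σ, lt_min hη hδ, hσ0, hloc, hinj.mono (ball_subset_ball (min_le_left _ _)),
    fun S hS hsub => hopen S hS (hsub.trans (ball_subset_ball (min_le_left _ _))), ?_⟩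
  intro v hv w hw hvw
  have hv' := ball_subset_ball (min_le_left η δ) hv
  have hw' := ball_subset_ball (min_le_left η δ) hw
  obtain ⟨x, hx, hxeq⟩ := hδnb (v, w) (by
    rw [← ball_prod_same]
    exact ⟨ball_subset_ball (min_le_right _ _) hv, ball_subset_ball (min_le_right _ _) hw⟩)
  have h1 : abel (D.tuple (h.symm v)) + abel (D.tuple (h.symm w)) =
      abel (D.tuple (h.symm x)) + abel D.e := by
    simp only [hσ] at hxeq
    linear_combination (norm := abel) -hxeq
  have h2 := hadd _ (hsymm v hv').1.2.2.2 _ (hsymm w hw').1.2.2.2 _ (hsymm x hx).1.2.2.2 h1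
  rw [hlog _ (hsymm v hv').1, hlog _ (hsymm w hw').1, hlog _ (hsymm x hx).1, (hsymm v hv').2,
    (hsymm w hw').2, (hsymm x hx).2] at h2
  rw [h2, hxeq]

/-- The uniformisation of `Pic⁰`. -/
theorem exists_uniformisation_logData (D : LogData F) :
    ∃ Φ : (Fin (genusFF ℂ F) → ℂ) →+ Pic0 ℂ F,
      (∀ᶠ z in 𝓝 (0 : Fin (genusFF ℂ F) → ℂ), Φ (D.logCoord z) = abel (D.tuple z) - abel D.e) ∧
      Function.Surjective Φ ∧
      DiscreteTopology (AddSubgroup.toIntSubmodule Φ.ker) ∧
      Submodule.span ℝ (Φ.ker : Set (Fin (genusFF ℂ F) → ℂ)) = ⊤ := by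
  obtain ⟨η, σ, hη, h0, hloc, hinj, hopen, hadd⟩ := exists_local_iso D
  obtain ⟨Φ, hΦ⟩ := exists_hom_extension hη h0 hadd
  -- The extension of a local isomorphism is an open map.
  have hΦopen : IsOpenMap Φ := by
    intro S hS
    rw [isOpen_iff_forall_mem_open]
    rintro _ ⟨v, hv, rfl⟩
    obtain ⟨δ, hδ, hsub⟩ := Metric.isOpen_iff.1 hS v hv
    refine ⟨(fun x => Φ v + x) '' (σ '' ball 0 (min δ η)), ?_, ?_, ?_⟩
    · rintro _ ⟨_, ⟨w, hw, rfl⟩, rfl⟩
      refine ⟨v + w, hsub ?_, ?_⟩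
      · rw [mem_ball, dist_eq_norm, add_sub_cancel_left, ← mem_ball_zero_iff]
        exact ball_subset_ball (min_le_left _ _) hw
      · rw [map_add, hΦ w (ball_subset_ball (min_le_right _ _) hw)]
    · exact (Homeomorph.addLeft (Φ v)).isOpenMap _
        (hopen _ isOpen_ball (ball_subset_ball (min_le_right _ _)))
    · exact ⟨0, ⟨0, mem_ball_self (lt_min hδ hη), h0⟩, add_zero _⟩
  -- Its image is a clopen subgroup, hence everything as `Pic⁰` is connected.
  have hsurj : Function.Surjective Φ := by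
    have hclopen : IsClopen (Φ.range : Set (Pic0 ℂ F)) := by
      have ho : IsOpen (Φ.range : Set (Pic0 ℂ F)) := by
        rw [AddMonoidHom.coe_range]; exact hΦopen.isOpen_range
      exact ⟨AddSubgroup.isClosed_of_isOpen _ ho, ho⟩
    rw [← AddMonoidHom.range_eq_top, ← SetLike.coe_set_eq, AddSubgroup.coe_top]
    exact hclopen.eq_univ ⟨0, zero_mem _⟩
  refine ⟨Φ, ?_, hsurj, ?_, ?_⟩
  · filter_upwards [hloc] with z hz
    rw [hΦ _ hz.1, hz.2]
  -- Local injectivity makes the kernel discrete.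
  · refine discreteTopology_of_isOpen_singleton_zero ?_
    rw [isOpen_induced_iff]
    refine ⟨ball 0 η, isOpen_ball, ?_⟩
    ext ⟨x, hx⟩
    constructor
    · intro hxb
      have hx0 : σ x = σ 0 := by rw [← hΦ x hxb, h0]; exact hx
      exact Subtype.ext (hinj hxb (mem_ball_self hη) hx0)
    · intro hx'
      simp only [mem_singleton_iff] at hx'
      rw [mem_preimage, hx']
      exact mem_ball_self hη
  -- By compactness a functional killing the kernel is bounded, hence zero: full span.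
  · obtain ⟨n, hn⟩ : ∃ n : ℕ, (univ : Set (Pic0 ℂ F)) ⊆ Φ '' ball 0 n := by
      refine isCompact_univ.elim_directed_cover _ (fun n : ℕ => hΦopen _ isOpen_ball) ?_ ?_
      · intro x _
        obtain ⟨v, rfl⟩ := hsurj x
        obtain ⟨n, hn⟩ := exists_nat_gt ‖v‖
        exact mem_iUnion.2 ⟨n, v, by rwa [mem_ball_zero_iff], rfl⟩
      · exact Monotone.directed_le fun a b hab =>
          image_mono (ball_subset_ball (by exact_mod_cast hab))
    by_contra hne
    obtain ⟨φ, hφ, hker⟩ := Submodule.exists_le_ker_of_lt_top _ (lt_top_iff_ne_top.2 hne)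
    apply hφ
    set φc := φ.toContinuousLinearMap
    have hbound : ∀ x, ‖φ x‖ ≤ ‖φc‖ * n := fun x => by
      obtain ⟨b, hb, hbx⟩ := hn (mem_univ (Φ x))
      have hmem : x - b ∈ (Φ.ker : Set (Fin (genusFF ℂ F) → ℂ)) := by
        rw [SetLike.mem_coe, AddMonoidHom.mem_ker, map_sub, hbx, sub_self]
      have := hker (Submodule.subset_span hmem)
      rw [LinearMap.mem_ker, map_sub, sub_eq_zero] at this
      rw [this]
      refine (φc.le_opNorm b).trans (mul_le_mul_of_nonneg_left ?_ (norm_nonneg _))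
      exact (mem_ball_zero_iff.1 hb).le
    refine LinearMap.ext fun x => ?_
    by_contra hx
    have hpos : 0 < ‖φ x‖ := norm_pos_iff.2 hx
    obtain ⟨k, hk⟩ := exists_nat_gt (‖φc‖ * n / ‖φ x‖)
    have := hbound (k • x)
    rw [map_nsmul, RCLike.norm_nsmul ℝ, nsmul_eq_mul] at this
    rw [div_lt_iff₀ hpos] at hk
    linarith

/-- The uniformisation of `Pic⁰`, coordinates forgotten. -/
theorem exists_uniformisation :
    ∃ Φ : (Fin (genusFF ℂ F) → ℂ) →+ Pic0 ℂ F, Function.Surjective Φ ∧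
      DiscreteTopology (AddSubgroup.toIntSubmodule Φ.ker) ∧
      Submodule.span ℝ (Φ.ker : Set (Fin (genusFF ℂ F) → ℂ)) = ⊤ :=
  let ⟨Φ, _, h⟩ := exists_uniformisation_logData (Classical.choice (nonempty_logData (F := F)))
  ⟨Φ, h⟩

/-- The `n`-torsion of `Pic⁰` of a complex function field has `n^(2g)` elements. -/
theorem natCard_torsion_complex (n : ℕ) (hn : n ≠ 0) :
    Nat.card (Pic0.torsion ℂ F n) = n ^ (2 * genusFF ℂ F) := by
  obtain ⟨Φ, hsurj, hdisc, hspan⟩ := exists_uniformisation (F := F)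
  set L := AddSubgroup.toIntSubmodule Φ.ker
  have := hdisc
  have : IsZLattice ℝ L := ⟨hspan⟩
  have hrank : Module.finrank ℤ L = 2 * genusFF ℂ F := by
    rw [ZLattice.rank ℝ L, Module.finrank_pi_fintype]
    simp [Complex.finrank_real_complex, mul_comm]
  have : Module.Finite ℤ L := ZLattice.module_finite ℝ L
  let b : Module.Basis (Fin (2 * genusFF ℂ F)) ℤ L := Module.finBasisOfFinrankEq ℤ L hrank
  have hn' : (n : ℂ) ≠ 0 := by exact_mod_cast hn
  have hmem : ∀ x : Pic0 ℂ F, x ∈ Pic0.torsion ℂ F n ↔ n • x = 0 := fun x => by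
    rw [Pic0.mem_torsion, natCast_zsmul]
  have hkey : ∀ v : Fin (genusFF ℂ F) → ℂ, n • ((n : ℂ)⁻¹ • v) = v := fun v => by
    rw [← Nat.cast_smul_eq_nsmul ℂ, smul_smul, mul_inv_cancel₀ hn', one_smul]
  -- `l ↦ Φ (l / n)` maps the lattice onto the torsion, `π` reduces coordinates modulo `n`.
  let ψ : L →+ Pic0.torsion ℂ F n :=
    AddMonoidHom.mk' (fun l => ⟨Φ ((n : ℂ)⁻¹ • (l : Fin (genusFF ℂ F) → ℂ)), by
      rw [hmem, ← map_nsmul, hkey]; exact l.2⟩)
      fun l m => Subtype.ext (by simp [smul_add])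
  have hψsurj : Function.Surjective ψ := by
    rintro ⟨x, hx⟩
    obtain ⟨v, rfl⟩ := hsurj x
    rw [hmem, ← map_nsmul] at hx
    refine ⟨⟨n • v, hx⟩, Subtype.ext ?_⟩
    change Φ ((n : ℂ)⁻¹ • n • v) = Φ v
    rw [← Nat.cast_smul_eq_nsmul ℂ, smul_smul, inv_mul_cancel₀ hn', one_smul]
  let π : L →+ (Fin (2 * genusFF ℂ F) → ZMod n) :=
    AddMonoidHom.mk' (fun l i => (b.equivFun l i : ZMod n)) fun l m => by ext i; simp
  have hπsurj : Function.Surjective π := fun a => by
    choose c hc using fun i => ZMod.intCast_surjective (a i)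
    refine ⟨b.equivFun.symm c, funext fun i => ?_⟩
    change ((b.equivFun (b.equivFun.symm c) i : ℤ) : ZMod n) = a i
    rw [LinearEquiv.apply_symm_apply]
    exact hc i
  -- Both have kernel `n L`.
  have hker : ψ.ker = π.ker := by
    ext l
    rw [AddMonoidHom.mem_ker, AddMonoidHom.mem_ker]
    constructor
    · intro h
      have h' : (n : ℂ)⁻¹ • (l : Fin (genusFF ℂ F) → ℂ) ∈ Φ.ker := congrArg Subtype.val h
      set m : L := ⟨_, h'⟩
      have hl : l = n • m := Subtype.ext (by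
        rw [Submodule.coe_smul_of_tower]; exact (hkey _).symm)
      funext i
      change ((b.equivFun l i : ℤ) : ZMod n) = 0
      rw [hl, map_nsmul, Pi.smul_apply, nsmul_eq_mul, Int.cast_mul, Int.cast_natCast,
        ZMod.natCast_self, zero_mul]
    · intro h
      have hc : ∀ i, ∃ c : ℤ, b.equivFun l i = (n : ℤ) * c := fun i =>
        (ZMod.intCast_zmod_eq_zero_iff_dvd _ n).1 (congrFun h i)
      choose c hc using hc
      have hl : l = n • b.equivFun.symm c := by
        apply b.equivFun.injective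
        rw [map_nsmul, LinearEquiv.apply_symm_apply]
        funext i
        rw [hc, Pi.smul_apply, nsmul_eq_mul]
      apply Subtype.ext
      change Φ ((n : ℂ)⁻¹ • (l : Fin (genusFF ℂ F) → ℂ)) = 0
      rw [hl, Submodule.coe_smul_of_tower, ← Nat.cast_smul_eq_nsmul ℂ, smul_smul,
        inv_mul_cancel₀ hn', one_smul]
      exact (b.equivFun.symm c).2
  have : NeZero n := ⟨hn⟩
  have e1 := QuotientAddGroup.quotientKerEquivOfSurjective ψ hψsurj
  have e2 := QuotientAddGroup.quotientKerEquivOfSurjective π hπsurj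
  rw [← Nat.card_congr e1.toEquiv, hker, Nat.card_congr e2.toEquiv, Nat.card_fun,
    Nat.card_fin, Nat.card_zmod]

end Fermat.JAC
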