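import Fermat.Agent.JAC.ConstExtPic
import Fermat.Agent.JAC.Torus
import Mathlib.RingTheory.TensorProduct.Free
import Mathlib.RingTheory.Jacobson.Ring
import Mathlib.RingTheory.Algebraic.Cardinality
import Mathlib.RingTheory.Localization.FractionRing

/-!
# Construction of extensions of the constant field; torsion over subfields of `ℂ`

The field is a function field (`isFunctionField`), and `natCard_torsion_of_ringHom` counts
torsion.
-/

set_option autoImplicit false

noncomputable section

open AlgebraicCurve TensorProduct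

namespace Fermat.JAC

open Fermat.FF

section Domain

variable {k K : Type*} [Field k] [Field K] [Algebra k K] [IsAlgClosed k]

/-- Finitely many elements of an extension can be specialised to an algebraically closed field. -/
theorem exists_specialisation (S : Finset K) :
    Nonempty (Algebra.adjoin k (S : Set K) →ₐ[k] k) := by
  set A := Algebra.adjoin k (S : Set K)
  have : Algebra.FiniteType k A :=
    (Subalgebra.fg_iff_finiteType A).mp (Subalgebra.fg_adjoin_finset S)
  obtain ⟨m, hm⟩ := Ideal.exists_maximal A
  let : Field (A ⧸ m) := Ideal.Quotient.field m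
  have : Algebra.FiniteType k (A ⧸ m) :=
    Algebra.FiniteType.of_surjective (Ideal.Quotient.mkₐ k m)
      (Ideal.Quotient.mkₐ_surjective k m)
  have := finite_of_finite_type_of_isJacobsonRing k (A ⧸ m)
  let e : k ≃ₐ[k] A ⧸ m := AlgEquiv.ofBijective (Algebra.ofId k (A ⧸ m))
    IsAlgClosed.algebraMap_bijective_of_isIntegral
  exact ⟨e.symm.toAlgHom.comp (Ideal.Quotient.mkₐ k m)⟩

/-- Extensions of an algebraically closed field are geometrically integral. -/
theorem noZeroDivisors_tensor (E : Type*) [Field E] [Algebra k E] :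
    NoZeroDivisors (K ⊗[k] E) := by
  classical
  refine ⟨fun {z w} h => ?_⟩
  let b := Module.Basis.ofVectorSpace k E
  let B := Algebra.TensorProduct.basis K b
  obtain ⟨p, rfl⟩ := TensorProduct.eq_repr_basis_right (M := K) b z
  obtain ⟨q, rfl⟩ := TensorProduct.eq_repr_basis_right (M := K) b w
  -- Two nonzero tensors with product zero; specialise their coefficients in `K` to `k`.
  by_contra hne
  push Not at hne
  obtain ⟨i₀, hi₀⟩ : ∃ i, p i ≠ 0 := by
    by_contra h; push Not at h; exact hne.1 (Finset.sum_eq_zero fun i _ => by simp [h i])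
  obtain ⟨j₀, hj₀⟩ : ∃ j, q j ≠ 0 := by
    by_contra h; push Not at h; exact hne.2 (Finset.sum_eq_zero fun i _ => by simp [h i])
  let S : Finset K := p.support.image p ∪ q.support.image q ∪ {(p i₀)⁻¹, (q j₀)⁻¹}
  obtain ⟨φ⟩ := exists_specialisation (k := k) S
  let A := Algebra.adjoin k (S : Set K)
  have hp : ∀ i ∈ p.support, p i ∈ A := fun i hi => Algebra.subset_adjoin (by
    simp only [S, Finset.coe_union, Finset.coe_image]; exact .inl (.inl ⟨i, hi, rfl⟩))
  have hq : ∀ i ∈ q.support, q i ∈ A := fun i hi => Algebra.subset_adjoin (by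
    simp only [S, Finset.coe_union, Finset.coe_image]; exact .inl (.inr ⟨i, hi, rfl⟩))
  let p' : _ → k := fun i => if hi : i ∈ p.support then φ ⟨p i, hp i hi⟩ else 0
  let q' : _ → k := fun i => if hi : i ∈ q.support then φ ⟨q i, hq i hi⟩ else 0
  -- A chosen nonzero coefficient of each factor stays nonzero.
  have hunit : ∀ (a : K) (ha : a ∈ A) (_ : a⁻¹ ∈ A), a ≠ 0 → φ ⟨a, ha⟩ ≠ 0 := by
    intro a ha ha' ha0 h0
    have : (⟨a, ha⟩ : A) * ⟨a⁻¹, ha'⟩ = 1 := Subtype.ext (mul_inv_cancel₀ ha0)
    have := congrArg φ this
    rw [map_mul, h0, zero_mul, map_one] at this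
    exact zero_ne_one this
  -- The specialised elements of `E` multiply to zero, which is impossible in a field.
  have hprod : (∑ i ∈ p.support, p' i • b i) * (∑ j ∈ q.support, q' j • b j) = 0 := by
    rw [Finset.sum_mul_sum]
    refine b.ext_elem fun l => ?_
    rw [map_zero, Finsupp.zero_apply]
    have hK : ∑ i ∈ p.support, ∑ j ∈ q.support,
        p i * q j * algebraMap k K (b.repr (b i * b j) l) = 0 := by
      have := congrArg (fun x => B.repr x l) h
      simp only [Finsupp.sum, Finset.sum_mul_sum, Algebra.TensorProduct.tmul_mul_tmul,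
        map_sum, Finsupp.coe_finsetSum, Finset.sum_apply, B,
        Algebra.TensorProduct.basis_repr_tmul, map_zero, Finsupp.zero_apply] at this
      simpa [Algebra.smul_def, mul_comm, mul_left_comm] using this
    let zA : A := ∑ i ∈ p.support.attach, ∑ j ∈ q.support.attach,
      ⟨p i, hp i i.2⟩ * ⟨q j, hq j j.2⟩ * algebraMap k A (b.repr (b i * b j) l)
    have hz : zA = 0 := Subtype.ext (by
      simp only [zA, AddSubmonoidClass.coe_finsetSum, MulMemClass.coe_mul, ZeroMemClass.coe_zero,
        Subalgebra.coe_algebraMap]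
      rw [Finset.sum_attach p.support (fun i => ∑ j ∈ q.support.attach,
        p i * q j * algebraMap k K (b.repr (b i * b (j : _)) l))]
      refine Eq.trans (Finset.sum_congr rfl fun i _ => ?_) hK
      exact Finset.sum_attach q.support (fun j => p i * q j * algebraMap k K
        (b.repr (b i * b j) l)))
    have := congrArg φ hz
    simp only [zA, map_sum, map_mul, map_zero] at this
    simp only [smul_mul_assoc, mul_smul_comm, smul_smul, map_sum, map_smul, Finsupp.coe_finsetSum,
      Finset.sum_apply, Finsupp.smul_apply, smul_eq_mul]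
    rw [← Finset.sum_attach p.support]
    refine Eq.trans (Finset.sum_congr rfl fun i _ => ?_) this
    rw [← Finset.sum_attach q.support]
    refine Finset.sum_congr rfl fun j _ => ?_
    simp only [p', q', dif_pos i.2, dif_pos j.2]
    rw [show ∀ c : k, φ (algebraMap k A c) = c from fun c => φ.commutes c]
    ring
  have hS : (p i₀)⁻¹ ∈ A ∧ (q j₀)⁻¹ ∈ A :=
    ⟨Algebra.subset_adjoin (by simp [S]), Algebra.subset_adjoin (by simp [S])⟩
  -- so one specialised factor is zero, against the choice of the specialisation
  rcases mul_eq_zero.mp hprod with h0 | h0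
  · have := linearIndependent_iff'.mp b.linearIndependent _ _ h0 i₀
      (Finsupp.mem_support_iff.mpr hi₀)
    simp only [p', dif_pos (Finsupp.mem_support_iff.mpr hi₀)] at this
    exact hunit _ _ hS.1 hi₀ this
  · have := linearIndependent_iff'.mp b.linearIndependent _ _ h0 j₀
      (Finsupp.mem_support_iff.mpr hj₀)
    simp only [q', dif_pos (Finsupp.mem_support_iff.mpr hj₀)] at this
    exact hunit _ _ hS.2 hj₀ this

/-- The tensor product of field extensions of an algebraically closed field is a domain. -/
theorem isDomain_tensor (E : Type*) [Field E] [Algebra k E] : IsDomain (K ⊗[k] E) := by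
  have := noZeroDivisors_tensor (k := k) (K := K) E
  exact NoZeroDivisors.to_isDomain _

end Domain

namespace ConstExt

/-- The extended field is a function field. -/
theorem isFunctionField {k K F₀ F : Type*} [Field k] [Field K] [Field F₀] [Field F] [Algebra k K]
    [Algebra k F₀] [Algebra K F] [Algebra F₀ F] [IsConstExt k K F₀ F]
    [IsFunctionField k F₀] [PerfectField K] : IsFunctionField K F := by
  obtain ⟨x, hx, hfin, -⟩ := IsFunctionField.exists_separating (K := k) (F := F₀)
  exact isFunctionField_of_finite (transcendental k K F hx)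
    (finiteDimensional_and_finrank_le (k := k) x).1

end ConstExt

/-- A countable field of characteristic zero embeds into `ℂ`. -/
theorem nonempty_ringHom_complex (k : Type*) [Field k] [CharZero k] [Countable k] :
    Nonempty (k →+* ℂ) := by
  obtain ⟨s, hs⟩ := exists_isTranscendenceBasis ℚ k
  obtain ⟨t, ht⟩ := exists_isTranscendenceBasis ℚ ℂ
  have hCu : Cardinal.aleph0 < Cardinal.mk ℂ :=
    Cardinal.aleph0_lt_continuum.trans_eq Cardinal.mk_complex.symm
  have hC : Cardinal.mk ℂ = Cardinal.mk t :=
    IsAlgClosed.cardinal_eq_cardinal_transcendence_basis_of_aleph0_lt' _ ht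
      Cardinal.mk_le_aleph0 hCu
  obtain ⟨ι⟩ : Nonempty (s ↪ t) := by
    refine Cardinal.lift_mk_le'.mp ?_
    calc Cardinal.lift (Cardinal.mk s) ≤ Cardinal.aleph0 :=
          Cardinal.lift_le_aleph0.mpr Cardinal.mk_le_aleph0
      _ ≤ _ := Cardinal.aleph0_le_lift.mpr (hC ▸ hCu.le)
  let A := Algebra.adjoin ℚ (Set.range ((↑) : s → k))
  let w : s → ℂ := fun i => (ι i : ℂ)
  have hw : AlgebraicIndependent ℚ w := ht.1.comp ι ι.injective
  let f : A →ₐ[ℚ] ℂ := (MvPolynomial.aeval w).comp hs.1.aevalEquiv.symm.toAlgHom
  have hf : Function.Injective f := fun a b h => hs.1.aevalEquiv.symm.injective (hw h)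
  let : Algebra A ℂ := f.toRingHom.toAlgebra
  have : FaithfulSMul A ℂ := (faithfulSMul_iff_algebraMap_injective A ℂ).mpr hf
  have : Algebra.IsAlgebraic A k := hs.isAlgebraic
  exact ⟨(IsAlgClosed.lift : k →ₐ[A] ℂ).toRingHom⟩

/-- A field of fractions of `K ⊗[k] F₀` is an extension of the constants of `F₀` to `K`. -/
theorem isConstExt_of_isFractionRing (k K F₀ F : Type*) [Field k] [Field K] [Field F₀] [Field F]
    [Algebra k K] [Algebra k F₀] [Algebra K F] [Algebra F₀ F] [Algebra (K ⊗[k] F₀) F]
    [IsFractionRing (K ⊗[k] F₀) F] [IsScalarTower K (K ⊗[k] F₀) F]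
    (hF : ∀ f, algebraMap F₀ F f = algebraMap (K ⊗[k] F₀) F (1 ⊗ₜ f)) : IsConstExt k K F₀ F := by
  have hinj : Function.Injective (algebraMap (K ⊗[k] F₀) F) := IsFractionRing.injective _ _
  have hC : ∀ c : K, algebraMap K F c = algebraMap (K ⊗[k] F₀) F (c ⊗ₜ 1) := fun c =>
    IsScalarTower.algebraMap_apply K (K ⊗[k] F₀) F c
  -- constants agree, linearly independent constants stay independent over `F₀`, and `F₀` generates
  refine ⟨fun c => ?_, fun m c f hc h => ?_, ?_⟩
  · rw [hC, hF, Algebra.algebraMap_eq_smul_one (A := F₀), tmul_smul,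
      Algebra.algebraMap_eq_smul_one (A := K), smul_tmul']
  · have h0 : ∑ i, c i ⊗ₜ[k] f i = 0 := hinj (by
      rw [map_sum, map_zero, ← h]
      refine Finset.sum_congr rfl fun i _ => ?_
      rw [hC, hF, ← map_mul, Algebra.TensorProduct.tmul_mul_tmul, mul_one, one_mul])
    intro j
    -- apply a coordinate functional to a relation in the tensor product
    obtain ⟨g, hg⟩ := LinearMap.exists_extend
      ((Finsupp.lapply j : (Fin m →₀ k) →ₗ[k] k).comp hc.repr)
    have hgc : ∀ i, g (c i) = if i = j then 1 else 0 := fun i => by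
      have := DFunLike.congr_fun hg ⟨c i, Submodule.subset_span ⟨i, rfl⟩⟩
      simp only [LinearMap.comp_apply, Submodule.subtype_apply, Finsupp.lapply_apply] at this
      rw [this, hc.repr_eq_single i _ rfl, Finsupp.single_apply]
    have := congrArg ((TensorProduct.lid k F₀).toLinearMap.comp (LinearMap.rTensor F₀ g)) h0
    simpa [hgc] using this
  · rw [eq_top_iff]
    intro z _
    obtain ⟨a, s, -, rfl⟩ := IsFractionRing.div_surjective (A := K ⊗[k] F₀) z
    -- the tensor product lands in the field generated by `F₀`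
    have h : ∀ y : K ⊗[k] F₀, algebraMap _ F y ∈
        IntermediateField.adjoin K (Set.range (algebraMap F₀ F)) := fun y => by
      induction y using TensorProduct.induction_on with
      | zero => rw [map_zero]; exact zero_mem _
      | tmul c f =>
        have : c ⊗ₜ[k] f = (c ⊗ₜ 1) * (1 ⊗ₜ f) := by simp
        rw [this, map_mul, ← hC, ← hF]
        exact mul_mem (IntermediateField.algebraMap_mem _ _)
          (IntermediateField.subset_adjoin _ _ ⟨f, rfl⟩)
      | add a b ha hb => rw [map_add]; exact add_mem ha hb
    exact div_mem (h a) (h s)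

/-- `n`-torsion count over an algebraically closed field that embeds into `ℂ`. -/
theorem natCard_torsion_of_ringHom {k F₀ : Type*} [Field k] [IsAlgClosed k] [CharZero k] [Field F₀]
    [Algebra k F₀] [IsFunctionField k F₀] (e : k →+* ℂ) (n : ℕ) (hn : n ≠ 0) :
    Nat.card (Pic0.torsion k F₀ n) = n ^ (2 * genusFF k F₀) := by
  let : Algebra k ℂ := e.toAlgebra
  have := isDomain_tensor (k := k) (K := ℂ) F₀
  let F := FractionRing (ℂ ⊗[k] F₀)
  let : Algebra F₀ F := ((algebraMap (ℂ ⊗[k] F₀) F).comp
    Algebra.TensorProduct.includeRight.toRingHom).toAlgebra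
  -- the fraction field is an extension of constants
  have : IsConstExt k ℂ F₀ F := isConstExt_of_isFractionRing k ℂ F₀ F fun _ => rfl
  -- torsion counts do not change under it
  have : IsFunctionField ℂ F := ConstExt.isFunctionField (k := k) (F₀ := F₀)
  have : Finite (Pic0.torsion ℂ F n) :=
    Nat.finite_of_card_ne_zero (by rw [natCard_torsion_complex n hn]; positivity)
  rw [ConstExt.natCard_torsion_eq (K := ℂ) (F := F), natCard_torsion_complex n hn,
    ConstExt.genusFF_eq k ℂ F₀ F]

end Fermat.JAC

end
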