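import Fermat.Agent.JAC.EvalDiv

/-!
# Pullback and pushforward commute with semilinear automorphisms

The main results are `pullPic_smul` and `pushPic_smul`.
-/

set_option autoImplicit false

noncomputable section

open AlgebraicCurve

namespace Fermat.JAC

open Fermat.FF

variable {K F F' : Type*} [Field K] [Field F] [Field F'] [Algebra K F] [Algebra K F']
  [IsAlgClosed K] [IsFunctionField K F] [IsFunctionField K F']

omit [IsAlgClosed K] [IsFunctionField K F] in
/-- A place is determined by its orders up to a positive factor. -/
theorem place_eq_of_ord_mul {u v : Place K F} {a b : ℤ} (ha : 0 < a) (hb : 0 < b)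
    (h : ∀ f : F, a * u.ord f = b * v.ord f) : u = v := by
  refine place_eq_of_le fun f hf => ?_
  rw [mem_iff_ordGE, ordGE_iff] at hf ⊢
  refine hf.imp_right fun h0 => ?_
  have := h f
  by_contra hneg
  nlinarith

variable {φ ψ : F →ₐ[K] F'} {s : SemilinearAut K F} {s' : SemilinearAut K F'}
  (hs : ∀ f, s' • φ f = ψ (s • f))
include hs

/-- Taking the place below commutes with compatible semilinear automorphisms. -/
theorem below_smul (w : Place K F') : below ψ (s' • w) = s • below φ w := by
  refine place_eq_of_ord_mul (a := ((s' • w).ramificationIndexAlong ψ : ℤ))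
    (b := (w.ramificationIndexAlong φ : ℤ)) (by exact_mod_cast ramificationIndexAlong_pos ψ _)
    (by exact_mod_cast ramificationIndexAlong_pos φ _) fun f => ?_
  obtain ⟨g, rfl⟩ : ∃ g, s • g = f := ⟨s⁻¹ • f, smul_inv_smul s f⟩
  rw [← ord_below, ← hs, SemilinearAut.ord_smul, SemilinearAut.ord_smul, ord_below]

/-- Ramification indices are preserved by compatible semilinear automorphisms. -/
theorem ramificationIndexAlong_smul (w : Place K F') :
    (s' • w).ramificationIndexAlong ψ = w.ramificationIndexAlong φ := by
  obtain ⟨t, -, ht⟩ := exists_ord_eq_one (below φ w)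
  have h1 := ord_below ψ (s' • w) (s • t)
  rw [← hs, SemilinearAut.ord_smul, ord_below, below_smul hs, SemilinearAut.ord_smul, ht,
    mul_one, mul_one] at h1
  exact_mod_cast h1.symm

/-- Pullback of divisors commutes with compatible semilinear automorphisms. -/
theorem pullDiv_smul (D : Divisor K F) : pullDiv ψ (s • D) = s' • pullDiv φ D := by
  ext w
  obtain ⟨u, rfl⟩ : ∃ u, s' • u = w := ⟨s'⁻¹ • w, smul_inv_smul s' w⟩
  rw [SemilinearAut.divisor_smul_apply_smul, pullDiv_apply, pullDiv_apply,
    ramificationIndexAlong_smul hs, below_smul hs, SemilinearAut.divisor_smul_apply_smul]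

/-- Pushforward of divisors commutes with compatible semilinear automorphisms. -/
theorem pushDiv_smul (D : Divisor K F') : pushDiv ψ (s' • D) = s • pushDiv φ D := by
  induction D using Finsupp.induction with
  | zero => simp
  | single_add w n D _ _ ih =>
    rw [smul_add, map_add, map_add, smul_add, ih, SemilinearAut.smul_single, pushDiv_single,
      pushDiv_single, SemilinearAut.smul_single, below_smul hs]

/-- Pullback on `Pic⁰` commutes with compatible semilinear automorphisms. -/
theorem pullPic_smul (x : Pic0 K F) : pullPic ψ (s • x) = s' • pullPic φ x := by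
  obtain ⟨D, rfl⟩ := Pic0.mk_surjective x
  rw [SemilinearAut.pic0_smul_mk]
  exact congrArg Pic0.mk (Subtype.ext (pullDiv_smul hs _))

/-- Pushforward on `Pic⁰` commutes with compatible semilinear automorphisms. -/
theorem pushPic_smul (x : Pic0 K F') : pushPic ψ (s' • x) = s • pushPic φ x := by
  obtain ⟨D, rfl⟩ := Pic0.mk_surjective x
  rw [SemilinearAut.pic0_smul_mk]
  exact congrArg Pic0.mk (Subtype.ext (pushDiv_smul hs _))

end Fermat.JAC

end
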