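import Fermat.Agent.JAC.ConstExtExists
import Mathlib.SetTheory.Cardinal.Subfield
import Mathlib.FieldTheory.AlgebraicClosure

/-!
# Torsion of `Pic⁰` over an algebraically closed field of characteristic zero

Finitely many classes descend to a function field over a countable algebraically closed subfield,
which embeds in `ℂ`, where the torsion is counted (`natCard_torsion_of_ringHom`).
-/

set_option autoImplicit false

noncomputable section

open AlgebraicCurve IntermediateField Polynomial

namespace Fermat.JAC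

open Fermat.FF

variable {K F : Type*} [Field K] [Field F] [Algebra K F]

/-- A linear relation between elements of `k(x)` with coefficients independent over `k` is
trivial. -/
theorem coeff_eq_zero_adjoin {k : Type*} [Field k] [Algebra k K] [Algebra k F]
    [IsScalarTower k K F] {x : F} (hx : Transcendental K x) {n : ℕ} {c : Fin n → K}
    (hc : LinearIndependent k c) {r : Fin n → F} (hr : ∀ i, r i ∈ k⟮x⟯)
    (h : ∑ i, algebraMap K F (c i) * r i = 0) : ∀ i, r i = 0 := by
  classical
  have hxk : Transcendental k x := fun h' => hx (h'.extendScalars (algebraMap k K).injective)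
  have : ∀ i, ∃ P Q : k[X], Q ≠ 0 ∧ r i = aeval x P / aeval x Q := fun i => by
    obtain ⟨P, Q, hPQ⟩ := (mem_adjoin_simple_iff k (r i)).mp (hr i)
    by_cases hQ : Q = 0
    · exact ⟨0, 1, one_ne_zero, by simp [hPQ, hQ]⟩
    · exact ⟨P, Q, hQ, hPQ⟩
  choose P Q hQ hPQ using this
  have hQx : ∀ i, aeval x (Q i) ≠ 0 := fun i h0 => hQ i (transcendental_iff.mp hxk _ h0)
  let R : Fin n → k[X] := fun i => P i * ∏ j ∈ Finset.univ.erase i, Q j
  have hR : ∑ i, algebraMap K F (c i) * aeval x (R i) = 0 := by
    have : ∀ i, aeval x (R i) = r i * ∏ j, aeval x (Q j) := fun i => by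
      rw [hPQ i, ← Finset.mul_prod_erase Finset.univ _ (Finset.mem_univ i)]
      simp only [R, map_mul, map_prod]
      field_simp [hQx i]
    simp_rw [this, ← mul_assoc, ← Finset.sum_mul, h, zero_mul]
  have hpoly : ∑ i, C (c i) * (R i).map (algebraMap k K) = 0 := by
    refine transcendental_iff.mp hx _ ?_
    simpa [aeval_map_algebraMap] using hR
  intro i
  have hRi : R i = 0 := Polynomial.ext fun m => by
    rw [coeff_zero]
    have h2 := congrArg (fun p => Polynomial.coeff p m) hpoly
    simp only [finsetSum_coeff, coeff_C_mul, coeff_map, coeff_zero] at h2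
    exact Fintype.linearIndependent_iff.mp hc (fun j => (R j).coeff m)
      (by simpa [Algebra.smul_def, mul_comm] using h2) i
  have hPi : P i = 0 :=
    (mul_eq_zero.mp hRi).resolve_right (Finset.prod_ne_zero_iff.mpr fun j _ => hQ j)
  rw [hPQ i, hPi, map_zero, zero_div]

variable [IsAlgClosed K] [CharZero K] [IsFunctionField K F]

section Model

variable {k : Type*} [Field k] [Algebra k K] [Algebra k F] [IsScalarTower k K F]

omit [IsAlgClosed K] [CharZero K] [IsFunctionField K F] in
/-- A value at `x` of a polynomial with coefficients from `k` lies in `k(x)`. -/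
theorem aeval_mem_adjoin_of_coeffs {x : F} {q : K[X]}
    (hq : ∀ c ∈ q.coeffs, c ∈ Set.range (algebraMap k K)) : aeval x q ∈ k⟮x⟯ := by
  rw [aeval_eq_sum_range]
  refine sum_mem fun j _ => ?_
  rcases eq_or_ne (q.coeff j) 0 with h0 | h0
  · rw [h0, zero_smul]; exact zero_mem _
  · obtain ⟨c, hc⟩ := hq _ (coeff_mem_coeffs h0)
    rw [Algebra.smul_def, ← hc, ← IsScalarTower.algebraMap_apply]
    exact mul_mem (IntermediateField.algebraMap_mem _ _) (pow_mem (mem_adjoin_simple_self k x) _)

omit [IsAlgClosed K] [CharZero K] [IsFunctionField K F] in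
/-- `k(x)` lies in `K(x)`. -/
theorem mem_adjoin_of_mem_adjoin {x z : F} (hz : z ∈ k⟮x⟯) : z ∈ K⟮x⟯ := by
  obtain ⟨a, b, hab⟩ := (mem_adjoin_simple_iff k z).mp hz
  rw [hab, ← aeval_map_algebraMap K (x := x) a, ← aeval_map_algebraMap K (x := x) b]
  exact (mem_adjoin_simple_iff K _).mpr ⟨_, _, rfl⟩

omit [IsAlgClosed K] [CharZero K] [IsFunctionField K F] in
/-- A monic `p₀` over `k(x)` killing `y`, of the degree of `y` over `K(x)`: `k(x, y)` extends by
constants to `F`. -/
theorem isConstExt_adjoin {x y : F} (hx : Transcendental K x) (hy : K⟮x⟯⟮y⟯ = ⊤)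
    {p₀ : k⟮x⟯[X]} (hp₀m : p₀.Monic) (hp₀y : aeval y p₀ = 0)
    (hdeg : p₀.natDegree = (minpoly K⟮x⟯ y).natDegree) :
    IsConstExt k K ((k⟮x⟯⟮y⟯).restrictScalars k) F := by
  classical
  set F₀ := (k⟮x⟯⟮y⟯).restrictScalars k
  have hyL : IsIntegral k⟮x⟯ y := ⟨p₀, hp₀m, by rwa [← aeval_def]⟩
  have hxF₀ : x ∈ F₀ := (k⟮x⟯⟮y⟯).algebraMap_mem (⟨x, mem_adjoin_simple_self k x⟩ : k⟮x⟯)
  have hyF₀ : y ∈ F₀ := mem_adjoin_simple_self k⟮x⟯ y
  -- elements of the small field are polynomials in `y` of small degree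
  have hrep : ∀ f : F₀, ∃ q : k⟮x⟯[X], q.natDegree < p₀.natDegree ∧ aeval y q = (f : F) := by
    intro f
    have hf : (f : F) ∈ (k⟮x⟯⟮y⟯).toSubalgebra := f.2
    rw [IntermediateField.adjoin_simple_toSubalgebra_of_isAlgebraic hyL.isAlgebraic,
      Algebra.adjoin_singleton_eq_range_aeval] at hf
    obtain ⟨q, hq⟩ := (AlgHom.mem_range _).mp hf
    refine ⟨q %ₘ p₀, natDegree_modByMonic_lt q hp₀m ?_, ?_⟩
    · intro h1
      rw [h1, map_one] at hp₀y
      exact one_ne_zero hp₀y
    · conv_rhs => rw [← hq, ← modByMonic_add_div q p₀]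
      rw [map_add, map_mul, hp₀y, zero_mul, add_zero]
  refine ⟨fun c => ?_, fun m c f hc h => ?_, ?_⟩
  · exact IsScalarTower.algebraMap_apply k K F c
  -- linear disjointness: compare coefficients of the powers of `y`
  · choose q hqd hq using fun i => hrep (f i)
    have hcoef : ∀ j, ∑ i, algebraMap K F (c i) * ((q i).coeff j : F) = 0 := by
      intro j
      rcases lt_or_ge j p₀.natDegree with hj | hj
      · have hN : p₀.natDegree = (minpoly K⟮x⟯ y).natDegree := hdeg
        have hli := linearIndependent_pow (K := K⟮x⟯) y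
        let g : Fin (minpoly K⟮x⟯ y).natDegree → K⟮x⟯ := fun l =>
          ⟨∑ i, algebraMap K F (c i) * ((q i).coeff l : F), sum_mem fun i _ =>
            mul_mem (IntermediateField.algebraMap_mem _ _)
              (mem_adjoin_of_mem_adjoin (SetLike.coe_mem _))⟩
        have h0 : ∑ l, g l • y ^ (l : ℕ) = 0 := by
          rw [← h]
          simp only [g, IntermediateField.smul_def, smul_eq_mul, Finset.sum_mul]
          rw [Finset.sum_comm]
          refine Finset.sum_congr rfl fun i _ => ?_
          rw [show (algebraMap F₀ F (f i)) = (f i : F) from rfl, ← hq i,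
            aeval_eq_sum_range' (hN ▸ hqd i), Finset.mul_sum, ← Fin.sum_univ_eq_sum_range]
          refine Finset.sum_congr rfl fun l _ => ?_
          rw [IntermediateField.smul_def, smul_eq_mul, mul_assoc]
        exact congrArg Subtype.val (Fintype.linearIndependent_iff.mp hli g h0 ⟨j, hN ▸ hj⟩)
      · refine Finset.sum_eq_zero fun i _ => ?_
        rw [coeff_eq_zero_of_natDegree_lt ((hqd i).trans_le hj)]
        simp
    intro i
    have hq0 : q i = 0 := Polynomial.ext fun j => Subtype.ext <| by
      rw [coeff_zero]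
      exact coeff_eq_zero_adjoin hx hc (r := fun i => ((q i).coeff j : F))
        (fun i => ((q i).coeff j).2) (hcoef j) i
    exact Subtype.ext (by rw [← hq i, hq0, map_zero]; rfl)
  -- generation
  · rw [eq_top_iff]
    have hxm : K⟮x⟯ ≤ IntermediateField.adjoin K (Set.range (algebraMap F₀ F)) :=
      adjoin_simple_le_iff.mpr (subset_adjoin K _ ⟨⟨x, hxF₀⟩, rfl⟩)
    let E : IntermediateField K⟮x⟯ F := IntermediateField.extendScalars hxm
    have : K⟮x⟯⟮y⟯ ≤ E := adjoin_simple_le_iff.mpr (subset_adjoin K _ ⟨⟨y, hyF₀⟩, rfl⟩)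
    rw [hy] at this
    intro z _
    exact this (IntermediateField.mem_top : z ∈ _)

omit [IsAlgClosed K] [CharZero K] [IsFunctionField K F] [IsScalarTower k K F] in
/-- A finite extension of `k(x)` in `F` is a function field over `k`. -/
theorem isFunctionField_restrictScalars [PerfectField k] {x : F} (hxk : Transcendental k x)
    (M : IntermediateField k⟮x⟯ F) [FiniteDimensional k⟮x⟯ M] :
    IsFunctionField k (M.restrictScalars k) := by
  set F₀ := M.restrictScalars k
  have hxF₀ : x ∈ F₀ := M.algebraMap_mem (⟨x, mem_adjoin_simple_self k x⟩ : k⟮x⟯)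
  let x' : F₀ := ⟨x, hxF₀⟩
  have hx' : Transcendental k x' := fun h' =>
    hxk (isAlgebraic_algebraMap_iff (algebraMap F₀ F).injective |>.mpr h')
  refine isFunctionField_of_finite hx' ?_
  have he : k⟮x'⟯.map F₀.val = k⟮x⟯ := by
    rw [adjoin_map, Set.image_singleton]; rfl
  let e : k⟮x'⟯ ≃ₐ[k] k⟮x⟯ := (k⟮x'⟯.equivMap F₀.val).trans (IntermediateField.equivOfEq he)
  let eM : M ≃+* F₀ := RingEquiv.refl _
  exact Module.Finite.of_equiv_equiv e.symm.toRingEquiv eM (by
    ext c
    obtain ⟨d, rfl⟩ := e.surjective c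
    change ((algebraMap k⟮x'⟯ F₀ (e.symm (e d)) : F₀) : F) = _
    rw [e.symm_apply_apply]
    rfl)

/-- A torsion class with support over `k` comes from a torsion class over `k`. -/
theorem exists_torsion_ext {F₀ : IntermediateField k F} [IsAlgClosed k] [IsFunctionField k F₀]
    [IsConstExt k K F₀ F] [CharZero k] {x : F} (hx : Transcendental K x) (hxF₀ : x ∈ F₀) {n : ℕ}
    {D : Divisor.degZero (K := K) (F := F)} (ht : Pic0.mk D ∈ Pic0.torsion K F n)
    (hD : ∀ w ∈ (D : Divisor K F).support, evalAt w x ∈ Set.range (algebraMap k K)) :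
    ∃ a : Pic0.torsion k F₀ n, ConstExt.pic0Ext k K F₀ F (a : Pic0 k F₀) = Pic0.mk D := by
  classical
  have hsupp : ∀ w ∈ (D : Divisor K F).support,
      w ∈ Set.range (ConstExt.ext K F (k := k) (F₀ := F₀)) := by
    intro w hw
    let x' : F₀ := ⟨x, hxF₀⟩
    rcases lt_or_ge (w.ord x) 0 with hneg | hpos
    · exact ConstExt.mem_range_ext_of_ord_ne_zero (f := x') hneg.ne
    · obtain ⟨c, hc⟩ := hD w hw
      refine ConstExt.mem_range_ext_of_ord_ne_zero (f := x' - algebraMap k F₀ c) ?_
      have hge := evalAt_spec (ordGE_iff.mpr (.inr hpos) : OrdGE w x 0)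
      have hne : x - algebraMap K F (evalAt w x) ≠ 0 := fun h0 =>
        hx (sub_eq_zero.mp h0 ▸ isAlgebraic_algebraMap _)
      have := hge.le_ord hne
      rw [← hc, ← IsScalarTower.algebraMap_apply] at this
      change w.ord (x - algebraMap k F c) ≠ 0
      omega
  let E₀ : Divisor k F₀ :=
    Finsupp.comapDomain _ (D : Divisor K F) ConstExt.ext_injective.injOn
  have hE₀ : ConstExt.extDiv K F E₀ = (D : Divisor K F) :=
    Finsupp.mapDomain_comapDomain _ ConstExt.ext_injective _ fun w hw => hsupp w hw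
  have hd0 : E₀ ∈ Divisor.degZero (K := k) (F := F₀) := by
    rw [Divisor.mem_degZero, ← ConstExt.degree_extDiv (K := K) (F := F) E₀, hE₀]
    exact D.2
  have ht' : ConstExt.pic0Ext k K F₀ F (Pic0.mk ⟨E₀, hd0⟩) = Pic0.mk D := by
    rw [ConstExt.pic0Ext_mk]
    exact congrArg Pic0.mk (Subtype.ext hE₀)
  refine ⟨⟨_, ?_⟩, ht'⟩
  have := Pic0.mem_torsion.mp ht
  rw [← ht', ← map_zsmul, map_eq_zero_iff _ ConstExt.pic0Ext_injective] at this
  exact Pic0.mem_torsion.mpr this

end Model

omit [IsAlgClosed K] [CharZero K] in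
/-- A finite set lies in a countable algebraically closed subfield. -/
theorem countable_algebraicClosure_closure {S : Set K} (hS : S.Finite) :
    Countable (algebraicClosure (Subfield.closure S) K) := by
  have : Countable (Subfield.closure S) := Cardinal.mk_le_aleph0_iff.mp
    ((Subfield.cardinalMk_closure_le_max S).trans (max_le hS.countable.le_aleph0 le_rfl))
  exact Cardinal.mk_le_aleph0_iff.mp ((Algebra.IsAlgebraic.cardinalMk_le_max (Subfield.closure S)
    (algebraicClosure (Subfield.closure S) K)).trans (max_le Cardinal.mk_le_aleph0 le_rfl))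

/-- A finite set of `n`-torsion classes has at most `n ^ (2 g)` elements, and some has exactly that
many, by descent to a countable algebraically closed field. -/
theorem torsion_card_le_and_exists (n : ℕ) (hn : n ≠ 0) (T : Finset (Pic0 K F))
    (hT : ∀ t ∈ T, t ∈ Pic0.torsion K F n) :
    T.card ≤ n ^ (2 * genusFF K F) ∧
      ∃ T' : Finset (Pic0 K F), (∀ t ∈ T', t ∈ Pic0.torsion K F n) ∧
        T'.card = n ^ (2 * genusFF K F) := by
  classical
  obtain ⟨x, hx, hfin, hsep⟩ := IsFunctionField.exists_separating (K := K) (F := F)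
  obtain ⟨y, hy⟩ := Field.exists_primitive_element K⟮x⟯ F
  let P := minpoly K⟮x⟯ y
  choose PN PD hPND using fun m : ℕ => (mem_adjoin_simple_iff K _).mp (P.coeff m).2
  choose D hD using fun t : Pic0 K F => Pic0.mk_surjective t
  -- `k`: countable, algebraically closed, with the equation and `x` on the supports of the classes.
  let S : Set K :=
    (⋃ m ∈ P.support, (((PN m).coeffs : Set K) ∪ ((PD m).coeffs : Set K))) ∪
      ⋃ t ∈ T, ((fun w => evalAt w x) '' ((D t : Divisor K F).support : Set (Place K F)))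
  have hS : S.Finite := (P.support.finite_toSet.biUnion fun m _ =>
    (Finset.finite_toSet _).union (Finset.finite_toSet _)).union
    (T.finite_toSet.biUnion fun t _ => (Finset.finite_toSet _).image _)
  let k₀ : Subfield K := Subfield.closure S
  let k : IntermediateField k₀ K := algebraicClosure k₀ K
  have : Countable k := countable_algebraicClosure_closure hS
  have : IsAlgClosed k := IsAlgClosure.isAlgClosed k₀
  have hSk : ∀ s ∈ S, s ∈ Set.range (algebraMap k K) := fun s hs =>
    ⟨⟨s, k.algebraMap_mem (⟨s, Subfield.subset_closure hs⟩ : k₀)⟩, rfl⟩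
  let L₀ : IntermediateField k F := k⟮x⟯
  let PF : F[X] := P.map (algebraMap K⟮x⟯ F)
  have hPL : ∀ m, PF.coeff m ∈ L₀ := fun m => by
    rw [coeff_map]
    by_cases hm : m ∈ P.support
    · change (P.coeff m : F) ∈ L₀
      rw [hPND m]
      refine div_mem (aeval_mem_adjoin_of_coeffs fun c hc => hSk c (.inl ?_))
        (aeval_mem_adjoin_of_coeffs fun c hc => hSk c (.inl ?_))
      · exact Set.mem_biUnion hm (.inl hc)
      · exact Set.mem_biUnion hm (.inr hc)
    · rw [notMem_support_iff.mp hm, map_zero]; exact zero_mem _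
  have hyint : IsIntegral K⟮x⟯ y := IsIntegral.of_finite _ y
  have hlifts : PF ∈ Polynomial.lifts (algebraMap L₀ F) :=
    (lifts_iff_coeff_lifts PF).mpr fun m => ⟨⟨_, hPL m⟩, rfl⟩
  -- The equation of `y` descends to `k(x)`, so `F₀ = k(x, y)` extends by constants to `F`.
  obtain ⟨p₀, hp₀, hp₀d, hp₀m⟩ := lifts_and_natDegree_eq_and_monic hlifts
    ((minpoly.monic hyint).map _)
  have hp₀y : aeval y p₀ = 0 := by
    rw [← aeval_map_algebraMap F, hp₀]
    change aeval y (P.map (algebraMap K⟮x⟯ F)) = 0
    rw [aeval_map_algebraMap]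
    exact minpoly.aeval K⟮x⟯ y
  have hyL : IsIntegral L₀ y := ⟨p₀, hp₀m, by rwa [← aeval_def]⟩
  let F₀ : IntermediateField k F := (L₀⟮y⟯).restrictScalars k
  have : FiniteDimensional L₀ L₀⟮y⟯ := IntermediateField.adjoin.finiteDimensional hyL
  have : IsConstExt k K F₀ F :=
    isConstExt_adjoin hx hy hp₀m hp₀y (hp₀d.trans (natDegree_map _))
  have : IsFunctionField k F₀ := isFunctionField_restrictScalars
    (fun h => hx (h.extendScalars (algebraMap k K).injective)) L₀⟮y⟯
  -- Embed `k` in `ℂ` to count the torsion of `F₀`, and extend it to `F`.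
  obtain ⟨emb⟩ := nonempty_ringHom_complex k
  have hcount := natCard_torsion_of_ringHom (F₀ := F₀) emb n hn
  rw [← ConstExt.genusFF_eq k K F₀ F] at hcount
  have : Finite (Pic0.torsion k F₀ n) :=
    Nat.finite_of_card_ne_zero (by rw [hcount]; positivity)
  let := Fintype.ofFinite (Pic0.torsion k F₀ n)
  let T' : Finset (Pic0 K F) :=
    Finset.univ.image fun t : Pic0.torsion k F₀ n => ConstExt.pic0Ext k K F₀ F (t : Pic0 k F₀)
  have hT'card : T'.card = n ^ (2 * genusFF K F) := by
    rw [Finset.card_image_of_injective _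
      (fun a b h => Subtype.ext (ConstExt.pic0Ext_injective h)), Finset.card_univ,
      ← Nat.card_eq_fintype_card, hcount]
  refine ⟨?_, T', fun t ht => ?_, hT'card⟩
  -- the given torsion points come from it
  · rw [← hT'card]
    refine Finset.card_le_card fun t ht => ?_
    obtain ⟨a, ha⟩ := exists_torsion_ext (F₀ := F₀) (D := D t) hx
      ((L₀⟮y⟯).algebraMap_mem (⟨x, mem_adjoin_simple_self k x⟩ : L₀))
      (by rw [hD]; exact hT t ht) fun w hw => hSk _ (.inr (Set.mem_biUnion ht ⟨w, hw, rfl⟩))
    exact Finset.mem_image.mpr ⟨a, Finset.mem_univ _, ha.trans (hD t)⟩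
  · obtain ⟨a, -, rfl⟩ := Finset.mem_image.mp ht
    exact ConstExt.map_torsion n a.2

/-- The `n`-torsion of `Pic⁰` has `n^(2g)` elements. -/
theorem natCard_torsion (n : ℕ) (hn : n ≠ 0) :
    Nat.card (Pic0.torsion K F n) = n ^ (2 * genusFF K F) := by
  classical
  have hfin : Finite (Pic0.torsion K F n) := by
    by_contra h
    rw [not_finite_iff_infinite] at h
    obtain ⟨s, hs⟩ := Infinite.exists_subset_card_eq (Pic0.torsion K F n)
      (n ^ (2 * genusFF K F) + 1)
    have := (torsion_card_le_and_exists n hn (s.map (Function.Embedding.subtype _))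
      (fun t ht => by obtain ⟨a, -, rfl⟩ := Finset.mem_map.mp ht; exact a.2)).1
    rw [Finset.card_map, hs] at this
    omega
  let := Fintype.ofFinite (Pic0.torsion K F n)
  have hall : ∀ t ∈ (Finset.univ : Finset (Pic0.torsion K F n)).map (Function.Embedding.subtype _),
      t ∈ Pic0.torsion K F n := fun t ht => by
    obtain ⟨a, -, rfl⟩ := Finset.mem_map.mp ht; exact a.2
  obtain ⟨h1, T', hT', hc⟩ := torsion_card_le_and_exists n hn _ hall
  rw [Finset.card_map] at h1
  rw [Nat.card_eq_fintype_card, ← Finset.card_univ]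
  refine le_antisymm h1 ?_
  rw [← hc, ← Finset.card_map (Function.Embedding.subtype _)]
  exact Finset.card_le_card fun t ht => Finset.mem_map.mpr ⟨⟨t, hT' t ht⟩, Finset.mem_univ _, rfl⟩

/-- The `n`-torsion is finite. -/
theorem finite_torsion (n : ℕ) (hn : n ≠ 0) : Finite (Pic0.torsion K F n) :=
  Nat.finite_of_card_ne_zero (by rw [natCard_torsion n hn]; positivity)

end Fermat.JAC

end
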