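import Fermat.Agent.JAC.Uniform

/-!
# The period lattice and the torsion of `Pic⁰` of a complex function field

`periods` is the kernel of `unif`, and `l ↦ l / n` parametrises the `n`-torsion (`torsionExp`).
`Induced` moves this to `ℚ̄`, giving the lattice of `GR.ESData` in `HeckeCurve`.
-/

set_option autoImplicit false

noncomputable section

open AlgebraicCurve

namespace Fermat.JAC

open Fermat.FF

variable (F : Type*) [Field F] [Algebra ℂ F] [IsFunctionField ℂ F]

/-- The period lattice: the kernel of the uniformisation. -/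
def periods : Submodule ℤ (DiffDual F) := AddSubgroup.toIntSubmodule (unif F).ker

variable {F}

/-- A form is a period iff it uniformises to zero. -/
theorem mem_periods {v : DiffDual F} : v ∈ periods F ↔ unif F v = 0 := Iff.rfl

variable (F)

/-- The periods have a basis of `2 g` elements which is a real basis. -/
theorem exists_periods_basis :
    ∃ (b : Module.Basis (Fin (2 * genusFF ℂ F)) ℤ (periods F))
      (B : Module.Basis (Fin (2 * genusFF ℂ F)) ℝ (DiffDual F)), ∀ i, B i = (b i : DiffDual F) := by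
  let D := (exists_unifHom F).choose
  let C : (Fin (genusFF ℂ F) → ℂ) ≃ₗ[ℝ] DiffDual F :=
    (D.basis.constr ℂ : (Fin (genusFF ℂ F) → ℂ) ≃ₗ[ℂ] DiffDual F).restrictScalars ℝ
  let Φ : (Fin (genusFF ℂ F) → ℂ) →+ Pic0 ℂ F := (unif F).comp
    (D.basis.constr ℂ : (Fin (genusFF ℂ F) → ℂ) ≃ₗ[ℂ] DiffDual F).toLinearMap.toAddMonoidHom
  let L := AddSubgroup.toIntSubmodule Φ.ker
  have hspec := (exists_unifHom F).choose_spec.choose_spec
  have : DiscreteTopology L := hspec.2.1
  have : IsZLattice ℝ L := ⟨hspec.2.2.1⟩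
  have hrank : Module.finrank ℤ L = 2 * genusFF ℂ F := by
    rw [ZLattice.rank ℝ L, Module.finrank_pi_fintype]
    simp [Complex.finrank_real_complex, mul_comm]
  have : Module.Finite ℤ L := ZLattice.module_finite ℝ L
  have : Module.Free ℤ L := ZLattice.module_free ℝ L
  let b₀ : Module.Basis (Fin (2 * genusFF ℂ F)) ℤ L := Module.finBasisOfFinrankEq ℤ L hrank
  let e : L ≃ₗ[ℤ] periods F :=
    { toFun := fun l => ⟨C l, l.2⟩
      map_add' := fun l m => Subtype.ext (map_add C _ _)
      map_smul' := fun c l => Subtype.ext (map_zsmul C c (l : Fin (genusFF ℂ F) → ℂ))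
      invFun := fun v => ⟨C.symm v, show unif F (C (C.symm v)) = 0 by
        rw [C.apply_symm_apply]; exact v.2⟩
      left_inv := fun l => Subtype.ext (C.symm_apply_apply _)
      right_inv := fun v => Subtype.ext (C.apply_symm_apply _) }
  refine ⟨b₀.map e, (b₀.ofZLatticeBasis ℝ L).map C, fun i => ?_⟩
  rw [Module.Basis.map_apply, Module.Basis.map_apply, Module.Basis.ofZLatticeBasis_apply]
  rfl

/-- The periods are finitely generated. -/
instance finite_periods : Module.Finite ℤ (periods F) :=
  Module.Finite.of_basis (exists_periods_basis F).choose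

/-- The periods are free. -/
instance free_periods : Module.Free ℤ (periods F) :=
  Module.Free.of_basis (exists_periods_basis F).choose

/-- The periods have rank `2 g`. -/
theorem finrank_periods : Module.finrank ℤ (periods F) = 2 * genusFF ℂ F := by
  rw [Module.finrank_eq_card_basis (exists_periods_basis F).choose, Fintype.card_fin]

/-- The periods span the space of forms over `ℝ`. -/
theorem span_periods : Submodule.span ℝ (periods F : Set (DiffDual F)) = ⊤ := by
  obtain ⟨b, B, hB⟩ := exists_periods_basis F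
  rw [eq_top_iff, ← B.span_eq]
  refine Submodule.span_mono ?_
  rintro _ ⟨i, rfl⟩
  rw [hB]
  exact (b i).2

variable {F}

/-- `Pic⁰` of a complex function field is divisible. -/
theorem exists_nsmul_eq (n : ℕ) (hn : n ≠ 0) (x : Pic0 ℂ F) : ∃ y, n • y = x := by
  obtain ⟨v, rfl⟩ := unif_surjective x
  refine ⟨unif F ((n : ℂ)⁻¹ • v), ?_⟩
  rw [← map_nsmul, ← Nat.cast_smul_eq_nsmul ℂ, smul_smul,
    mul_inv_cancel₀ (Nat.cast_ne_zero.2 hn), one_smul]

/-- The parametrisation of the `n`-torsion by periods: `λ ↦ λ / n`. -/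
def torsionExp (n : ℕ) : periods F →+ Pic0 ℂ F :=
  (unif F).comp ((((n : ℂ)⁻¹) • LinearMap.id : DiffDual F →ₗ[ℂ] DiffDual F).toAddMonoidHom.comp
    (periods F).subtype.toAddMonoidHom)

/-- The torsion class of a period. -/
theorem torsionExp_apply (n : ℕ) (l : periods F) :
    torsionExp n l = unif F ((n : ℂ)⁻¹ • (l : DiffDual F)) := rfl

/-- These classes are killed by `n`. -/
theorem nsmul_torsionExp {n : ℕ} (hn : n ≠ 0) (l : periods F) : n • torsionExp n l = 0 := by
  rw [torsionExp_apply, ← map_nsmul, ← Nat.cast_smul_eq_nsmul ℂ, smul_smul,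
    mul_inv_cancel₀ (Nat.cast_ne_zero.2 hn), one_smul]
  exact l.2

/-- Every class killed by `n` comes from a period. -/
theorem exists_torsionExp {n : ℕ} (hn : n ≠ 0) {x : Pic0 ℂ F} (hx : n • x = 0) :
    ∃ l, torsionExp n l = x := by
  obtain ⟨v, rfl⟩ := unif_surjective x
  rw [← map_nsmul] at hx
  refine ⟨⟨n • v, hx⟩, ?_⟩
  change unif F ((n : ℂ)⁻¹ • n • v) = _
  rw [← Nat.cast_smul_eq_nsmul ℂ, smul_smul, inv_mul_cancel₀ (Nat.cast_ne_zero.2 hn), one_smul]

/-- A period gives the zero class iff it is divisible by `n`. -/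
theorem torsionExp_eq_zero_iff {n : ℕ} (hn : n ≠ 0) (l : periods F) :
    torsionExp n l = 0 ↔ ∃ m : periods F, n • m = l := by
  have hn' : (n : ℂ) ≠ 0 := Nat.cast_ne_zero.2 hn
  constructor
  · intro h
    refine ⟨⟨_, h⟩, Subtype.ext ?_⟩
    change n • ((n : ℂ)⁻¹ • (l : DiffDual F)) = (l : DiffDual F)
    rw [← Nat.cast_smul_eq_nsmul ℂ, smul_smul, mul_inv_cancel₀ hn', one_smul]
  · rintro ⟨m, rfl⟩
    rw [torsionExp_apply, Submodule.coe_smul_of_tower, ← Nat.cast_smul_eq_nsmul ℂ, smul_smul,
      inv_mul_cancel₀ hn', one_smul]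
    exact m.2

/-- Multiplication by `m` lowers the level from `n * m` to `n`. -/
theorem nsmul_torsionExp_mul {m n : ℕ} (hm : m ≠ 0) (l : periods F) :
    m • torsionExp (n * m) l = torsionExp n l := by
  rw [torsionExp_apply, torsionExp_apply, ← map_nsmul, ← Nat.cast_smul_eq_nsmul ℂ, smul_smul]
  congr 2
  push_cast
  field_simp

end Fermat.JAC
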