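import Fermat.Agent.JAC.WeilPairing
import Fermat.Agent.JAC.SemilinearPic
import Fermat.Agent.JAC.Periods
import Mathlib.FieldTheory.IsAlgClosed.AlgebraicClosure

/-!
# Non-degeneracy of the Weil pairing

For a nonzero class killed by `n` with `div f = n D` adjoin an `n`-th root of `f`; a nontrivial
automorphism of the extension, together with divisibility of `Pic⁰` upstairs, produces a partner.
-/

set_option autoImplicit false

noncomputable section

open AlgebraicCurve IntermediateField Polynomial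

namespace Fermat.JAC

open Fermat.FF

universe v

variable {K : Type*} [Field K] [IsAlgClosed K] [CharZero K]

/-- Adjoining a root gives an extension with a nontrivial scalar automorphism. -/
theorem exists_kummer {F : Type v} [Field F] [Algebra K F] [IsFunctionField K F] {n : ℕ}
    (hn : n ≠ 0) {f : F} (hf : f ≠ 0) (hroot : ∀ g : F, g ^ n ≠ f) :
    ∃ (F' : Type v) (_ : Field F') (_ : Algebra K F') (_ : IsFunctionField K F')
      (φ : F →ₐ[K] F') (h : F') (σ : F' ≃ₐ[K] F') (ζ : K),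
      h ^ n = φ f ∧ ζ ≠ 1 ∧ (∀ a, σ (φ a) = φ a) ∧ σ h = algebraMap K F' ζ * h := by
  let Ω := AlgebraicClosure F
  have : NeZero n := ⟨hn⟩
  have : CharZero F := charZero_of_injective_algebraMap (algebraMap K F).injective
  obtain ⟨h₀, hh₀⟩ := IsAlgClosed.exists_pow_nat_eq (algebraMap F Ω f) (Nat.pos_of_ne_zero hn)
  have hint : IsIntegral F h₀ := Algebra.IsIntegral.isIntegral h₀
  let E : IntermediateField F Ω := F⟮h₀⟯
  have : FiniteDimensional F E := IntermediateField.adjoin.finiteDimensional hint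
  have : IsFunctionField K E := isFunctionField_of_finite_extension (F := F) E
  let h : E := AdjoinSimple.gen F h₀
  have hh : h ^ n = algebraMap F E f := Subtype.ext (by
    change h₀ ^ n = _
    rw [hh₀]; rfl)
  have h0 : h₀ ≠ 0 := fun e => by
    rw [e, zero_pow hn] at hh₀
    exact hf ((map_eq_zero (algebraMap F Ω)).mp hh₀.symm)
  -- a second root of the minimal polynomial
  have hnot : h₀ ∉ (⊥ : IntermediateField F Ω) := fun hm => by
    obtain ⟨g, hg⟩ := IntermediateField.mem_bot.mp hm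
    exact hroot g ((algebraMap F Ω).injective (by rw [map_pow, hg, hh₀]))
  have hdeg : 2 ≤ (minpoly F h₀).natDegree := by
    by_contra hlt
    have h1 : (minpoly F h₀).natDegree = 1 :=
      le_antisymm (by omega) (minpoly.natDegree_pos hint)
    rw [← IntermediateField.adjoin.finrank hint, IntermediateField.finrank_adjoin_simple_eq_one_iff]
      at h1
    exact hnot h1
  have hsep : IsSeparable F h₀ := Algebra.IsSeparable.isSeparable F h₀
  have hcard : 2 ≤ ((minpoly F h₀).rootSet Ω).toFinset.card := by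
    rw [Set.toFinset_card, Polynomial.card_rootSet_eq_natDegree hsep
      (IsAlgClosed.splits _)]
    exact hdeg
  obtain ⟨h₁, hh₁, hne⟩ := Finset.exists_mem_ne (s := ((minpoly F h₀).rootSet Ω).toFinset)
    (by omega) h₀
  rw [Set.mem_toFinset, Polynomial.mem_rootSet] at hh₁
  have hpow : h₁ ^ n = algebraMap F Ω f := by
    have hdvd : minpoly F h₀ ∣ X ^ n - C f := minpoly.dvd F h₀ (by simp [hh₀])
    obtain ⟨q, hq⟩ := hdvd
    have : aeval h₁ (X ^ n - C f) = 0 := by rw [hq, map_mul, hh₁.2, zero_mul]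
    simpa [sub_eq_zero] using this
  obtain ⟨ζ₀, hζ₀⟩ := HasEnoughRootsOfUnity.exists_primitiveRoot K n
  have hζΩ : IsPrimitiveRoot (algebraMap K Ω ζ₀) n :=
    hζ₀.map_of_injective (algebraMap K Ω).injective
  obtain ⟨i, -, hi⟩ := hζΩ.eq_pow_of_pow_eq_one (ξ := h₁ / h₀)
    (by rw [div_pow, hpow, hh₀, div_self ((_root_.map_ne_zero _).mpr hf)])
  rw [eq_div_iff h0, ← map_pow] at hi
  have hmem : h₁ ∈ E := by
    rw [← hi, IsScalarTower.algebraMap_apply K F Ω]
    exact mul_mem (E.algebraMap_mem _) (mem_adjoin_simple_self F h₀)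
  let pb := IntermediateField.adjoin.powerBasis hint
  have haev : aeval (⟨h₁, hmem⟩ : E) (minpoly F pb.gen) = 0 := by
    rw [IntermediateField.adjoin.powerBasis_gen, IntermediateField.minpoly_gen]
    apply Subtype.ext
    rw [← IntermediateField.coe_val, ← Polynomial.aeval_algHom_apply]
    exact hh₁.2
  let τ : E →ₐ[F] E := pb.lift ⟨h₁, hmem⟩ haev
  let σF : E ≃ₐ[F] E := AlgEquiv.ofBijective τ (AlgHom.bijective τ)
  refine ⟨E, inferInstance, inferInstance, inferInstance, IsScalarTower.toAlgHom K F E, h,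
    σF.restrictScalars K, ζ₀ ^ i, hh, ?_, fun a => σF.commutes a, ?_⟩
  · intro e
    rw [e, map_one, one_mul] at hi
    exact hne hi.symm
  · change τ h = _
    have : τ h = (⟨h₁, hmem⟩ : E) := by
      have := pb.lift_gen (⟨h₁, hmem⟩ : E) haev
      rwa [IntermediateField.adjoin.powerBasis_gen] at this
    rw [this]
    exact Subtype.ext hi.symm

omit [CharZero K] in
/-- If `σ h = ζ h` with `ζ ≠ 1` then `h` does not take the value `1` at `σ P - P`. -/
theorem evalDiv_sub_single_ne_one {F' : Type v} [Field F'] [Algebra K F'] [IsFunctionField K F']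
    (σ : F' ≃ₐ[K] F') {h : F'} (hh0 : h ≠ 0) {ζ : K} (hζ : ζ ≠ 1)
    (hσh : σ h = algebraMap K F' ζ * h) {P : Place K F'} (hord : P.ord h = 0)
    (hord' : (SemilinearAut.ofAlgAut σ • P).ord h = 0) :
    evalDiv h (Finsupp.single (SemilinearAut.ofAlgAut σ • P) 1 - Finsupp.single P 1) ≠ 1 := by
  set s := SemilinearAut.ofAlgAut σ
  rw [sub_eq_add_neg, evalDiv_add hh0 (avoids_single hord' _) (fun Q hQ => ?_), evalDiv_neg,
    evalDiv_single, evalDiv_single, zpow_one, zpow_one, ← div_eq_mul_inv]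
  · intro e
    rw [div_eq_one_iff_eq (evalAt_ne_zero hh0 hord)] at e
    -- `h (σ P) = ζ h (σ P)`
    have h1 : evalAt (s • P) (s • h) = evalAt P h := evalAt_smul s (ordGE_of_ord_eq_zero hord)
    rw [show s • h = algebraMap K F' ζ * h from hσh,
      evalAt_mul (ordGE_algebraMap _ _) (ordGE_of_ord_eq_zero hord'), evalAt_algebraMap, e,
      mul_eq_right₀ (evalAt_ne_zero hh0 hord)] at h1
    exact hζ h1
  · rw [Finsupp.neg_apply, neg_ne_zero] at hQ
    exact avoids_single hord _ Q hQ

variable (K) in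
/-- Non-degeneracy, given divisibility of `Pic⁰` of all finite extensions. -/
theorem exists_weilPairing_ne_one {F : Type v} [Field F] [Algebra K F] [IsFunctionField K F]
    (hdiv :
      ∀ (F' : Type v) [Field F'] [Algebra K F'] [IsFunctionField K F'] (m : ℕ) (x : Pic0 K F'),
      m ≠ 0 → ∃ y, m • y = x)
    {n : ℕ} (hn : n ≠ 0) {x : Pic0 K F} (hx : n • x = 0) (hx0 : x ≠ 0) :
    ∃ y, n • y = 0 ∧ weilPairing n x y ≠ 1 := by
  classical
  obtain ⟨D, f, hD, hf, hdf, -⟩ := exists_torsion_rep hx ∅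
  -- `f` is no `n`th power, so it has a cyclic cover
  have hroot : ∀ g : F, g ^ n ≠ f := by
    intro g hg
    have hg0 : g ≠ 0 := fun e => hf (by rw [← hg, e, zero_pow hn])
    refine hx0 ?_
    rw [← hD, pic0_mk_eq_zero_iff]
    refine ⟨g, hg0, ?_⟩
    rw [← hg, divOf_pow] at hdf
    exact nsmul_right_injective hn hdf
  obtain ⟨F', _, _, _, φ, h, σ, ζ, hh, hζ, hσφ, hσh⟩ := exists_kummer (K := K) hn hf hroot
  have hh0 : h ≠ 0 := fun e => by
    rw [e, zero_pow hn] at hh
    exact hf ((map_eq_zero φ).mp hh.symm)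
  have hdh : divOf K h = pullDiv φ (D : Divisor K F) :=
    nsmul_right_injective hn (by
      change n • divOf K h = n • pullDiv φ _
      rw [← divOf_pow, hh, ← map_nsmul, ← hdf, pullDiv_divOf])
  obtain ⟨v, hv⟩ := Infinite.exists_notMem_finset (D : Divisor K F).support
  obtain ⟨P, rfl⟩ := below_surjective φ v
  set s := SemilinearAut.ofAlgAut σ
  -- divide `σ P - P` by `n` on the cover
  have hsP : below φ (s • P) = below φ P :=
    (below_smul (φ := φ) (ψ := φ) (s := (1 : SemilinearAut K F))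
      (fun a => by rw [one_smul]; exact hσφ a) P).trans (one_smul _ _)
  set U := (D : Divisor K F).support.biUnion (above φ)
  have hPU : ∀ Q, below φ Q = below φ P → Q ∉ U := fun Q hQ hQU => by
    obtain ⟨a, ha, haQ⟩ := Finset.mem_biUnion.mp hQU
    rw [mem_above, hQ] at haQ
    exact hv (haQ ▸ ha)
  let A : Divisor.degZero (K := K) (F := F') :=
    ⟨Finsupp.single (s • P) 1 - Finsupp.single P 1, by rw [Divisor.mem_degZero]; simp⟩
  obtain ⟨z, hz⟩ := hdiv F' n (Pic0.mk A) hn
  obtain ⟨E', hE', hEU⟩ := exists_rep z U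
  obtain ⟨u, hu, hEu⟩ := pic0_mk_congr (D := A) (E := n • E')
    (by rw [← pic0_mk_nsmul, hE', hz])
  rw [AddSubgroupClass.coe_nsmul] at hEu
  have hAU : ∀ Q ∈ U, (A : Divisor K F') Q = 0 := fun Q hQ => by
    change (Finsupp.single (s • P) (1 : ℤ) - Finsupp.single P 1 : Divisor K F') Q = 0
    rw [Finsupp.sub_apply, Finsupp.single_eq_of_ne, Finsupp.single_eq_of_ne, sub_zero]
    · rintro rfl; exact hPU _ rfl hQ
    · rintro rfl; exact hPU _ hsP hQ
  have huU : ∀ Q ∈ U, u ≠ 0 ∧ Q.ord u = 0 := fun Q hQ => by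
    have h1 := congrArg (fun B => B Q) hEu
    simp only [Finsupp.smul_apply, hEU Q hQ, smul_zero, Finsupp.add_apply, hAU Q hQ, zero_add,
      divOf_apply] at h1
    exact ⟨hu, h1.symm⟩
  have hmemU : ∀ Q, (D : Divisor K F) (below φ Q) ≠ 0 → Q ∈ U := fun Q hQ =>
    Finset.mem_biUnion.mpr ⟨_, Finsupp.mem_support_iff.mpr hQ, (mem_above φ).mpr rfl⟩
  have hhU : ∀ Q, Q ∉ U → Q.ord h = 0 := fun Q hQ => by
    rw [← divOf_apply, hdh, pullDiv_apply]
    by_contra hne
    exact hQ (hmemU Q (right_ne_zero_of_mul hne))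
  -- its push forward is the partner of `x`
  have hpush : pushDiv φ (E' : Divisor K F') ∈ Divisor.degZero (K := K) (F := F) := by
    rw [Divisor.mem_degZero, degree_pushDiv, Divisor.mem_degZero.mp E'.2]
  set E : Divisor.degZero (K := K) (F := F) := ⟨pushDiv φ (E' : Divisor K F'), hpush⟩
  have hdg : divOf K (normAlong φ u) = n • pushDiv φ (E' : Divisor K F') := by
    rw [← map_nsmul, hEu, map_add, pushDiv_divOf φ hu]
    change _ = pushDiv φ (Finsupp.single (s • P) 1 - Finsupp.single P 1) + _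
    rw [map_sub, pushDiv_single, pushDiv_single, hsP, sub_self, zero_add]
  let r : PairRep n x (Pic0.mk E) := ⟨D, E, f, normAlong φ u, hD, rfl, hf, normAlong_ne_zero φ hu,
    hdf, hdg, fun a => by
      by_cases hDa : (D : Divisor K F) a = 0
      · exact .inl hDa
      · refine .inr ?_
        change pushDiv φ (E' : Divisor K F') a = 0
        rw [pushDiv_apply]
        exact Finset.sum_eq_zero fun w hw =>
          hEU w (hmemU w (by rwa [(mem_above φ).mp hw]))⟩
  refine ⟨Pic0.mk E, ?_, ?_⟩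
  · rw [pic0_mk_nsmul]
    exact pic0_mk_eq_zero_iff.mpr ⟨normAlong φ u, normAlong_ne_zero φ hu, by rw [hdg]; rfl⟩
  -- evaluate the pairing by reciprocity
  rw [r.weilPairing_eq, PairRep.val]
  change evalDiv f (pushDiv φ (E' : Divisor K F')) / evalDiv (normAlong φ u) (D : Divisor K F) ≠ 1
  have hEoff : ∀ Q, (E' : Divisor K F') Q ≠ 0 → Q ∉ U := fun Q hQ hQU => hQ (hEU Q hQU)
  have hhE : Avoids h (E' : Divisor K F') := fun Q hQ => hhU Q (hEoff Q hQ)
  have hhA : Avoids h (A : Divisor K F') := fun Q hQ => hhU Q fun hQU => hQ (hAU Q hQU)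
  have hhu : Avoids h (divOf K u) := fun Q hQ => hhU Q fun hQU => hQ (by
    rw [divOf_apply]; exact (huU Q hQU).2)
  rw [← evalDiv_comp φ hf _ fun w hw => ?_, ← hh, evalDiv_pow hhE, ← evalDiv_nsmul, hEu,
    evalDiv_add hh0 hhA hhu, weil_reciprocity hh0 hu fun Q => ?_, hdh,
    evalDiv_pullDiv φ _ fun Q hQ => (huU Q (hmemU Q hQ)).2, mul_div_assoc, div_self, mul_one]
  · -- the value at `σ P - P`
    exact evalDiv_sub_single_ne_one σ hh0 hζ hσh (hhU P (hPU P rfl)) (hhU _ (hPU _ hsP))
  · exact evalDiv_ne_zero (normAlong_ne_zero φ hu)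
      (avoids_normAlong φ hu fun Q hQ => (huU Q (hmemU Q hQ)).2)
  · by_cases hQ : Q ∈ U
    · exact .inr (huU Q hQ).2
    · exact .inl (hhU Q hQ)
  · rw [← divOf_apply, hdf, Finsupp.smul_apply]
    by_contra hne
    exact hEoff w hw (hmemU w (right_ne_zero_of_smul hne))

/-- The Weil pairing is non-degenerate over `ℂ`. -/
theorem exists_weilPairing_ne_one_complex {F : Type v} [Field F] [Algebra ℂ F]
    [IsFunctionField ℂ F] {n : ℕ} (hn : n ≠ 0) {x : Pic0 ℂ F} (hx : n • x = 0) (hx0 : x ≠ 0) :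
    ∃ y, n • y = 0 ∧ weilPairing n x y ≠ 1 :=
  exists_weilPairing_ne_one ℂ (fun _ _ _ _ m z hm => exists_nsmul_eq m hm z) hn hx hx0

end Fermat.JAC

end
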