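import Fermat.Agent.JAC.ConstExtPic
import Fermat.Agent.JAC.WeilNondeg
import Fermat.Agent.JAC.SemilinearPic
import Fermat.Agent.JAC.TorsionCount

/-!
# Extension of constants: functoriality of `Pic⁰` and of the Weil pairing

The main results are `pullPic_pic0Ext`, `pushPic_pic0Ext` and
`exists_weilPairing_ne_one_of_complex`.
-/

set_option autoImplicit false

noncomputable section

open AlgebraicCurve

namespace Fermat.JAC

open Fermat.FF

namespace ConstExt

section Pairing

variable {k K F₀ F : Type*} [Field k] [Field K] [Field F₀] [Field F] [Algebra k K]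
  [Algebra k F₀] [Algebra K F] [Algebra F₀ F] [IsConstExt k K F₀ F]
  [IsAlgClosed k] [IsAlgClosed K] [IsFunctionField k F₀] [IsFunctionField K F]

/-- Evaluation on an extended divisor is the evaluation downstairs. -/
theorem evalDiv_extDiv {f : F₀} {D : Divisor k F₀} (h : Avoids f D) :
    evalDiv (algebraMap F₀ F f) (extDiv K F D) = algebraMap k K (evalDiv f D) := by
  rw [evalDiv, evalDiv, map_finsuppProd]
  refine (Finsupp.prod_mapDomain_index_inj ext_injective).trans
    (Finset.prod_congr rfl fun v hv => ?_)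
  change evalAt (ext K F v) (algebraMap F₀ F f) ^ D v = algebraMap k K (evalAt v f ^ D v)
  rw [evalAt_ext (ordGE_of_ord_eq_zero (h v (Finsupp.mem_support_iff.mp hv))), map_zpow₀]

omit [IsAlgClosed k] [IsFunctionField k F₀] in
/-- Extension keeps supports disjoint. -/
theorem disjSupp_extDiv {D E : Divisor k F₀} (h : DisjSupp D E) :
    DisjSupp (extDiv K F D) (extDiv K F E) := fun w => by
  by_cases hw : w ∈ Set.range (ext K F (k := k) (F₀ := F₀))
  · obtain ⟨v, rfl⟩ := hw
    rw [extDiv_apply_ext, extDiv_apply_ext]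
    exact h v
  · exact .inl (extDiv_apply_of_notMem D hw)

/-- The Weil pairing commutes with extension of constants. -/
theorem weilPairing_pic0Ext {n : ℕ} {x y : Pic0 k F₀} (hx : n • x = 0) (hy : n • y = 0) :
    weilPairing n (pic0Ext k K F₀ F x) (pic0Ext k K F₀ F y) =
      algebraMap k K (weilPairing n x y) := by
  obtain ⟨r⟩ := nonempty_pairRep hx hy
  let r' : PairRep n (pic0Ext k K F₀ F x) (pic0Ext k K F₀ F y) :=
    ⟨extDegZero k K F₀ F r.D, extDegZero k K F₀ F r.E, algebraMap F₀ F r.f, algebraMap F₀ F r.g,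
      by rw [← pic0Ext_mk, r.mk_D], by rw [← pic0Ext_mk, r.mk_E],
      by simpa using r.f_ne, by simpa using r.g_ne,
      by rw [← extDiv_divOf (k := k), r.div_f, map_nsmul]; rfl,
      by rw [← extDiv_divOf (k := k), r.div_g, map_nsmul]; rfl, disjSupp_extDiv r.disj⟩
  rw [r.weilPairing_eq, r'.weilPairing_eq]
  change evalDiv (algebraMap F₀ F r.f) (extDiv K F (r.E : Divisor k F₀)) /
    evalDiv (algebraMap F₀ F r.g) (extDiv K F (r.D : Divisor k F₀)) = _
  rw [evalDiv_extDiv r.avoids_f, evalDiv_extDiv r.avoids_g, PairRep.val, map_div₀]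

variable [CharZero k] [CharZero K]

/-- Every torsion class upstairs comes from a torsion class downstairs. -/
theorem exists_torsion_preimage {n : ℕ} (hn : n ≠ 0) {y : Pic0 K F} (hy : n • y = 0) :
    ∃ y₀ : Pic0 k F₀, n • y₀ = 0 ∧ pic0Ext k K F₀ F y₀ = y := by
  have := finite_torsion (K := K) (F := F) n hn
  obtain ⟨y₀, rfl⟩ := torsion_le_range (k := k) (F₀ := F₀) n (x := y)
    (Pic0.mem_torsion.mpr (by rw [natCast_zsmul]; exact hy))
  exact ⟨y₀, pic0Ext_injective (k := k) (K := K) (F₀ := F₀) (F := F)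
    (by rw [map_nsmul, hy, map_zero]), rfl⟩

end Pairing

/-- The Weil pairing is non-degenerate over a field of constants inside `ℂ`. -/
theorem exists_weilPairing_ne_one_of_complex {k F₀ F : Type*} [Field k] [Field F₀] [Field F]
    [Algebra k ℂ] [Algebra k F₀] [Algebra ℂ F] [Algebra F₀ F] [IsConstExt k ℂ F₀ F]
    [IsAlgClosed k] [CharZero k] [IsFunctionField k F₀] [IsFunctionField ℂ F]
    {n : ℕ} (hn : n ≠ 0) {x : Pic0 k F₀} (hx : n • x = 0) (hx0 : x ≠ 0) :
    ∃ y, n • y = 0 ∧ weilPairing n x y ≠ 1 := by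
  obtain ⟨y, hy, hne⟩ := exists_weilPairing_ne_one_complex hn
    (x := pic0Ext k ℂ F₀ F x) (by rw [← map_nsmul, hx, map_zero])
    fun h => hx0 (pic0Ext_injective (k := k) (K := ℂ) (F₀ := F₀) (F := F)
      (h.trans (map_zero _).symm))
  obtain ⟨y₀, hy₀, rfl⟩ := exists_torsion_preimage (k := k) (F₀ := F₀) hn hy
  exact ⟨y₀, hy₀, fun h => hne (by rw [weilPairing_pic0Ext hx hy₀, h, map_one])⟩

section Maps

variable {k K F₀ F₀' F F' : Type*} [Field k] [Field K] [Field F₀] [Field F₀'] [Field F] [Field F']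
  [Algebra k K] [Algebra k F₀] [Algebra k F₀'] [Algebra K F] [Algebra K F']
  [Algebra F₀ F] [Algebra F₀' F'] [IsConstExt k K F₀ F] [IsConstExt k K F₀' F']
  [IsAlgClosed k] [IsAlgClosed K] [IsFunctionField k F₀] [IsFunctionField k F₀']
  [IsFunctionField K F] [IsFunctionField K F']
  {φ₀ : F₀ →ₐ[k] F₀'} {φ : F →ₐ[K] F'}
  (hφ : ∀ f, φ (algebraMap F₀ F f) = algebraMap F₀' F' (φ₀ f))
include hφ

/-- The place below an extended place is the extension of the place below, with the same
ramification index. -/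
theorem below_ext (w : Place k F₀') :
    below φ (ext K F' w) = ext K F (below φ₀ w) ∧
      (ext K F' w).ramificationIndexAlong φ = w.ramificationIndexAlong φ₀ := by
  have he : ∀ f, (ext K F' w).ramificationIndexAlong φ *
      (below φ (ext K F' w)).ord (algebraMap F₀ F f) =
      (w.ramificationIndexAlong φ₀ : ℤ) * (below φ₀ w).ord f := fun f => by
    rw [← ord_below, hφ, ord_ext, ord_below]
  obtain ⟨t, -, ht⟩ := exists_ord_eq_one (below φ₀ w)
  have h0 := ramificationIndexAlong_pos φ₀ w
  have h1 := ramificationIndexAlong_pos φ (ext K F' w)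
  obtain ⟨v, hv⟩ := mem_range_ext_of_ord_ne_zero (k := k) (w := below φ (ext K F' w)) (f := t)
    fun h => by have := he t; rw [h, mul_zero, ht, mul_one] at this; omega
  have hv' : v = below φ₀ w := place_eq_of_ord_mul
    (a := ((ext K F' w).ramificationIndexAlong φ : ℤ)) (b := (w.ramificationIndexAlong φ₀ : ℤ))
    (by exact_mod_cast h1) (by exact_mod_cast h0) fun f => by rw [← he f, ← hv, ord_ext]
  refine ⟨by rw [← hv, hv'], ?_⟩
  have := he t
  rw [← hv, hv', ord_ext, ht, mul_one, mul_one] at this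
  exact_mod_cast this

/-- Pullback of divisors commutes with extension of constants. -/
theorem pullDiv_extDiv (D : Divisor k F₀) :
    pullDiv φ (extDiv K F D) = extDiv K F' (pullDiv φ₀ D) := by
  ext w
  by_cases hw : w ∈ Set.range (ext K F' (k := k) (F₀ := F₀'))
  · obtain ⟨w₀, rfl⟩ := hw
    obtain ⟨hb, he⟩ := below_ext hφ w₀
    rw [pullDiv_apply, extDiv_apply_ext, pullDiv_apply, hb, he, extDiv_apply_ext]
  · rw [extDiv_apply_of_notMem _ hw, pullDiv_apply]
    by_cases hv : below φ w ∈ Set.range (ext K F (k := k) (F₀ := F₀))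
    · obtain ⟨v, hv⟩ := hv
      obtain ⟨t, -, ht⟩ := exists_ord_eq_one v
      refine absurd (mem_range_ext_of_ord_ne_zero (k := k) (w := w) (f := φ₀ t) ?_) hw
      rw [← hφ, ord_below, ← hv, ord_ext, ht, mul_one]
      exact_mod_cast (ramificationIndexAlong_pos φ w).ne'
    · rw [extDiv_apply_of_notMem _ hv, mul_zero]

/-- Pushforward of divisors commutes with extension of constants. -/
theorem pushDiv_extDiv (D : Divisor k F₀') :
    pushDiv φ (extDiv K F' D) = extDiv K F (pushDiv φ₀ D) := by
  induction D using Finsupp.induction with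
  | zero => simp
  | single_add w n D _ _ ih =>
    rw [map_add, map_add, map_add, map_add, ih, pushDiv_single]
    congr 1
    change pushDiv φ (Finsupp.mapDomain (ext K F') (Finsupp.single w n)) =
      Finsupp.mapDomain (ext K F) (Finsupp.single (below φ₀ w) n)
    rw [Finsupp.mapDomain_single, Finsupp.mapDomain_single, pushDiv_single, (below_ext hφ w).1]

/-- Pullback of classes commutes with extension of constants. -/
theorem pullPic_pic0Ext (x : Pic0 k F₀) :
    pullPic φ (pic0Ext k K F₀ F x) = pic0Ext k K F₀' F' (pullPic φ₀ x) := by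
  obtain ⟨D, rfl⟩ := Pic0.mk_surjective x
  exact congrArg Pic0.mk (Subtype.ext (pullDiv_extDiv hφ _))

/-- Pushforward of classes commutes with extension of constants. -/
theorem pushPic_pic0Ext (x : Pic0 k F₀') :
    pushPic φ (pic0Ext k K F₀' F' x) = pic0Ext k K F₀ F (pushPic φ₀ x) := by
  obtain ⟨D, rfl⟩ := Pic0.mk_surjective x
  exact congrArg Pic0.mk (Subtype.ext (pushDiv_extDiv hφ _))

end Maps

end ConstExt

end Fermat.JAC

end
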