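import Fermat.Agent.JAC.LaurentExt

/-!
# Fields of definition of divisor classes

A place is the only pole of some function, so fixing the finitely many constants of that function
fixes the place; hence a finite set of classes is fixed by the automorphisms over a number field.
-/

set_option autoImplicit false

attribute [local instance 10000] SubalgebraClass.toAlgebra HahnSeries.powerSeriesAlgebra

noncomputable section

open AlgebraicCurve ModularCurve IntermediateField

namespace Fermat.JAC

open Fermat.FF

section Generic

variable {K F : Type*} [Field K] [Field F] [Algebra K F] [IsAlgClosed K] [IsFunctionField K F]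

/-- A nonconstant function with a single pole. -/
theorem exists_single_pole (v : Place K F) :
    ∃ f : F, v.ord f < 0 ∧ ∀ w, w ≠ v → 0 ≤ w.ord f := by
  classical
  set A : Divisor K F := Finsupp.single v ((genusFF K F : ℤ) + 1)
  have hA : 2 ≤ ell A := by
    have h1 := riemann_inequality A
    have h2 : Divisor.degree A = (genusFF K F : ℤ) + 1 := by
      rw [Divisor.degree_single, deg_eq_one]; simp
    omega
  obtain ⟨f, hfA, hfc⟩ : ∃ f ∈ riemannRochSpace A, f ∉ riemannRochSpace (0 : Divisor K F) := by
    refine SetLike.not_le_iff_exists.1 fun hle => ?_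
    have h1 : ell A ≤ ell (0 : Divisor K F) := Submodule.finrank_mono hle
    rw [ell_zero] at h1
    omega
  have hf0 : f ≠ 0 := fun h => hfc (h ▸ Submodule.zero_mem _)
  have hoff : ∀ w, w ≠ v → 0 ≤ w.ord f := fun w hw => by
    have := (mem_riemannRochSpace.1 hfA w).le_ord hf0
    rwa [Finsupp.single_eq_of_ne hw, neg_zero] at this
  refine ⟨f, not_le.1 fun h => hfc (mem_riemannRochSpace.2 fun w => ?_), hoff⟩
  rw [Finsupp.zero_apply, neg_zero]
  rcases eq_or_ne w v with rfl | hw
  · exact ordGE_iff.2 (.inr h)
  · exact ordGE_iff.2 (.inr (hoff w hw))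

omit [IsAlgClosed K] [IsFunctionField K F] in
/-- An automorphism fixing a function with a single pole fixes that pole. -/
theorem smul_eq_of_single_pole {v : Place K F} {f : F} (hf : v.ord f < 0)
    (hoff : ∀ w, w ≠ v → 0 ≤ w.ord f) (s : SemilinearAut K F) (hs : s • f = f) : s • v = v := by
  by_contra h
  have h1 := SemilinearAut.ord_smul s v f
  rw [hs] at h1
  have := hoff _ h
  omega

end Generic

variable {L : Type*} [Field L] [Algebra ℚ L] [IsAlgClosed L]
  (F₀ : IntermediateField ℚ (LaurentSeries ℚ)) [IsFunctionField L (laurentBaseChange L F₀)]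

/-- Finitely many constants control each divisor class. -/
theorem exists_finset_fix_pic (x : Pic0 L (laurentBaseChange L F₀)) :
    ∃ S : Finset L, ∀ σ : L ≃ₐ[ℚ] L, (∀ a ∈ S, σ a = a) → σ • x = x := by
  classical
  obtain ⟨D, rfl⟩ := Pic0.mk_surjective x
  -- the constants of the single pole functions of the places in the support
  choose f hf hoff using fun v : Place L (laurentBaseChange L F₀) => exists_single_pole v
  choose S hS using fun v => exists_finset_fix F₀ (f v)
  refine ⟨(D : Divisor L (laurentBaseChange L F₀)).support.biUnion S, fun σ hσ => ?_⟩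
  rw [galois_smul_pic0_def, SemilinearAut.pic0_smul_mk]
  refine congrArg Pic0.mk (Subtype.ext ?_)
  rw [SemilinearAut.coe_degZeroSMulHom, SemilinearAut.divisor_smul_def]
  conv_rhs => rw [← Finsupp.mapDomain_id (v := (D : Divisor L (laurentBaseChange L F₀)))]
  exact Finsupp.mapDomain_congr fun v hv => smul_eq_of_single_pole (hf v) (hoff v) _
    (hS v σ fun a ha => hσ a (Finset.mem_biUnion.2 ⟨v, hv, ha⟩))

/-- Finitely many classes are fixed by the automorphisms fixing a number field. -/
theorem exists_field_of_finite [Algebra.IsAlgebraic ℚ L] {T : Set (Pic0 L (laurentBaseChange L F₀))}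
    (hT : T.Finite) :
    ∃ E : IntermediateField ℚ L, FiniteDimensional ℚ E ∧
      ∀ σ : L ≃ₐ[ℚ] L, (∀ a ∈ E, σ a = a) → ∀ x ∈ T, σ • x = x := by
  classical
  choose S hS using exists_finset_fix_pic (L := L) F₀
  let U := hT.toFinset.biUnion S
  refine ⟨adjoin ℚ (U : Set L), ?_, fun σ hσ x hx => hS x σ fun a ha =>
    hσ a (subset_adjoin ℚ _ (Finset.mem_biUnion.2 ⟨x, hT.mem_toFinset.2 hx, ha⟩))⟩
  exact finiteDimensional_adjoin fun a _ => Algebra.IsIntegral.isIntegral a

end Fermat.JAC

end
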