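import Fermat.Agent.JAC.PicMaps
import Fermat.Prelude.Def_AlgebraicCurve_BaseChangeGalois

/-!
# Evaluation of functions at divisors

`f(D) = ∏ f(v) ^ D v` for a function `f` without zeros or poles on the support of `D`, with the
rules used by the Weil pairing: both projection formulas along a map and semilinear equivariance.
-/

set_option autoImplicit false
set_option linter.unusedSectionVars false

noncomputable section

open AlgebraicCurve

namespace Fermat.JAC

open Fermat.FF

variable {K F : Type*} [Field K] [Field F] [Algebra K F] [IsAlgClosed K] [IsFunctionField K F]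

/-- `f` has neither zero nor pole on the support of `D`. -/
def Avoids (f : F) (D : Divisor K F) : Prop := ∀ v, D v ≠ 0 → v.ord f = 0

/-- The supports are disjoint. -/
def DisjSupp (D E : Divisor K F) : Prop := ∀ v, D v = 0 ∨ E v = 0

/-- Disjointness of supports is symmetric. -/
theorem DisjSupp.symm {D E : Divisor K F} (h : DisjSupp D E) : DisjSupp E D := fun v => (h v).symm

/-- A sum of divisors disjoint from `D` is disjoint from `D`. -/
theorem DisjSupp.add_right {D E E' : Divisor K F} (h : DisjSupp D E) (h' : DisjSupp D E') :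
    DisjSupp D (E + E') := fun v => by
  rcases h v with h1 | h1
  · exact .inl h1
  rcases h' v with h2 | h2
  · exact .inl h2
  exact .inr (by rw [Finsupp.add_apply, h1, h2, add_zero])

/-- Multiples keep the supports disjoint. -/
theorem DisjSupp.nsmul_left {D E : Divisor K F} (h : DisjSupp D E) (n : ℕ) :
    DisjSupp (n • D) E := fun v =>
  (h v).imp_left fun h1 => by rw [Finsupp.smul_apply, h1, smul_zero]

/-- Multiples keep the supports disjoint. -/
theorem DisjSupp.nsmul_right {D E : Divisor K F} (h : DisjSupp D E) (n : ℕ) :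
    DisjSupp D (n • E) := (h.symm.nsmul_left n).symm

/-- A function with divisor `n • D` avoids any divisor disjoint from `D`. -/
theorem avoids_of_divOf {f : F} {D E : Divisor K F} {n : ℕ} (hf : divOf K f = n • D)
    (h : DisjSupp D E) : Avoids f E := fun v hv => by
  rw [← divOf_apply, hf, Finsupp.smul_apply, (h v).resolve_right hv, smul_zero]

/-- The value at a divisor as a product over any finite set containing its support. -/
theorem evalDiv_eq_prod {f : F} {D : Divisor K F} {s : Finset (Place K F)} (h : D.support ⊆ s) :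
    evalDiv f D = ∏ v ∈ s, evalAt v f ^ D v :=
  Finset.prod_subset h fun v _ hv => by simp [Finsupp.notMem_support_iff.mp hv]

/-- The value at the zero divisor is `1`. -/
@[simp] theorem evalDiv_zero (f : F) : evalDiv f (0 : Divisor K F) = 1 := Finsupp.prod_zero_index

/-- The value at a multiple of a place. -/
theorem evalDiv_single (f : F) (v : Place K F) (n : ℤ) :
    evalDiv f (Finsupp.single v n) = evalAt v f ^ n :=
  Finsupp.prod_single_index (zpow_zero _)

/-- The value at an avoided divisor is not zero. -/
theorem evalDiv_ne_zero {f : F} (hf : f ≠ 0) {D : Divisor K F} (h : Avoids f D) :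
    evalDiv f D ≠ 0 :=
  Finset.prod_ne_zero_iff.mpr fun v hv =>
    zpow_ne_zero _ (evalAt_ne_zero hf (h v (Finsupp.mem_support_iff.mp hv)))

/-- A function of order zero at `v` avoids every multiple of `v`. -/
theorem avoids_single {f : F} {v : Place K F} (hf : v.ord f = 0) (m : ℤ) :
    Avoids f (Finsupp.single v m) := fun u hu => by
  rwa [← (Finsupp.single_apply_ne_zero.mp hu).1] at hf

/-- The value is multiplicative in the divisor, on avoided divisors. -/
theorem evalDiv_add {f : F} (hf : f ≠ 0) {D E : Divisor K F} (hD : Avoids f D) (hE : Avoids f E) :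
    evalDiv f (D + E) = evalDiv f D * evalDiv f E := by
  classical
  rw [evalDiv_eq_prod (s := D.support ∪ E.support) Finsupp.support_add,
    evalDiv_eq_prod (s := D.support ∪ E.support) Finset.subset_union_left,
    evalDiv_eq_prod (s := D.support ∪ E.support)
      Finset.subset_union_right, ← Finset.prod_mul_distrib]
  refine Finset.prod_congr rfl fun v hv => ?_
  have h0 : v.ord f = 0 := (Finset.mem_union.mp hv).elim
    (fun h => hD v (Finsupp.mem_support_iff.mp h)) fun h => hE v (Finsupp.mem_support_iff.mp h)
  rw [Finsupp.add_apply, zpow_add₀ (evalAt_ne_zero hf h0)]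

/-- The value at a multiple of a divisor is a power. -/
theorem evalDiv_nsmul (f : F) (n : ℕ) (D : Divisor K F) :
    evalDiv f (n • D) = evalDiv f D ^ n := by
  rw [evalDiv_eq_prod Finsupp.support_smul, evalDiv, Finsupp.prod, ← Finset.prod_pow]
  refine Finset.prod_congr rfl fun v _ => ?_
  rw [Finsupp.smul_apply, nsmul_eq_mul, mul_comm, zpow_mul, zpow_natCast]

/-- The value at the negative of a divisor is the inverse. -/
theorem evalDiv_neg (f : F) (D : Divisor K F) : evalDiv f (-D) = (evalDiv f D)⁻¹ := by
  rw [evalDiv, evalDiv, Finsupp.prod, Finsupp.prod, Finsupp.support_neg, ← Finset.prod_inv_distrib]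
  exact Finset.prod_congr rfl fun v _ => by rw [Finsupp.neg_apply, zpow_neg]

/-- The value is multiplicative in the function. -/
theorem evalDiv_mul {f g : F} {D : Divisor K F} (hf : Avoids f D) (hg : Avoids g D) :
    evalDiv (f * g) D = evalDiv f D * evalDiv g D := by
  rw [evalDiv, evalDiv, evalDiv, ← Finsupp.prod_mul]
  refine Finset.prod_congr rfl fun v hv => ?_
  have hv' := Finsupp.mem_support_iff.mp hv
  change evalAt v (f * g) ^ D v = evalAt v f ^ D v * evalAt v g ^ D v
  rw [evalAt_mul (ordGE_of_ord_eq_zero (hf v hv')) (ordGE_of_ord_eq_zero (hg v hv')), mul_zpow]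

/-- The value of a power of a function is the power of the value. -/
theorem evalDiv_pow {f : F} {D : Divisor K F} (hf : Avoids f D) (n : ℕ) :
    evalDiv (f ^ n) D = evalDiv f D ^ n := by
  rw [evalDiv, evalDiv, Finsupp.prod, Finsupp.prod, ← Finset.prod_pow]
  refine Finset.prod_congr rfl fun v hv => ?_
  rw [evalAt_pow (ordGE_of_ord_eq_zero (hf v (Finsupp.mem_support_iff.mp hv))), ← zpow_natCast,
    ← zpow_mul, ← zpow_natCast, ← zpow_mul, mul_comm]

/-- A constant has value `1` at a divisor of degree zero. -/
theorem evalDiv_algebraMap {c : K} (hc : c ≠ 0) {D : Divisor K F} (hD : Divisor.degree D = 0) :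
    evalDiv (algebraMap K F c) D = 1 := by
  rw [evalDiv, Finsupp.prod]
  simp only [evalAt_algebraMap]
  rw [degree_eq_sum, Finsupp.sum] at hD
  rw [prod_zpow_const hc, hD, zpow_zero]

/-- The divisor of a power is the multiple of the divisor. -/
theorem divOf_pow {f : F} (n : ℕ) : divOf K (f ^ n) = n • divOf K f := by
  ext v
  rw [divOf_apply, ord_pow, Finsupp.smul_apply, divOf_apply, nsmul_eq_mul]

/-- Functions with the same divisor differ by a constant factor. -/
theorem exists_eq_smul_of_divOf_eq {f g : F} (hf : f ≠ 0) (hg : g ≠ 0)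
    (h : divOf K f = divOf K g) : ∃ c : K, c ≠ 0 ∧ f = algebraMap K F c * g := by
  have hv : ∀ v : Place K F, OrdGE v (f / g) 0 := fun v => by
    have h1 := congrArg (fun D => D v) h
    simp only [divOf_apply] at h1
    exact ordGE_iff.mpr (.inr (by rw [ord_div v hf hg, h1, sub_self]))
  obtain ⟨c, hc⟩ := mem_range_of_forall_ordGE hv
  refine ⟨c, fun h0 => div_ne_zero hf hg (by rw [← hc, h0, map_zero]), ?_⟩
  rw [hc, div_mul_cancel₀ f hg]

/-- At a divisor of degree zero the value depends only on the divisor of the function. -/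
theorem evalDiv_congr_divOf {f g : F} (hf : f ≠ 0) (hg : g ≠ 0) (h : divOf K f = divOf K g)
    {D : Divisor K F} (hD : Divisor.degree D = 0) (ha : Avoids g D) :
    evalDiv f D = evalDiv g D := by
  obtain ⟨c, hc, rfl⟩ := exists_eq_smul_of_divOf_eq hf hg h
  rw [evalDiv_mul (fun v _ => ord_algebraMap v c) ha, evalDiv_algebraMap hc hD, one_mul]

/-- A class is zero iff it is the class of the divisor of a function. -/
theorem pic0_mk_eq_zero_iff {D : Divisor.degZero (K := K) (F := F)} :
    Pic0.mk D = 0 ↔ ∃ f : F, f ≠ 0 ∧ divOf K f = (D : Divisor K F) := by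
  rw [Pic0.mk, QuotientAddGroup.eq_zero_iff, AddSubgroup.mem_addSubgroupOf]
  exact exists_congr fun f => and_congr_right fun _ =>
    ⟨fun h => Finsupp.ext fun v => by rw [divOf_apply, h v],
      fun h v => by rw [← h, divOf_apply]⟩

/-- A multiple of a class is the class of the multiple. -/
theorem pic0_mk_nsmul (n : ℕ) (D : Divisor.degZero (K := K) (F := F)) :
    n • Pic0.mk D = Pic0.mk (n • D) :=
  (map_nsmul (QuotientAddGroup.mk' _ : Divisor.degZero (K := K) (F := F) →+ Pic0 K F) n D).symm

/-- If `n` kills the class of `D` then `n • D` is the divisor of a function. -/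
theorem exists_divOf_eq_nsmul {n : ℕ} {D : Divisor.degZero (K := K) (F := F)}
    (h : n • Pic0.mk D = 0) : ∃ f : F, f ≠ 0 ∧ divOf K f = n • (D : Divisor K F) := by
  rw [pic0_mk_nsmul, pic0_mk_eq_zero_iff] at h
  simpa using h

/-- Divisors with the same class differ by the divisor of a function. -/
theorem pic0_mk_congr {D E : Divisor.degZero (K := K) (F := F)} (h : Pic0.mk D = Pic0.mk E) :
    ∃ u : F, u ≠ 0 ∧ (E : Divisor K F) = (D : Divisor K F) + divOf K u := by
  have h' : Pic0.mk (E - D) = 0 := by
    change QuotientAddGroup.mk (E - D) = (0 : Pic0 K F)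
    rw [QuotientAddGroup.mk_sub]
    exact sub_eq_zero.mpr h.symm
  obtain ⟨u, hu, hu'⟩ := pic0_mk_eq_zero_iff.mp h'
  exact ⟨u, hu, by rw [hu', AddSubgroupClass.coe_sub]; abel⟩

/-- Every class has a representative avoiding a given finite set. -/
theorem exists_rep (x : Pic0 K F) (S : Finset (Place K F)) :
    ∃ D : Divisor.degZero (K := K) (F := F), Pic0.mk D = x ∧
      ∀ v ∈ S, (D : Divisor K F) v = 0 := by
  obtain ⟨D, rfl⟩ := Pic0.mk_surjective x
  obtain ⟨f, hf, hS⟩ := exists_avoid (D : Divisor K F) S
  have hd : divOf K f ∈ Divisor.degZero (K := K) (F := F) := by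
    rw [Divisor.mem_degZero, degree_divOf]
  refine ⟨D + ⟨divOf K f, hd⟩, ?_, fun v hv => hS v hv⟩
  rw [Pic0.mk_add, (pic0_mk_eq_zero_iff (D := ⟨divOf K f, hd⟩)).mpr ⟨f, hf, rfl⟩, add_zero]

section Maps

variable {F' : Type*} [Field F'] [Algebra K F'] [IsFunctionField K F'] (φ : F →ₐ[K] F')

/-- `φ f` avoids `E` if `f` has order zero at the places below the support of `E`. -/
theorem avoids_comp {f : F} {E : Divisor K F'} (h : ∀ w, E w ≠ 0 → (below φ w).ord f = 0) :
    Avoids (φ f) E := fun w hw => by rw [ord_below, h w hw, mul_zero]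

/-- Projection formula: `(φ f)(E) = f(φ_* E)`. -/
theorem evalDiv_comp {f : F} (hf : f ≠ 0) (E : Divisor K F')
    (h : ∀ w, E w ≠ 0 → (below φ w).ord f = 0) :
    evalDiv (φ f) E = evalDiv f (pushDiv φ E) := by
  classical
  induction E using Finsupp.induction with
  | zero => simp
  | single_add w n E hw hn ih =>
    have h1 : (below φ w).ord f = 0 := h w (by
      rw [Finsupp.add_apply, Finsupp.single_eq_same, Finsupp.notMem_support_iff.mp hw, add_zero]
      exact hn)
    have h2 : ∀ w', E w' ≠ 0 → (below φ w').ord f = 0 := fun w' hw' => h w' (by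
      rw [Finsupp.add_apply, Finsupp.single_eq_of_ne, zero_add]
      · exact hw'
      · rintro rfl; exact hw' (Finsupp.notMem_support_iff.mp hw))
    have hne : φ f ≠ 0 := (map_ne_zero φ).mpr hf
    rw [map_add, pushDiv_single,
      evalDiv_add hne (avoids_single (by rw [ord_below, h1, mul_zero]) _) (avoids_comp φ h2),
      evalDiv_add hf (avoids_single h1 _) (fun v hv => ?_), ih h2, evalDiv_single, evalDiv_single,
      evalAt_comp φ (ordGE_of_ord_eq_zero h1)]
    rw [pushDiv_apply] at hv
    obtain ⟨w', hw', hne'⟩ := Finset.exists_ne_zero_of_sum_ne_zero hv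
    rw [← (mem_above φ).mp hw']
    exact h2 w' hne'

/-- Norm formula: `g(φ^* D) = N(g)(D)`. -/
theorem evalDiv_pullDiv {g : F'} (D : Divisor K F)
    (h : ∀ w, D (below φ w) ≠ 0 → w.ord g = 0) :
    evalDiv g (pullDiv φ D) = evalDiv (normAlong φ g) D := by
  classical
  set U := D.support.biUnion (above φ) with hU
  have hsub : (pullDiv φ D).support ⊆ U := fun w hw => by
    rw [Finsupp.mem_support_iff, pullDiv_apply] at hw
    exact Finset.mem_biUnion.mpr ⟨below φ w,
      Finsupp.mem_support_iff.mpr (right_ne_zero_of_mul hw), (mem_above φ).mpr rfl⟩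
  rw [evalDiv_eq_prod hsub, hU, Finset.prod_biUnion ?_, evalDiv, Finsupp.prod]
  · refine Finset.prod_congr rfl fun v hv => ?_
    rw [evalAt_normAlong φ v fun w hw => ordGE_of_ord_eq_zero (h w (by
      rw [(mem_above φ).mp hw]; exact Finsupp.mem_support_iff.mp hv)), ← Finset.prod_zpow]
    refine Finset.prod_congr rfl fun w hw => ?_
    rw [pullDiv_apply, (mem_above φ).mp hw, zpow_mul, zpow_natCast]
  · intro a _ b _ hab
    exact Finset.disjoint_left.mpr fun w ha hb =>
      hab (((mem_above φ).mp ha).symm.trans ((mem_above φ).mp hb))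

/-- The norm of `g` avoids `D` if `g` has order zero above the support of `D`. -/
theorem avoids_normAlong {g : F'} (hg : g ≠ 0) {D : Divisor K F}
    (h : ∀ w, D (below φ w) ≠ 0 → w.ord g = 0) : Avoids (normAlong φ g) D := fun v hv => by
  rw [ord_normAlong φ v hg]
  exact Finset.sum_eq_zero fun w hw => h w (by rwa [(mem_above φ).mp hw])

end Maps

section Semilinear

variable (s : SemilinearAut K F)

omit [IsAlgClosed K] [IsFunctionField K F] in
/-- A semilinear automorphism transports bounds on orders. -/
theorem _root_.Fermat.FF.ordGE_smul {v : Place K F} {f : F} {n : ℤ} (h : OrdGE v f n) :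
    OrdGE (s • v) (s • f) n := by
  rcases ordGE_iff.mp h with h | h
  · rw [h, smul_zero]; exact ordGE_zero _ _
  · exact ordGE_iff.mpr (.inr (by rw [SemilinearAut.ord_smul]; exact h))

/-- A semilinear automorphism carries the value at a place to the value at the image place. -/
theorem evalAt_smul {v : Place K F} {f : F} (hf : OrdGE v f 0) :
    evalAt (s • v) (s • f) = SemilinearAut.baseAut s (evalAt v f) := by
  refine evalAt_eq ?_
  rw [← SemilinearAut.smul_algebraMap, ← smul_sub]
  exact ordGE_smul s (evalAt_spec hf)

/-- The divisor of a transformed function is the transformed divisor. -/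
theorem divOf_smul (f : F) : divOf K (s • f) = s • divOf K f :=
  (smul_divOf s f).symm

/-- A semilinear automorphism carries the value at a divisor to the value at its image. -/
theorem evalDiv_smul {f : F} {D : Divisor K F} (h : Avoids f D) :
    evalDiv (s • f) (s • D) = SemilinearAut.baseAut s (evalDiv f D) := by
  rw [evalDiv, evalDiv, SemilinearAut.divisor_smul_def,
    Finsupp.prod_mapDomain_index_inj (MulAction.injective s), map_finsuppProd]
  refine Finset.prod_congr rfl fun v hv => ?_
  change evalAt (s • v) (s • f) ^ D v = SemilinearAut.baseAut s (evalAt v f ^ D v)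
  rw [evalAt_smul s (ordGE_of_ord_eq_zero (h v (Finsupp.mem_support_iff.mp hv))), map_zpow₀]

end Semilinear

end Fermat.JAC

end
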