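import Fermat.Agent.FF.API
import Fermat.Prelude.Def_AlgebraicCurve_Correspondence
import Fermat.Agent.FF.Kaehler

/-!
# Pullback and pushforward on `Pic⁰`

The maps are `pullDiv` and `pushDiv` on divisors, `pullPic` and `pushPic` on classes.
-/

set_option autoImplicit false

noncomputable section

open AlgebraicCurve

namespace Fermat.JAC

open Fermat.FF

variable {K F F' : Type*} [Field K] [Field F] [Field F'] [Algebra K F] [Algebra K F']
  [IsAlgClosed K] [IsFunctionField K F] [IsFunctionField K F'] (φ : F →ₐ[K] F')

/-- The place below. -/
def below (w : Place K F') : Place K F := w.restrictAlong φ (isIntegral_toRingHom φ)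

omit [IsAlgClosed K] in
/-- The order of `φ f` at `w` is the ramification index times the order of `f` below. -/
theorem ord_below (w : Place K F') (f : F) :
    w.ord (φ f) = Place.ramificationIndexAlong φ w * (below φ w).ord f :=
  Place.ord_restrictAlong φ _ w f

omit [IsAlgClosed K] in
/-- Ramification indices are positive. -/
theorem ramificationIndexAlong_pos (w : Place K F') : 0 < w.ramificationIndexAlong φ := by
  let := algebraAlong φ
  have := isScalarTower_along φ
  have := isIntegral_along φ (isIntegral_toRingHom φ)
  have : Module.Finite F F' := finiteAlong φ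
  exact w.ramificationIndex_pos

omit [IsAlgClosed K] in
/-- A function regular below `w` pulls back to one regular at `w`. -/
theorem ordGE_comp {w : Place K F'} {f : F} (h : OrdGE (below φ w) f 0) : OrdGE w (φ f) 0 := by
  rcases ordGE_iff.1 h with rfl | h
  · rw [map_zero]; exact ordGE_zero _ _
  · exact ordGE_iff.2 (Or.inr (by rw [ord_below]; exact mul_nonneg (Int.natCast_nonneg _) h))

omit [IsAlgClosed K] in
/-- A function vanishing below `w` pulls back to one vanishing at `w`. -/
theorem ordGE_comp_one {w : Place K F'} {f : F} (h : OrdGE (below φ w) f 1) : OrdGE w (φ f) 1 := by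
  rcases ordGE_iff.1 h with rfl | h
  · rw [map_zero]; exact ordGE_zero _ _
  · refine ordGE_iff.2 (Or.inr ?_)
    rw [ord_below]
    have := ramificationIndexAlong_pos φ w
    exact one_le_mul_of_one_le_of_one_le (by omega) h

/-- The value of `φ f` at `w` is the value of `f` below. -/
theorem evalAt_comp {w : Place K F'} {f : F} (h : OrdGE (below φ w) f 0) :
    evalAt w (φ f) = evalAt (below φ w) f := by
  refine evalAt_eq ?_
  rw [← φ.commutes, ← map_sub]
  exact ordGE_comp_one φ (evalAt_spec h)

/-- Pullback of divisors. -/
def pullDiv : Divisor K F →+ Divisor K F' := Divisor.pullbackAlong φ (isIntegral_toRingHom φ)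

/-- Pushforward of divisors. -/
def pushDiv : Divisor K F' →+ Divisor K F := Divisor.pushforwardAlong φ (isIntegral_toRingHom φ)

/-- The coefficients of a pullback. -/
theorem pullDiv_apply (D : Divisor K F) (w : Place K F') :
    pullDiv φ D w = w.ramificationIndexAlong φ * D (below φ w) :=
  Divisor.pullbackAlong_apply φ _ D w

/-- The pushforward of a place is the place below. -/
theorem pushDiv_single (w : Place K F') (n : ℤ) :
    pushDiv φ (Finsupp.single w n) = Finsupp.single (below φ w) n := by
  rw [pushDiv, Divisor.pushforwardAlong_single, inertiaDegAlong_eq_one]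
  simp [below]

/-- The fibre over a place. -/
def above (v : Place K F) : Finset (Place K F') :=
  Place.fiberAlong φ (isIntegral_toRingHom φ) v

/-- The fibre consists of the places lying over `v`. -/
theorem mem_above {v : Place K F} {w : Place K F'} : w ∈ above φ v ↔ below φ w = v :=
  Place.mem_fiberAlong

/-- The pullback of a place is its fibre with ramification indices. -/
theorem pullDiv_single (v : Place K F) (n : ℤ) :
    pullDiv φ (Finsupp.single v n) =
      ∑ w ∈ above φ v, Finsupp.single w (n * w.ramificationIndexAlong φ) :=
  Divisor.pullbackAlong_single φ _ v n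

/-- Every place has a place above it. -/
theorem below_surjective : Function.Surjective (below φ) := by
  let := algebraAlong φ
  have := isScalarTower_along φ
  have := isIntegral_along φ (isIntegral_toRingHom φ)
  have : Module.Finite F F' := finiteAlong φ
  exact fun v => exists_restrict_eq v

omit [IsAlgClosed K] in
/-- Pushforward preserves the degree. -/
theorem degree_pushDiv (D : Divisor K F') : Divisor.degree (pushDiv φ D) = Divisor.degree D :=
  Divisor.degree_pushforwardAlong φ _ D

/-- Pullback multiplies the degree by the degree of `φ`. -/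
theorem degree_pullDiv (D : Divisor K F) :
    Divisor.degree (pullDiv φ D) = (finrankAlong K φ : ℤ) * Divisor.degree D :=
  Divisor.degree_pullbackAlong φ _ (fundamentalIdentityAlong φ _) D

/-- The pullback of the divisor of `f` is the divisor of `φ f`. -/
theorem pullDiv_divOf (f : F) : pullDiv φ (divOf K f) = divOf K (φ f) := by
  ext w
  rw [pullDiv_apply, divOf_apply, divOf_apply, ord_below]

/-- The norm along `φ`. -/
def normAlong : F' →* F :=
  letI := algebraAlong φ
  Algebra.norm F

omit [IsAlgClosed K] in
/-- The norm of a nonzero function is not zero. -/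
theorem normAlong_ne_zero {g : F'} (hg : g ≠ 0) : normAlong φ g ≠ 0 := by
  let := algebraAlong φ
  have : Module.Finite F F' := finiteAlong φ
  exact Algebra.norm_ne_zero_iff.mpr hg

/-- The order of a norm is the sum of the orders over the fibre. -/
theorem ord_normAlong (v : Place K F) {g : F'} (hg : g ≠ 0) :
    v.ord (normAlong φ g) = ∑ w ∈ above φ v, w.ord g := by
  let := algebraAlong φ
  have := isScalarTower_along φ
  have := isIntegral_along φ (isIntegral_toRingHom φ)
  have : Module.Finite F F' := finiteAlong φ
  exact ord_norm v hg

/-- The value of a norm is the product of the values over the fibre. -/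
theorem evalAt_normAlong (v : Place K F) {g : F'} (hg : ∀ w ∈ above φ v, OrdGE w g 0) :
    evalAt v (normAlong φ g) =
      ∏ w ∈ above φ v, evalAt w g ^ w.ramificationIndexAlong φ := by
  let := algebraAlong φ
  have := isScalarTower_along φ
  have := isIntegral_along φ (isIntegral_toRingHom φ)
  have : Module.Finite F F' := finiteAlong φ
  exact evalAt_norm v hg

/-- The coefficients of a pushforward. -/
theorem pushDiv_apply (D : Divisor K F') (v : Place K F) :
    pushDiv φ D v = ∑ w ∈ above φ v, D w := by
  classical
  induction D using Finsupp.induction with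
  | zero => simp
  | single_add w n D _ _ ih =>
    rw [map_add, Finsupp.add_apply, ih, pushDiv_single]
    simp only [Finsupp.add_apply, Finset.sum_add_distrib, Finsupp.single_apply, Finset.sum_ite_eq,
      mem_above]

/-- The pushforward of the divisor of `g` is the divisor of its norm. -/
theorem pushDiv_divOf {g : F'} (hg : g ≠ 0) : pushDiv φ (divOf K g) = divOf K (normAlong φ g) := by
  ext v
  rw [pushDiv_apply, divOf_apply, ord_normAlong φ v hg]
  simp

/-- Pullback on `Pic⁰`. -/
def pullPic : Pic0 K F →+ Pic0 K F' :=
  QuotientAddGroup.map _ _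
    (((pullDiv φ).domRestrict _).codRestrict _ fun D : Divisor.degZero (K := K) (F := F) => by
      rw [Divisor.mem_degZero]
      change Divisor.degree (pullDiv φ (D : Divisor K F)) = 0
      rw [degree_pullDiv, Divisor.mem_degZero.mp D.2, mul_zero]) (by
    rintro ⟨D, hD0⟩ hD
    simp only [AddSubgroup.mem_addSubgroupOf, AddSubgroup.mem_comap] at hD ⊢
    exact Divisor.isPrincipal_pullbackAlong φ (isIntegral_toRingHom φ) hD)

/-- Pushforward on `Pic⁰`. -/
def pushPic : Pic0 K F' →+ Pic0 K F :=
  QuotientAddGroup.map _ _
    (((pushDiv φ).domRestrict _).codRestrict _ fun D : Divisor.degZero (K := K) (F := F') => by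
      rw [Divisor.mem_degZero]
      change Divisor.degree (pushDiv φ (D : Divisor K F')) = 0
      rw [degree_pushDiv, Divisor.mem_degZero.mp D.2]) (by
    rintro ⟨D, hD0⟩ hD
    simp only [AddSubgroup.mem_addSubgroupOf, AddSubgroup.mem_comap] at hD ⊢
    exact Divisor.isPrincipal_pushforwardAlong φ (isIntegral_toRingHom φ) (finiteAlong φ)
      (normFormulaAlong φ _) hD)

/-- The pullback of a class is the class of the pullback. -/
theorem pullPic_mk (D : Divisor.degZero (K := K) (F := F))
    (h : pullDiv φ (D : Divisor K F) ∈ Divisor.degZero (K := K) (F := F')) :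
    pullPic φ (Pic0.mk D) = Pic0.mk ⟨pullDiv φ (D : Divisor K F), h⟩ := rfl

/-- The pushforward of a class is the class of the pushforward. -/
theorem pushPic_mk (D : Divisor.degZero (K := K) (F := F'))
    (h : pushDiv φ (D : Divisor K F') ∈ Divisor.degZero (K := K) (F := F)) :
    pushPic φ (Pic0.mk D) = Pic0.mk ⟨pushDiv φ (D : Divisor K F'), h⟩ := rfl

/-- A correspondence is a pushforward after a pullback. -/
theorem correspondence_eq (φ ψ : F →ₐ[K] F') (hφ : φ.toRingHom.IsIntegral)
    (hψ : ψ.toRingHom.IsIntegral) (hFI : FundamentalIdentityAlong K φ hφ)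
    (hfin : FiniteAlong K ψ) (hN : NormFormulaAlong K ψ hfin) :
    Pic0.correspondence φ ψ hφ hψ hFI hfin hN = (pushPic ψ).comp (pullPic φ) := by
  refine AddMonoidHom.ext fun x => ?_
  obtain ⟨D, rfl⟩ := Pic0.mk_surjective x
  rfl

end Fermat.JAC

end
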