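import Fermat.Agent.JAC.Uniform
import Fermat.Agent.JAC.PicMaps

/-!
# Lifts of pullback and pushforward to the dual of regular differentials

With `unif` the uniformisation of `Pic⁰` by the dual of the regular differentials, pushforward is
induced by the pullback of differentials and pullback by their trace. Both are checked on the small
point classes near every place, for pullback away from the finitely many branch places.
-/

set_option autoImplicit false
set_option linter.unusedSectionVars false

noncomputable section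

open AlgebraicCurve Metric Filter Topology Set

namespace Fermat.JAC

open Fermat.FF

variable {F F' : Type*} [Field F] [Algebra ℂ F] [IsFunctionField ℂ F]
  [Field F'] [Algebra ℂ F'] [IsFunctionField ℂ F'] (φ : F →ₐ[ℂ] F')

/-- A place has coordinate `0` in its own chart. -/
theorem coord_self (P : Place ℂ F) : (chartOf P).coord P = 0 :=
  (congrArg (chartOf P).coord (chartOf P).param_zero).symm.trans
    (Chart.coord_param (mem_ball_self (chartOf P).ε_pos))

/-- The value of `φ f` is the value of `f` below, infinity included. -/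
theorem value_below (Q : Place ℂ F') (f : F) : value Q (φ f) = value (below φ Q) f := by
  by_cases h : OrdGE (below φ Q) f 0
  · rw [value_of_ordGE (ordGE_comp φ h), value_of_ordGE h, evalAt_comp φ h]
  · have hlt : (below φ Q).ord f < 0 := by
      rw [ordGE_iff] at h; push Not at h; exact h.2
    rw [value_eq_infty_iff.2 hlt, value_eq_infty_iff]
    rw [ord_below]
    exact mul_neg_of_pos_of_neg (by exact_mod_cast ramificationIndexAlong_pos φ Q) hlt

/-- The map of places is continuous. -/
theorem continuous_below : Continuous (below φ) := continuous_of_value_eq (value_below φ)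

/-- Pullback of differentials. -/
def diffPull : Ω[F⁄ℂ] →ₗ[ℂ] Ω[F'⁄ℂ] :=
  letI := algebraAlong φ
  haveI := isScalarTower_along φ
  (KaehlerDifferential.map ℂ ℂ F F').restrictScalars ℂ

/-- Pullback sends `h df` to `φ h d(φ f)`. -/
theorem diffPull_smul_D (h f : F) :
    diffPull φ (h • KaehlerDifferential.D ℂ F f) =
      φ h • KaehlerDifferential.D ℂ F' (φ f) := by
  let := algebraAlong φ
  have := isScalarTower_along φ
  change KaehlerDifferential.map ℂ ℂ F F' (h • KaehlerDifferential.D ℂ F f) = _
  rw [map_smul, KaehlerDifferential.map_D]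
  exact (algebraMap_smul F' h _).symm

/-- Pullback commutes with `d`. -/
theorem diffPull_D (f : F) :
    diffPull φ (KaehlerDifferential.D ℂ F f) = KaehlerDifferential.D ℂ F' (φ f) := by
  have h := diffPull_smul_D φ (1 : F) f
  rwa [one_smul, map_one, one_smul] at h

/-- Pullback in the chart at `P`. -/
theorem diffPull_eq (P : Place ℂ F) (ω : Ω[F⁄ℂ]) :
    diffPull φ ω =
      φ ((chartOf P).coeff ω) • KaehlerDifferential.D ℂ F' (φ (chartOf P).t) := by
  conv_lhs => rw [← Chart.coeff_smul (ch := chartOf P) ω]
  rw [diffPull_smul_D]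

/-- The pulled back chart parameter is regular. -/
theorem ordGE_comp_t (w : Place ℂ F') : OrdGE w (φ (chartOf (below φ w)).t) 0 :=
  ordGE_comp φ (ordGE_iff.2 (Or.inr (by rw [(chartOf (below φ w)).ord_t]; norm_num)))

/-- Pullback of regular differentials. -/
def regPull : regDiff F →ₗ[ℂ] regDiff F' :=
  (diffPull φ).restrict (p := regDiff F) (q := regDiff F') fun ω hω =>
    isRegularDiff_iff_ordGE.2 fun w => by
      rw [diffPull_eq φ (below φ w), Chart.coeff_smul']
      have hb := mem_ball_self (x := (0 : ℂ)) (chartOf w).ε_pos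
      have h2 := (Chart.hasDerivAt_fn (ch := chartOf w) hb (f := φ (chartOf (below φ w)).t)
        (by rw [(chartOf w).param_zero]; exact ordGE_comp_t φ w)).1
      rw [(chartOf w).param_zero] at h2
      simpa using (ordGE_comp φ (isRegularDiff_iff_ordGE.1 hω (below φ w))).mul h2

/-- `regPull` is the restriction of `diffPull`. -/
theorem coe_regPull (ω : regDiff F) :
    (regPull φ ω : Ω[F'⁄ℂ]) = diffPull φ (ω : Ω[F⁄ℂ]) := rfl

/-- Pushforward sends the class of `Q - P` to that of the places below. -/
theorem pushPic_ptClass (Q P : Place ℂ F') :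
    pushPic φ (ptClass Q P) = ptClass (below φ Q) (below φ P) := by
  refine (pushPic_mk φ _ (by rw [Divisor.mem_degZero, degree_pushDiv]; simp)).trans ?_
  refine congrArg Pic0.mk (Subtype.ext ?_)
  change pushDiv φ (Finsupp.single Q 1 - Finsupp.single P 1) = _
  rw [map_sub, pushDiv_single, pushDiv_single]

/-- Pushforward is transpose to pullback of differentials. -/
theorem pushPic_unif (v : DiffDual F') :
    pushPic φ (unif F' v) = unif F (v.comp (regPull φ)) := by
  suffices h : (pushPic φ).comp (unif F') =
      (unif F).comp ((LinearMap.lcomp ℂ ℂ (regPull φ)).toAddMonoidHom) from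
    DFunLike.congr_fun h v
  -- compare on small point classes at each place `w`
  refine hom_ext_intCh (S := ∅) finite_empty fun w _ => ?_
  set P := below φ w
  have hP : P ∈ (chartOf P).domain := (chartOf P).mem_domain_self
  have ht := eventually_intCh_transport (value_below φ) (w := w) (P := P) hP
  have hγ : Tendsto (fun z => (chartOf P).coord (below φ ((chartOf w).param z))) (𝓝 0) (𝓝 0) := by
    have h1 : ContinuousAt (fun z => below φ ((chartOf w).param z)) 0 :=
      ContinuousAt.comp (g := below φ) (continuous_below φ).continuousAt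
        (Chart.continuousAt_param (mem_ball_self (chartOf w).ε_pos))
    have h2 : ContinuousAt (chartOf P).coord (below φ ((chartOf w).param 0)) := by
      rw [(chartOf w).param_zero]
      exact Chart.continuousOn_coord.continuousAt ((chartOf P).isOpen_domain.mem_nhds hP)
    have h3 := ContinuousAt.comp (f := fun z => below φ ((chartOf w).param z))
      (g := (chartOf P).coord) h2 h1
    rw [ContinuousAt, Function.comp_apply, (chartOf w).param_zero, coord_self] at h3
    exact h3
  filter_upwards [ht, isUnifAt_unif w, hγ.eventually (isUnifAt_unif P)] with z hz h1 h2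
  change pushPic φ (unif F' (intCh w z)) = unif F ((intCh w z).comp (regPull φ))
  have hlin : (intCh w z).comp (regPull φ) =
      intCh P ((chartOf P).coord (below φ ((chartOf w).param z))) := by
    refine LinearMap.ext fun ω => ?_
    rw [LinearMap.comp_apply, hz.2 ω (regPull φ ω) (diffPull_eq φ P (ω : Ω[F⁄ℂ])), sub_eq_self]
    change intCh P ((chartOf P).coord P) ω = 0
    rw [coord_self, intCh_zero]
    rfl
  rw [hlin, h1, h2, pushPic_ptClass, Chart.param_coord hz.1]

/-- Some transcendental function has nonzero differential below and above. -/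
theorem exists_sep : ∃ x : F, Transcendental ℂ x ∧ KaehlerDifferential.D ℂ F x ≠ 0 ∧
    KaehlerDifferential.D ℂ F' (φ x) ≠ 0 := by
  obtain ⟨x, hx, -, -⟩ := IsFunctionField.exists_separating (K := ℂ) (F := F)
  have hx' : Transcendental ℂ (φ x) := fun h => hx ((isAlgebraic_algHom_iff φ φ.injective).1 h)
  exact ⟨x, hx, D_ne_zero_of_separable hx (separable_of_charZero hx),
    D_ne_zero_of_separable hx' (separable_of_charZero hx')⟩

/-- A separating function on the target. -/
def sepFn : F := (exists_sep φ).choose

/-- The differential of the separating function is not zero. -/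
theorem D_sepFn_ne_zero : KaehlerDifferential.D ℂ F (sepFn φ) ≠ 0 :=
  (exists_sep φ).choose_spec.2.1

/-- The differential of its pullback is not zero. -/
theorem D_comp_sepFn_ne_zero : KaehlerDifferential.D ℂ F' (φ (sepFn φ)) ≠ 0 :=
  (exists_sep φ).choose_spec.2.2

/-- Every differential upstairs is a multiple of the pulled back separating differential. -/
theorem exists_coeffSep (ω : Ω[F'⁄ℂ]) :
    ∃ h : F', h • KaehlerDifferential.D ℂ F' (φ (sepFn φ)) = ω :=
  exists_smul_eq_of_finrank_eq_one IsCurveOver.finrank_kaehler (D_comp_sepFn_ne_zero φ) ω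

/-- The trace along `φ`. -/
def trAlong : F' →ₗ[ℂ] F :=
  letI := algebraAlong φ
  haveI := isScalarTower_along φ
  (Algebra.trace F F').restrictScalars ℂ

/-- The trace is linear over the functions below. -/
theorem trAlong_mul (c : F) (h : F') : trAlong φ (φ c * h) = c * trAlong φ h := by
  let := algebraAlong φ
  have := isScalarTower_along φ
  change Algebra.trace F F' (algebraMap F F' c * h) = c * Algebra.trace F F' h
  rw [← Algebra.smul_def, map_smul, smul_eq_mul]

/-- The multiple of the pulled back separating differential is unique. -/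
theorem coeffSep_unique {ω : Ω[F'⁄ℂ]} {h : F'}
    (hh : h • KaehlerDifferential.D ℂ F' (φ (sepFn φ)) = ω) :
    (exists_coeffSep φ ω).choose = h :=
  smul_left_injective F' (D_comp_sepFn_ne_zero φ)
    ((exists_coeffSep φ ω).choose_spec.trans hh.symm)

/-- Trace of differentials. -/
def diffTr : Ω[F'⁄ℂ] →ₗ[ℂ] Ω[F⁄ℂ] where
  toFun ω := trAlong φ (exists_coeffSep φ ω).choose • KaehlerDifferential.D ℂ F (sepFn φ)
  map_add' a b := by
    rw [coeffSep_unique φ (h := (exists_coeffSep φ a).choose + (exists_coeffSep φ b).choose)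
      (by rw [add_smul, (exists_coeffSep φ a).choose_spec, (exists_coeffSep φ b).choose_spec]),
      map_add, add_smul]
  map_smul' c a := by
    rw [coeffSep_unique φ (h := c • (exists_coeffSep φ a).choose)
      (by rw [smul_assoc, (exists_coeffSep φ a).choose_spec]),
      map_smul, smul_assoc, RingHom.id_apply]

/-- The trace sends `h d(φ f)` to `tr h df`. -/
theorem diffTr_smul_D (h : F') (f : F) :
    diffTr φ (h • KaehlerDifferential.D ℂ F' (φ f)) =
      trAlong φ h • KaehlerDifferential.D ℂ F f := by
  obtain ⟨c, hc⟩ := exists_smul_eq_of_finrank_eq_one IsCurveOver.finrank_kaehler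
    (D_sepFn_ne_zero φ) (KaehlerDifferential.D ℂ F f)
  have hc' : φ c • KaehlerDifferential.D ℂ F' (φ (sepFn φ)) = KaehlerDifferential.D ℂ F' (φ f) := by
    have := diffPull_smul_D φ c (sepFn φ)
    rw [hc, diffPull_D] at this
    exact this.symm
  change trAlong φ (exists_coeffSep φ _).choose • KaehlerDifferential.D ℂ F (sepFn φ) = _
  rw [coeffSep_unique φ (h := φ c * h) (by rw [mul_comm, mul_smul, hc']), trAlong_mul, mul_comm,
    mul_smul, hc]

/-- The trace in the chart at `v`. -/
theorem diffTr_eq (v : Place ℂ F) {ω : Ω[F'⁄ℂ]} {h : F'}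
    (hh : h • KaehlerDifferential.D ℂ F' (φ (chartOf v).t) = ω) :
    (chartOf v).coeff (diffTr φ ω) = trAlong φ h :=
  Chart.coeff_eq (by rw [← hh, diffTr_smul_D])

/-- The pulled back chart parameter has nonzero differential. -/
theorem D_comp_t_ne_zero (v : Place ℂ F) :
    KaehlerDifferential.D ℂ F' (φ (chartOf v).t) ≠ 0 := by
  have hx : Transcendental ℂ (chartOf v).t :=
    transcendental_of_ord_ne_zero (v := v) (by rw [(chartOf v).ord_t]; norm_num)
  have hx' : Transcendental ℂ (φ (chartOf v).t) := fun h =>
    hx ((isAlgebraic_algHom_iff φ φ.injective).1 h)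
  exact D_ne_zero_of_separable hx' (separable_of_charZero hx')

/-- The trace of a function regular over `v` is regular at `v`, with value the weighted sum over
the fibre. -/
theorem evalAt_trAlong (v : Place ℂ F) {z : F'} (hz : ∀ w ∈ above φ v, OrdGE w z 0) :
    OrdGE v (trAlong φ z) 0 ∧ evalAt v (trAlong φ z) =
      ∑ w ∈ above φ v, (w.ramificationIndexAlong φ : ℂ) * evalAt w z := by
  let := algebraAlong φ
  have := isScalarTower_along φ
  have := isIntegral_along φ (isIntegral_toRingHom φ)
  have : Module.Finite F F' := finiteAlong φ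
  exact trace_spec v hz

/-- Trace of regular differentials. -/
def regTrace : regDiff F' →ₗ[ℂ] regDiff F :=
  (diffTr φ).restrict (p := regDiff F') (q := regDiff F) fun ω hω =>
    isRegularDiff_iff_ordGE.2 fun v => by
      obtain ⟨h, hh⟩ := exists_smul_eq_of_finrank_eq_one IsCurveOver.finrank_kaehler
        (D_comp_t_ne_zero φ v) ω
      rw [diffTr_eq φ v hh]
      -- `t h` vanishes on the fibre, so its trace vanishes at `v`
      set t := (chartOf v).t
      rcases eq_or_ne (trAlong φ h) 0 with h0 | h0
      · rw [h0]; exact ordGE_zero _ _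
      have hne : h ≠ 0 := fun h1 => h0 (by rw [h1, map_zero])
      have ht0 : t ≠ 0 := fun h1 => by
        have := (chartOf v).ord_t
        rw [show (chartOf v).t = 0 from h1, Place.ord_zero] at this
        norm_num at this
      have hz : ∀ w ∈ above φ v, OrdGE w (φ t * h) 1 := fun w hw => by
        have he : w.ord (φ t) = (w.ramificationIndexAlong φ : ℤ) := by
          rw [ord_below, (mem_above φ).1 hw, (chartOf v).ord_t, mul_one]
        have hepos := ramificationIndexAlong_pos φ w
        have hdd := ordDifferential_D_eq w (f := φ t) (by rw [he]; exact_mod_cast hepos.ne')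
        have h1 : 0 ≤ w.ordDifferential ω := hω w
        rw [← hh, ordDifferential_smul w hne (D_comp_t_ne_zero φ v), hdd] at h1
        refine ordGE_iff.2 (Or.inr ?_)
        rw [w.ord_mul ((map_ne_zero φ).2 ht0) hne]
        omega
      obtain ⟨hreg, hval⟩ := evalAt_trAlong φ v (fun w hw => (hz w hw).mono zero_le_one)
      rw [Finset.sum_eq_zero fun w hw => by
        rw [(evalAt_eq_zero_iff ((hz w hw).mono zero_le_one)).2 (hz w hw), mul_zero]] at hval
      have hge := (evalAt_eq_zero_iff hreg).1 hval
      rw [trAlong_mul] at hge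
      have := hge.le_ord (mul_ne_zero ht0 h0)
      rw [v.ord_mul ht0 h0, (chartOf v).ord_t] at this
      exact ordGE_iff.2 (Or.inr (by omega))

/-- `regTrace` is the restriction of `diffTr`. -/
theorem coe_regTrace (ω : regDiff F') :
    (regTrace φ ω : Ω[F⁄ℂ]) = diffTr φ (ω : Ω[F'⁄ℂ]) := rfl

/-- A finite map has finitely many branch places. -/
theorem finite_branch_places :
    {v : Place ℂ F | ∃ w, below φ w = v ∧ w.ramificationIndexAlong φ ≠ 1}.Finite := by
  set x := sepFn φ
  refine (((canonicalDivisorOf (D_comp_sepFn_ne_zero φ)).support.finite_toSet.image (below φ)).union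
    (canonicalDivisorOf (D_sepFn_ne_zero φ)).support.finite_toSet).subset ?_
  -- off both canonical divisors `d(φ t)` has order `e - 1 = 0`
  rintro v ⟨w, rfl, he⟩
  by_contra hcon
  simp only [mem_union, mem_image, Finset.mem_coe, Finsupp.mem_support_iff,
    canonicalDivisorOf_apply, not_or, not_exists, not_and, not_not] at hcon
  obtain ⟨hcw, hcv⟩ := hcon
  set v := below φ w
  set t := (chartOf v).t
  obtain ⟨c, hc⟩ := (chartOf v).exists_coeff (KaehlerDifferential.D ℂ F x)
  have hc0 : c ≠ 0 := fun h => D_sepFn_ne_zero φ (by rw [← hc, h, zero_smul])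
  have hb := mem_ball_self (x := (0 : ℂ)) (chartOf v).ε_pos
  have hvc : v.ord c = 0 := by
    have h1 := Chart.ordDifferential_param hb (KaehlerDifferential.D ℂ F x)
    rw [(chartOf v).param_zero, Chart.coeff_eq hc, hcv] at h1
    exact h1.symm
  have hD : KaehlerDifferential.D ℂ F' (φ x) = φ c • KaehlerDifferential.D ℂ F' (φ t) := by
    rw [← diffPull_smul_D φ c, hc, diffPull_D]
  have he' : w.ord (φ t) = (w.ramificationIndexAlong φ : ℤ) := by
    rw [ord_below, (chartOf v).ord_t, mul_one]
  have hepos := ramificationIndexAlong_pos φ w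
  have hdd := ordDifferential_D_eq w (f := φ t) (by rw [he']; exact_mod_cast hepos.ne')
  have h2 := hcw w
  by_cases hw0 : w.ordDifferential (KaehlerDifferential.D ℂ F' (φ x)) = 0
  · rw [hD, ordDifferential_smul w ((map_ne_zero φ).2 hc0) (D_comp_t_ne_zero φ v), hdd, ord_below,
      hvc, he'] at hw0
    simp at hw0
    omega
  · exact h2 hw0 rfl

/-- The branches of `φ` over a place without ramification. -/
theorem exists_unramified_branches {P : Place ℂ F}
    (he : ∀ w ∈ above φ P, w.ramificationIndexAlong φ = 1) :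
    ∃ γ : above φ P → ℂ → ℂ, (∀ w, γ w 0 = 0) ∧ (∀ w, ContinuousAt (γ w) 0) ∧
      ∀ᶠ μ in 𝓝 (0 : ℂ), μ ∈ ball (0 : ℂ) (chartOf P).ε ∧
        (∀ w w' : above φ P, (chartOf (w : Place ℂ F')).param (γ w μ) =
          (chartOf (w' : Place ℂ F')).param (γ w' μ) → w = w') ∧
        (∀ w : above φ P, γ w μ ∈ ball (0 : ℂ) (chartOf (w : Place ℂ F')).ε ∧
        OrdGE ((chartOf (w : Place ℂ F')).param (γ w μ)) (φ (chartOf P).t) 0 ∧
        below φ ((chartOf (w : Place ℂ F')).param (γ w μ)) = (chartOf P).param μ ∧
        ((chartOf (w : Place ℂ F')).param (γ w μ)).ord (φ (chartOf P).t - algebraMap ℂ F' μ) = 1 ∧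
        ((chartOf (w : Place ℂ F')).param (γ w μ)).ramificationIndexAlong φ = 1 ∧
        ∃ d : ℂ, HasDerivAt (γ w) d μ ∧ d * (chartOf (w : Place ℂ F')).fn
          ((chartOf (w : Place ℂ F')).coeff
            (KaehlerDifferential.D ℂ F' (φ (chartOf P).t))) (γ w μ) = 1) := by
  set ch := chartOf P
  set t := ch.t
  have hsimple : ∀ w ∈ above φ P, w.ord (φ t - algebraMap ℂ F' 0) = 1 := fun w hw => by
    rw [map_zero, sub_zero, ord_below, he w hw, (mem_above φ).1 hw, ch.ord_t]; norm_num
  have ht : Transcendental ℂ (φ t) := fun h =>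
    transcendental_of_ord_ne_zero (v := P) (by rw [ch.ord_t]; norm_num)
      ((isAlgebraic_algHom_iff φ φ.injective).1 h)
  choose γ hγ0 hγ using fun w : above φ P => exists_branch ht (hsimple w w.2)
  -- the moving points `Q w μ` stay distinct and over the chart at `P`
  let Q : above φ P → ℂ → Place ℂ F' := fun w μ => (chartOf (w : Place ℂ F')).param (γ w μ)
  have hQc : ∀ w, ContinuousAt (Q w) 0 := fun w => by
    refine ContinuousAt.comp (g := (chartOf (w : Place ℂ F')).param) ?_
      (hγ w).self_of_nhds.continuousAt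
    rw [hγ0]
    exact Chart.continuousAt_param (mem_ball_self (chartOf (w : Place ℂ F')).ε_pos)
  have hQ0 : ∀ w, Q w 0 = w := fun w => by
    change (chartOf (w : Place ℂ F')).param (γ w 0) = _
    rw [hγ0, Chart.param_zero]
  have hdom : ∀ᶠ μ in 𝓝 (0 : ℂ), ∀ w, below φ (Q w μ) ∈ ch.domain :=
    eventually_all.2 fun w => by
      have h := ContinuousAt.comp (g := below φ) (continuous_below φ).continuousAt (hQc w)
      rw [ContinuousAt, Function.comp_apply, hQ0, (mem_above φ).1 w.2] at h
      exact h.eventually (ch.isOpen_domain.mem_nhds ch.mem_domain_self)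
  have hinj := eventually_injective_of_continuousAt hQc
    fun a b hab => Subtype.ext (by simpa [hQ0] using hab)
  refine ⟨γ, hγ0, fun w => (hγ w).self_of_nhds.continuousAt, ?_⟩
  filter_upwards [isOpen_ball.mem_nhds (mem_ball_self ch.ε_pos), hdom, hinj, eventually_all.2 hγ]
    with μ hμε hd hinj hμ
  refine ⟨hμε, hinj, fun w => ?_⟩
  obtain ⟨hball, hreg, hval, hord, -, hd'⟩ := hμ w
  have hbelow : below φ (Q w μ) = ch.param μ := by
    obtain ⟨x, hx, hxeq⟩ := hd w
    have h1 : value (Q w μ) (φ t) = (μ : OnePoint ℂ) :=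
      (value_of_ordGE hreg).trans (congrArg _ hval)
    rw [value_below, ← hxeq, Chart.value_t_param hx, OnePoint.coe_eq_coe] at h1
    rw [← hxeq, h1]
  refine ⟨hball, hreg, hbelow, hord, ?_, hd'⟩
  have h2 : (Q w μ).ord (φ t - algebraMap ℂ F' μ) = 1 := hord
  rw [← φ.commutes, ← map_sub, ord_below, hbelow, Chart.ord_t_sub_param hμε, mul_one] at h2
  exact_mod_cast h2

open scoped Classical in
/-- Unramified branches exhaust a nearby fibre. -/
theorem above_eq_image {P P' : Place ℂ F} (he : ∀ w ∈ above φ P, w.ramificationIndexAlong φ = 1)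
    {Q : above φ P → Place ℂ F'} (hQ : ∀ w, below φ (Q w) = P') (hinj : Function.Injective Q) :
    above φ P' = Finset.univ.image Q := by
  symm
  refine Finset.eq_of_subset_of_card_le (fun q hq => ?_) ?_
  · obtain ⟨w, -, rfl⟩ := Finset.mem_image.1 hq
    exact (mem_above φ).2 (hQ w)
  · rw [Finset.card_image_of_injective _ hinj, Finset.card_univ, Fintype.card_coe]
    have h1 := degree_pullDiv φ (Finsupp.single P' (1 : ℤ))
    have h2 := degree_pullDiv φ (Finsupp.single P (1 : ℤ))
    rw [pullDiv_single, map_sum, Divisor.degree_single, deg_eq_one] at h1 h2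
    simp only [Divisor.degree_single, deg_eq_one, Nat.cast_one, mul_one, one_mul] at h1 h2
    rw [Finset.sum_congr rfl fun w hw => by rw [he w hw]] at h2
    have h3 : ((above φ P').card : ℤ) ≤
        ∑ w ∈ above φ P', (w.ramificationIndexAlong φ : ℤ) := by
      rw [Finset.card_eq_sum_ones]
      push_cast
      exact Finset.sum_le_sum fun w _ => by
        have := ramificationIndexAlong_pos φ w; omega
    simp at h2
    omega

/-- The primitive of the trace is the sum of the primitives on the branches. -/
theorem intCh_comp_regTrace {P : Place ℂ F} (he : ∀ w ∈ above φ P, w.ramificationIndexAlong φ = 1)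
    {γ : above φ P → ℂ → ℂ} (hγ0 : ∀ w, γ w 0 = 0) {δ : ℝ}
    (hδ : ∀ μ ∈ ball (0 : ℂ) δ, μ ∈ ball (0 : ℂ) (chartOf P).ε ∧
      (∀ w w' : above φ P, (chartOf (w : Place ℂ F')).param (γ w μ) =
        (chartOf (w' : Place ℂ F')).param (γ w' μ) → w = w') ∧
      (∀ w : above φ P, γ w μ ∈ ball (0 : ℂ) (chartOf (w : Place ℂ F')).ε ∧
      OrdGE ((chartOf (w : Place ℂ F')).param (γ w μ)) (φ (chartOf P).t) 0 ∧
      below φ ((chartOf (w : Place ℂ F')).param (γ w μ)) = (chartOf P).param μ ∧
      ((chartOf (w : Place ℂ F')).param (γ w μ)).ord (φ (chartOf P).t - algebraMap ℂ F' μ) = 1 ∧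
      ((chartOf (w : Place ℂ F')).param (γ w μ)).ramificationIndexAlong φ = 1 ∧
      ∃ d : ℂ, HasDerivAt (γ w) d μ ∧ d * (chartOf (w : Place ℂ F')).fn
        ((chartOf (w : Place ℂ F')).coeff
          (KaehlerDifferential.D ℂ F' (φ (chartOf P).t))) (γ w μ) = 1))
    {μ : ℂ} (hμ : μ ∈ ball (0 : ℂ) δ) :
    (intCh P μ).comp (regTrace φ) = ∑ w : above φ P, intCh (w : Place ℂ F') (γ w μ) := by
  classical
  set ch := chartOf P
  set t := ch.t
  refine LinearMap.ext fun ω => ?_
  rw [LinearMap.sum_apply, LinearMap.comp_apply]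
  obtain ⟨h, hh⟩ := exists_smul_eq_of_finrank_eq_one IsCurveOver.finrank_kaehler
    (D_comp_t_ne_zero φ P) (ω : Ω[F'⁄ℂ])
  -- both sides vanish at `0` and have the same derivative
  refine eq_of_hasDerivAt_ball
    (d := fun m => evalAt (ch.param m) (ch.coeff (diffTr φ (ω : Ω[F'⁄ℂ]))))
    (G := fun m => intCh P m (regTrace φ ω))
    (H := fun m => ∑ w : above φ P, intCh (w : Place ℂ F') (γ w m) ω) (fun m hm => ?_) ?_ ?_ hμ
  · exact hasDerivAt_primAt _ (hδ m hm).1
  · intro m hm
    obtain ⟨hmε, hinj, hw⟩ := hδ m hm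
    choose hball hreg hbelow hord hram d hd hdeq using hw
    let Q : above φ P → Place ℂ F' := fun w => (chartOf (w : Place ℂ F')).param (γ w m)
    have hdd : ∀ w : above φ P, (Q w).ordDifferential (KaehlerDifferential.D ℂ F' (φ t)) = 0 := by
      intro w
      have h2 : KaehlerDifferential.D ℂ F' (φ t - algebraMap ℂ F' m) =
          KaehlerDifferential.D ℂ F' (φ t) := by
        rw [map_sub, Derivation.map_algebraMap, sub_zero]
      rw [← h2, ordDifferential_D_eq _ (by rw [hord w]; norm_num), hord w]; rfl
    have hhreg : ∀ q ∈ above φ (ch.param m), OrdGE q h 0 := by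
      intro q hq
      rw [above_eq_image φ he (Q := Q) hbelow hinj] at hq
      obtain ⟨w, -, rfl⟩ := Finset.mem_image.1 hq
      rcases eq_or_ne h 0 with h0 | h0
      · rw [h0]; exact ordGE_zero _ _
      refine ordGE_iff.2 (Or.inr ?_)
      have h1 : 0 ≤ (Q w).ordDifferential (ω : Ω[F'⁄ℂ]) := ω.2 _
      rw [← hh, ordDifferential_smul _ h0 (D_comp_t_ne_zero φ P), hdd w] at h1
      omega
    refine (HasDerivAt.fun_sum fun (w : above φ P) _ =>
      (hasDerivAt_primAt ω (hball w)).comp m (hd w)).congr_deriv ?_
    show _ = evalAt (ch.param m) (ch.coeff (diffTr φ (ω : Ω[F'⁄ℂ])))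
    rw [diffTr_eq φ P hh, (evalAt_trAlong φ _ hhreg).2, above_eq_image φ he (Q := Q) hbelow hinj,
      Finset.sum_image fun a _ b _ hab => hinj a b hab]
    refine Finset.sum_congr rfl fun w _ => ?_
    rw [show (Q w).ramificationIndexAlong φ = 1 from hram w, Nat.cast_one, one_mul]
    change evalAt (Q w) ((chartOf (w : Place ℂ F')).coeff (ω : Ω[F'⁄ℂ])) * d w = _
    rw [← hh, Chart.coeff_smul', evalAt_mul (hhreg _ ((mem_above φ).2 (hbelow w)))
      (Chart.hasDerivAt_fn (hball w) (hreg w)).1, mul_assoc, mul_comm _ (d w)]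
    rw [show d w * evalAt (Q w) ((chartOf (w : Place ℂ F')).coeff
      (KaehlerDifferential.D ℂ F' (φ t))) = 1 from hdeq w, mul_one]
  · show intCh P 0 (regTrace φ ω) = _
    rw [intCh_zero, LinearMap.zero_apply]
    exact (Finset.sum_eq_zero fun w _ => by rw [hγ0 w, intCh_zero]; rfl).symm

/-- Pullback is transpose to the trace of differentials. -/
theorem pullPic_unif (v : DiffDual F) :
    pullPic φ (unif F v) = unif F' (v.comp (regTrace φ)) := by
  classical
  suffices h : (pullPic φ).comp (unif F) =
      (unif F').comp ((LinearMap.lcomp ℂ ℂ (regTrace φ)).toAddMonoidHom) from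
    DFunLike.congr_fun h v
  refine hom_ext_intCh (finite_branch_places φ) fun P hP => ?_
  -- near a place `P` that is not a branch place both sides are sums over the branches
  simp only [Set.mem_ofPred_eq, not_exists, not_and, not_not] at hP
  have he : ∀ w ∈ above φ P, w.ramificationIndexAlong φ = 1 := fun w hw =>
    hP w ((mem_above φ).1 hw)
  obtain ⟨γ, hγ0, hγc, hγ⟩ := exists_unramified_branches φ he
  obtain ⟨δ, hδ, hδev⟩ := Metric.eventually_nhds_iff_ball.1 hγ
  have hev : ∀ᶠ μ in 𝓝 (0 : ℂ), ∀ w : above φ P,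
      unif F' (intCh (w : Place ℂ F') (γ w μ)) =
        ptClass ((chartOf (w : Place ℂ F')).param (γ w μ)) w :=
    eventually_all.2 fun w => by
      have h := hγc w
      rw [ContinuousAt, hγ0] at h
      exact h.eventually (isUnifAt_unif (w : Place ℂ F'))
  filter_upwards [hev, isUnifAt_unif P, ball_mem_nhds (0 : ℂ) hδ] with μ h1 h2 hμ
  change pullPic φ (unif F (intCh P μ)) = unif F' ((intCh P μ).comp (regTrace φ))
  rw [intCh_comp_regTrace φ he hγ0 hδev hμ, map_sum, Finset.sum_congr rfl fun w _ => h1 w, h2]
  refine (pullPic_mk φ _ (by rw [Divisor.mem_degZero, degree_pullDiv]; simp)).trans ?_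
  let π : Divisor.degZero (K := ℂ) (F := F') →+ Pic0 ℂ F' := QuotientAddGroup.mk' _
  change π _ = ∑ w, π _
  rw [← map_sum]
  refine congrArg π (Subtype.ext ?_)
  rw [AddSubgroup.val_finsetSum]
  change pullDiv φ (Finsupp.single ((chartOf P).param μ) 1 - Finsupp.single P 1) = _
  rw [map_sub, pullDiv_single, pullDiv_single,
    above_eq_image φ he (fun w => ((hδev μ hμ).2.2 w).2.2.1) fun a b => (hδev μ hμ).2.1 a b,
    Finset.sum_image fun a _ b _ hab => (hδev μ hμ).2.1 a b hab, Finset.sum_sub_distrib,
    ← Finset.sum_coe_sort (above φ P)]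
  refine congrArg₂ (· - ·) ?_ ?_ <;> refine Finset.sum_congr rfl fun w _ => ?_
  · rw [((hδev μ hμ).2.2 w).2.2.2.2.1, Nat.cast_one, one_mul]
  · rw [he _ w.2, Nat.cast_one, one_mul]

/-- The lift of a correspondence. -/
theorem correspondence_unif (φ ψ : F →ₐ[ℂ] F') (v : DiffDual F) :
    pushPic ψ (pullPic φ (unif F v)) = unif F (v.comp ((regTrace φ).comp (regPull ψ))) := by
  rw [pullPic_unif, pushPic_unif, LinearMap.comp_assoc]

end Fermat.JAC
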