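import Fermat.Agent.JAC.QDiff
import Fermat.Agent.JAC.Periods
import Mathlib.Topology.Instances.Complex

/-!
# Complex conjugation of regular differentials of a curve with real structure

The structure is a `RealStr`, with conjugation `RealStr.conjΩ`.
-/

set_option autoImplicit false

noncomputable section

open AlgebraicCurve ModularCurve
open scoped Pointwise

namespace Fermat.JAC

open Fermat.FF

variable {F : Type*} [Field F] [Algebra ℂ F] [IsFunctionField ℂ F]

/-- A linear map determined by its effect after uniformisation. -/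
theorem eq_of_unif_eq {f g : Module.End ℂ (DiffDual F)}
    (h : ∀ v, unif F (f v) = unif F (g v)) : f = g := by
  obtain ⟨b, B, hB⟩ := exists_periods_basis F
  refine LinearMap.ext fun v => sub_eq_zero.mp ?_
  set w := f v - g v with hw
  have hmem : ∀ t : ℝ, t • w ∈ periods F := fun t => by
    rw [mem_periods, hw, smul_sub, ← Complex.coe_smul, ← Complex.coe_smul, ← map_smul f,
      ← map_smul g, map_sub, h, sub_self]
  refine B.ext_elem fun k => ?_
  have hint : ∀ t : ℝ, ∃ m : ℤ, t * B.repr w k = m := fun t => by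
    refine ⟨b.repr ⟨t • w, hmem t⟩ k, ?_⟩
    have h1 : t • w = ((⟨t • w, hmem t⟩ : periods F) : DiffDual F) := rfl
    have h2 : B.repr (t • w) k = (b.repr ⟨t • w, hmem t⟩ k : ℝ) := by
      conv_lhs => rw [h1, ← b.sum_repr ⟨t • w, hmem t⟩]
      simp only [AddSubmonoidClass.coe_finsetSum, Submodule.coe_smul, ← hB,
        ← Int.cast_smul_eq_zsmul ℝ, B.repr_sum_self]
    rwa [map_smul, Finsupp.smul_apply, smul_eq_mul] at h2
  rw [map_zero, Finsupp.zero_apply]
  by_contra hne
  obtain ⟨m, hm⟩ := hint ((1 / 2) / B.repr w k)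
  rw [div_mul_cancel₀ _ hne] at hm
  have h3 : ((2 * m : ℤ) : ℝ) = ((1 : ℤ) : ℝ) := by push_cast; rw [← hm]; norm_num
  have h4 : 2 * m = 1 := by exact_mod_cast h3
  omega

variable {s : SemilinearAut ℂ F} {x : F}

/-- For a real function the order of `dx` is the same at conjugate places. -/
theorem ordDifferential_D_smul (hx : Transcendental ℂ x) (hxs : s • x = x) (v : Place ℂ F) :
    (s • v).ordDifferential (KaehlerDifferential.D ℂ F x) =
      v.ordDifferential (KaehlerDifferential.D ℂ F x) := by
  by_cases hp : v.ord x < 0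
  · have h2 : (s • v).ord x = v.ord x := by conv_lhs => rw [← hxs, SemilinearAut.ord_smul]
    rw [ordDifferential_D_eq _ (by rw [h2]; exact_mod_cast hp.ne),
      ordDifferential_D_eq _ (by exact_mod_cast hp.ne), h2]
  · have hge : OrdGE v x 0 := ordGE_iff.2 (Or.inr (not_lt.mp hp))
    set a := evalAt v x
    have h1 := evalAt_spec hge
    have hne : x - algebraMap ℂ F a ≠ 0 := fun h0 =>
      hx (sub_eq_zero.mp h0 ▸ isAlgebraic_algebraMap a)
    have hpos : v.ord (x - algebraMap ℂ F a) ≠ 0 := by
      have := h1.le_ord hne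
      change v.ord (x - algebraMap ℂ F (evalAt v x)) ≠ 0
      omega
    have hs : s • (x - algebraMap ℂ F a) = x - algebraMap ℂ F (SemilinearAut.baseAut s a) := by
      rw [smul_sub, hxs, SemilinearAut.smul_algebraMap]
    have h2 : (s • v).ord (x - algebraMap ℂ F (SemilinearAut.baseAut s a)) =
        v.ord (x - algebraMap ℂ F a) := by
      rw [← hs, SemilinearAut.ord_smul]
    have hD : ∀ c : ℂ, KaehlerDifferential.D ℂ F (x - algebraMap ℂ F c) =
        KaehlerDifferential.D ℂ F x := fun c => by
      rw [map_sub, Derivation.map_algebraMap, sub_zero]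
    have e1 := ordDifferential_D_eq v (f := x - algebraMap ℂ F a) (by exact_mod_cast hpos)
    have e2 := ordDifferential_D_eq (s • v) (f := x - algebraMap ℂ F (SemilinearAut.baseAut s a))
      (by rw [h2]; exact_mod_cast hpos)
    rw [hD] at e1 e2
    rw [e1, e2, h2]

variable (s x) in
/-- Data of a real structure: a conjugate-linear involution of `F` fixing `x`. -/
structure RealStr : Prop where
  /-- `s` is complex conjugation on constants. -/
  base : ∀ z : ℂ, SemilinearAut.baseAut s z = (starRingEnd ℂ) z
  /-- `s` is an involution. -/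
  invol : ∀ f : F, s • (s • f) = f
  /-- `x` is transcendental. -/
  transcendental : Transcendental ℂ x
  /-- `s` fixes `x`. -/
  fixed : s • x = x

/-- The differential of the real function is nonzero. -/
theorem RealStr.D_ne_zero (h : RealStr s x) : KaehlerDifferential.D ℂ F x ≠ 0 :=
  D_ne_zero_of_separable h.transcendental (separable_of_charZero h.transcendental)

/-- Every differential is a multiple of that of the real function. -/
theorem exists_coeff_D (h : RealStr s x) (ω : Ω[F⁄ℂ]) :
    ∃ c : F, c • KaehlerDifferential.D ℂ F x = ω :=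
  exists_smul_eq_of_finrank_eq_one IsCurveOver.finrank_kaehler h.D_ne_zero ω

/-- The conjugate of a differential. -/
def RealStr.conjΩ (h : RealStr s x) : Ω[F⁄ℂ] →ₛₗ[starRingEnd ℂ] Ω[F⁄ℂ] where
  toFun ω := (s • (exists_coeff_D h ω).choose) • KaehlerDifferential.D ℂ F x
  map_add' ω η := by
    rw [← add_smul, ← smul_add]
    congr 2
    refine smul_left_injective F h.D_ne_zero ?_
    simp only [add_smul, (exists_coeff_D h ω).choose_spec, (exists_coeff_D h η).choose_spec,
      (exists_coeff_D h (ω + η)).choose_spec]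
  map_smul' z ω := by
    rw [← algebraMap_smul F ((starRingEnd ℂ) z), smul_smul, ← h.base,
      ← SemilinearAut.smul_algebraMap, ← smul_mul']
    congr 2
    refine smul_left_injective F h.D_ne_zero ?_
    simp only [mul_smul, (exists_coeff_D h ω).choose_spec, (exists_coeff_D h (z • ω)).choose_spec,
      algebraMap_smul]

/-- Conjugation of differentials acts on coefficients. -/
theorem RealStr.conjΩ_smul_D (h : RealStr s x) (c : F) :
    h.conjΩ (c • KaehlerDifferential.D ℂ F x) = (s • c) • KaehlerDifferential.D ℂ F x := by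
  change (s • (exists_coeff_D h _).choose) • KaehlerDifferential.D ℂ F x = _
  congr 2
  exact smul_left_injective F h.D_ne_zero
    (exists_coeff_D h (c • KaehlerDifferential.D ℂ F x)).choose_spec

/-- Conjugation of differentials is an involution. -/
theorem RealStr.conjΩ_conjΩ (h : RealStr s x) (ω : Ω[F⁄ℂ]) : h.conjΩ (h.conjΩ ω) = ω := by
  obtain ⟨c, rfl⟩ := exists_coeff_D h ω
  rw [h.conjΩ_smul_D, h.conjΩ_smul_D, h.invol]

/-- Conjugation conjugates the coefficients of expansions. -/
theorem RealStr.qdiff_conjΩ (h : RealStr s x) (e : F →ₐ[ℂ] LaurentSeries ℂ)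
    (he : ∀ f, e (s • f) = coeffMap (starRingEnd ℂ) (e f)) (ω : Ω[F⁄ℂ]) :
    qdiff e (h.conjΩ ω) = coeffMap (starRingEnd ℂ) (qdiff e ω) := by
  obtain ⟨c, rfl⟩ := exists_coeff_D h ω
  rw [h.conjΩ_smul_D, qdiff_smul_D, qdiff_smul_D, he, map_mul]
  congr 1
  conv_lhs => rw [← h.fixed, he]
  ext n
  rw [thetaSeries_coeff, coeffMap_coeff, coeffMap_coeff, thetaSeries_coeff, map_mul, map_intCast]

/-- The conjugate of a regular differential. -/
def RealStr.regConj (h : RealStr s x) : regDiff F →ₛₗ[starRingEnd ℂ] regDiff F where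
  toFun ω := ⟨h.conjΩ ω, by
    obtain ⟨ω, hω⟩ := ω
    obtain ⟨c, rfl⟩ := exists_coeff_D h ω
    rw [h.conjΩ_smul_D]
    intro v
    rcases eq_or_ne c 0 with rfl | hc
    · have := (regDiff F).zero_mem v
      simpa using this
    · obtain ⟨w, rfl⟩ : ∃ w, s • w = v := ⟨s⁻¹ • v, smul_inv_smul s v⟩
      have h1 : 0 ≤ w.ordDifferential (c • KaehlerDifferential.D ℂ F x) := hω w
      rw [ordDifferential_smul _ hc h.D_ne_zero] at h1
      rw [ordDifferential_smul _ (by simpa using hc) h.D_ne_zero, SemilinearAut.ord_smul,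
        ordDifferential_D_smul h.transcendental h.fixed]
      exact h1⟩
  map_add' ω η := Subtype.ext (map_add h.conjΩ _ _)
  map_smul' z ω := Subtype.ext (h.conjΩ.map_smulₛₗ z _)

/-- The differential underlying a conjugate regular differential. -/
theorem RealStr.coe_regConj (h : RealStr s x) (ω : regDiff F) :
    (h.regConj ω : Ω[F⁄ℂ]) = h.conjΩ ω := rfl

/-- Conjugation of regular differentials is an involution. -/
theorem RealStr.regConj_regConj (h : RealStr s x) (ω : regDiff F) :
    h.regConj (h.regConj ω) = ω := Subtype.ext (h.conjΩ_conjΩ _)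

/-- The conjugation of linear forms on regular differentials. -/
def RealStr.dualConj (h : RealStr s x) : DiffDual F →ₛₗ[starRingEnd ℂ] DiffDual F where
  toFun v :=
    { toFun := fun ω => (starRingEnd ℂ) (v (h.regConj ω))
      map_add' := fun ω η => by rw [map_add, map_add, map_add]
      map_smul' := fun z ω => by
        rw [LinearMap.map_smulₛₗ, map_smul, smul_eq_mul, map_mul, Complex.conj_conj]
        rfl }
  map_add' v w := LinearMap.ext fun ω => by
    change (starRingEnd ℂ) (v (h.regConj ω) + w (h.regConj ω)) =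
      (starRingEnd ℂ) (v (h.regConj ω)) + (starRingEnd ℂ) (w (h.regConj ω))
    exact map_add _ _ _
  map_smul' z v := LinearMap.ext fun ω => by
    change (starRingEnd ℂ) (z * v (h.regConj ω)) =
      (starRingEnd ℂ) z * (starRingEnd ℂ) (v (h.regConj ω))
    exact map_mul _ _ _

/-- Conjugation of linear forms is an involution. -/
theorem RealStr.dualConj_dualConj (h : RealStr s x) (v : DiffDual F) :
    h.dualConj (h.dualConj v) = v := LinearMap.ext fun ω => by
  change (starRingEnd ℂ) ((starRingEnd ℂ) (v (h.regConj (h.regConj ω)))) = v ω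
  rw [Complex.conj_conj, h.regConj_regConj]

/-- Conjugation commutes with transposes of real maps. -/
theorem RealStr.dualConj_lcomp (h : RealStr s x) {A : regDiff F →ₗ[ℂ] regDiff F}
    (hA : ∀ ω, h.regConj (A ω) = A (h.regConj ω)) (v : DiffDual F) :
    h.dualConj (LinearMap.lcomp ℂ ℂ A v) = LinearMap.lcomp ℂ ℂ A (h.dualConj v) :=
  LinearMap.ext fun ω => by
    change (starRingEnd ℂ) (v (A (h.regConj ω))) = (starRingEnd ℂ) (v (h.regConj (A ω)))
    rw [hA]

end Fermat.JAC

end
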