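import Fermat.Agent.JAC.ConstExtFunctor
import Fermat.Agent.JAC.Periods
import Fermat.Agent.JAC.PicLift

/-!
# Endomorphisms of `Pic⁰` over a subfield of `ℂ` induced by maps of the uniformising space

`inducedAct`: the endomorphisms of the dual of the differentials inducing one of `Pic⁰(F₀)` form
an algebra acting on it, and `torsLift` describes the torsion of `Pic⁰(F₀)` by periods. This is
how the Hecke ring of `HeckeCurve` acts.
-/

set_option autoImplicit false
set_option linter.unusedSectionVars false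

noncomputable section

open AlgebraicCurve

namespace Fermat.JAC

open Fermat.FF

section Induced

variable (k F₀ F : Type*) [Field k] [Field F₀] [Field F] [Algebra k ℂ] [Algebra k F₀] [Algebra ℂ F]
  [Algebra F₀ F] [IsConstExt k ℂ F₀ F] [IsAlgClosed k] [CharZero k] [IsFunctionField k F₀]
  [IsFunctionField ℂ F]

/-- `Pic⁰(F₀) → Pic⁰(F)`. -/
abbrev extC : Pic0 k F₀ →+ Pic0 ℂ F := ConstExt.pic0Ext k ℂ F₀ F

/-- `b` is induced by the endomorphism `f` of the uniformising space. -/
def IsInducedBy (f : Module.End ℂ (DiffDual F)) (b : AddMonoid.End (Pic0 k F₀)) : Prop :=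
  ∀ (x : Pic0 k F₀) (v : DiffDual F), extC k F₀ F x = unif F v →
    extC k F₀ F (b x) = unif F (f v)

variable {k F₀ F}

/-- An induced endomorphism is unique. -/
theorem IsInducedBy.unique {f : Module.End ℂ (DiffDual F)} {b b' : AddMonoid.End (Pic0 k F₀)}
    (h : IsInducedBy k F₀ F f b) (h' : IsInducedBy k F₀ F f b') : b = b' :=
  AddMonoidHom.ext fun x => by
    obtain ⟨v, hv⟩ := unif_surjective (extC k F₀ F x)
    exact ConstExt.pic0Ext_injective ((h x v hv.symm).trans (h' x v hv.symm).symm)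

/-- Composites induce composites. -/
theorem IsInducedBy.mul {f g : Module.End ℂ (DiffDual F)} {a b : AddMonoid.End (Pic0 k F₀)}
    (ha : IsInducedBy k F₀ F f a) (hb : IsInducedBy k F₀ F g b) :
    IsInducedBy k F₀ F (f * g) (a * b) := fun x v h => ha _ _ (hb x v h)

set_option maxSynthPendingDepth 2 in -- the search for the sum of endomorphisms is slow otherwise
/-- Sums induce sums. -/
theorem IsInducedBy.add {f g : Module.End ℂ (DiffDual F)} {a b : AddMonoid.End (Pic0 k F₀)}
    (ha : IsInducedBy k F₀ F f a) (hb : IsInducedBy k F₀ F g b) :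
    IsInducedBy k F₀ F (f + g) (a + b) := fun x v h => by
  rw [LinearMap.add_apply, map_add, ← ha x v h, ← hb x v h]
  exact map_add _ _ _

/-- The identity induces the identity. -/
theorem isInducedBy_one : IsInducedBy k F₀ F 1 1 := fun _ _ h => h

/-- Zero induces zero. -/
theorem isInducedBy_zero : IsInducedBy k F₀ F 0 (0 : AddMonoid.End (Pic0 k F₀)) := fun x v _ => by
  rw [LinearMap.zero_apply, map_zero]
  exact map_zero _

/-- Integers induce integers. -/
theorem isInducedBy_intCast (m : ℤ) :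
    IsInducedBy k F₀ F (algebraMap ℤ _ m) (m : AddMonoid.End (Pic0 k F₀)) := fun x v h => by
  rw [Module.algebraMap_end_apply, map_zsmul, ← h]
  exact (congrArg _ (AddMonoid.End.intCast_apply m x)).trans (map_zsmul _ _ _)

variable (k F₀ F) in
/-- The endomorphisms of the uniformising space which induce an endomorphism of `Pic⁰(F₀)`. -/
def inducedAlg : Subalgebra ℤ (Module.End ℂ (DiffDual F)) where
  carrier := {f | ∃ b, IsInducedBy k F₀ F f b}
  mul_mem' := fun ⟨_, ha⟩ ⟨_, hb⟩ => ⟨_, ha.mul hb⟩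
  one_mem' := ⟨_, isInducedBy_one⟩
  add_mem' := fun ⟨_, ha⟩ ⟨_, hb⟩ => ⟨_, ha.add hb⟩
  zero_mem' := ⟨_, isInducedBy_zero⟩
  algebraMap_mem' m := ⟨_, isInducedBy_intCast m⟩

variable (k F₀ F) in
/-- The induced action on `Pic⁰(F₀)`. -/
def inducedAct : inducedAlg k F₀ F →+* AddMonoid.End (Pic0 k F₀) where
  toFun f := f.2.choose
  map_one' := (1 : inducedAlg k F₀ F).2.choose_spec.unique isInducedBy_one
  map_zero' := (0 : inducedAlg k F₀ F).2.choose_spec.unique isInducedBy_zero
  map_add' f g := (f + g).2.choose_spec.unique (f.2.choose_spec.add g.2.choose_spec)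
  map_mul' f g := (f * g).2.choose_spec.unique (f.2.choose_spec.mul g.2.choose_spec)

/-- An inducing endomorphism induces its action. -/
theorem isInducedBy_inducedAct (f : inducedAlg k F₀ F) :
    IsInducedBy k F₀ F f (inducedAct k F₀ F f) := f.2.choose_spec

/-- The action is characterised by being induced. -/
theorem inducedAct_eq {f : inducedAlg k F₀ F} {b : AddMonoid.End (Pic0 k F₀)}
    (h : IsInducedBy k F₀ F f b) : inducedAct k F₀ F f = b :=
  (isInducedBy_inducedAct f).unique h

/-- Inducing endomorphisms preserve the periods. -/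
theorem apply_mem_periods {f : Module.End ℂ (DiffDual F)} (hf : f ∈ inducedAlg k F₀ F)
    {v : DiffDual F} (hv : v ∈ periods F) : f v ∈ periods F := by
  obtain ⟨b, hb⟩ := hf
  have h := hb 0 v (by rw [map_zero]; exact hv.symm)
  rw [map_zero, map_zero] at h
  exact h.symm

variable {F₀' F' : Type*} [Field F₀'] [Field F'] [Algebra k F₀'] [Algebra ℂ F'] [Algebra F₀' F']
  [IsConstExt k ℂ F₀' F'] [IsFunctionField k F₀'] [IsFunctionField ℂ F']

/-- The transpose of a correspondence on differentials induces the correspondence on `Pic⁰`. -/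
theorem isInducedBy_correspondence {φ ψ : F →ₐ[ℂ] F'} {φ₀ ψ₀ : F₀ →ₐ[k] F₀'}
    (hφ : ∀ f, φ (algebraMap F₀ F f) = algebraMap F₀' F' (φ₀ f))
    (hψ : ∀ f, ψ (algebraMap F₀ F f) = algebraMap F₀' F' (ψ₀ f)) :
    IsInducedBy k F₀ F (LinearMap.lcomp ℂ ℂ ((regTrace φ).comp (regPull ψ)))
      ((pushPic ψ₀).comp (pullPic φ₀)) := fun x v h => by
  change ConstExt.pic0Ext k ℂ F₀ F (pushPic ψ₀ (pullPic φ₀ x)) = _
  rw [← ConstExt.pushPic_pic0Ext hψ, ← ConstExt.pullPic_pic0Ext hφ,
    show ConstExt.pic0Ext k ℂ F₀ F x = unif F v from h, correspondence_unif]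
  rfl

/-- The image of a period under `torsionExp` is defined over the subfield. -/
theorem exists_torsion_lift {n : ℕ} (hn : n ≠ 0) (l : periods F) :
    ∃ x : Pic0 k F₀, n • x = 0 ∧ extC k F₀ F x = torsionExp n l :=
  ConstExt.exists_torsion_preimage hn (nsmul_torsionExp hn l)

variable (k F₀ F) (p : ℕ) [hp : Fact p.Prime]

/-- `l ↦ l / p ^ n`. -/
def torsLift (n : ℕ) : periods F →+ Pic0 k F₀ :=
  AddMonoidHom.mk'
    (fun l => (exists_torsion_lift (k := k) (F₀ := F₀) (pow_ne_zero n hp.out.ne_zero) l).choose)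
    fun l m => ConstExt.pic0Ext_injective (K := ℂ) (F := F)
      ((exists_torsion_lift (pow_ne_zero n hp.out.ne_zero) (l + m)).choose_spec.2.trans
      ((map_add _ _ _).trans ((congrArg₂ (· + ·)
        (exists_torsion_lift (pow_ne_zero n hp.out.ne_zero) l).choose_spec.2
        (exists_torsion_lift (pow_ne_zero n hp.out.ne_zero) m).choose_spec.2).symm.trans
          (map_add _ _ _).symm)))

/-- The torsion point of a period, after extension to `ℂ`. -/
theorem extC_torsLift (n : ℕ) (l : periods F) :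
    extC k F₀ F (torsLift k F₀ F p n l) = torsionExp (p ^ n) l :=
  (exists_torsion_lift (pow_ne_zero n hp.out.ne_zero) l).choose_spec.2

/-- Every `p ^ n`-torsion class comes from a period. -/
theorem exists_torsLift (n : ℕ) (x : Pic0 k F₀) (hx : p ^ n • x = 0) :
    ∃ l, torsLift k F₀ F p n l = x := by
  obtain ⟨l, hl⟩ := exists_torsionExp (x := extC k F₀ F x) (pow_ne_zero n hp.out.ne_zero)
    (by rw [← map_nsmul, hx, map_zero])
  exact ⟨l, ConstExt.pic0Ext_injective (K := ℂ) (F := F) ((extC_torsLift k F₀ F p n l).trans hl)⟩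

/-- A period gives zero iff it is divisible by `p ^ n`. -/
theorem torsLift_eq_zero_iff (n : ℕ) (l : periods F) :
    torsLift k F₀ F p n l = 0 ↔ ∃ m : periods F, p ^ n • m = l := by
  rw [← torsionExp_eq_zero_iff (pow_ne_zero n hp.out.ne_zero), ← extC_torsLift k F₀ F p n l]
  exact ⟨fun h => by rw [h, map_zero],
    fun h => ConstExt.pic0Ext_injective (K := ℂ) (F := F) (h.trans (map_zero _).symm)⟩

/-- Multiplication by `p` lowers the level. -/
theorem p_smul_torsLift (n : ℕ) (l : periods F) :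
    p • torsLift k F₀ F p (n + 1) l = torsLift k F₀ F p n l :=
  ConstExt.pic0Ext_injective (K := ℂ) (F := F) (by
    change extC k F₀ F _ = extC k F₀ F _
    rw [map_nsmul, extC_torsLift, extC_torsLift, pow_succ, nsmul_torsionExp_mul hp.out.ne_zero])

/-- Torsion points are compatible with induced endomorphisms. -/
theorem torsLift_apply {f : inducedAlg k F₀ F} (n : ℕ) (l l' : periods F)
    (hl' : (l' : DiffDual F) = f.1 l) :
    torsLift k F₀ F p n l' = inducedAct k F₀ F f (torsLift k F₀ F p n l) :=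
  ConstExt.pic0Ext_injective (K := ℂ) (F := F) (by
    change extC k F₀ F _ = extC k F₀ F _
    rw [extC_torsLift, isInducedBy_inducedAct f _ _
      ((extC_torsLift k F₀ F p n l).trans (torsionExp_apply _ _)), torsionExp_apply, hl',
      LinearMap.map_smul])

end Induced

section Adjoin

variable {A : Type*} [Ring A] {s : Set A} {J : Type*} [AddCommGroup J]

/-- The elements acting self-adjointly for a pairing on `n`-torsion contain the ring generated by
self-adjoint elements. -/
theorem pair_act_of_mem_adjoin (act : Algebra.adjoin ℤ s →+* AddMonoid.End J) (n : ℕ)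
    {G : Type*} [CommMonoidWithZero G] [IsRightCancelMulZero G] (e : J → J → G)
    (hA : ∀ a b : Algebra.adjoin ℤ s, a * b = b * a)
    (hne : ∀ x y : J, n • x = 0 → n • y = 0 → e x y ≠ 0)
    (hl : ∀ x x' y : J, n • x = 0 → n • x' = 0 → n • y = 0 → e (x + x') y = e x y * e x' y)
    (hr : ∀ x y y' : J, n • x = 0 → n • y = 0 → n • y' = 0 → e x (y + y') = e x y * e x y')
    (hgen : ∀ a : Algebra.adjoin ℤ s, (a : A) ∈ s → ∀ x y : J, n • x = 0 → n • y = 0 →
      e (act a x) y = e x (act a y)) (a : Algebra.adjoin ℤ s) :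
    ∀ x y : J, n • x = 0 → n • y = 0 → e (act a x) y = e x (act a y) := by
  have htors : ∀ (b : Algebra.adjoin ℤ s) (x : J), n • x = 0 → n • act b x = 0 := fun b x hx => by
    rw [← map_nsmul, hx, map_zero]
  -- the pairing with zero is trivial
  have h0 : ∀ x y : J, n • x = 0 → n • y = 0 → e 0 y = e x 0 := fun x y hx hy => by
    have hz : n • (0 : J) = 0 := nsmul_zero n
    have h1 : e 0 y = 1 := mul_right_cancel₀ (hne 0 y hz hy) (by
      rw [one_mul, ← hl 0 0 y hz hz hy, add_zero])
    have h2 : e x 0 = 1 := mul_right_cancel₀ (hne x 0 hx hz) (by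
      rw [one_mul, ← hr x 0 0 hx hz hz, add_zero])
    rw [h1, h2]
  obtain ⟨a, ha⟩ := a
  have hcl : a ∈ Subring.closure s := by
    have := ha
    rwa [Algebra.adjoin_int] at this
  have hmem : ∀ {b : A}, b ∈ Subring.closure s → b ∈ Algebra.adjoin ℤ s := fun hb => by
    rw [Algebra.adjoin_int]
    exact hb
  -- induction on the subring generated by `s`
  induction hcl using Subring.closure_induction with
  | mem b hb => exact hgen ⟨b, ha⟩ hb
  | zero =>
    intro x y hx hy
    rw [show (⟨0, ha⟩ : Algebra.adjoin ℤ s) = 0 from rfl, map_zero]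
    exact h0 x y hx hy
  | one =>
    intro x y hx hy
    rw [show (⟨1, ha⟩ : Algebra.adjoin ℤ s) = 1 from rfl, map_one]
    rfl
  | add b c hb hc h1 h2 =>
    intro x y hx hy
    rw [show (⟨b + c, ha⟩ : Algebra.adjoin ℤ s) = ⟨b, hmem hb⟩ + ⟨c, hmem hc⟩ from rfl, map_add]
    change e (act _ x + act _ x) y = e x (act _ y + act _ y)
    rw [hl _ _ _ (htors _ x hx) (htors _ x hx) hy, hr _ _ _ hx (htors _ y hy) (htors _ y hy),
      h1 _ x y hx hy, h2 _ x y hx hy]
  | neg b hb h1 =>
    intro x y hx hy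
    rw [show (⟨-b, ha⟩ : Algebra.adjoin ℤ s) = -⟨b, hmem hb⟩ from rfl, map_neg]
    change e (-act _ x) y = e x (-act _ y)
    have hx' := htors ⟨b, hmem hb⟩ x hx
    have hy' := htors ⟨b, hmem hb⟩ y hy
    have hnx : n • (-act ⟨b, hmem hb⟩ x) = 0 := by rw [smul_neg, hx', neg_zero]
    have hny : n • (-act ⟨b, hmem hb⟩ y) = 0 := by rw [smul_neg, hy', neg_zero]
    refine mul_right_cancel₀ (hne _ _ hx' hy) ?_
    rw [← hl _ _ _ hnx hx' hy, h1 _ x y hx hy, ← hr _ _ _ hx hny hy', neg_add_cancel,
      neg_add_cancel]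
    exact h0 x y hx hy
  | mul b c hb hc h1 h2 =>
    intro x y hx hy
    have hcomm : act (⟨b, hmem hb⟩ * ⟨c, hmem hc⟩) x = act ⟨b, hmem hb⟩ (act ⟨c, hmem hc⟩ x) := by
      rw [map_mul]
      rfl
    rw [show (⟨b * c, ha⟩ : Algebra.adjoin ℤ s) = ⟨b, hmem hb⟩ * ⟨c, hmem hc⟩ from rfl, hcomm,
      h1 _ _ _ (htors _ x hx) hy, h2 _ _ _ hx (htors _ y hy), hA, map_mul]
    rfl

end Adjoin

end Fermat.JAC

end
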