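import Fermat.Agent.JAC.EvalDiv

/-!
# The Weil pairing on the torsion of `Pic⁰`

`weilPairing n x y = f(E) / g(D)` for disjoint representatives `D`, `E` of `x`, `y` and
`div f = n D`, `div g = n E`; it is `1` when `x`, `y` are not both killed by `n`.
-/

set_option autoImplicit false

noncomputable section

open AlgebraicCurve

namespace Fermat.JAC

open Fermat.FF

variable {K F : Type*} [Field K] [Field F] [Algebra K F] [IsAlgClosed K] [IsFunctionField K F]

/-- Disjoint representatives with functions witnessing that they are killed by `n`. -/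
structure PairRep (n : ℕ) (x y : Pic0 K F) where
  /-- The representative of `x`. -/
  D : Divisor.degZero (K := K) (F := F)
  /-- The representative of `y`. -/
  E : Divisor.degZero (K := K) (F := F)
  /-- The function witnessing that `n • D` is principal. -/
  f : F
  /-- The function witnessing that `n • E` is principal. -/
  g : F
  /-- `D` represents `x`. -/
  mk_D : Pic0.mk D = x
  /-- `E` represents `y`. -/
  mk_E : Pic0.mk E = y
  /-- `f` is nonzero. -/
  f_ne : f ≠ 0
  /-- `g` is nonzero. -/
  g_ne : g ≠ 0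
  /-- The divisor of `f` is `n D`. -/
  div_f : divOf K f = n • (D : Divisor K F)
  /-- The divisor of `g` is `n E`. -/
  div_g : divOf K g = n • (E : Divisor K F)
  /-- `D` and `E` have disjoint supports. -/
  disj : DisjSupp (D : Divisor K F) (E : Divisor K F)

namespace PairRep

variable {n : ℕ} {x y : Pic0 K F} (r : PairRep n x y)

/-- The value of a representative. -/
def val : K := evalDiv r.f (r.E : Divisor K F) / evalDiv r.g (r.D : Divisor K F)

/-- The first function avoids the second divisor. -/
theorem avoids_f : Avoids r.f (r.E : Divisor K F) := avoids_of_divOf r.div_f r.disj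

/-- The second function avoids the first divisor. -/
theorem avoids_g : Avoids r.g (r.D : Divisor K F) := avoids_of_divOf r.div_g r.disj.symm

/-- The value of a representative is nonzero. -/
theorem val_ne_zero : r.val ≠ 0 :=
  div_ne_zero (evalDiv_ne_zero r.f_ne r.avoids_f) (evalDiv_ne_zero r.g_ne r.avoids_g)

/-- The representative of the pairing of `y` with `x`. -/
def swap : PairRep n y x where
  D := r.E
  E := r.D
  f := r.g
  g := r.f
  mk_D := r.mk_E
  mk_E := r.mk_D
  f_ne := r.g_ne
  g_ne := r.f_ne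
  div_f := r.div_g
  div_g := r.div_f
  disj := r.disj.symm

/-- Swapping inverts the value. -/
theorem val_swap : r.swap.val = r.val⁻¹ := (inv_div _ _).symm

/-- Independence of the second representative. -/
theorem val_eq_of_D_eq {r r' : PairRep n x y} (hD : r.D = r'.D) : r.val = r'.val := by
  obtain ⟨u, hu, hE⟩ := pic0_mk_congr (r.mk_E.trans r'.mk_E.symm)
  have hdeg : ∀ A : Divisor.degZero (K := K) (F := F), Divisor.degree (A : Divisor K F) = 0 :=
    fun A => Divisor.mem_degZero.mp A.2
  have hDu : DisjSupp (r.D : Divisor K F) (divOf K u) := fun v => by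
    rcases r.disj v with h | h
    · exact .inl h
    rcases r'.disj v with h' | h'
    · exact .inl (hD ▸ h')
    · refine .inr ?_
      rw [hE, Finsupp.add_apply, h, zero_add] at h'
      exact h'
  have hg' : divOf K r'.g = divOf K (r.g * u ^ n) := by
    rw [divOf_mul r.g_ne (pow_ne_zero _ hu), divOf_pow, r.div_g, r'.div_g, hE, nsmul_add]
  have hf' : divOf K r'.f = divOf K r.f := by rw [r'.div_f, r.div_f, hD]
  have hu' : Avoids u (r.D : Divisor K F) := fun v hv => by
    rw [← divOf_apply]; exact (hDu v).resolve_left hv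
  have hu'' : Avoids (u ^ n) (r.D : Divisor K F) := fun v hv => by rw [ord_pow, hu' v hv, mul_zero]
  have hfu : Avoids r.f (divOf K u) := avoids_of_divOf r.div_f hDu
  have hfE : evalDiv r'.f (r'.E : Divisor K F) =
      evalDiv r.f (r.E : Divisor K F) * evalDiv u (r.D : Divisor K F) ^ n := by
    rw [evalDiv_congr_divOf r'.f_ne r.f_ne hf' (hdeg _)
      (avoids_of_divOf r.div_f (hD ▸ r'.disj)), hE, evalDiv_add r.f_ne r.avoids_f hfu,
      weil_reciprocity r.f_ne hu fun v => ?_, r.div_f, evalDiv_nsmul]
    rw [← divOf_apply r.f, ← divOf_apply u, r.div_f, Finsupp.smul_apply]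
    exact (hDu v).imp_left fun h => by rw [h, smul_zero]
  have hgD : evalDiv r'.g (r'.D : Divisor K F) =
      evalDiv r.g (r.D : Divisor K F) * evalDiv u (r.D : Divisor K F) ^ n := by
    rw [← hD, evalDiv_congr_divOf r'.g_ne (mul_ne_zero r.g_ne (pow_ne_zero _ hu)) hg' (hdeg _)
      (fun v hv => by rw [v.ord_mul r.g_ne (pow_ne_zero _ hu), r.avoids_g v hv, hu'' v hv,
        add_zero]), evalDiv_mul r.avoids_g hu'', evalDiv_pow hu']
  rw [val, val, hfE, hgD, mul_div_mul_right]
  exact pow_ne_zero _ (evalDiv_ne_zero hu hu')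

/-- Independence of the first representative. -/
theorem val_eq_of_E_eq {r r' : PairRep n x y} (hE : r.E = r'.E) : r.val = r'.val := by
  have h := val_eq_of_D_eq (r := r.swap) (r' := r'.swap) hE
  rwa [val_swap, val_swap, inv_inj] at h

end PairRep

/-- A representative avoiding given places exists for a class killed by `n`. -/
theorem exists_torsion_rep {n : ℕ} {x : Pic0 K F} (hx : n • x = 0) (S : Finset (Place K F)) :
    ∃ D : Divisor.degZero (K := K) (F := F), ∃ f : F, Pic0.mk D = x ∧ f ≠ 0 ∧
      divOf K f = n • (D : Divisor K F) ∧ ∀ v ∈ S, (D : Divisor K F) v = 0 := by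
  obtain ⟨D, hD, hS⟩ := exists_rep x S
  obtain ⟨f, hf, hdiv⟩ := exists_divOf_eq_nsmul (by rw [hD]; exact hx)
  exact ⟨D, f, hD, hf, hdiv, hS⟩

omit [IsAlgClosed K] [IsFunctionField K F] in
/-- Divisors supported on and off a finite set have disjoint supports. -/
theorem disjSupp_of_forall_support {D E : Divisor K F} {S : Finset (Place K F)}
    (h : D.support ⊆ S) (hE : ∀ v ∈ S, E v = 0) : DisjSupp D E := fun v => by
  by_cases hv : v ∈ D.support
  · exact .inr (hE v (h hv))
  · exact .inl (Finsupp.notMem_support_iff.mp hv)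

/-- Classes killed by `n` have disjoint representatives. -/
theorem nonempty_pairRep {n : ℕ} {x y : Pic0 K F} (hx : n • x = 0) (hy : n • y = 0) :
    Nonempty (PairRep n x y) := by
  obtain ⟨D, f, hD, hf, hdf, -⟩ := exists_torsion_rep hx ∅
  obtain ⟨E, g, hE, hg, hdg, hS⟩ := exists_torsion_rep hy (D : Divisor K F).support
  exact ⟨⟨D, E, f, g, hD, hE, hf, hg, hdf, hdg, disjSupp_of_forall_support subset_rfl hS⟩⟩

/-- The value is independent of the representatives. -/
theorem PairRep.val_eq {n : ℕ} {x y : Pic0 K F} (r r' : PairRep n x y) : r.val = r'.val := by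
  classical
  have hy : n • y = 0 := by
    rw [← r.mk_E, pic0_mk_nsmul]
    exact pic0_mk_eq_zero_iff.mpr ⟨r.g, r.g_ne, by simpa using r.div_g⟩
  obtain ⟨E, g, hE, hg, hdg, hS⟩ :=
    exists_torsion_rep hy ((r.D : Divisor K F).support ∪ (r'.D : Divisor K F).support)
  let r₁ : PairRep n x y := ⟨r.D, E, r.f, g, r.mk_D, hE, r.f_ne, hg, r.div_f, hdg,
    disjSupp_of_forall_support Finset.subset_union_left hS⟩
  let r₂ : PairRep n x y := ⟨r'.D, E, r'.f, g, r'.mk_D, hE, r'.f_ne, hg, r'.div_f, hdg,
    disjSupp_of_forall_support Finset.subset_union_right hS⟩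
  calc r.val = r₁.val := PairRep.val_eq_of_D_eq rfl
    _ = r₂.val := PairRep.val_eq_of_E_eq rfl
    _ = r'.val := PairRep.val_eq_of_D_eq rfl

/-- The Weil pairing. -/
def weilPairing (n : ℕ) (x y : Pic0 K F) : K :=
  haveI := Classical.propDecidable (Nonempty (PairRep n x y))
  if h : Nonempty (PairRep n x y) then h.some.val else 1

/-- Any representative computes the pairing. -/
theorem PairRep.weilPairing_eq {n : ℕ} {x y : Pic0 K F} (r : PairRep n x y) :
    weilPairing n x y = r.val := by
  rw [weilPairing, dif_pos ⟨r⟩]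
  exact PairRep.val_eq _ _

/-- The pairing is nonzero on torsion. -/
theorem weilPairing_ne_zero {n : ℕ} {x y : Pic0 K F} (hx : n • x = 0) (hy : n • y = 0) :
    weilPairing n x y ≠ 0 := by
  obtain ⟨r⟩ := nonempty_pairRep hx hy
  rw [r.weilPairing_eq]
  exact r.val_ne_zero

/-- The pairing is skew-symmetric. -/
theorem weilPairing_symm {n : ℕ} {x y : Pic0 K F} (hx : n • x = 0) (hy : n • y = 0) :
    weilPairing n y x * weilPairing n x y = 1 := by
  obtain ⟨r⟩ := nonempty_pairRep hx hy
  rw [r.weilPairing_eq, r.swap.weilPairing_eq, r.val_swap, inv_mul_cancel₀ r.val_ne_zero]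

/-- The pairing takes values in the `n`-th roots of unity. -/
theorem weilPairing_pow {n : ℕ} {x y : Pic0 K F} (hx : n • x = 0) (hy : n • y = 0) :
    weilPairing n x y ^ n = 1 := by
  obtain ⟨r⟩ := nonempty_pairRep hx hy
  rw [r.weilPairing_eq, PairRep.val, div_pow, ← evalDiv_nsmul, ← evalDiv_nsmul, ← r.div_f,
    ← r.div_g, weil_reciprocity r.f_ne r.g_ne fun v => ?_, div_self]
  · refine evalDiv_ne_zero r.g_ne fun v hv => ?_
    rw [r.div_f, Finsupp.smul_apply] at hv
    exact r.avoids_g v (right_ne_zero_of_smul hv)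
  · rw [← divOf_apply r.f, ← divOf_apply r.g, r.div_f, r.div_g]
    exact ((r.disj.nsmul_left n).nsmul_right n) v

/-- The Weil pairing is multiplicative in the first variable. -/
theorem weilPairing_add_left {n : ℕ} {x x' y : Pic0 K F} (hx : n • x = 0) (hx' : n • x' = 0)
    (hy : n • y = 0) :
    weilPairing n (x + x') y = weilPairing n x y * weilPairing n x' y := by
  classical
  obtain ⟨D, f, hD, hf, hdf, -⟩ := exists_torsion_rep hx ∅
  obtain ⟨D', f', hD', hf', hdf', -⟩ := exists_torsion_rep hx' ∅
  obtain ⟨E, g, hE, hg, hdg, hS⟩ :=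
    exists_torsion_rep hy ((D : Divisor K F).support ∪ (D' : Divisor K F).support)
  have h1 : DisjSupp (D : Divisor K F) (E : Divisor K F) :=
    disjSupp_of_forall_support Finset.subset_union_left hS
  have h2 : DisjSupp (D' : Divisor K F) (E : Divisor K F) :=
    disjSupp_of_forall_support Finset.subset_union_right hS
  let r₁ : PairRep n x y := ⟨D, E, f, g, hD, hE, hf, hg, hdf, hdg, h1⟩
  let r₂ : PairRep n x' y := ⟨D', E, f', g, hD', hE, hf', hg, hdf', hdg, h2⟩
  let r : PairRep n (x + x') y := ⟨D + D', E, f * f', g, by rw [Pic0.mk_add, hD, hD'], hE,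
    mul_ne_zero hf hf', hg, by rw [divOf_mul hf hf', hdf, hdf', ← nsmul_add]; rfl, hdg,
    (h1.symm.add_right h2.symm).symm⟩
  rw [r.weilPairing_eq, r₁.weilPairing_eq, r₂.weilPairing_eq]
  change evalDiv (f * f') (E : Divisor K F) / evalDiv g ((D : Divisor K F) + (D' : Divisor K F)) = _
  rw [evalDiv_mul r₁.avoids_f r₂.avoids_f, evalDiv_add hg r₁.avoids_g r₂.avoids_g, PairRep.val,
    PairRep.val, div_mul_div_comm]

/-- The Weil pairing is multiplicative in the second variable. -/
theorem weilPairing_add_right {n : ℕ} {x y y' : Pic0 K F} (hx : n • x = 0) (hy : n • y = 0)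
    (hy' : n • y' = 0) :
    weilPairing n x (y + y') = weilPairing n x y * weilPairing n x y' := by
  have h1 := weilPairing_symm hx hy
  have h2 := weilPairing_symm hx hy'
  have h3 := weilPairing_symm hx (by rw [nsmul_add, hy, hy', add_zero] : n • (y + y') = 0)
  rw [weilPairing_add_left hy hy' hx] at h3
  refine mul_left_cancel₀ (mul_ne_zero (weilPairing_ne_zero hy hx) (weilPairing_ne_zero hy' hx)) ?_
  rw [h3, mul_mul_mul_comm, h1, h2, one_mul]

/-- The pairing at level `n` of `m`-multiples is the `m`-th power of the one at level `n m`. -/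
theorem weilPairing_nsmul {n m : ℕ} {x y : Pic0 K F} (hx : (n * m) • x = 0)
    (hy : (n * m) • y = 0) :
    weilPairing n (m • x) (m • y) = weilPairing (n * m) x y ^ m := by
  obtain ⟨r⟩ := nonempty_pairRep hx hy
  let r' : PairRep n (m • x) (m • y) := ⟨m • r.D, m • r.E, r.f, r.g,
    by rw [← pic0_mk_nsmul, r.mk_D], by rw [← pic0_mk_nsmul, r.mk_E], r.f_ne, r.g_ne,
    by rw [AddSubgroupClass.coe_nsmul, r.div_f, mul_nsmul'],
    by rw [AddSubgroupClass.coe_nsmul, r.div_g, mul_nsmul'],
    by simpa using (r.disj.nsmul_left m).nsmul_right m⟩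
  rw [r.weilPairing_eq, r'.weilPairing_eq, PairRep.val, PairRep.val, div_pow, ← evalDiv_nsmul,
    ← evalDiv_nsmul]
  rfl

/-- Galois equivariance. -/
theorem weilPairing_smul {n : ℕ} {x y : Pic0 K F} (hx : n • x = 0) (hy : n • y = 0)
    (s : SemilinearAut K F) :
    weilPairing n (s • x) (s • y) = SemilinearAut.baseAut s (weilPairing n x y) := by
  obtain ⟨r⟩ := nonempty_pairRep hx hy
  let r' : PairRep n (s • x) (s • y) := ⟨SemilinearAut.degZeroSMulHom s r.D,
    SemilinearAut.degZeroSMulHom s r.E, s • r.f, s • r.g,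
    by rw [← SemilinearAut.pic0_smul_mk, r.mk_D], by rw [← SemilinearAut.pic0_smul_mk, r.mk_E],
    (smul_ne_zero_iff_ne s).mpr r.f_ne, (smul_ne_zero_iff_ne s).mpr r.g_ne,
    by rw [divOf_smul, r.div_f, SemilinearAut.coe_degZeroSMulHom];
         exact (map_nsmul (DistribSMul.toAddMonoidHom (Divisor K F) s) n _),
    by rw [divOf_smul, r.div_g, SemilinearAut.coe_degZeroSMulHom];
         exact (map_nsmul (DistribSMul.toAddMonoidHom (Divisor K F) s) n _),
    fun v => by
      simp only [SemilinearAut.coe_degZeroSMulHom, SemilinearAut.divisor_smul_apply]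
      exact r.disj _⟩
  rw [r.weilPairing_eq, r'.weilPairing_eq, PairRep.val, PairRep.val, map_div₀,
    ← evalDiv_smul s r.avoids_f, ← evalDiv_smul s r.avoids_g]
  rfl

section Maps

variable {F' : Type*} [Field F'] [Algebra K F'] [IsFunctionField K F'] (φ : F →ₐ[K] F')

/-- Pullback is adjoint to pushforward. -/
theorem weilPairing_pullPic {n : ℕ} {x : Pic0 K F} {y : Pic0 K F'} (hx : n • x = 0)
    (hy : n • y = 0) :
    weilPairing n (pullPic φ x) y = weilPairing n x (pushPic φ y) := by
  classical
  -- representatives, the one of `y` avoiding the places above that of `x`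
  obtain ⟨D, f, hD, hf, hdf, -⟩ := exists_torsion_rep hx ∅
  obtain ⟨E, g, hE, hg, hdg, hS⟩ :=
    exists_torsion_rep hy ((D : Divisor K F).support.biUnion (above φ))
  have hE0 : ∀ w, (D : Divisor K F) (below φ w) ≠ 0 → (E : Divisor K F') w = 0 := fun w hw =>
    hS w (Finset.mem_biUnion.mpr ⟨_, Finsupp.mem_support_iff.mpr hw, (mem_above φ).mpr rfl⟩)
  have hpull : pullDiv φ (D : Divisor K F) ∈ Divisor.degZero (K := K) (F := F') := by
    rw [Divisor.mem_degZero, degree_pullDiv, Divisor.mem_degZero.mp D.2, mul_zero]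
  have hpush : pushDiv φ (E : Divisor K F') ∈ Divisor.degZero (K := K) (F := F) := by
    rw [Divisor.mem_degZero, degree_pushDiv, Divisor.mem_degZero.mp E.2]
  -- they give representatives of both pairings
  let r₁ : PairRep n (pullPic φ x) y := ⟨⟨_, hpull⟩, E, φ f, g,
    by rw [← hD, pullPic_mk φ D hpull], hE, (map_ne_zero φ).mpr hf, hg,
    by rw [← pullDiv_divOf, hdf, map_nsmul], hdg,
    fun w => by
      by_cases h : (D : Divisor K F) (below φ w) = 0
      · exact .inl (by change pullDiv φ _ w = 0; rw [pullDiv_apply, h, mul_zero])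
      · exact .inr (hE0 w h)⟩
  let r₂ : PairRep n x (pushPic φ y) := ⟨D, ⟨_, hpush⟩, f, normAlong φ g, hD,
    by rw [← hE, pushPic_mk φ E hpush], hf, normAlong_ne_zero φ hg, hdf,
    by rw [← pushDiv_divOf φ hg, hdg, map_nsmul],
    fun v => by
      by_cases h : (D : Divisor K F) v = 0
      · exact .inl h
      · refine .inr ?_
        change pushDiv φ (E : Divisor K F') v = 0
        rw [pushDiv_apply]
        exact Finset.sum_eq_zero fun w hw => hE0 w (by rwa [(mem_above φ).mp hw])⟩
  rw [r₁.weilPairing_eq, r₂.weilPairing_eq]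
  change evalDiv (φ f) (E : Divisor K F') / evalDiv g (pullDiv φ (D : Divisor K F)) =
    evalDiv f (pushDiv φ (E : Divisor K F')) / evalDiv (normAlong φ g) (D : Divisor K F)
  -- these agree by projection formulas for evaluation at divisors
  rw [evalDiv_comp φ hf _ fun w hw => ?_, evalDiv_pullDiv φ _ fun w hw => ?_]
  · rw [← divOf_apply, hdg, Finsupp.smul_apply, hE0 w hw, smul_zero]
  · rw [← divOf_apply, hdf, Finsupp.smul_apply]
    by_contra h
    exact hw (hE0 w (right_ne_zero_of_smul h))

/-- Pushforward is adjoint to pullback. -/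
theorem weilPairing_pushPic {n : ℕ} {x : Pic0 K F'} {y : Pic0 K F} (hx : n • x = 0)
    (hy : n • y = 0) :
    weilPairing n (pushPic φ x) y = weilPairing n x (pullPic φ y) := by
  have hx' : n • pushPic φ x = 0 := by rw [← map_nsmul, hx, map_zero]
  have hy' : n • pullPic φ y = 0 := by rw [← map_nsmul, hy, map_zero]
  refine mul_left_cancel₀ (weilPairing_ne_zero hy hx') ?_
  rw [weilPairing_symm hx' hy, ← weilPairing_pullPic φ hy hx, weilPairing_symm hx hy']

/-- The adjoint of a correspondence is the transposed correspondence. -/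
theorem weilPairing_correspondence (φ ψ : F →ₐ[K] F') {n : ℕ} {x y : Pic0 K F} (hx : n • x = 0)
    (hy : n • y = 0) :
    weilPairing n (pushPic ψ (pullPic φ x)) y = weilPairing n x (pushPic φ (pullPic ψ y)) := by
  rw [weilPairing_pushPic ψ (by rw [← map_nsmul, hx, map_zero]) hy,
    weilPairing_pullPic φ hx (by rw [← map_nsmul, hy, map_zero])]

end Maps

end Fermat.JAC

end
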