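import Fermat.Agent.JAC.SemilinearPic
import Fermat.Agent.JAC.Induced
import Fermat.Agent.JAC.DiffReal
import Fermat.Agent.JAC.WeilPairing

/-!
# Automorphisms as correspondences, commutation and adjointness of correspondences

An automorphism acts on linear forms by `autDual`, which induces its action on `Pic⁰`
(`isInducedBy_autDual`).
-/

set_option autoImplicit false

noncomputable section

open AlgebraicCurve

namespace Fermat.JAC

open Fermat.FF

section Field

variable {K F F' : Type*} [Field K] [Field F] [Field F'] [Algebra K F] [Algebra K F']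
  [IsAlgClosed K] [IsFunctionField K F] [IsFunctionField K F']

/-- The place below a transformed place is the place, unramified. -/
theorem below_algAut (d : F ≃ₐ[K] F) (v : Place K F) :
    below d.toAlgHom (SemilinearAut.ofAlgAut d • v) = v ∧
      (SemilinearAut.ofAlgAut d • v).ramificationIndexAlong d.toAlgHom = 1 := by
  set w := SemilinearAut.ofAlgAut d • v
  have he : ∀ f, (1 : ℤ) * v.ord f =
      (w.ramificationIndexAlong d.toAlgHom : ℤ) * (below d.toAlgHom w).ord f := fun f => by
    rw [one_mul, ← ord_below]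
    exact (SemilinearAut.ord_smul (SemilinearAut.ofAlgAut d) v f).symm
  have hv := place_eq_of_ord_mul one_pos
    (by exact_mod_cast ramificationIndexAlong_pos d.toAlgHom w) he
  refine ⟨hv.symm, ?_⟩
  obtain ⟨t, -, ht⟩ := exists_ord_eq_one v
  have h1 := he t
  rw [← hv, ht, mul_one, mul_one] at h1
  exact_mod_cast h1.symm

/-- Pullback along an automorphism is its action on classes. -/
theorem pullPic_algAut (d : F ≃ₐ[K] F) (x : Pic0 K F) :
    pullPic d.toAlgHom x = SemilinearAut.ofAlgAut d • x := by
  obtain ⟨D, rfl⟩ := Pic0.mk_surjective x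
  rw [SemilinearAut.pic0_smul_mk]
  refine congrArg Pic0.mk (Subtype.ext (Finsupp.ext fun w => ?_))
  obtain ⟨v, rfl⟩ : ∃ v, SemilinearAut.ofAlgAut d • v = w :=
    ⟨(SemilinearAut.ofAlgAut d)⁻¹ • w, smul_inv_smul _ w⟩
  change pullDiv d.toAlgHom (D : Divisor K F) _ = _
  rw [pullDiv_apply, (below_algAut d v).1, (below_algAut d v).2,
    SemilinearAut.coe_degZeroSMulHom, SemilinearAut.divisor_smul_apply_smul, Nat.cast_one, one_mul]

/-- Pushforward along the identity is the identity. -/
theorem pushPic_id (x : Pic0 K F) : pushPic (AlgHom.id K F) x = x := by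
  obtain ⟨D, rfl⟩ := Pic0.mk_surjective x
  refine congrArg Pic0.mk (Subtype.ext ?_)
  change pushDiv (AlgHom.id K F) (D : Divisor K F) = _
  have hb : ∀ w : Place K F, below (AlgHom.id K F) w = w := fun w =>
    place_eq_of_ord_mul (a := (w.ramificationIndexAlong (AlgHom.id K F) : ℤ))
      (by exact_mod_cast ramificationIndexAlong_pos (AlgHom.id K F) w) one_pos
      fun f => by rw [← ord_below, one_mul]; rfl
  induction (D : Divisor K F) using Finsupp.induction with
  | zero => simp
  | single_add w n E _ _ ih => rw [map_add, pushDiv_single, hb, ih]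

variable {α β : F →ₐ[K] F'} {s : SemilinearAut K F} {s' : SemilinearAut K F'}

/-- A correspondence commutes with an automorphism commuting with both of its maps. -/
theorem corr_smul (hα : ∀ f, s' • α f = α (s • f)) (hβ : ∀ f, s' • β f = β (s • f)) (x : Pic0 K F) :
    pushPic α (pullPic β (s • x)) = s • pushPic α (pullPic β x) := by
  rw [pullPic_smul hβ, pushPic_smul hα]

/-- An automorphism exchanging the maps conjugates the correspondence to its transpose. -/
theorem corr_transpose_smul (hα : ∀ f, s' • α f = β (s • f)) (hβ : ∀ f, s' • β f = α (s • f))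
    (x : Pic0 K F) :
    pushPic β (pullPic α (s • x)) = s • pushPic α (pullPic β x) := by
  rw [pullPic_smul hβ, pushPic_smul hα]

/-- Such a correspondence is self-adjoint for the pairing twisted by the automorphism. -/
theorem weilPairing_corr_smul (hα : ∀ f, s' • α f = β (s • f))
    (hβ : ∀ f, s' • β f = α (s • f)) {n : ℕ} {x y : Pic0 K F} (hx : n • x = 0) (hy : n • y = 0) :
    weilPairing n (pushPic α (pullPic β x)) (s • y) =
      weilPairing n x (s • pushPic α (pullPic β y)) := by
  have hy' : n • (s • y) = 0 := by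
    have h := (DistribSMul.toAddMonoidHom (Pic0 K F) s).map_nsmul n y
    rw [hy, map_zero] at h
    exact h.symm
  rw [weilPairing_correspondence β α hx hy', corr_transpose_smul hα hβ]

end Field

section Complex

variable {F F' : Type*} [Field F] [Algebra ℂ F] [IsFunctionField ℂ F] [Field F'] [Algebra ℂ F']
  [IsFunctionField ℂ F']

/-- The lift of a correspondence to linear forms. -/
def corrDual (φ ψ : F →ₐ[ℂ] F') : Module.End ℂ (DiffDual F) :=
  LinearMap.lcomp ℂ ℂ ((regTrace φ).comp (regPull ψ))

/-- The lift of a correspondence covers it under uniformisation. -/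
theorem unif_corrDual (φ ψ : F →ₐ[ℂ] F') (v : DiffDual F) :
    unif F (corrDual φ ψ v) = pushPic ψ (pullPic φ (unif F v)) :=
  (correspondence_unif φ ψ v).symm

/-- The lift of an automorphism to linear forms. -/
def autDual (d : F ≃ₐ[ℂ] F) : Module.End ℂ (DiffDual F) := corrDual d.toAlgHom (AlgHom.id ℂ F)

/-- The lift of an automorphism covers its action. -/
theorem unif_autDual (d : F ≃ₐ[ℂ] F) (v : DiffDual F) :
    unif F (autDual d v) = SemilinearAut.ofAlgAut d • unif F v := by
  rw [autDual, unif_corrDual, pullPic_algAut, pushPic_id]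

/-- The lift of automorphisms is multiplicative. -/
theorem autDual_mul (d d' : F ≃ₐ[ℂ] F) : autDual (d * d') = autDual d * autDual d' :=
  eq_of_unif_eq fun v => by
    rw [Module.End.mul_apply, unif_autDual, unif_autDual, unif_autDual, map_mul, mul_smul]

/-- The lift of the identity is the identity. -/
theorem autDual_one : autDual (1 : F ≃ₐ[ℂ] F) = 1 :=
  eq_of_unif_eq fun v => by rw [Module.End.one_apply, unif_autDual, map_one, one_smul]

/-- The lifts of a correspondence and of a compatible automorphism commute. -/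
theorem corrDual_mul_autDual {φ ψ : F →ₐ[ℂ] F'} {d : F ≃ₐ[ℂ] F} {d' : F' ≃ₐ[ℂ] F'}
    (hφ : ∀ f, d' (φ f) = φ (d f)) (hψ : ∀ f, d' (ψ f) = ψ (d f)) :
    corrDual φ ψ * autDual d = autDual d * corrDual φ ψ :=
  eq_of_unif_eq fun v => by
    rw [Module.End.mul_apply, Module.End.mul_apply, unif_corrDual, unif_autDual, unif_autDual,
      unif_corrDual]
    exact corr_smul (α := ψ) (β := φ) (s := SemilinearAut.ofAlgAut d)
      (s' := SemilinearAut.ofAlgAut d') hψ hφ _

/-- Transposition determines a map of regular differentials. -/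
theorem regDiff_eq_of_lcomp_eq {A B : regDiff F →ₗ[ℂ] regDiff F}
    (h : (LinearMap.lcomp ℂ ℂ A : DiffDual F →ₗ[ℂ] DiffDual F) = LinearMap.lcomp ℂ ℂ B) : A = B :=
  LinearMap.ext fun ω => sub_eq_zero.mp ((Module.forall_dual_apply_eq_zero_iff ℂ _).mp fun v => by
    rw [map_sub, sub_eq_zero]
    exact LinearMap.congr_fun (LinearMap.congr_fun h v) ω)

end Complex

section Descent

variable {k F₀ F : Type*} [Field k] [Field F₀] [Field F] [Algebra k ℂ] [Algebra k F₀] [Algebra ℂ F]
  [Algebra F₀ F] [IsConstExt k ℂ F₀ F] [IsAlgClosed k] [CharZero k] [IsFunctionField k F₀]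
  [IsFunctionField ℂ F]

/-- An automorphism induces its action on `Pic⁰`. -/
theorem isInducedBy_autDual {d : F ≃ₐ[ℂ] F} {d₀ : F₀ ≃ₐ[k] F₀}
    (hd : ∀ f, d (algebraMap F₀ F f) = algebraMap F₀ F (d₀ f)) :
    IsInducedBy k F₀ F (autDual d)
      (DistribSMul.toAddMonoidHom (Pic0 k F₀) (SemilinearAut.ofAlgAut d₀)) := by
  have h := isInducedBy_correspondence (k := k) (φ := d.toAlgHom) (ψ := AlgHom.id ℂ F)
    (φ₀ := d₀.toAlgHom) (ψ₀ := AlgHom.id k F₀) hd fun f => rfl
  intro x v hv
  refine Eq.trans (congrArg _ ?_) (h x v hv)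
  change _ = pushPic (AlgHom.id k F₀) (pullPic d₀.toAlgHom x)
  rw [pushPic_id, pullPic_algAut]
  rfl

end Descent

end Fermat.JAC

end
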