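import Fermat.Agent.JAC.Periods
import Mathlib.Analysis.Normed.Module.FiniteDimension
import Mathlib.LinearAlgebra.Complex.Module
import Mathlib.LinearAlgebra.Matrix.ToLin

/-!
# The period lattice under a commutative ring of endomorphisms with a cyclic vector

If the ring preserves the lattice, commutes with a complex conjugation of the space of linear forms
on regular differentials and has a cyclic vector, then its rank is the genus and the lattice
contains a free module of rank two with finite index.
-/

set_option autoImplicit false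

noncomputable section

open AlgebraicCurve

namespace Fermat.JAC

open Fermat.FF

/-- Integer vectors independent over `ℤ` are independent over `ℝ`. -/
theorem linearIndependent_intCast {ι κ : Type*} [Fintype ι] [Fintype κ] {v : ι → κ → ℤ}
    (h : LinearIndependent ℤ v) : LinearIndependent ℝ fun i k => (v i k : ℝ) := by
  classical
  let cQ : (κ → ℤ) →ₗ[ℤ] (κ → ℚ) :=
    { toFun := fun x k => (x k : ℚ)
      map_add' := fun x y => funext fun k => by simp
      map_smul' := fun c x => funext fun k => by simp }
  have hQ : LinearIndependent ℚ fun i => cQ (v i) :=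
    (LinearIndependent.iff_fractionRing ℤ ℚ).mp (h.map' cQ (LinearMap.ker_eq_bot.mpr
      fun x y hxy => funext fun k => Int.cast_injective (congrFun hxy k)))
  obtain ⟨g, hg⟩ := (Fintype.linearCombination ℚ fun i => cQ (v i)).exists_leftInverse_of_injective
    (LinearMap.ker_eq_bot.mpr hQ.fintypeLinearCombination_injective)
  have hv : ∀ i, g (cQ (v i)) = Pi.single i 1 := fun i => by
    have h1 := LinearMap.congr_fun hg (Pi.single i 1)
    rwa [LinearMap.comp_apply, Fintype.linearCombination_apply_single, one_smul,
      LinearMap.id_apply] at h1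
  let G := (LinearMap.toMatrix' g).map (Rat.castHom ℝ)
  refine LinearIndependent.of_comp (Matrix.toLin' G) ?_
  have hG : ∀ i, Matrix.toLin' G (fun k => (v i k : ℝ)) = Pi.single i 1 := fun i => by
    funext j
    have h1 := RingHom.map_mulVec (Rat.castHom ℝ) (LinearMap.toMatrix' g) (cQ (v i)) j
    rw [LinearMap.toMatrix'_mulVec, hv, Pi.single_apply] at h1
    rw [Matrix.toLin'_apply, Pi.single_apply,
      show (fun k => (v i k : ℝ)) = Rat.castHom ℝ ∘ cQ (v i) from
        funext fun k => (Rat.cast_intCast (v i k)).symm, ← h1]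
    split_ifs <;> simp
  rw [show (Matrix.toLin' G ∘ fun i k => (v i k : ℝ)) = fun i => Pi.single i (1 : ℝ) from funext hG]
  exact Pi.linearIndependent_single_one ι ℝ

variable {F : Type*} [Field F] [Algebra ℂ F] [IsFunctionField ℂ F]
  {R : Type*} [CommRing R] [Module.Finite ℤ R] [Module.Free ℤ R]
  (op : R →+* Module.End ℂ (DiffDual F))

/-- Linear forms on regular differentials have dimension the genus. -/
theorem finrank_diffDual : Module.finrank ℂ (DiffDual F) = genusFF ℂ F :=
  Subspace.dual_finrank_eq.trans finrank_regDiff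

omit [Module.Finite ℤ R] [Module.Free ℤ R] in
/-- With a real structure, lattice endomorphisms independent over `ℤ` are independent over `ℂ`. -/
theorem linearIndependent_op (hinj : Function.Injective op)
    (hper : ∀ t, ∀ v ∈ periods F, op t v ∈ periods F)
    {c : DiffDual F →ₛₗ[starRingEnd ℂ] DiffDual F} (hcc : ∀ v, c (c v) = v)
    (hc : ∀ t v, c (op t v) = op t (c v)) {ι : Type*} [Fintype ι] (τ : Module.Basis ι ℤ R) :
    LinearIndependent ℂ fun j => op (τ j) := by
  classical
  -- In a basis of the periods the operators have integral matrices `M j`.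
  obtain ⟨b, B, hB⟩ := exists_periods_basis F
  let M : ι → Fin (2 * genusFF ℂ F) × Fin (2 * genusFF ℂ F) → ℤ := fun j x =>
    b.repr ⟨op (τ j) (B x.2), hper _ _ (by rw [hB]; exact (b x.2).2)⟩ x.1
  have hM : ∀ j x, B.repr (op (τ j) (B x.2)) x.1 = (M j x : ℝ) := fun j x => by
    conv_lhs => rw [show op (τ j) (B x.2) = ((⟨op (τ j) (B x.2),
      hper _ _ (by rw [hB]; exact (b x.2).2)⟩ : periods F) : DiffDual F) from rfl,
      ← b.sum_repr ⟨op (τ j) (B x.2), hper _ _ (by rw [hB]; exact (b x.2).2)⟩]
    simp only [AddSubmonoidClass.coe_finsetSum, Submodule.coe_smul, ← hB,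
      ← Int.cast_smul_eq_zsmul ℝ, B.repr_sum_self, M]
  -- These are independent over `ℤ`, hence the operators are independent over `ℝ`.
  have hvanish : ∀ a : ι → ℝ, (∀ v, ∑ j, a j • op (τ j) v = 0) → ∀ j, a j = 0 := by
    have hZ : LinearIndependent ℤ M := by
      refine Fintype.linearIndependent_iff.mpr fun a ha => ?_
      have hzero : op (∑ j, a j • τ j) = 0 := by
        refine LinearMap.restrictScalars_injective ℝ (B.ext fun l => B.ext_elem fun k => ?_)
        have h1 : (∑ j, a j * M j (k, l) : ℤ) = 0 := by
          have := congrFun ha (k, l)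
          simpa [Finset.sum_apply] using this
        have hop : op (∑ j, a j • τ j) = ∑ j, a j • op (τ j) := by
          rw [map_sum]; exact Finset.sum_congr rfl fun j _ => map_zsmul op _ _
        rw [hop]
        simp only [map_sum, map_zsmul, LinearMap.restrictScalars_apply, LinearMap.sum_apply,
          LinearMap.smul_apply, Finsupp.coe_finsetSum, Finset.sum_apply, Finsupp.smul_apply,
          hM _ (k, l), LinearMap.zero_apply, map_zero, Finsupp.zero_apply]
        simp only [zsmul_eq_mul]
        exact_mod_cast h1
      intro j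
      exact Fintype.linearIndependent_iff.mp τ.linearIndependent a
        ((map_eq_zero_iff op hinj).mp hzero) j
    intro a ha
    refine Fintype.linearIndependent_iff.mp (linearIndependent_intCast hZ) a (funext fun x => ?_)
    have h1 := congrArg (fun w => B.repr w x.1) (ha (B x.2))
    simp only [map_sum, map_smul, Finsupp.coe_finsetSum, Finset.sum_apply, Finsupp.smul_apply, hM,
      map_zero, Finsupp.zero_apply] at h1
    rw [Finset.sum_apply]
    exact h1
  -- In a complex relation `P + i Q = 0`, conjugation by `c` gives `P - i Q = 0`.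
  refine Fintype.linearIndependent_iff.mpr fun z hz => ?_
  set P : DiffDual F → DiffDual F := fun v => ∑ j, (z j).re • op (τ j) v
  set Q : DiffDual F → DiffDual F := fun v => ∑ j, (z j).im • op (τ j) v
  have hPQ : ∀ v, P v + Complex.I • Q v = 0 := fun v => by
    refine Eq.trans ?_ (LinearMap.congr_fun hz v)
    simp only [P, Q, LinearMap.sum_apply, LinearMap.smul_apply, Finset.smul_sum,
      ← Finset.sum_add_distrib]
    refine Finset.sum_congr rfl fun j _ => ?_
    conv_rhs => rw [← Complex.re_add_im (z j)]
    rw [add_smul, ← Complex.coe_smul, ← Complex.coe_smul, smul_smul, mul_comm Complex.I]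
  have hconj : ∀ (a : ι → ℝ) (v : DiffDual F),
      c (∑ j, a j • op (τ j) v) = ∑ j, a j • op (τ j) (c v) := fun a v => by
    rw [map_sum]
    refine Finset.sum_congr rfl fun j _ => ?_
    rw [← Complex.coe_smul, c.map_smulₛₗ, Complex.conj_ofReal, hc, Complex.coe_smul]
  have hPQ' : ∀ v, P v - Complex.I • Q v = 0 := fun v => by
    have h1 := congrArg c (hPQ (c v))
    rw [map_add, c.map_smulₛₗ, Complex.conj_I, map_zero] at h1
    simp only [P, Q, hconj, hcc, neg_smul] at h1
    rw [sub_eq_add_neg]
    exact h1
  have hP : ∀ v, P v = 0 := fun v => by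
    have h2 : (2 : ℂ) • P v = 0 := by
      rw [two_smul]
      calc P v + P v = (P v + Complex.I • Q v) + (P v - Complex.I • Q v) := by abel
        _ = 0 := by rw [hPQ, hPQ', add_zero]
    exact (smul_eq_zero.mp h2).resolve_left two_ne_zero
  have hQ : ∀ v, Q v = 0 := fun v => by
    have h1 := hPQ v
    rw [hP, zero_add] at h1
    exact (smul_eq_zero.mp h1).resolve_left Complex.I_ne_zero
  exact fun j => Complex.ext (hvanish _ hP j) (hvanish _ hQ j)

omit [Module.Finite ℤ R] [Module.Free ℤ R] in
/-- The orbit of a cyclic vector is a complex basis. -/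
theorem linearIndependent_op_apply (hinj : Function.Injective op)
    (hper : ∀ t, ∀ v ∈ periods F, op t v ∈ periods F)
    {c : DiffDual F →ₛₗ[starRingEnd ℂ] DiffDual F} (hcc : ∀ v, c (c v) = v)
    (hc : ∀ t v, c (op t v) = op t (c v)) {u : DiffDual F}
    (hu : Submodule.span ℂ (Set.range fun t => op t u) = ⊤) {ι : Type*} [Fintype ι]
    (τ : Module.Basis ι ℤ R) :
    LinearIndependent ℂ (fun j => op (τ j) u) ∧
      Submodule.span ℂ (Set.range fun j => op (τ j) u) = ⊤ := by
  have hli := linearIndependent_op op hinj hper hcc hc τ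
  constructor
  · refine Fintype.linearIndependent_iff.mpr fun z hz =>
      Fintype.linearIndependent_iff.mp hli z (LinearMap.ext_on_range hu fun s => ?_)
    rw [LinearMap.zero_apply]
    have hcomm : ∀ j, op (τ j) (op s u) = op s (op (τ j) u) := fun j => by
      rw [← Module.End.mul_apply, ← Module.End.mul_apply, ← map_mul, ← map_mul, mul_comm]
    simp only [LinearMap.sum_apply, LinearMap.smul_apply, hcomm]
    rw [← map_zero (op s), ← hz]
    simp only [map_sum, map_smul]
  · rw [eq_top_iff, ← hu, Submodule.span_le]
    rintro _ ⟨t, rfl⟩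
    change op t u ∈ Submodule.span ℂ (Set.range fun j => op (τ j) u)
    rw [← τ.sum_repr t, map_sum, LinearMap.sum_apply]
    refine Submodule.sum_mem _ fun j _ => ?_
    rw [map_zsmul, LinearMap.smul_apply, ← Int.cast_smul_eq_zsmul ℂ]
    exact Submodule.smul_mem _ _ (Submodule.subset_span (Set.mem_range_self j))

/-- Rational vectors have a common denominator. -/
theorem exists_nat_den {n : ℕ} (q : Fin 2 → Fin n → ℚ) :
    ∃ (D : ℕ) (m : Fin 2 → Fin n → ℤ), D ≠ 0 ∧ ∀ i k, (m i k : ℝ) = (D : ℝ) * (q i k : ℝ) := by
  classical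
  refine ⟨∏ x : Fin 2 × Fin n, (q x.1 x.2).den, fun i k =>
    (q i k).num * ∏ x ∈ Finset.univ.erase (i, k), ((q x.1 x.2).den : ℤ),
    Finset.prod_ne_zero_iff.mpr fun x _ => (q x.1 x.2).den_ne_zero, fun i k => ?_⟩
  rw [← Finset.mul_prod_erase Finset.univ _ (Finset.mem_univ (i, k))]
  push_cast
  rw [Rat.cast_def]
  field_simp [show ((q i k).den : ℝ) ≠ 0 from Nat.cast_ne_zero.mpr (q i k).den_ne_zero]

/-- A vector whose orbit under a basis of a ring acting on the periods is a complex basis gives a
free submodule of rank two and finite index in the periods. -/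
theorem exists_periods_basis_of_orbit {R : Type*} [CommRing R] [Module R (periods F)]
    {op : R → Module.End ℂ (DiffDual F)}
    (hsmul : ∀ (t : R) (l : periods F), ((t • l : periods F) : DiffDual F) = op t (l : DiffDual F))
    {ι : Type*} [Fintype ι] (τ : Module.Basis ι ℤ R) {u : DiffDual F}
    (hli : LinearIndependent ℂ fun j => op (τ j) u)
    (hsp : Submodule.span ℂ (Set.range fun j => op (τ j) u) = ⊤) :
    ∃ k : ℕ, k ≠ 0 ∧ ∃ e : Fin 2 → periods F, LinearIndependent R e ∧
      ∀ l : periods F, k • l ∈ Submodule.span R (Set.range e) := by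
  classical
  let β := Module.Basis.mk hli hsp.ge
  have hι : Fintype.card ι = genusFF ℂ F := by
    rw [← finrank_diffDual (F := F), Module.finrank_eq_card_basis β]
  let Rb := Complex.basisOneI.smulTower β
  -- The pairs of vectors whose `τ`-orbit is a real basis form a nonempty open set.
  obtain ⟨b, B, hB⟩ := exists_periods_basis F
  let P : (Fin 2 → Fin (2 * genusFF ℂ F) → ℝ) →ₗ[ℝ] (Fin 2 × ι → Fin (2 * genusFF ℂ F) → ℝ) :=
    LinearMap.pi fun x => B.equivFun.toLinearMap ∘ₗ ((op (τ x.2)).restrictScalars ℝ) ∘ₗ
      B.equivFun.symm.toLinearMap ∘ₗ LinearMap.proj x.1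
  have hopen : IsOpen {x | LinearIndependent ℝ (P x)} :=
    isOpen_setOfPred_linearIndependent.preimage P.continuous_of_finiteDimensional
  have hne : {x | LinearIndependent ℝ (P x)}.Nonempty := by
    refine ⟨fun i => B.equivFun (Complex.basisOneI i • u), ?_⟩
    change LinearIndependent ℝ _
    convert Rb.linearIndependent.map' B.equivFun.toLinearMap B.equivFun.ker using 1 <;> try rfl
    funext x
    change B.equivFun (op (τ x.2) (B.equivFun.symm (B.equivFun (Complex.basisOneI x.1 • u)))) =
      B.equivFun (Rb x)
    rw [LinearEquiv.symm_apply_apply, map_smul, Module.Basis.smulTower_apply,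
      Module.Basis.mk_apply]
  -- So it contains a rational pair; clearing denominators gives lattice vectors `e`.
  obtain ⟨q, hq⟩ := (DenseRange.piMap fun _ : Fin 2 =>
    DenseRange.piMap fun _ : Fin (2 * genusFF ℂ F) =>
      Rat.denseRange_cast (𝕜 := ℝ)).exists_mem_open hopen hne
  obtain ⟨D, m, hD, hm⟩ := exists_nat_den q
  let e : Fin 2 → periods F := fun i => ∑ k, m i k • b k
  have he : ∀ i, B.equivFun (e i : DiffDual F) = (D : ℝ) • fun k => (q i k : ℝ) := fun i => by
    have h1 : (e i : DiffDual F) = B.equivFun.symm fun k => (m i k : ℝ) := by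
      rw [Module.Basis.equivFun_symm_apply]
      simp only [e, AddSubmonoidClass.coe_finsetSum, Submodule.coe_smul, hB,
        Int.cast_smul_eq_zsmul]
    rw [h1, LinearEquiv.apply_symm_apply]
    exact funext fun k => hm i k
  -- their translates are independent periods, spanning a subgroup `W` of full rank
  have hfam : LinearIndependent ℤ fun x : Fin 2 × ι => τ x.2 • e x.1 := by
    have h1 : LinearIndependent ℝ (P fun i => B.equivFun (e i : DiffDual F)) := by
      rw [show (fun i => B.equivFun (e i : DiffDual F)) =
        (D : ℝ) • fun i k => (q i k : ℝ) from funext he, map_smul]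
      exact hq.units_smul (fun _ => Units.mk0 (D : ℝ) (Nat.cast_ne_zero.mpr hD))
    have h2 : LinearIndependent ℤ fun x : Fin 2 × ι =>
        B.equivFun ((τ x.2 • e x.1 : periods F) : DiffDual F) := by
      convert h1.restrict_scalars (smul_left_injective ℤ one_ne_zero) using 1
      funext x
      rw [hsmul]
      change _ = B.equivFun (op (τ x.2) (B.equivFun.symm (B.equivFun (e x.1 : DiffDual F))))
      rw [LinearEquiv.symm_apply_apply]
    exact LinearIndependent.of_comp
      ((B.equivFun.toLinearMap.restrictScalars ℤ).comp (periods F).subtype) h2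
  set W := Submodule.span ℤ (Set.range fun x : Fin 2 × ι => τ x.2 • e x.1) with hW
  have hrank : Module.finrank ℤ (periods F ⧸ W) = 0 := by
    rw [Submodule.finrank_quotient, finrank_periods, finrank_span_eq_card hfam,
      Fintype.card_prod, Fintype.card_fin, hι, Nat.sub_self]
  have : Finite (periods F ⧸ W) :=
    Module.finite_of_fg_torsion _ (Module.finrank_eq_zero_iff_isTorsion.mp hrank)
  -- the index of `W` is the multiplier
  refine ⟨Nat.card (periods F ⧸ W), Nat.card_pos.ne', e, ?_, fun l => ?_⟩
  · refine Fintype.linearIndependent_iff.mpr fun a ha i => ?_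
    have h1 := Fintype.linearIndependent_iff.mp hfam (fun x => τ.repr (a x.1) x.2) (by
      rw [Fintype.sum_prod_type, ← ha]
      refine Finset.sum_congr rfl fun i _ => ?_
      conv_rhs => rw [← τ.sum_repr (a i), Finset.sum_smul]
      simp only [smul_assoc])
    exact τ.ext_elem fun j => by rw [h1 (i, j), map_zero, Finsupp.zero_apply]
  · have h1 : W ≤ (Submodule.span R (Set.range e)).restrictScalars ℤ :=
      Submodule.span_le.mpr (by
        rintro _ ⟨x, rfl⟩
        exact Submodule.smul_mem _ _ (Submodule.subset_span (Set.mem_range_self x.1)))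
    refine h1 ((Submodule.Quotient.mk_eq_zero W).mp ?_)
    rw [Submodule.Quotient.mk_smul]
    exact card_nsmul_eq_zero'

/-- A free submodule of rank two and finite index in the period lattice, from a cyclic vector. -/
theorem exists_periods_opBasis [Module R (periods F)]
    (hsmul : ∀ (t : R) (l : periods F), ((t • l : periods F) : DiffDual F) = op t (l : DiffDual F))
    (hinj : Function.Injective op) {c : DiffDual F →ₛₗ[starRingEnd ℂ] DiffDual F}
    (hcc : ∀ v, c (c v) = v) (hc : ∀ t v, c (op t v) = op t (c v)) {u : DiffDual F}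
    (hu : Submodule.span ℂ (Set.range fun t => op t u) = ⊤) :
    ∃ k : ℕ, k ≠ 0 ∧ ∃ e : Fin 2 → periods F, LinearIndependent R e ∧
      ∀ l : periods F, k • l ∈ Submodule.span R (Set.range e) := by
  obtain ⟨hli, hsp⟩ := linearIndependent_op_apply op hinj
    (fun t v hv => hsmul t ⟨v, hv⟩ ▸ (t • (⟨v, hv⟩ : periods F)).2) hcc hc hu
    (Module.Free.chooseBasis ℤ R)
  exact exists_periods_basis_of_orbit hsmul _ hli hsp

end Fermat.JAC

end
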