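import Fermat.Agent.JAC.Induced
import Fermat.Agent.JAC.HeckeLattice
import Fermat.Agent.JAC.WeilNondeg
import Fermat.Agent.GR.ES.Data

/-!
# Eichler–Shimura data of a curve with a commutative family of correspondences

`HeckeInput.esData`: the analytic and pairing fields of `GR.ESData` for `J = Pic⁰` of a curve over
`ℚ̄` follow from generators of the Hecke ring (`HeckeGens`: a real structure and a cyclic vector,
so the lattice has rank two by `HeckeLattice`) and clauses on generators (`HeckeInput`). For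
`X_H(N)` these are `JAC/XH/Gens` and `JAC/XH/Input`.
-/

set_option autoImplicit false
set_option linter.unusedSectionVars false

noncomputable section

open AlgebraicCurve

namespace Fermat.JAC

open Fermat.FF

local notation "Γℚ" => (AlgebraicClosure ℚ ≃ₐ[ℚ] AlgebraicClosure ℚ)
local notation "ℚbar" => AlgebraicClosure ℚ

variable (F₀ F : Type) [Field F₀] [Field F] [Algebra ℚbar ℂ] [Algebra ℚbar F₀] [Algebra ℂ F]
  [Algebra F₀ F] [IsConstExt ℚbar ℂ F₀ F] [IsFunctionField ℚbar F₀] [IsFunctionField ℂ F]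

/-- Generators of a Hecke ring: commuting endomorphisms of the uniformising space inducing
endomorphisms of `Pic⁰(F₀)`, with a real structure and a cyclic vector. -/
structure HeckeGens where
  /-- The set of generators of the Hecke ring. -/
  gens : Set (Module.End ℂ (DiffDual F))
  /-- Each generator induces an endomorphism of `Pic⁰(F₀)`. -/
  induced : ∀ f ∈ gens, f ∈ inducedAlg ℚbar F₀ F
  /-- The generators commute. -/
  comm : ∀ f ∈ gens, ∀ g ∈ gens, f * g = g * f
  /-- The real structure on the uniformising space. -/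
  conj : DiffDual F →ₛₗ[starRingEnd ℂ] DiffDual F
  /-- The real structure `conj` is an involution. -/
  conj_conj : ∀ v, conj (conj v) = v
  /-- It commutes with the generators. -/
  conj_gens : ∀ f ∈ gens, ∀ v, conj (f v) = f (conj v)
  /-- A vector generating the space over the Hecke ring. -/
  cyclic : DiffDual F
  /-- The Hecke ring applied to it spans the space. -/
  span_cyclic : Submodule.span ℂ
    (Set.range fun t : Algebra.adjoin ℤ gens => (t : Module.End ℂ (DiffDual F)) cyclic) = ⊤

variable {F₀ F} (G : HeckeGens F₀ F)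

/-- The Hecke ring. -/
abbrev HeckeGens.R : Type := ↥(Algebra.adjoin ℤ G.gens)

/-- The Hecke ring consists of inducing endomorphisms. -/
theorem HeckeGens.adjoin_le : Algebra.adjoin ℤ G.gens ≤ inducedAlg ℚbar F₀ F :=
  Algebra.adjoin_le G.induced

/-- The Hecke ring is commutative. -/
theorem HeckeGens.mul_comm' (a b : G.R) : a * b = b * a := by
  have := Algebra.isMulCommutative_adjoin ℤ G.comm
  exact _root_.mul_comm' a b

/-- The Hecke ring as a commutative ring. -/
instance HeckeGens.commRing : CommRing G.R :=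
  { (inferInstance : Ring G.R) with mul_comm := G.mul_comm' }

/-- The action of the Hecke ring on `Pic⁰(F₀)`. -/
def HeckeGens.act : G.R →+* AddMonoid.End (Pic0 ℚbar F₀) :=
  (inducedAct ℚbar F₀ F).comp (Subalgebra.inclusion G.adjoin_le).toRingHom

/-- The action of an element is any endomorphism it induces. -/
theorem HeckeGens.act_eq {t : G.R} {b : AddMonoid.End (Pic0 ℚbar F₀)}
    (h : IsInducedBy ℚbar F₀ F t b) : G.act t = b :=
  inducedAct_eq (f := Subalgebra.inclusion G.adjoin_le t) h

/-- The Hecke ring preserves the periods. -/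
theorem HeckeGens.apply_mem (t : G.R) {v : DiffDual F} (hv : v ∈ periods F) :
    (t : Module.End ℂ (DiffDual F)) v ∈ periods F :=
  apply_mem_periods (G.adjoin_le t.2) hv

/-- The periods form a module over the Hecke ring. -/
instance HeckeGens.periodsModule : Module G.R (periods F) where
  smul t l := ⟨(t : Module.End ℂ (DiffDual F)) l.1, G.apply_mem t l.2⟩
  one_smul _ := Subtype.ext rfl
  mul_smul _ _ _ := Subtype.ext rfl
  smul_zero t := Subtype.ext (map_zero (t : Module.End ℂ (DiffDual F)))
  smul_add t _ _ := Subtype.ext (map_add (t : Module.End ℂ (DiffDual F)) _ _)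
  add_smul _ _ _ := Subtype.ext rfl
  zero_smul _ := Subtype.ext rfl

/-- A shortcut, as the instance search takes seconds. It is not private as `coe_smul` mentions
it. -/
local instance (priority := high) periodsSMul : SMul G.R (periods F) :=
  (HeckeGens.periodsModule G).toSMul

/-- The module structure is evaluation. -/
theorem HeckeGens.coe_smul (t : G.R) (l : periods F) :
    ((t • l : periods F) : DiffDual F) = (t : Module.End ℂ (DiffDual F)) l := rfl

/-- Restriction to the lattice. -/
def HeckeGens.toEndPeriods : G.R →ₗ[ℤ] (periods F →ₗ[ℤ] periods F) where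
  toFun t :=
    { toFun := fun l => t • l
      map_add' := fun l m => smul_add t l m
      map_smul' := fun c l => smul_comm t c l }
  map_add' s t := LinearMap.ext fun l => add_smul s t l
  map_smul' c t := LinearMap.ext fun l => smul_assoc c t l

/-- The Hecke ring acts faithfully on the periods. -/
theorem HeckeGens.toEndPeriods_injective : Function.Injective G.toEndPeriods := fun s t h => by
  refine Subtype.ext (LinearMap.restrictScalars_injective ℝ
    (LinearMap.ext_on (span_periods F) fun v hv => ?_))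
  exact congrArg Subtype.val (LinearMap.congr_fun h ⟨v, hv⟩)

/-- The Hecke ring is finite over `ℤ`. -/
instance HeckeGens.finite : Module.Finite ℤ G.R :=
  Module.Finite.of_injective G.toEndPeriods G.toEndPeriods_injective

/-- The Hecke ring is free over `ℤ`. -/
instance HeckeGens.free : Module.Free ℤ G.R := by
  have : Module.IsTorsionFree ℤ G.R :=
    Function.Injective.moduleIsTorsionFree G.toEndPeriods G.toEndPeriods_injective
      fun c t => G.toEndPeriods.map_smul c t
  exact Module.free_of_finite_type_torsion_free'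

/-- The real structure commutes with the Hecke ring. -/
theorem HeckeGens.conj_apply (t : G.R) (v : DiffDual F) :
    G.conj ((t : Module.End ℂ (DiffDual F)) v) = (t : Module.End ℂ (DiffDual F)) (G.conj v) := by
  obtain ⟨t, ht⟩ := t
  change G.conj (t v) = t (G.conj v)
  induction ht using Algebra.adjoin_induction generalizing v with
  | mem f hf => exact G.conj_gens f hf v
  | algebraMap m => rw [Module.algebraMap_end_apply, map_zsmul]; rfl
  | add f g _ _ h1 h2 => rw [LinearMap.add_apply, map_add, h1, h2, LinearMap.add_apply]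
  | mul f g _ _ h1 h2 => rw [Module.End.mul_apply, h1, h2, Module.End.mul_apply]

/-- A free submodule of rank two and finite index in the periods. -/
theorem HeckeGens.exists_basis : ∃ k : ℕ, k ≠ 0 ∧ ∃ e : Fin 2 → periods F,
    LinearIndependent G.R e ∧ ∀ l : periods F, k • l ∈ Submodule.span G.R (Set.range e) :=
  exists_periods_opBasis (Algebra.adjoin ℤ G.gens).val.toRingHom G.coe_smul
    Subtype.val_injective G.conj_conj G.conj_apply G.span_cyclic

/-- Galois commutes with the Hecke ring as soon as it commutes with the generators. -/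
theorem HeckeGens.galois_act [DistribMulAction Γℚ (Pic0 ℚbar F₀)] (σ : Γℚ)
    (hgen : ∀ t : G.R, (t : Module.End ℂ (DiffDual F)) ∈ G.gens → ∀ x, σ • G.act t x =
      G.act t (σ • x))
    (t : G.R) (x : Pic0 ℚbar F₀) : σ • G.act t x = G.act t (σ • x) := by
  obtain ⟨t, ht⟩ := t
  have hcl : t ∈ Subring.closure G.gens := by
    have := ht
    rwa [Algebra.adjoin_int] at this
  have hmem : ∀ {b : Module.End ℂ (DiffDual F)}, b ∈ Subring.closure G.gens →
      b ∈ Algebra.adjoin ℤ G.gens := fun hb => by
    rw [Algebra.adjoin_int]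
    exact hb
  induction hcl using Subring.closure_induction generalizing x with
  | mem b hb => exact hgen ⟨b, ht⟩ hb x
  | zero =>
    rw [show (⟨0, ht⟩ : G.R) = 0 from rfl, map_zero]
    exact smul_zero σ
  | one =>
    rw [show (⟨1, ht⟩ : G.R) = 1 from rfl, map_one]
    rfl
  | add b c hb hc h1 h2 =>
    rw [show (⟨b + c, ht⟩ : G.R) = ⟨b, hmem hb⟩ + ⟨c, hmem hc⟩ from rfl, map_add]
    exact (smul_add σ _ _).trans (congrArg₂ (· + ·) (h1 _ _) (h2 _ _))
  | neg b hb h1 =>
    rw [show (⟨-b, ht⟩ : G.R) = -⟨b, hmem hb⟩ from rfl, map_neg]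
    exact (smul_neg σ _).trans (congrArg Neg.neg (h1 _ _))
  | mul b c hb hc h1 h2 =>
    rw [show (⟨b * c, ht⟩ : G.R) = ⟨b, hmem hb⟩ * ⟨c, hmem hc⟩ from rfl, map_mul]
    exact (h1 _ _).trans (congrArg _ (h2 _ _))

/-- The Galois, Weil pairing and local clauses, stated on generators. -/
structure HeckeInput [DistribMulAction Γℚ (Pic0 ℚbar F₀)] (G : HeckeGens F₀ F) (M p : ℕ)
    (T ε : ℕ → G.R) where
  /-- Galois commutes with the generators. -/
  galois_gens : ∀ (σ : Γℚ) (t : G.R), (t : Module.End ℂ (DiffDual F)) ∈ G.gens →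
    ∀ x, σ • G.act t x = G.act t (σ • x)
  /-- The `n`-torsion is defined over a finite extension of `ℚ`. -/
  exists_field : ∀ n : ℕ, n ≠ 0 → ∃ L : IntermediateField ℚ ℚbar, FiniteDimensional ℚ L ∧
    ∀ σ : Γℚ, (∀ a ∈ L, σ a = a) → ∀ x : Pic0 ℚbar F₀, n • x = 0 → σ • x = x
  /-- The Weil pairing is Galois equivariant. -/
  weil_galois : ∀ (n : ℕ) (σ : Γℚ) (x y : Pic0 ℚbar F₀), n • x = 0 → n • y = 0 →
    σ (weilPairing n x y) = weilPairing n (σ • x) (σ • y)
  /-- The Atkin–Lehner involution. -/
  w : AddMonoid.End (Pic0 ℚbar F₀)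
  /-- `w` is an involution. -/
  w_w : ∀ x, w (w x) = x
  /-- `w` preserves the Weil pairing. -/
  weil_w : ∀ (n : ℕ) (x y : Pic0 ℚbar F₀), n • x = 0 → n • y = 0 →
    weilPairing n (w x) (w y) = weilPairing n x y
  /-- The generators are self-adjoint for the pairing twisted by `w`. -/
  weil_gens : ∀ (n : ℕ) (t : G.R), (t : Module.End ℂ (DiffDual F)) ∈ G.gens →
    ∀ x y : Pic0 ℚbar F₀, n • x = 0 → n • y = 0 →
      weilPairing n (G.act t x) (w y) = weilPairing n x (w (G.act t y))
  /-- The twist of `w` under Galois. -/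
  δ : Γℚ → G.R
  /-- Galois commutes with `w` up to `δ`. -/
  galois_w : ∀ (σ : Γℚ) (y : Pic0 ℚbar F₀), σ • w (G.act (δ σ) y) = w (σ • y)
  /-- The twist at Frobenius of `ℓ` is `ε ℓ`. -/
  δ_frobenius : ∀ ℓ : ℕ, ℓ.Prime → ¬ ℓ ∣ M * p →
    ∀ A : ValuationSubring ℚbar, A.LiesOverPrime ℓ →
      ∀ σ : Γℚ, A.IsFrobeniusAt σ ℓ → δ σ = ε ℓ
  /-- Inertia away from `M p` fixes the `p`-power torsion. -/
  inertia_smul : ∀ ℓ : ℕ, ℓ.Prime → ¬ ℓ ∣ M * p →
    ∀ A : ValuationSubring ℚbar, A.LiesOverPrime ℓ →
      ∀ σ ∈ A.inertiaSubgroupIn ℚ, ∀ x : Pic0 ℚbar F₀, (∃ n : ℕ, p ^ n • x = 0) → σ • x = x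
  /-- Frobenius satisfies `X ^ 2 - T ℓ X + ℓ ε ℓ` on the `p`-power torsion. -/
  frobenius_quadratic : ∀ ℓ : ℕ, ℓ.Prime → ¬ ℓ ∣ M * p →
    ∀ A : ValuationSubring ℚbar, A.LiesOverPrime ℓ →
      ∀ σ : Γℚ, A.IsFrobeniusAt σ ℓ → ∀ x : Pic0 ℚbar F₀, (∃ n : ℕ, p ^ n • x = 0) →
        σ • σ • x - G.act (T ℓ) (σ • x) + ℓ • G.act (ε ℓ) x = 0

variable [DistribMulAction Γℚ (Pic0 ℚbar F₀)] {M p : ℕ} [hp : Fact p.Prime] {T ε : ℕ → G.R}
  (D : HeckeInput G M p T ε)

/-- The twisting map preserves `n`-torsion. -/
theorem HeckeInput.nsmul_w {n : ℕ} {x : Pic0 ℚbar F₀} (hx : n • x = 0) : n • D.w x = 0 := by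
  rw [← map_nsmul, hx, map_zero]

/-- The Hecke ring is self-adjoint for the twisted pairing on `p`-power torsion. -/
theorem HeckeInput.self_adjoint (n : ℕ) (t : G.R) (x y : Pic0 ℚbar F₀) (hx : p ^ n • x = 0)
    (hy : p ^ n • y = 0) :
    weilPairing (p ^ n) (G.act t x) (D.w y) = weilPairing (p ^ n) x (D.w (G.act t y)) :=
  pair_act_of_mem_adjoin G.act (p ^ n) (fun a b => weilPairing (p ^ n) a (D.w b)) G.mul_comm'
    (fun _ _ ha hb => weilPairing_ne_zero ha (D.nsmul_w G hb))
    (fun _ _ _ ha ha' hb => weilPairing_add_left ha ha' (D.nsmul_w G hb))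
    (fun _ _ _ ha hb hb' => by
      rw [map_add, weilPairing_add_right ha (D.nsmul_w G hb) (D.nsmul_w G hb')])
    (D.weil_gens (p ^ n)) t x y hx hy

/-- **The Eichler–Shimura data.** The periods of the curve, the torsion lifts and the Hecke action
form `ESData` for the `p`-power torsion of `Pic⁰`. -/
def HeckeInput.esData : Fermat.GR.ESData G.R (Pic0 ℚbar F₀) M p T ε where
  act := G.act
  Λ := periods F
  π := torsLift ℚbar F₀ F p
  exists_π := exists_torsLift ℚbar F₀ F p
  π_eq_zero_iff := torsLift_eq_zero_iff ℚbar F₀ F p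
  p_smul_π := p_smul_torsLift ℚbar F₀ F p
  π_smul n t l := torsLift_apply ℚbar F₀ F p (f := Subalgebra.inclusion G.adjoin_le t)
    n l (t • l) rfl
  exists_basis := G.exists_basis
  exists_field n := D.exists_field (p ^ n) (pow_ne_zero n hp.out.ne_zero)
  galois_act σ t x := G.galois_act σ (D.galois_gens σ) t x
  δ := D.δ
  pair n x y := weilPairing (p ^ n) x (D.w y)
  pair_pow n x y hx hy := weilPairing_pow hx (D.nsmul_w G hy)
  pair_add_left n x x' y hx hx' hy := weilPairing_add_left hx hx' (D.nsmul_w G hy)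
  pair_symm n x y hx hy := by
    rw [← D.weil_w (p ^ n) x (D.w y) hx (D.nsmul_w G hy), D.w_w]
    exact weilPairing_symm (D.nsmul_w G hx) hy
  pair_galois n σ x y hx hy := by
    rw [D.self_adjoint G n (D.δ σ) x y hx hy, D.weil_galois _ σ _ _ hx
      (D.nsmul_w G (by rw [← map_nsmul, hy, map_zero])), D.galois_w]
  pair_act := D.self_adjoint G
  pair_nondeg n x hx h := by
    by_contra hx0
    obtain ⟨y, hy, hne⟩ := ConstExt.exists_weilPairing_ne_one_of_complex (F := F)
      (pow_ne_zero n hp.out.ne_zero) hx hx0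
    exact hne (by simpa only [D.w_w] using h (D.w y) (D.nsmul_w G hy))
  inertia_smul := D.inertia_smul
  frobenius_quadratic := D.frobenius_quadratic
  δ_frobenius := D.δ_frobenius

end Fermat.JAC

end
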