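import Fermat.Agent.JAC.PicLift
import Fermat.Agent.RED.Laurent
import Mathlib.RingTheory.Trace.Basic

/-!
# Expansions of differentials along embeddings into Laurent series

The expansion is `qdiff`, injective by `qdiff_injective`, with traces given by `qdiff_diffTr`.
-/

set_option autoImplicit false

noncomputable section

open AlgebraicCurve ModularCurve

namespace Fermat.JAC

open Fermat.FF

/-- The operator `q d/dq`. -/
def thetaSeries (f : LaurentSeries ℂ) : LaurentSeries ℂ where
  coeff n := (n : ℂ) * f.coeff n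
  isPWO_support' := f.isPWO_support.mono fun n hn => by
    simp only [Function.mem_support] at hn ⊢
    exact fun h => hn (by rw [h, mul_zero])

/-- The coefficients of `q d/dq`. -/
@[simp] theorem thetaSeries_coeff (f : LaurentSeries ℂ) (n : ℤ) :
    (thetaSeries f).coeff n = (n : ℂ) * f.coeff n := rfl

/-- `q d/dq` is additive. -/
theorem thetaSeries_add (f g : LaurentSeries ℂ) :
    thetaSeries (f + g) = thetaSeries f + thetaSeries g := by
  ext n; simp [mul_add]

/-- `q d/dq` kills constants. -/
theorem thetaSeries_algebraMap (c : ℂ) :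
    thetaSeries (algebraMap ℂ (LaurentSeries ℂ) c) = 0 := by
  ext n
  rw [thetaSeries_coeff, algebraMap_laurentSeries_eq_single]
  rcases eq_or_ne n 0 with rfl | hn
  · simp
  · simp [HahnSeries.coeff_single_of_ne hn]

/-- `q d/dq` is a derivation of Laurent series. -/
theorem thetaSeries_mul (f g : LaurentSeries ℂ) :
    thetaSeries (f * g) = f * thetaSeries g + g * thetaSeries f := by
  ext n
  rw [mul_comm g (thetaSeries f), thetaSeries_coeff, HahnSeries.coeff_add, HahnSeries.coeff_mul,
    HahnSeries.coeff_mul_right' (s := g.support) g.isPWO_support (fun m hm => by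
      simp only [HahnSeries.mem_support, thetaSeries_coeff] at hm ⊢
      exact right_ne_zero_of_mul hm),
    HahnSeries.coeff_mul_left' (s := f.support) f.isPWO_support (fun m hm => by
      simp only [HahnSeries.mem_support, thetaSeries_coeff] at hm ⊢
      exact right_ne_zero_of_mul hm),
    Finset.mul_sum, ← Finset.sum_add_distrib]
  refine Finset.sum_congr rfl fun ij hij => ?_
  rw [Finset.mem_antidiagonal] at hij
  rw [thetaSeries_coeff, thetaSeries_coeff, ← hij.2.2]
  push_cast
  ring

/-- Only constants are killed by `q d/dq`. -/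
theorem mem_range_of_thetaSeries_eq_zero {f : LaurentSeries ℂ} (h : thetaSeries f = 0) :
    f ∈ Set.range (algebraMap ℂ (LaurentSeries ℂ)) := by
  refine ⟨f.coeff 0, ?_⟩
  ext n
  rw [algebraMap_laurentSeries_eq_single]
  rcases eq_or_ne n 0 with rfl | hn
  · simp
  · rw [HahnSeries.coeff_single_of_ne hn]
    have h1 := congrArg (fun z => z.coeff n) h
    simp only [thetaSeries_coeff, HahnSeries.coeff_zero, mul_eq_zero, Int.cast_eq_zero] at h1
    exact (h1.resolve_left hn).symm

/-- `q d/dq` and `q ↦ q ^ a` commute up to the factor `a`. -/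
theorem thetaSeries_qExpand (a : ℕ) [NeZero a] (f : LaurentSeries ℂ) :
    thetaSeries (qExpand ℂ a f) = (a : ℂ) • qExpand ℂ a (thetaSeries f) := by
  ext n
  rw [thetaSeries_coeff, HahnSeries.coeff_smul, smul_eq_mul]
  by_cases h : (a : ℤ) ∣ n
  · obtain ⟨m, rfl⟩ := h
    rw [qExpand_coeff_mul, qExpand_coeff_mul, thetaSeries_coeff]
    push_cast
    ring
  · rw [qExpand_coeff_of_not_dvd a _ h, qExpand_coeff_of_not_dvd a _ h, mul_zero, mul_zero]

/-- `q d/dq` commutes with `q ↦ c q`. -/
theorem thetaSeries_twist (c : ℂˣ) (f : LaurentSeries ℂ) :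
    thetaSeries (RED.twist c f) = RED.twist c (thetaSeries f) := by
  ext n
  simp only [thetaSeries_coeff, RED.twist_coeff]
  ring

/-- `q ↦ q ^ a` fixes constants. -/
theorem qExpand_algebraMap {K : Type*} [Field K] (a : ℕ) [NeZero a] (c : K) :
    qExpand K a (algebraMap K (LaurentSeries K) c) = algebraMap K (LaurentSeries K) c := by
  rw [algebraMap_laurentSeries_eq_single, qExpand_single, mul_zero]

/-- `q ↦ q ^ a` as an algebra map. -/
def qExpandC (a : ℕ) [NeZero a] : LaurentSeries ℂ →ₐ[ℂ] LaurentSeries ℂ :=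
  { qExpand ℂ a with commutes' := qExpand_algebraMap a }

/-- The underlying substitution `q ↦ q ^ a`. -/
@[simp] theorem qExpandC_apply (a : ℕ) [NeZero a] (f : LaurentSeries ℂ) :
    qExpandC a f = qExpand ℂ a f := rfl

/-- `q ↦ c q` as an algebra map. -/
def twistC (u : ℂˣ) : LaurentSeries ℂ →ₐ[ℂ] LaurentSeries ℂ :=
  { RED.twist u with commutes' := RED.twist_algebraMap u }

/-- The underlying substitution `q ↦ u q`. -/
@[simp] theorem twistC_apply (u : ℂˣ) (f : LaurentSeries ℂ) : twistC u f = RED.twist u f := rfl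

section QDiff

variable {F : Type*} [Field F] [Algebra ℂ F] [IsFunctionField ℂ F] (σ : F →ₐ[ℂ] LaurentSeries ℂ)

omit [IsFunctionField ℂ F] in
/-- An embedding into Laurent series extends to differentials as `h dx ↦ h θ(x)`. -/
theorem exists_qdiff : ∃ L : Ω[F⁄ℂ] →ₗ[ℂ] LaurentSeries ℂ,
    ∀ h x : F, L (h • KaehlerDifferential.D ℂ F x) = σ h * thetaSeries (σ x) := by
  let := σ.toRingHom.toAlgebra
  have : IsScalarTower ℂ F (LaurentSeries ℂ) := ⟨fun c x f => by
    change σ (c • x) * f = c • (σ x * f)
    rw [Algebra.smul_def, map_mul, σ.commutes, RED.laurent_smul_def, mul_assoc]⟩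
  let δ : Derivation ℂ F (LaurentSeries ℂ) := Derivation.mk'
    { toFun := fun x => thetaSeries (σ x)
      map_add' := fun x y => by rw [map_add, thetaSeries_add]
      map_smul' := fun c x => by
        rw [RingHom.id_apply, Algebra.smul_def, map_mul, σ.commutes, thetaSeries_mul,
          thetaSeries_algebraMap, mul_zero, add_zero, RED.laurent_smul_def] }
    fun x y => by
      change thetaSeries (σ (x * y)) = x • thetaSeries (σ y) + y • thetaSeries (σ x)
      rw [map_mul, thetaSeries_mul, Algebra.smul_def, Algebra.smul_def]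
      rfl
  refine ⟨δ.liftKaehlerDifferential.restrictScalars ℂ, fun h x => ?_⟩
  change δ.liftKaehlerDifferential (h • KaehlerDifferential.D ℂ F x) = _
  rw [map_smul, Derivation.liftKaehlerDifferential_comp_D, Algebra.smul_def]
  rfl

/-- The expansion `h dx ↦ σ h · θ (σ x)`. -/
def qdiff : Ω[F⁄ℂ] →ₗ[ℂ] LaurentSeries ℂ := (exists_qdiff σ).choose

omit [IsFunctionField ℂ F] in
/-- The expansion of `h dx`. -/
theorem qdiff_smul_D (h x : F) :
    qdiff σ (h • KaehlerDifferential.D ℂ F x) = σ h * thetaSeries (σ x) :=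
  (exists_qdiff σ).choose_spec h x

/-- Differentials are determined by their expansions. -/
theorem qdiff_injective : Function.Injective (qdiff σ) := by
  rw [injective_iff_map_eq_zero]
  intro ω hω
  obtain ⟨x, hx, -, -⟩ := IsFunctionField.exists_separating (K := ℂ) (F := F)
  have hD := D_ne_zero_of_separable hx (separable_of_charZero hx)
  obtain ⟨h, rfl⟩ := exists_smul_eq_of_finrank_eq_one IsCurveOver.finrank_kaehler hD ω
  rw [qdiff_smul_D, mul_eq_zero] at hω
  rcases hω with h0 | h0
  · rw [(map_eq_zero σ).mp h0, zero_smul]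
  · obtain ⟨c, hc⟩ := mem_range_of_thetaSeries_eq_zero h0
    have hxc : x = algebraMap ℂ F c := σ.injective ((hc.symm).trans (σ.commutes c).symm)
    exact absurd (hxc ▸ isAlgebraic_algebraMap c) hx

variable {F' : Type*} [Field F'] [Algebra ℂ F'] [IsFunctionField ℂ F'] (φ : F →ₐ[ℂ] F')

/-- The expansion of a pullback is the expansion along the composite. -/
theorem qdiff_diffPull (τ : F' →ₐ[ℂ] LaurentSeries ℂ) (ω : Ω[F⁄ℂ]) :
    qdiff τ (diffPull φ ω) = qdiff (τ.comp φ) ω := by
  obtain ⟨P⟩ := nonempty_place ℂ F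
  rw [← Chart.coeff_smul (ch := chartOf P) ω, diffPull_smul_D, qdiff_smul_D, qdiff_smul_D]
  rfl

/-- Substituting `q ^ a` multiplies expansions of differentials by `a`. -/
theorem qdiff_qExpand (a : ℕ) [NeZero a] (ω : Ω[F⁄ℂ]) :
    qdiff ((qExpandC a).comp σ) ω = (a : ℂ) • qExpand ℂ a (qdiff σ ω) := by
  obtain ⟨P⟩ := nonempty_place ℂ F
  rw [← Chart.coeff_smul (ch := chartOf P) ω, qdiff_smul_D, qdiff_smul_D, AlgHom.comp_apply,
    AlgHom.comp_apply, qExpandC_apply, qExpandC_apply, thetaSeries_qExpand, map_mul,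
    RED.laurent_smul_def, RED.laurent_smul_def, mul_left_comm]

/-- Substituting `u q` twists expansions of differentials. -/
theorem qdiff_twist (u : ℂˣ) (ω : Ω[F⁄ℂ]) :
    qdiff ((twistC u).comp σ) ω = RED.twist u (qdiff σ ω) := by
  obtain ⟨P⟩ := nonempty_place ℂ F
  rw [← Chart.coeff_smul (ch := chartOf P) ω, qdiff_smul_D, qdiff_smul_D, AlgHom.comp_apply,
    AlgHom.comp_apply, twistC_apply, twistC_apply, thetaSeries_twist, map_mul]

end QDiff

section Trace

variable {F F' : Type*} [Field F] [Algebra ℂ F] [IsFunctionField ℂ F]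
  [Field F'] [Algebra ℂ F'] [IsFunctionField ℂ F'] (φ : F →ₐ[ℂ] F')

/-- A full family of embeddings over `b` computes the trace. -/
theorem trAlong_eq_sum {C : Type*} [Field C] [Algebra ℂ C] (b : F →ₐ[ℂ] C) {I : Type*} [Fintype I]
    (σ : I → (F' →ₐ[ℂ] C)) (hσ : ∀ i x, σ i (φ x) = b x) (hinj : Function.Injective σ)
    (hcard : Fintype.card I = finrankAlong ℂ φ) (z : F') :
    b (trAlong φ z) = ∑ i, σ i z := by
  classical
  let Ω := AlgebraicClosure C
  let := algebraAlong φ
  have := isScalarTower_along φ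
  have : Module.Finite F F' := finiteAlong φ
  let : Algebra F Ω := ((algebraMap C Ω).comp b.toRingHom).toAlgebra
  have : CharZero F := charZero_of_injective_algebraMap (algebraMap ℂ F).injective
  let e : I → (F' →ₐ[F] Ω) := fun i =>
    { (algebraMap C Ω).comp (σ i).toRingHom with
      commutes' := fun c => congrArg (algebraMap C Ω) (hσ i c) }
  have he : Function.Injective e := fun i j h => hinj <| AlgHom.ext fun x =>
    (algebraMap C Ω).injective (DFunLike.congr_fun h x)
  have hbij : Function.Bijective e := by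
    rw [Fintype.bijective_iff_injective_and_card]
    refine ⟨he, ?_⟩
    rw [AlgHom.card F F' Ω, hcard]
    rfl
  have h := trace_eq_sum_embeddings (K := F) (L := F') Ω (x := z)
  rw [← hbij.sum_comp] at h
  refine (algebraMap C Ω).injective ?_
  rw [map_sum]
  exact h

/-- The expansion of the trace of a differential. -/
theorem qdiff_diffTr (b : F →ₐ[ℂ] LaurentSeries ℂ) {I : Type*} [Fintype I]
    (σ : I → (F' →ₐ[ℂ] LaurentSeries ℂ)) (hσ : ∀ i x, σ i (φ x) = b x)
    (hinj : Function.Injective σ) (hcard : Fintype.card I = finrankAlong ℂ φ) (ω : Ω[F'⁄ℂ]) :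
    qdiff b (diffTr φ ω) = ∑ i, qdiff (σ i) ω := by
  obtain ⟨h, rfl⟩ := exists_coeffSep φ ω
  rw [diffTr_smul_D, qdiff_smul_D, trAlong_eq_sum φ b σ hσ hinj hcard, Finset.sum_mul]
  exact Finset.sum_congr rfl fun i _ => by rw [qdiff_smul_D, hσ]

end Trace

end Fermat.JAC

end
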