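import Fermat.Agent.JAC.LogData
import Fermat.Agent.FF.Along

/-!
# The trace of a regular differential to the projective line vanishes

The main result is `sum_eq_zero_of_simple_fiber`, over a value with simple fibre.
-/

set_option autoImplicit false

noncomputable section

open AlgebraicCurve IntermediateField

namespace Fermat.JAC

open Fermat.FF

variable {F : Type*} [Field F] [Algebra ℂ F] [IsFunctionField ℂ F]

omit [IsFunctionField ℂ F] in
/-- `f - a` generates the field of `f`. -/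
theorem adjoin_gen_sub_eq_top (f : F) (a : ℂ) :
    ℂ⟮AdjoinSimple.gen ℂ f - algebraMap ℂ ℂ⟮f⟯ a⟯ = ⊤ := by
  refine eq_top_iff.2 fun z _ => ?_
  set E := ℂ⟮AdjoinSimple.gen ℂ f - algebraMap ℂ ℂ⟮f⟯ a⟯
  have hgen : AdjoinSimple.gen ℂ f ∈ E := by
    have := E.add_mem (mem_adjoin_simple_self ℂ (AdjoinSimple.gen ℂ f - algebraMap ℂ ℂ⟮f⟯ a))
      (E.algebraMap_mem a)
    rwa [sub_add_cancel] at this
  obtain ⟨r, s, hrs⟩ := (mem_adjoin_simple_iff ℂ _).1 z.2
  have hc : ∀ p : Polynomial ℂ,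
      ((Polynomial.aeval (AdjoinSimple.gen ℂ f) p : ℂ⟮f⟯) : F) = Polynomial.aeval f p := fun p =>
    (Polynomial.aeval_algHom_apply ℂ⟮f⟯.val (AdjoinSimple.gen ℂ f) p).symm
  have hz : z = Polynomial.aeval (AdjoinSimple.gen ℂ f) r /
      Polynomial.aeval (AdjoinSimple.gen ℂ f) s :=
    Subtype.ext (by push_cast; rw [hc, hc]; exact hrs)
  have hmem : ∀ p : Polynomial ℂ, Polynomial.aeval (AdjoinSimple.gen ℂ f) p ∈ E := fun p => by
    induction p using Polynomial.induction_on' with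
    | add p q hp hq => rw [map_add]; exact E.add_mem hp hq
    | monomial n c =>
      rw [Polynomial.aeval_monomial]
      exact E.mul_mem (E.algebraMap_mem c) (pow_mem hgen n)
  rw [hz]
  exact E.div_mem (hmem r) (hmem s)

omit [IsFunctionField ℂ F] in
/-- `f - a` is transcendental with a single simple zero on the line. -/
theorem gen_zero_place {f : F} (hf : Transcendental ℂ f) (a : ℂ)
    [IsFunctionField ℂ ℂ⟮f⟯] :
    Transcendental ℂ (AdjoinSimple.gen ℂ f - algebraMap ℂ ℂ⟮f⟯ a) ∧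
      Divisor.degree (zeroDiv ℂ (AdjoinSimple.gen ℂ f - algebraMap ℂ ℂ⟮f⟯ a)) = 1 := by
  have ht : Transcendental ℂ (AdjoinSimple.gen ℂ f - algebraMap ℂ ℂ⟮f⟯ a) := by
    refine transcendental_of_not_mem ?_
    rintro ⟨c, hc⟩
    apply hf
    refine ⟨Polynomial.X - Polynomial.C (c + a), Polynomial.X_sub_C_ne_zero _, ?_⟩
    have := congrArg (fun z : ℂ⟮f⟯ => (z : F)) hc
    simp only [AddSubgroupClass.coe_sub, AdjoinSimple.coe_gen] at this
    rw [map_sub, Polynomial.aeval_X, Polynomial.aeval_C, map_add]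
    rw [IntermediateField.coe_algebraMap_apply, IntermediateField.coe_algebraMap_apply] at this
    linear_combination -this
  refine ⟨ht, ?_⟩
  rw [degree_zeroDiv ht, adjoin_gen_sub_eq_top f a, IntermediateField.finrank_top]
  rfl

/-- An effective divisor of degree one is a single place. -/
theorem ord_eq_one_of_degree_eq_one {L : Type*} [Field L] [Algebra ℂ L] [IsFunctionField ℂ L]
    {D : Divisor ℂ L} (hD : 0 ≤ D) (h1 : Divisor.degree D = 1) {v : Place ℂ L} (hv : 0 < D v) :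
    D v = 1 ∧ ∀ w, 0 < D w → w = v := by
  classical
  rw [degree_eq_sum, Finsupp.sum] at h1
  have hpos : ∀ w ∈ D.support, 0 ≤ D w := fun w _ => Finsupp.le_def.1 hD w
  have hv' : v ∈ D.support := Finsupp.mem_support_iff.2 hv.ne'
  have hle := Finset.single_le_sum hpos hv'
  refine ⟨by omega, fun w hw => ?_⟩
  by_contra hne
  have hw' : w ∈ D.support := Finsupp.mem_support_iff.2 hw.ne'
  have := Finset.add_le_sum hpos hv' hw' (Ne.symm hne)
  omega

/-- At a place of the line, `f - a`, or `f` at infinity, multiplies `h` to vanish on the fibre, for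
`h df` regular. -/
theorem exists_trace_multiplier {f h : F} (hf : Transcendental ℂ f) [IsFunctionField ℂ ℂ⟮f⟯]
    [FiniteDimensional ℂ⟮f⟯ F] (hh : h ≠ 0)
    (hord : ∀ w : Place ℂ F, 0 ≤ w.ord h + w.ordDifferential (KaehlerDifferential.D ℂ F f))
    (v : Place ℂ ℂ⟮f⟯) :
    ∃ u : ℂ⟮f⟯, u ≠ 0 ∧ (v.ord u = 1 ∨ (v.ord u = -1 ∧ v.ord (AdjoinSimple.gen ℂ f) < 0)) ∧
      (v.ord (AdjoinSimple.gen ℂ f) < 0 → v.ord u = -1) ∧
      ∀ w ∈ v.fiber F, 1 ≤ w.ord (algebraMap ℂ⟮f⟯ F u * h) := by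
  set f₀ := AdjoinSimple.gen ℂ f
  have hf₀0 : f₀ ≠ 0 := fun h0 => hf (by
    rw [show f = (f₀ : F) from rfl, h0]; exact isAlgebraic_zero)
  by_cases hv : v.ord f₀ < 0
  -- at the pole of `f₀` take `u = f₀`
  · have hdeg : Divisor.degree (poleDiv ℂ f₀) = 1 := by
      have := (gen_zero_place hf 0).2
      rw [map_zero, sub_zero] at this
      rw [← this, ← sub_eq_zero, ← map_sub, ← neg_sub, map_neg, ← divOf_eq_sub,
        degree_divOf, neg_zero]
    have h1 : v.ord f₀ = -1 := by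
      have hnn : 0 ≤ poleDiv ℂ f₀ := Finsupp.le_def.2 fun w => by simp
      have := (ord_eq_one_of_degree_eq_one hnn hdeg (v := v) (by simp; omega)).1
      rw [poleDiv_apply] at this
      omega
    refine ⟨f₀, hf₀0, Or.inr ⟨h1, hv⟩, fun _ => h1, fun w hw => ?_⟩
    have he : w.ord (algebraMap ℂ⟮f⟯ F f₀) = -(w.ramificationIndex ℂ⟮f⟯ : ℤ) := by
      rw [w.ord_restrict, Place.mem_fiber.1 hw, h1]; ring
    have hepos := w.ramificationIndex_pos (F := ℂ⟮f⟯)
    have hne : (algebraMap ℂ⟮f⟯ F f₀) ≠ 0 := (_root_.map_ne_zero _).2 hf₀0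
    rw [Place.ord_mul _ hne hh, he]
    have hwf : w.ord f = -(w.ramificationIndex ℂ⟮f⟯ : ℤ) := he
    have hdd := ordDifferential_D_eq w (f := f) (by
      exact_mod_cast (by omega : w.ord f ≠ 0))
    have := hord w
    omega
  -- elsewhere take `u = f₀ - f₀(v)`, a uniformiser
  · set a := evalAt v f₀
    have hreg0 : OrdGE v f₀ 0 := ordGE_iff.2 (Or.inr (by omega))
    obtain ⟨ht, hdeg⟩ := gen_zero_place hf a
    set u := f₀ - algebraMap ℂ ℂ⟮f⟯ a with hu
    have hu0 : u ≠ 0 := fun h0 => ht (by rw [h0]; exact isAlgebraic_zero)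
    have hupos : 0 < v.ord u := (evalAt_spec hreg0).le_ord hu0
    have h1 : v.ord u = 1 := by
      have hnn : 0 ≤ zeroDiv ℂ u := Finsupp.le_def.2 fun w => by simp
      have := (ord_eq_one_of_degree_eq_one hnn hdeg (v := v) (by simp; omega)).1
      rw [zeroDiv_apply] at this
      omega
    refine ⟨u, hu0, Or.inl h1, fun h' => absurd h' hv, fun w hw => ?_⟩
    have he : w.ord (algebraMap ℂ⟮f⟯ F u) = (w.ramificationIndex ℂ⟮f⟯ : ℤ) := by
      rw [w.ord_restrict, Place.mem_fiber.1 hw, h1]; ring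
    have hepos := w.ramificationIndex_pos (F := ℂ⟮f⟯)
    have hne : algebraMap ℂ⟮f⟯ F u ≠ 0 := (_root_.map_ne_zero _).2 hu0
    have hdd := ordDifferential_D_eq w (f := algebraMap ℂ⟮f⟯ F u) (by
      exact_mod_cast (by omega : w.ord (algebraMap ℂ⟮f⟯ F u) ≠ 0))
    -- `du = df` has order `e - 1` and `u` has order `e`
    have hDu : KaehlerDifferential.D ℂ F (algebraMap ℂ⟮f⟯ F u) =
        KaehlerDifferential.D ℂ F f := by
      rw [hu, map_sub, ← IsScalarTower.algebraMap_apply, map_sub, Derivation.map_algebraMap,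
        sub_zero]
      rfl
    rw [Place.ord_mul _ hne hh, he]
    rw [hDu] at hdd
    have := hord w
    omega

/-- The relative trace of a regular differential, `h = ω / df`, is zero. -/
theorem trace_eq_zero {f h : F} (hf : Transcendental ℂ f)
    (hreg : IsRegularDiff (h • KaehlerDifferential.D ℂ F f)) :
    Algebra.trace ℂ⟮f⟯ F h = 0 := by
  have := finiteDimensional_adjoin hf
  have : IsFunctionField ℂ ℂ⟮f⟯ := isFunctionField_adjoin hf
  have : Algebra.IsIntegral ℂ⟮f⟯ F := Algebra.IsIntegral.of_finite _ _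
  rcases eq_or_ne h 0 with rfl | hh
  · simp
  set f₀ := AdjoinSimple.gen ℂ f
  set T := Algebra.trace ℂ⟮f⟯ F h with hT
  have hDf : KaehlerDifferential.D ℂ F f ≠ 0 := by
    obtain ⟨v, hv⟩ := exists_place_ord_pos (K := ℂ) (F := F) (y := f⁻¹)
      (transcendental_of_not_mem fun ⟨c, hc⟩ => hf ⟨Polynomial.X - Polynomial.C c⁻¹,
        Polynomial.X_sub_C_ne_zero _, by simp [hc]⟩)
    rw [Place.ord_inv] at hv
    intro h0
    have h1 := ordDifferential_D_eq v (f := f) (by exact_mod_cast (by omega : v.ord f ≠ 0))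
    rw [h0, Place.ordDifferential, Place.differentialCoeff_zero, Place.ord_zero] at h1
    omega
  have hord : ∀ w : Place ℂ F, 0 ≤ w.ord h + w.ordDifferential (KaehlerDifferential.D ℂ F f) :=
    fun w => by rw [← ordDifferential_smul w hh hDf]; exact hreg w
  have hall : ∀ v : Place ℂ ℂ⟮f⟯, OrdGE v T 0 ∧ (v.ord f₀ < 0 → OrdGE v T 1) := by
    intro v
    rcases eq_or_ne T 0 with hT0 | hT0
    · exact ⟨hT0 ▸ ordGE_zero v 0, fun _ => hT0 ▸ ordGE_zero v 1⟩
    -- a multiplier `u` with `ord u ≥ -1`, killing the trace at `v`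
    -- a multiplier `u` with `ord u ≥ -1`, killing the trace at `v`
    obtain ⟨u, hu0, hu, hpole, hfib⟩ := exists_trace_multiplier hf hh hord v
    have hz0 : ∀ w ∈ v.fiber F, OrdGE w (algebraMap ℂ⟮f⟯ F u * h) 1 := fun w hw =>
      ordGE_iff.2 (Or.inr (hfib w hw))
    have hz : ∀ w ∈ v.fiber F, OrdGE w (algebraMap ℂ⟮f⟯ F u * h) 0 := fun w hw =>
      (hz0 w hw).mono zero_le_one
    have htr : Algebra.trace ℂ⟮f⟯ F (algebraMap ℂ⟮f⟯ F u * h) = u * T := by
      rw [← Algebra.smul_def, map_smul, smul_eq_mul]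
    have hev := evalAt_trace v hz
    rw [htr, Finset.sum_eq_zero fun w hw => by
      rw [(evalAt_eq_zero_iff (hz w hw)).2 (hz0 w hw), mul_zero]] at hev
    have hge := (evalAt_eq_zero_iff (htr ▸ ordGE_trace v hz)).1 hev
    have hle := hge.le_ord (mul_ne_zero hu0 hT0)
    rw [Place.ord_mul _ hu0 hT0] at hle
    refine ⟨ordGE_iff.2 (Or.inr ?_), fun hv => ordGE_iff.2 (Or.inr ?_)⟩
    · rcases hu with h1 | ⟨h1, -⟩ <;> omega
    · have := hpole hv; omega
  obtain ⟨c, hc⟩ := mem_range_of_forall_ordGE fun v => (hall v).1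
  have hf₀t : Transcendental ℂ f₀⁻¹ := transcendental_of_not_mem fun ⟨b, hb⟩ => hf
    ⟨Polynomial.X - Polynomial.C b⁻¹, Polynomial.X_sub_C_ne_zero _, by
      have : (algebraMap ℂ ℂ⟮f⟯ b⁻¹ : F) = (f₀ : F) := by
        rw [map_inv₀, hb, inv_inv]
      rw [map_sub, Polynomial.aeval_X, Polynomial.aeval_C, sub_eq_zero]
      exact this.symm⟩
  obtain ⟨v, hv⟩ := exists_place_ord_pos hf₀t
  rw [Place.ord_inv] at hv
  have := (hall v).2 (by omega)
  rw [← hc] at this ⊢
  rw [eq_zero_of_ordGE_one this, map_zero]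

/-- Over a value with simple fibre, the values of `ω / df` sum to zero. -/
theorem sum_eq_zero_of_simple_fiber {f h : F} (hf : Transcendental ℂ f)
    (hreg : IsRegularDiff (h • KaehlerDifferential.D ℂ F f)) (a : ℂ)
    (S : Finset (Place ℂ F)) (hS : ∀ w, w ∈ S ↔ 0 < w.ord (f - algebraMap ℂ F a))
    (hsimple : ∀ w ∈ S, w.ord (f - algebraMap ℂ F a) = 1) :
    ∑ w ∈ S, evalAt w h = 0 := by
  rcases S.eq_empty_or_nonempty with rfl | ⟨w₀, hw₀⟩
  · simp
  rcases eq_or_ne h 0 with rfl | hh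
  · exact Finset.sum_eq_zero fun w _ => evalAt_eq (by simpa using ordGE_zero w 1)
  have := finiteDimensional_adjoin hf
  have : IsFunctionField ℂ ℂ⟮f⟯ := isFunctionField_adjoin hf
  have : Algebra.IsIntegral ℂ⟮f⟯ F := Algebra.IsIntegral.of_finite _ _
  set u := AdjoinSimple.gen ℂ f - algebraMap ℂ ℂ⟮f⟯ a with hu
  have hum : algebraMap ℂ⟮f⟯ F u = f - algebraMap ℂ F a := by
    rw [hu, map_sub, ← IsScalarTower.algebraMap_apply, AdjoinSimple.algebraMap_gen]
  obtain ⟨ht, hdeg⟩ := gen_zero_place hf a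
  have hnn : 0 ≤ zeroDiv ℂ u := Finsupp.le_def.2 fun w => by simp
  set v := w₀.restrict ℂ⟮f⟯
  have hup : ∀ w : Place ℂ F, 0 < w.ord (f - algebraMap ℂ F a) →
      0 < (w.restrict ℂ⟮f⟯).ord u := fun w hw => by
    rw [← hum, w.ord_restrict] at hw
    by_contra hle
    have : (0 : ℤ) ≤ w.ramificationIndex ℂ⟮f⟯ := Int.natCast_nonneg _
    nlinarith
  have hv : 0 < v.ord u := hup w₀ ((hS w₀).1 hw₀)
  obtain ⟨h1, huniq⟩ := ord_eq_one_of_degree_eq_one hnn hdeg (v := v) (by simp; omega)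
  rw [zeroDiv_apply] at h1
  -- `S` is the fibre over `f = a`
  have hfib : v.fiber F = S := by
    ext w
    rw [Place.mem_fiber, hS]
    refine ⟨fun hw => ?_, fun hw => huniq _ (by have := hup w hw; simp; omega)⟩
    rw [← hum, w.ord_restrict, hw]
    have := w.ramificationIndex_pos (F := ℂ⟮f⟯)
    exact mul_pos (by exact_mod_cast this) hv
  have he : ∀ w ∈ S, w.ramificationIndex ℂ⟮f⟯ = 1 := fun w hw => by
    have h2 := hsimple w hw
    rw [← hum, w.ord_restrict, Place.mem_fiber.1 (hfib.symm ▸ hw),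
      show v.ord u = 1 by omega, mul_one] at h2
    exact_mod_cast h2
  have hDfa : KaehlerDifferential.D ℂ F (f - algebraMap ℂ F a) = KaehlerDifferential.D ℂ F f := by
    rw [map_sub, Derivation.map_algebraMap, sub_zero]
  have hDf : KaehlerDifferential.D ℂ F f ≠ 0 :=
    hDfa ▸ D_ne_zero_of_ord_eq_one w₀ (hsimple w₀ hw₀)
  -- `h` is regular there
  have hz : ∀ w ∈ v.fiber F, OrdGE w h 0 := fun w hw => by
    have hw' : w ∈ S := hfib ▸ hw
    have hdd := ordDifferential_D_eq w (f := f - algebraMap ℂ F a)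
      (by rw [hsimple w hw']; norm_num)
    rw [hsimple w hw', hDfa] at hdd
    have := hreg w
    rw [ordDifferential_smul w hh hDf, hdd] at this
    exact ordGE_iff.2 (Or.inr (by omega))
  -- the trace vanishes, and its value is the sum
  have hev := evalAt_trace v hz
  rw [trace_eq_zero hf hreg, ← map_zero (algebraMap ℂ ℂ⟮f⟯), evalAt_algebraMap, hfib] at hev
  rw [hev]
  exact Finset.sum_congr rfl fun w hw => by rw [he w hw]; simp

end Fermat.JAC
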