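import Fermat.Agent.JAC.Pencil
import Fermat.Agent.JAC.Trace
import Mathlib.MeasureTheory.Integral.DivergenceTheorem
import Mathlib.Analysis.Complex.RealDeriv
import Mathlib.Analysis.Calculus.InverseFunctionTheorem.Deriv

/-!
# Additivity of the local logarithm

The main result is `exists_additive`, near the nonspecial tuple.
-/

set_option autoImplicit false

noncomputable section

open AlgebraicCurve Metric Filter Topology Set

namespace Fermat.JAC

open Fermat.FF

variable {F : Type*} [Field F] [Algebra ℂ F] [IsFunctionField ℂ F]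

/-- Each value is taken as often, with multiplicity, as the degree of the polar divisor. -/
theorem degree_zeroDiv_sub_eq (f : F) (a : ℂ) :
    Divisor.degree (zeroDiv ℂ (f - algebraMap ℂ F a)) = Divisor.degree (poleDiv ℂ f) := by
  have h := congrArg Divisor.degree (divOf_eq_sub (K := ℂ) (f - algebraMap ℂ F a))
  rw [degree_divOf, map_sub, poleDiv_sub_algebraMap] at h
  omega

/-- Finitely many maps, continuous at a point and with distinct values there, stay distinct
nearby. -/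
theorem eventually_injective_of_continuousAt {ι X Y : Type*} [Finite ι] [TopologicalSpace X]
    [TopologicalSpace Y] [T2Space Y] {Q : ι → X → Y} {x : X} (hQ : ∀ i, ContinuousAt (Q i) x)
    (h : Function.Injective fun i => Q i x) : ∀ᶠ μ in 𝓝 x, ∀ i j, Q i μ = Q j μ → i = j :=
  eventually_all.2 fun i => eventually_all.2 fun j => by
    rcases eq_or_ne i j with hij | hij
    · exact Eventually.of_forall fun _ _ => hij
    · filter_upwards [((hQ i).prodMk (hQ j)).eventually
        ((isOpen_ne_fun continuous_fst continuous_snd).mem_nhds (h.ne hij))] with μ hμ he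
      exact absurd he hμ

/-- A value with simple fibre is taken as often as the degree. -/
theorem degree_poleDiv_eq_card {f : F} {a : ℂ} {S : Finset (Place ℂ F)}
    (hS : ∀ w, w ∈ S ↔ 0 < w.ord (f - algebraMap ℂ F a))
    (hsimple : ∀ w ∈ S, w.ord (f - algebraMap ℂ F a) = 1) :
    Divisor.degree (poleDiv ℂ f) = S.card := by
  classical
  rw [← degree_zeroDiv_sub_eq f a, show zeroDiv ℂ (f - algebraMap ℂ F a) =
    ∑ w ∈ S, Finsupp.single w (1 : ℤ) from ?_]
  · simp
  ext v
  rw [zeroDiv_apply, Finsupp.finsetSum_apply]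
  simp only [Finsupp.single_apply, Finset.sum_ite_eq']
  split_ifs with hv
  · rw [hsimple v hv]; rfl
  · rw [hS] at hv; omega

/-- As many distinct zeros as the degree make up the divisor of zeros. -/
theorem zeroDiv_sub_eq_sum {ι : Type*} [Fintype ι] {f : F} {μ : ℂ} {Q : ι → Place ℂ F}
    (hQ : Function.Injective Q) (hpos : ∀ i, 0 < (Q i).ord (f - algebraMap ℂ F μ))
    (hdeg : Divisor.degree (poleDiv ℂ f) = Fintype.card ι) :
    zeroDiv ℂ (f - algebraMap ℂ F μ) = ∑ i, Finsupp.single (Q i) (1 : ℤ) := by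
  classical
  refine sub_eq_zero.1 (eq_zero_of_nonneg_of_degree_le (Finsupp.le_def.2 fun v => ?_) ?_)
  · rw [Finsupp.sub_apply, zeroDiv_apply, Finsupp.finsetSum_apply, Finsupp.coe_zero,
      Pi.zero_apply]
    simp only [Finsupp.single_apply]
    by_cases hv : ∃ i, Q i = v
    · obtain ⟨i, rfl⟩ := hv
      rw [Finset.sum_eq_single i (fun j _ hj => if_neg fun he => hj (hQ he)) (by simp), if_pos rfl]
      have := hpos i
      omega
    · rw [Finset.sum_eq_zero fun i _ => if_neg fun he => hv ⟨i, he⟩]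
      omega
  · rw [map_sub, degree_zeroDiv_sub_eq, hdeg]; simp

/-- At a simple zero of `f - a` the derivative of `f` in a chart does not vanish. -/
theorem fn_coeff_D_ne_zero {P : Place ℂ F} {ch : Chart P} {z : ℂ} (hz : z ∈ ball (0 : ℂ) ch.ε)
    {f : F} (hreg : OrdGE (ch.param z) f 0) {a : ℂ}
    (hsimple : (ch.param z).ord (f - algebraMap ℂ F a) = 1) :
    ch.fn (ch.coeff (KaehlerDifferential.D ℂ F f)) z ≠ 0 := fun h0 => by
  have hDfa : KaehlerDifferential.D ℂ F (f - algebraMap ℂ F a) = KaehlerDifferential.D ℂ F f := by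
    rw [map_sub, Derivation.map_algebraMap, sub_zero]
  have hDf : KaehlerDifferential.D ℂ F f ≠ 0 := hDfa ▸ D_ne_zero_of_ord_eq_one _ hsimple
  have hne : ch.coeff (KaehlerDifferential.D ℂ F f) ≠ 0 := fun h1 => hDf (by
    rw [← Chart.coeff_smul (ch := ch) (KaehlerDifferential.D ℂ F f), h1, zero_smul])
  have h1 := ((evalAt_eq_zero_iff (Chart.hasDerivAt_fn hz hreg).1).1 h0).le_ord hne
  rw [← Chart.ordDifferential_param hz, ← hDfa,
    ordDifferential_D_eq _ (by rw [hsimple]; norm_num), hsimple] at h1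
  omega

namespace LogData

variable (D : LogData F)

/-- The branch of the inverse of `f` through a simple point of the discs. -/
theorem exists_disc_branch {f : F} {μ₀ : ℂ} {w : Place ℂ F} (hw : w ∈ D.discs)
    (hord : w.ord (f - algebraMap ℂ F μ₀) = 1) :
    ∃ j, ∃ z ∈ ball (0 : ℂ) D.r, ∃ γ : ℂ → ℂ, (D.ch j).param z = w ∧ γ μ₀ = z ∧
      OrdGE ((D.ch j).param z) f 0 ∧
      (D.ch j).fn ((D.ch j).coeff (KaehlerDifferential.D ℂ F f)) z ≠ 0 ∧
      HasDerivAt γ ((D.ch j).fn ((D.ch j).coeff (KaehlerDifferential.D ℂ F f)) z)⁻¹ μ₀ ∧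
      ∀ᶠ μ in 𝓝 μ₀, γ μ ∈ ball (0 : ℂ) D.r ∧ OrdGE ((D.ch j).param (γ μ)) f 0 ∧
        (D.ch j).fn f (γ μ) = μ := by
  obtain ⟨j, z, hz, rfl⟩ := mem_iUnion.1 hw
  set ch := D.ch j
  have hb := D.ball_subset j hz
  have hreg : OrdGE (ch.param z) f 0 := by
    simpa using ((ordGE_iff.2 (Or.inr (by omega)) :
      OrdGE (ch.param z) (f - algebraMap ℂ F μ₀) 0)).add (ordGE_algebraMap _ μ₀)
  have hval : ch.fn f z = μ₀ := evalAt_eq
    (ordGE_iff.2 (Or.inr (show 0 < (ch.param z).ord (f - algebraMap ℂ F μ₀) by omega)))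
  have hd0 := fn_coeff_D_ne_zero hb hreg hord
  have hst : HasStrictDerivAt (ch.fn f) (ch.fn (ch.coeff (KaehlerDifferential.D ℂ F f)) z) z := by
    have h1 := (Chart.analyticAt_fn hb hreg).hasStrictDerivAt
    rwa [(Chart.hasDerivAt_fn hb hreg).2.deriv] at h1
  refine ⟨j, z, hz, hst.localInverse _ _ _ hd0, rfl, ?_, hreg, hd0, ?_, ?_⟩
  · have := (hst.eventually_left_inverse hd0).self_of_nhds
    rwa [hval] at this
  · have := (hst.to_localInverse hd0).hasDerivAt
    rwa [hval] at this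
  · have hc := (hst.to_localInverse hd0).hasDerivAt.continuousAt
    rw [hval, ContinuousAt] at hc
    have h0 := (hst.eventually_left_inverse hd0).self_of_nhds
    rw [hval] at h0
    rw [h0] at hc
    have h3 := hst.eventually_right_inverse hd0
    rw [hval] at h3
    filter_upwards [hc.eventually (isOpen_ball.mem_nhds hz),
      hc.eventually (Chart.eventually_regular hb hreg), h3] with μ a b c
    exact ⟨a, b, c⟩

/-- The derivative along a branch of a primitive of `h df` is the value of `h`. -/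
theorem fn_coeff_mul_inv {j : Fin (genusFF ℂ F)} {z : ℂ} (hz : z ∈ ball (0 : ℂ) D.r) {f : F}
    (hreg : OrdGE ((D.ch j).param z) f 0) {μ₀ : ℂ}
    (hord : ((D.ch j).param z).ord (f - algebraMap ℂ F μ₀) = 1) {h : F}
    (hh : IsRegularDiff (h • KaehlerDifferential.D ℂ F f)) :
    (D.ch j).fn ((D.ch j).coeff (h • KaehlerDifferential.D ℂ F f)) z *
        ((D.ch j).fn ((D.ch j).coeff (KaehlerDifferential.D ℂ F f)) z)⁻¹ =
      evalAt ((D.ch j).param z) h := by
  have hb := D.ball_subset j hz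
  have hd0 := fn_coeff_D_ne_zero hb hreg hord
  have hDfa : KaehlerDifferential.D ℂ F (f - algebraMap ℂ F μ₀) = KaehlerDifferential.D ℂ F f := by
    rw [map_sub, Derivation.map_algebraMap, sub_zero]
  have hhreg : OrdGE ((D.ch j).param z) h 0 := by
    refine ordGE_iff.2 ?_
    rcases eq_or_ne h 0 with h0 | h0
    · exact Or.inl h0
    right
    have h1 := hh ((D.ch j).param z)
    rw [ordDifferential_smul _ h0 (hDfa ▸ D_ne_zero_of_ord_eq_one _ hord), ← hDfa,
      ordDifferential_D_eq _ (by rw [hord]; norm_num), hord] at h1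
    omega
  rw [Chart.coeff_smul']
  change evalAt _ _ * _ = _
  rw [evalAt_mul hhreg (Chart.hasDerivAt_fn hb hreg).1, mul_assoc]
  exact (congrArg _ (mul_inv_cancel₀ hd0)).trans (mul_one _)

/-- The logarithm of a fibre has derivative zero at a good value. -/
theorem hasDerivAt_logDiv_zeroDiv {f : F} (hf : Transcendental ℂ f) {μ₀ : ℂ}
    (hmem : ∀ w : Place ℂ F, 0 < w.ord (f - algebraMap ℂ F μ₀) →
      w ∈ D.discs ∧ w.ord (f - algebraMap ℂ F μ₀) = 1)
    (i : Fin (genusFF ℂ F)) :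
    HasDerivAt (fun μ => D.logDiv (zeroDiv ℂ (f - algebraMap ℂ F μ)) i) 0 μ₀ := by
  classical
  set S : Finset (Place ℂ F) := (finite_setOf_ord_ne_zero (K := ℂ)
    (f - algebraMap ℂ F μ₀)).toFinset.filter fun w => 0 < w.ord (f - algebraMap ℂ F μ₀) with hSdef
  have hS : ∀ w, w ∈ S ↔ 0 < w.ord (f - algebraMap ℂ F μ₀) := fun w => by
    simp [hSdef]; omega
  have hord : ∀ w ∈ S, w.ord (f - algebraMap ℂ F μ₀) = 1 := fun w hw => (hmem w ((hS w).1 hw)).2
  obtain ⟨w₀, hw₀⟩ := exists_place_ord_pos (K := ℂ) (y := f - algebraMap ℂ F μ₀)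
    (transcendental_of_not_mem fun ⟨c, hc⟩ => hf ⟨Polynomial.X - Polynomial.C (c + μ₀),
      Polynomial.X_sub_C_ne_zero _, by simp [hc]⟩)
  have hDf : KaehlerDifferential.D ℂ F f ≠ 0 := by
    have := D_ne_zero_of_ord_eq_one w₀ (hmem w₀ hw₀).2
    rwa [map_sub, Derivation.map_algebraMap, sub_zero] at this
  obtain ⟨h, hh⟩ := exists_smul_eq_of_finrank_eq_one IsCurveOver.finrank_kaehler hDf (D.ω i)
  -- Near `μ₀` the fibre consists of the values of branches through the points of `S`.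
  choose jw zw hzw γ hw hγ0 hreg hd0 hγd hγ using fun w : S =>
    D.exists_disc_branch (hmem w ((hS w).1 w.2)).1 (hord w w.2)
  set Q : S → ℂ → Place ℂ F := fun w μ => (D.ch (jw w)).param (γ w μ)
  have hQ0 : ∀ w : S, Q w μ₀ = w := fun w => by
    change (D.ch (jw w)).param (γ w μ₀) = _
    rw [hγ0, hw w]
  have hQc : ∀ w : S, ContinuousAt (Q w) μ₀ := fun w => by
    refine ContinuousAt.comp (g := (D.ch (jw w)).param) ?_ (hγd w).continuousAt
    rw [hγ0]; exact Chart.continuousAt_param (D.ball_subset _ (hzw w))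
  have hinj := eventually_injective_of_continuousAt hQc
    fun a b hab => Subtype.ext (by simpa [hQ0] using hab)
  -- near `μ₀` the logarithm of the fibre is a sum over these branches
  have heq : (fun μ => D.logDiv (zeroDiv ℂ (f - algebraMap ℂ F μ)) i) =ᶠ[𝓝 μ₀]
      fun μ => ∑ w : S, D.prim (jw w) i (γ w μ) := by
    filter_upwards [eventually_all.2 hγ, hinj] with μ hμ hinj
    have hne : f - algebraMap ℂ F μ ≠ 0 := fun h0 => hf
      ⟨Polynomial.X - Polynomial.C μ, Polynomial.X_sub_C_ne_zero _, by simp [h0]⟩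
    rw [zeroDiv_sub_eq_sum (Q := fun w => Q w μ) (fun a b hab => hinj a b hab) (fun w => ?_)
      (by rw [Fintype.card_coe]; exact degree_poleDiv_eq_card hS hord), map_sum, Finset.sum_apply]
    · refine Finset.sum_congr rfl fun w _ => ?_
      rw [D.logDiv_single, one_smul]
      exact D.loc_param (hμ w).1 i
    · change 0 < ((D.ch (jw w)).param (γ w μ)).ord (f - algebraMap ℂ F μ)
      have h1 := evalAt_spec (hμ w).2.1
      rw [show evalAt ((D.ch (jw w)).param (γ w μ)) f = μ from (hμ w).2.2] at h1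
      have := h1.le_ord hne
      omega
  refine HasDerivAt.congr_of_eventuallyEq ?_ heq
  -- The derivative is the sum over the fibre of `h = ω_i / df`, zero by the trace argument.
  have hsum : HasDerivAt (fun μ => ∑ w : S, D.prim (jw w) i (γ w μ))
      (∑ w : S, (D.ch (jw w)).fn ((D.ch (jw w)).coeff (D.ω i)) (zw w) *
        ((D.ch (jw w)).fn ((D.ch (jw w)).coeff (KaehlerDifferential.D ℂ F f)) (zw w))⁻¹) μ₀ := by
    refine HasDerivAt.fun_sum fun w _ => ?_
    have h1 := D.prim_deriv (jw w) i (zw w) (hzw w)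
    rw [← hγ0 w] at h1
    have := h1.comp μ₀ (hγd w)
    rwa [hγ0 w] at this
  refine hsum.congr_deriv ?_
  have hregdiff : IsRegularDiff (h • KaehlerDifferential.D ℂ F f) := hh ▸ D.ω_regular i
  refine ((Finset.sum_congr rfl fun w _ => ?_).trans
    (Finset.sum_coe_sort S fun w => evalAt w h)).trans
      (sum_eq_zero_of_simple_fiber hf hregdiff μ₀ S hS hord)
  rw [← hh, D.fn_coeff_mul_inv (hzw w) (hreg w) (by rw [hw w]; exact hord w w.2) hregdiff, hw w]

/-- A member of the pencil is determined by its parameter. -/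
private theorem pts_eq_of_isFibre {k N : ℕ} {hN : genusFF ℂ F + genusFF ℂ F + k = N}
    {R : Fin k → Place ℂ F} {c₁ c₂ c c' : Fin (secDim F N) → ℂ} {t : ℝ}
    (hb : (1 - (t : ℂ)) • c₁ + (t : ℂ) • c₂ ≠ 0)
    {T T' : Fin (genusFF ℂ F + genusFF ℂ F) → Place ℂ F}
    (hT : IsFibre hN R c₁ c₂ t c T) (hT' : IsFibre hN R c₁ c₂ t c' T') : pts T = pts T' := by
  have hcc : c = c' := smul_right_injective _
    (Complex.ofReal_ne_zero.2 (norm_ne_zero_iff.2 hb)) (hT.2.trans hT'.2.symm)
  subst hcc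
  have := hT.1.2.symm.trans hT'.1.2
  dsimp only at this
  rw [pts_comp_cast, pts_comp_cast, pts_append, pts_append] at this
  exact add_right_cancel this

/-- The logarithm of the member of a pencil staying in the discs depends continuously on the
parameter. -/
private theorem exists_continuousOn_logDiv_isFibre {k N : ℕ}
    {hN : genusFF ℂ F + genusFF ℂ F + k = N} {R : Fin k → Place ℂ F}
    {c₁ c₂ : Fin (secDim F N) → ℂ} (h1 : ‖c₁‖ = 1) (hle : ‖c₁ - c₂‖ ≤ 1 / 2)
    (hex : ∀ t ∈ Icc (0 : ℝ) 1, ∃ c T, IsFibre hN R c₁ c₂ t c T)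
    (hdisc : ∀ t ∈ Icc (0 : ℝ) 1, ∀ c T, IsFibre hN R c₁ c₂ t c T → ∀ i, T i ∈ D.discs) :
    ∃ L : ℝ → Fin (genusFF ℂ F) → ℂ, ContinuousOn L (Icc 0 1) ∧
      ∀ t ∈ Icc (0 : ℝ) 1, ∀ c T, IsFibre hN R c₁ c₂ t c T → D.logDiv (pts T) = L t := by
  classical
  -- the logarithm of any member, which does not depend on the choice
  let L : ℝ → (Fin (genusFF ℂ F) → ℂ) := fun t =>
    if h : t ∈ Icc (0 : ℝ) 1 then D.logDiv (pts (hex t h).choose_spec.choose) else 0
  have hL : ∀ t ∈ Icc (0 : ℝ) 1, ∀ c T, IsFibre hN R c₁ c₂ t c T →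
      D.logDiv (pts T) = L t := by
    intro t ht c T hT
    have hb : (1 - (t : ℂ)) • c₁ + (t : ℂ) • c₂ ≠ 0 := fun h0 => by
      have := norm_segment_ge h1 hle ht
      rw [h0, norm_zero] at this; linarith
    simp only [L, dif_pos ht]
    rw [pts_eq_of_isFibre hb hT (hex t ht).choose_spec.choose_spec]
  refine ⟨L, ?_, hL⟩
  -- the members over the interval form a compact set
  let Γ : Set (MemberSpace F (genusFF ℂ F) N) :=
    {q | q.1 ∈ Icc (0 : ℝ) 1 ∧ IsFibre hN R c₁ c₂ q.1 q.2.1 q.2.2}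
  have hΓ : IsCompact Γ := by
    refine (isCompact_Icc.prod ((isCompact_sphere (0 : Fin (secDim F N) → ℂ) 1).prod
      isCompact_univ)).of_isClosed_subset ?_ fun q hq => ⟨hq.1, hq.2.1.1, trivial⟩
    exact (isClosed_Icc.preimage continuous_fst).inter
      ((isClosed_isFibre hN).preimage
        (Continuous.prodMk (continuous_const (y := (R, (c₁, c₂)))) continuous_id))
  have hG : IsCompact ((fun q : MemberSpace F (genusFF ℂ F) N =>
      (q.1, ∑ i, D.loc (q.2.2 i))) '' Γ) := by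
    refine hΓ.image_of_continuousOn (continuous_fst.continuousOn.prodMk
      (continuousOn_finsetSum _ fun i _ => D.continuousOn_loc.comp
        (((continuous_apply i).comp (continuous_snd.comp continuous_snd)).continuousOn) ?_))
    intro q hq
    exact hdisc q.1 hq.1 _ _ hq.2 i
  -- so the graph of `L` is compact, hence `L` is continuous
  refine continuousOn_of_compact_graph hG (fun t ht => ?_) ?_
  · obtain ⟨c, T, hT⟩ := hex t ht
    exact ⟨(t, (c, T)), ⟨ht, hT⟩, by rw [← hL t ht c T hT, D.logDiv_pts]⟩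
  · rintro p ⟨⟨t, c, T⟩, ⟨ht, hT⟩, rfl⟩ -
    change ∑ i, D.loc (T i) = L t
    rw [← D.logDiv_pts]; exact hL t ht c T hT

/-- The member of the pencil at a nonzero parameter is a fibre of the ratio of the two
sections. -/
private theorem pts_isFibre_eq {k N : ℕ} {hN : genusFF ℂ F + genusFF ℂ F + k = N}
    {R : Fin k → Place ℂ F} {c₁ c₂ c : Fin (secDim F N) → ℂ} {t : ℝ} (ht0 : t ≠ 0)
    (hb : (1 - (t : ℂ)) • c₁ + (t : ℂ) • c₂ ≠ 0) (hs₁ : sec c₁ ≠ 0)
    (hfμ : sec c₂ / sec c₁ - algebraMap ℂ F (-(1 - (t : ℂ)) / t) ≠ 0) {P : Divisor ℂ F}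
    (hd₁ : divOf ℂ (sec c₁) + Finsupp.single (base F) (N : ℤ) = P + pts R)
    {T : Fin (genusFF ℂ F + genusFF ℂ F) → Place ℂ F} (hT : IsFibre hN R c₁ c₂ t c T) :
    pts T = P + divOf ℂ (sec c₂ / sec c₁ - algebraMap ℂ F (-(1 - (t : ℂ)) / t)) := by
  set b := (1 - (t : ℂ)) • c₁ + (t : ℂ) • c₂ with hbdef
  set μ : ℂ := -(1 - (t : ℂ)) / t with hμ
  set f := sec c₂ / sec c₁ with hfdef
  have ht0' : (t : ℂ) ≠ 0 := Complex.ofReal_ne_zero.2 ht0
  have hν : (‖b‖ : ℂ) ≠ 0 := Complex.ofReal_ne_zero.2 (norm_ne_zero_iff.2 hb)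
  have hc : c = (‖b‖ : ℂ)⁻¹ • b := by rw [eq_inv_smul_iff₀ hν]; exact hT.2
  have hsb : sec c = algebraMap ℂ F ((‖b‖ : ℂ)⁻¹ * t) * (sec c₁ * (f - algebraMap ℂ F μ)) := by
    rw [hc, sec_smul, hbdef, sec_add, sec_smul, sec_smul, Algebra.smul_def, Algebra.smul_def,
      Algebra.smul_def, map_mul, mul_assoc]
    congr 1
    rw [hfdef, mul_sub, mul_div_cancel₀ _ hs₁, mul_sub, ← mul_assoc _ (sec c₁),
      mul_comm (algebraMap ℂ F (t : ℂ)) (sec c₁), mul_assoc, ← map_mul, hμ,
      mul_div_cancel₀ _ ht0', map_neg]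
    simp only [Algebra.smul_def]
    ring
  have hdiv : divOf ℂ (sec c) = divOf ℂ (sec c₁) + divOf ℂ (f - algebraMap ℂ F μ) := by
    ext v
    rw [Finsupp.add_apply, divOf_apply, divOf_apply, divOf_apply, hsb,
      Place.ord_mul _ ((_root_.map_ne_zero _).2 (mul_ne_zero (inv_ne_zero hν) ht0'))
        (mul_ne_zero hs₁ hfμ), Place.ord_mul _ hs₁ hfμ, ord_algebraMap, zero_add]
  have h2 := hT.1.2
  dsimp only at h2
  rw [pts_comp_cast, pts_append, hdiv] at h2
  linear_combination (norm := abel) hd₁ - h2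

/-- Along the parameter `-(1 - t) / t` all but finitely many fibres of a nonconstant function
are simple. -/
private theorem exists_finite_forall_ord_eq_one {f : F} (hf : Transcendental ℂ f) :
    ∃ crit : Set ℝ, crit.Finite ∧ ∀ t : ℝ, t ∉ crit → t ≠ 0 → ∀ w : Place ℂ F,
      0 < w.ord (f - algebraMap ℂ F (-(1 - (t : ℂ)) / t)) →
        w.ord (f - algebraMap ℂ F (-(1 - (t : ℂ)) / t)) = 1 := by
  have hDf := D_ne_zero_of_separable hf (separable_of_charZero hf)
  refine ⟨(fun w : Place ℂ F => (1 / (1 - evalAt w f)).re) '' ↑(canonicalDivisorOf hDf).support,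
    (Finset.finite_toSet _).image _, fun t ht ht0 w hw => ?_⟩
  set μ : ℂ := -(1 - (t : ℂ)) / t with hμ
  by_contra h1
  refine ht ⟨w, Finsupp.mem_support_iff.2 ?_, ?_⟩
  · rw [canonicalDivisorOf_apply, show KaehlerDifferential.D ℂ F f =
      KaehlerDifferential.D ℂ F (f - algebraMap ℂ F μ) by
        rw [map_sub, Derivation.map_algebraMap, sub_zero],
      ordDifferential_D_eq w (by exact_mod_cast hw.ne')]
    omega
  · have ht0' : (t : ℂ) ≠ 0 := Complex.ofReal_ne_zero.2 ht0
    have hv : evalAt w f = μ := evalAt_eq (ordGE_iff.2 (Or.inr hw))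
    have : 1 - evalAt w f = 1 / (t : ℂ) := by rw [hv, hμ]; field_simp; ring
    simp [this]

/-- The logarithm of a moving fibre has derivative zero at a good parameter. -/
private theorem hasDerivAt_zero_of_fibre {f : F} (hf : Transcendental ℂ f) {P : Divisor ℂ F}
    {L : ℝ → Fin (genusFF ℂ F) → ℂ} {t : ℝ} (ht : t ∈ Ioo (0 : ℝ) 1)
    (hmem : ∀ w : Place ℂ F, 0 < w.ord (f - algebraMap ℂ F (-(1 - (t : ℂ)) / t)) →
      w ∈ D.discs ∧ w.ord (f - algebraMap ℂ F (-(1 - (t : ℂ)) / t)) = 1)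
    (hL : ∀ x ∈ Ioo (0 : ℝ) 1,
      L x = D.logDiv (P + divOf ℂ (f - algebraMap ℂ F (-(1 - (x : ℂ)) / x)))) :
    HasDerivAt L 0 t := by
  refine hasDerivAt_pi.2 fun i => ?_
  have ht0 : (t : ℂ) ≠ 0 := Complex.ofReal_ne_zero.2 ht.1.ne'
  have h1 := D.hasDerivAt_logDiv_zeroDiv hf hmem i
  have hμd : HasDerivAt (fun x : ℂ => -(1 - x) / x)
      ((1 * t - -(1 - (t : ℂ)) * 1) / (t : ℂ) ^ 2) (t : ℂ) :=
    HasDerivAt.fun_div (by simpa using ((hasDerivAt_id' (t : ℂ)).const_sub (1 : ℂ)).fun_neg)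
      (hasDerivAt_id' _) ht0
  have h3 := (HasDerivAt.comp (h := fun x : ℂ => -(1 - x) / x) (t : ℂ) h1 hμd).comp_ofReal
  rw [zero_mul] at h3
  refine (h3.const_add (D.logDiv P i - D.logDiv (poleDiv ℂ f) i)).congr_of_eventuallyEq ?_
  filter_upwards [isOpen_Ioo.mem_nhds ht] with x hx
  rw [hL x hx, divOf_eq_sub, poleDiv_sub_algebraMap, map_add, map_sub]
  simp only [Function.comp, Pi.add_apply, Pi.sub_apply]
  ring

/-- The logarithm takes the same value at the two ends of a pencil which stays in the discs. -/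
private theorem logDiv_pencil_ends {k N : ℕ} {hN : genusFF ℂ F + genusFF ℂ F + k = N}
    {A B C : Fin (genusFF ℂ F) → Place ℂ F} {R : Fin k → Place ℂ F}
    {c₁ c₂ : Fin (secDim F N) → ℂ} (hp : IsPair hN D.e A B C R c₁ c₂)
    (hle : ‖c₁ - c₂‖ ≤ 1 / 2)
    (hdisc : ∀ t ∈ Icc (0 : ℝ) 1, ∀ c T, IsFibre hN R c₁ c₂ t c T → ∀ i, T i ∈ D.discs) :
    D.logDiv (pts A) + D.logDiv (pts B) = D.logDiv (pts C) + D.logDiv (pts D.e) := by
  have hd₁ : divOf ℂ (sec c₁) + Finsupp.single (base F) (N : ℤ) = pts A + pts B + pts R := by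
    rw [hp.1.2, pts_comp_cast, pts_append, pts_append]
  have hd₂ : divOf ℂ (sec c₂) + Finsupp.single (base F) (N : ℤ) = pts C + pts D.e + pts R := by
    rw [hp.2.2, pts_comp_cast, pts_append, pts_append]
  have hn1 := mem_sphere_zero_iff_norm.1 hp.1.1
  have hn2 := mem_sphere_zero_iff_norm.1 hp.2.1
  dsimp only at hn1 hn2
  have hs₁ : sec c₁ ≠ 0 := fun h0 => by rw [sec_eq_zero_iff.1 h0] at hn1; simp at hn1
  have hs₂ : sec c₂ ≠ 0 := fun h0 => by rw [sec_eq_zero_iff.1 h0] at hn2; simp at hn2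
  set f := sec c₂ / sec c₁ with hfdef
  -- If the sections are proportional the two divisors agree.
  by_cases hfc : f ∈ Set.range (algebraMap ℂ F)
  · obtain ⟨c, hc⟩ := hfc
    have h0 : divOf ℂ f = 0 := by ext v; rw [divOf_apply, ← hc, ord_algebraMap]; rfl
    have hdiv : divOf ℂ f = pts C + pts D.e - (pts A + pts B) := by
      rw [hfdef, div_eq_mul_inv, divOf_mul hs₂ (inv_ne_zero hs₁), divOf_inv,
        eq_sub_of_add_eq hd₁, eq_sub_of_add_eq hd₂]
      abel
    rw [← map_add, ← map_add, sub_eq_zero.1 (hdiv.symm.trans h0)]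
  have hft := transcendental_of_not_mem hfc
  have hex : ∀ t ∈ Icc (0 : ℝ) 1, ∃ c T, IsFibre hN R c₁ c₂ t c T :=
    fun t ht => D.exists_isFibre hN hp hle ht
  -- Otherwise the logarithm `L` of the moving fibre is continuous in the parameter.
  obtain ⟨L, hcont, hL⟩ := D.exists_continuousOn_logDiv_isFibre hn1 hle hex hdisc
  -- the interior fibres are fibres of `f`
  have hmember : ∀ t ∈ Ioo (0 : ℝ) 1, ∀ c T, IsFibre hN R c₁ c₂ t c T →
      pts T = pts A + pts B + divOf ℂ (f - algebraMap ℂ F (-(1 - (t : ℂ)) / t)) :=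
    fun t ht c T hT => pts_isFibre_eq ht.1.ne' (fun h0 => by
      have := norm_segment_ge hn1 hle (Ioo_subset_Icc_self ht)
      rw [h0, norm_zero] at this; linarith) hs₁
      (fun h0 => hfc ⟨_, (sub_eq_zero.1 h0).symm⟩) hd₁ hT
  -- Its derivative vanishes outside finitely many parameters, so it is constant.
  obtain ⟨crit, hcrit, hsimple⟩ := exists_finite_forall_ord_eq_one hft
  have hder : ∀ t ∈ Ioo (0 : ℝ) 1 \ crit, HasDerivAt L 0 t := by
    rintro t ⟨ht, htc⟩
    refine D.hasDerivAt_zero_of_fibre hft ht (P := pts A + pts B)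
      (fun w hw => ⟨?_, hsimple t htc ht.1.ne' w hw⟩) fun x hx => ?_
    · obtain ⟨c, T, hT⟩ := hex t (Ioo_subset_Icc_self ht)
      have hpos : 0 < pts T w := by
        rw [hmember t ht c T hT, Finsupp.add_apply, Finsupp.add_apply, divOf_apply]
        have h1 := Finsupp.le_def.1 (pts_nonneg A) w
        have h2 := Finsupp.le_def.1 (pts_nonneg B) w
        rw [Finsupp.coe_zero, Pi.zero_apply] at h1 h2
        omega
      by_contra hw'
      rw [pts_eq_zero_of_ne (T := T) (P := w) fun i hi =>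
        hw' (hi ▸ hdisc t (Ioo_subset_Icc_self ht) c T hT i)] at hpos
      exact lt_irrefl 0 hpos
    · obtain ⟨c, T, hT⟩ := hex x (Ioo_subset_Icc_self hx)
      rw [← hL x (Ioo_subset_Icc_self hx) c T hT, hmember x hx c T hT]
  -- so it has equal values at the two ends
  have hint := MeasureTheory.integral_eq_of_hasDerivAt_off_countable_of_le L 0 zero_le_one
    hcrit.countable hcont (fun x hx => hder x hx) (by exact intervalIntegrable_const)
  simp only [Pi.zero_apply, intervalIntegral.integral_zero] at hint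
  have e0 : L 0 = D.logDiv (pts (Fin.append A B)) :=
    (hL 0 (left_mem_Icc.2 zero_le_one) c₁ (Fin.append A B) ⟨hp.1, by simp [hn1]⟩).symm
  have e1 : L 1 = D.logDiv (pts (Fin.append C D.e)) :=
    (hL 1 (right_mem_Icc.2 zero_le_one) c₂ (Fin.append C D.e) ⟨hp.2, by simp [hn2]⟩).symm
  rw [sub_eq_zero.1 hint.symm, e0, pts_append, pts_append, map_add, map_add] at e1
  exact e1

/-- An equation in `Pic⁰` between tuples is realised by two sections of one linear system. -/
private theorem exists_isPair {A B C : Fin (genusFF ℂ F) → Place ℂ F}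
    (hadd : abel A + abel B = abel C + abel D.e) :
    ∃ R c₁ c₂, IsPair (N := genusFF ℂ F + genusFF ℂ F + genusFF ℂ F) rfl D.e A B C R c₁ c₂ := by
  obtain ⟨f₀, hf₀, hAB⟩ : ∃ f : F, f ≠ 0 ∧ pts A + pts B = pts C + pts D.e + divOf ℂ f := by
    rw [abel, abel, abel, abel, ← Pic0.mk_add, ← Pic0.mk_add, pic0_mk_eq_iff] at hadd
    obtain ⟨f, hf, h⟩ := hadd
    refine ⟨f, hf, ?_⟩
    change pts A - pts (baseTuple F) + (pts B - pts (baseTuple F)) =
      pts C - pts (baseTuple F) + (pts D.e - pts (baseTuple F)) + divOf ℂ f at h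
    linear_combination (norm := abel) h
  obtain ⟨R, s, hs, hR⟩ := exists_complement (Fin.append C D.e)
    (N := genusFF ℂ F + genusFF ℂ F + genusFF ℂ F) (k := genusFF ℂ F) rfl le_rfl
  obtain ⟨c₂, hc₂⟩ := exists_mem_secGraph (T := Fin.append (Fin.append C D.e) R) hs
    (by rw [pts_append]; exact hR)
  obtain ⟨c₁, hc₁⟩ := exists_mem_secGraph (T := Fin.append (Fin.append A B) R)
    (mul_ne_zero hf₀ hs)
    (by rw [pts_append, pts_append, hAB, divOf_mul hf₀ hs, add_right_comm, ← pts_append, hR]; abel)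
  exact ⟨R, c₁, c₂, hc₁, hc₂⟩

/-- The local logarithm is additive near the nonspecial tuple. -/
theorem exists_additive :
    ∃ U : Set (Fin (genusFF ℂ F) → Place ℂ F), IsOpen U ∧ D.e ∈ U ∧ U ⊆ D.box ∧
      ∀ A ∈ U, ∀ B ∈ U, ∀ C ∈ U, abel A + abel B = abel C + abel D.e →
        D.logDiv (pts A) + D.logDiv (pts B) = D.logDiv (pts C) := by
  obtain ⟨U, hUo, hUe, hU⟩ := D.exists_stable_nbhd (k := genusFF ℂ F)
    (N := genusFF ℂ F + genusFF ℂ F + genusFF ℂ F) rfl
  refine ⟨U ∩ D.box, hUo.inter D.isOpen_box, ⟨hUe, D.mem_box_e⟩, inter_subset_right,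
    fun A hA B hB C hC hadd => ?_⟩
  obtain ⟨R, c₁, c₂, hp⟩ := D.exists_isPair hadd
  obtain ⟨u, hu, hule, hstab⟩ := hU A hA.1 B hB.1 C hC.1 R c₁ c₂ hp
  have h := D.logDiv_pencil_ends (c₂ := u • c₂) ⟨hp.1, smul_mem_secGraph hp.2 hu⟩ hule hstab
  rwa [D.logDiv_e, add_zero] at h

end LogData

end Fermat.JAC
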