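import Mathlib.Analysis.Calculus.ImplicitFunction.Bivariate
import Mathlib.Analysis.Calculus.FDeriv.Partial
import Mathlib.Analysis.Complex.CauchyIntegral
import Mathlib.Analysis.Calculus.Deriv.Polynomial
import Mathlib.Algebra.Polynomial.Bivariate
import Mathlib.Analysis.Complex.Basic
import Mathlib.Topology.Algebra.Polynomial

/-!
# Analytic branches of plane algebraic curves at nonsingular points

The main result is `exists_analytic_branch`.
-/

set_option autoImplicit false

noncomputable section

open Polynomial Metric Filter Topology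
open scoped Polynomial.Bivariate

namespace Fermat.JAC

section Algebra

variable {R : Type*} [CommRing R]

/-- Partial derivative in the inner variable, as a function. -/
def pderivXFun (G : R[X][Y]) : R[X][Y] :=
  G.sum fun (n : ℕ) (a : R[X]) => (Polynomial.monomial n (Polynomial.derivative a) : R[X][Y])

/-- Partial derivative in the inner variable. -/
def pderivX : R[X][Y] →+ R[X][Y] :=
  AddMonoidHom.mk' pderivXFun fun p q => by
    unfold pderivXFun
    exact Polynomial.sum_add_index p q _ (fun n => by simp) (fun n a b => by simp)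

/-- The inner partial derivative of a monomial. -/
theorem pderivX_monomial (n : ℕ) (a : R[X]) :
    pderivX (Polynomial.monomial n a) = Polynomial.monomial n (Polynomial.derivative a) := by
  change pderivXFun (Polynomial.monomial n a) = _
  unfold pderivXFun
  rw [Polynomial.sum_monomial_index]
  simp

/-- Evaluation of a monomial in two variables. -/
theorem evalEval_monomial (x y : R) (n : ℕ) (a : R[X]) :
    (Polynomial.monomial n a).evalEval x y = a.eval x * y ^ n := by
  simp [evalEval, Polynomial.eval_monomial]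

end Algebra

/-- The inner partial derivative is the derivative in the first argument. -/
theorem hasDerivAt_evalEval_fst (G : ℂ[X][Y]) (z w : ℂ) :
    HasDerivAt (fun x => G.evalEval x w) ((pderivX G).evalEval z w) z := by
  induction G using Polynomial.induction_on' with
  | add p q hp hq =>
    simp only [map_add, evalEval_add]
    exact hp.add hq
  | monomial n a =>
    simp only [evalEval_monomial, pderivX_monomial]
    exact (a.hasDerivAt z).mul_const _

/-- The outer derivative is the derivative in the second argument. -/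
theorem hasDerivAt_evalEval_snd (G : ℂ[X][Y]) (z w : ℂ) :
    HasDerivAt (fun y => G.evalEval z y) ((Polynomial.derivative G).evalEval z w) w := by
  induction G using Polynomial.induction_on' with
  | add p q hp hq =>
    simp only [map_add, evalEval_add]
    exact hp.add hq
  | monomial n a =>
    simp only [evalEval_monomial, Polynomial.derivative_monomial, Polynomial.eval_mul,
      Polynomial.eval_natCast]
    simpa [mul_assoc] using (hasDerivAt_pow n w).const_mul (a.eval z)

/-- A polynomial in two variables is continuous. -/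
theorem continuous_evalEval (G : ℂ[X][Y]) : Continuous fun p : ℂ × ℂ => G.evalEval p.1 p.2 := by
  induction G using Polynomial.induction_on' with
  | add p q hp hq =>
    simp only [evalEval_add]
    exact hp.add hq
  | monomial n a =>
    simp only [evalEval_monomial]
    exact ((Polynomial.continuous_eval₂ a (RingHom.id ℂ) : Continuous fun x =>
      a.eval x).comp continuous_fst).mul (continuous_snd.pow n)

/-- Chain rule for a polynomial along a graph. -/
theorem hasDerivAt_evalEval_comp (G : ℂ[X][Y]) {φ : ℂ → ℂ} {z φ' : ℂ}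
    (hφ : HasDerivAt φ φ' z) :
    HasDerivAt (fun x => G.evalEval x (φ x))
      ((pderivX G).evalEval z (φ z) + (Polynomial.derivative G).evalEval z (φ z) * φ') z := by
  induction G using Polynomial.induction_on' with
  | add p q hp hq =>
    simp only [map_add, evalEval_add]
    exact (hp.add hq).congr_deriv (by ring)
  | monomial n a =>
    simp only [evalEval_monomial, pderivX_monomial, Polynomial.derivative_monomial,
      Polynomial.eval_mul, Polynomial.eval_natCast]
    exact ((a.hasDerivAt z).mul (hφ.pow n)).congr_deriv (by simp only [Pi.pow_apply]; ring)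

/-- A simple root of a plane polynomial continues uniquely to a differentiable branch. -/
theorem exists_implicit_root (G : ℂ[X][Y]) (z₀ c : ℂ) (hG : G.evalEval z₀ c = 0)
    (hY : (Polynomial.derivative G).evalEval z₀ c ≠ 0) :
    ∃ ψ : ℂ → ℂ, Tendsto ψ (𝓝 z₀) (𝓝 c) ∧
      (∀ᶠ z in 𝓝 z₀, G.evalEval z (ψ z) = 0) ∧
      (∀ᶠ v in 𝓝 (z₀, c), G.evalEval v.1 v.2 = 0 → ψ v.1 = v.2) ∧
      DifferentiableAt ℂ ψ z₀ := by
  let f₁ : ℂ → ℂ → ℂ →L[ℂ] ℂ := fun z w =>
    ContinuousLinearMap.toSpanSingleton ℂ ((pderivX G).evalEval z w)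
  let f₂ : ℂ → ℂ → ℂ →L[ℂ] ℂ := fun z w =>
    ContinuousLinearMap.toSpanSingleton ℂ ((Polynomial.derivative G).evalEval z w)
  let f : ℂ → ℂ → ℂ := fun z w => G.evalEval z w
  have df₁ : ∀ᶠ v in 𝓝 (z₀, c), HasFDerivAt (f · v.2) (f₁ v.1 v.2) v.1 :=
    Eventually.of_forall fun v => (hasDerivAt_evalEval_fst G v.1 v.2).hasFDerivAt
  have df₂ : ∀ᶠ v in 𝓝 (z₀, c), HasFDerivAt (f v.1 ·) (f₂ v.1 v.2) v.2 :=
    Eventually.of_forall fun v => (hasDerivAt_evalEval_snd G v.1 v.2).hasFDerivAt
  have cf₁ : ContinuousAt ↿f₁ (z₀, c) :=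
    ((ContinuousLinearMap.toSpanSingletonLE ℂ ℂ ℂ).toLinearMap.continuous_of_finiteDimensional.comp
      (continuous_evalEval (pderivX G))).continuousAt
  have cf₂ : ContinuousAt ↿f₂ (z₀, c) :=
    ((ContinuousLinearMap.toSpanSingletonLE ℂ ℂ ℂ).toLinearMap.continuous_of_finiteDimensional.comp
      (continuous_evalEval (Polynomial.derivative G))).continuousAt
  have hinv : (f₂ z₀ c).IsInvertible :=
    ⟨ContinuousLinearEquiv.unitsEquivAut ℂ (Units.mk0 _ hY), by
      ext; simp [f₂]⟩
  refine ⟨implicitFunctionOfBivariate df₁ df₂ cf₁ cf₂ hinv,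
    tendsto_implicitFunctionOfBivariate df₁ df₂ cf₁ cf₂ hinv, ?_, ?_, ?_⟩
  · filter_upwards [eventually_apply_implicitFunctionOfBivariate df₁ df₂ cf₁ cf₂ hinv] with z hz
    exact hz.trans hG
  · filter_upwards [eventually_apply_eq_iff_implicitFunctionOfBivariate df₁ df₂ cf₁ cf₂ hinv]
      with v hv h
    exact hv.1 (h.trans hG.symm)
  · exact (hasStrictFDerivAt_implicitFunctionOfBivariate df₁ df₂ cf₁ cf₂
      hinv).differentiableAt

/-- An analytic branch through a nonsingular point of a plane curve. -/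
theorem exists_analytic_branch (G : ℂ[X][Y]) (c : ℂ) (hG : G.evalEval 0 c = 0)
    (hY : (Polynomial.derivative G).evalEval 0 c ≠ 0) :
    ∃ ε > 0, ∃ δ > 0, ∃ φ : ℂ → ℂ, φ 0 = c ∧ DifferentiableOn ℂ φ (ball 0 ε) ∧
      (∀ z ∈ ball 0 ε, φ z ∈ ball c δ ∧ G.evalEval z (φ z) = 0) ∧
      (∀ z ∈ ball 0 ε, ∀ w ∈ ball c δ, G.evalEval z w = 0 → w = φ z) ∧
      (∀ z ∈ ball 0 ε, ∀ w ∈ ball c δ, (Polynomial.derivative G).evalEval z w ≠ 0) := by
  obtain ⟨φ, hlim, hzero, huniq, -⟩ := exists_implicit_root G 0 c hG hY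
  have hne : ∀ᶠ v in 𝓝 ((0 : ℂ), c), (Polynomial.derivative G).evalEval v.1 v.2 ≠ 0 :=
    (continuous_evalEval (Polynomial.derivative G)).continuousAt.eventually_ne hY
  obtain ⟨r, hr, hbox⟩ := Metric.eventually_nhds_iff_ball.1 (huniq.and hne)
  obtain ⟨ε₁, hε₁, hφ⟩ :=
    Metric.eventually_nhds_iff_ball.1 ((hlim.eventually (ball_mem_nhds c hr)).and hzero)
  refine ⟨min r ε₁, lt_min hr hε₁, r, hr, φ, ?_, ?_, ?_, ?_, ?_⟩
  · exact (hbox ((0 : ℂ), c) (mem_ball_self hr)).1 hG
  rotate_left
  · intro z hz
    exact hφ z (ball_subset_ball (min_le_right _ _) hz)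
  · intro z hz w hw h0
    have : (z, w) ∈ ball ((0 : ℂ), c) r := by
      rw [← ball_prod_same]; exact ⟨ball_subset_ball (min_le_left _ _) hz, hw⟩
    exact ((hbox _ this).1 h0).symm
  · intro z hz w hw
    have : (z, w) ∈ ball ((0 : ℂ), c) r := by
      rw [← ball_prod_same]; exact ⟨ball_subset_ball (min_le_left _ _) hz, hw⟩
    exact (hbox _ this).2
  intro z hz
  obtain ⟨hφz, hGz⟩ := hφ z (ball_subset_ball (min_le_right _ _) hz)
  have hzr : ∀ w ∈ ball c r, (z, w) ∈ ball ((0 : ℂ), c) r := fun w hw => by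
    rw [← ball_prod_same]; exact ⟨ball_subset_ball (min_le_left _ _) hz, hw⟩
  obtain ⟨ψ, hψlim, hψzero, -, hψdiff⟩ :=
    exists_implicit_root G z (φ z) hGz (hbox _ (hzr _ hφz)).2
  have heq : φ =ᶠ[𝓝 z] ψ := by
    filter_upwards [hψzero, hψlim.eventually (isOpen_ball.mem_nhds hφz),
      isOpen_ball.mem_nhds hz] with x hx0 hxb hx
    have : (x, ψ x) ∈ ball ((0 : ℂ), c) r := by
      rw [← ball_prod_same]; exact ⟨ball_subset_ball (min_le_left _ _) hx, hxb⟩
    exact (hbox _ this).1 hx0
  exact (hψdiff.congr_of_eventuallyEq heq).differentiableWithinAt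

end Fermat.JAC
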