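import Fermat.Agent.JAC.Additive

/-!
# The branches of a function over a value with simple fibre

The main result is `exists_branches`, in the form `BranchesAt`.
-/

set_option autoImplicit false

noncomputable section

open AlgebraicCurve Metric Filter Topology Set

namespace Fermat.JAC

open Fermat.FF

variable {F : Type*} [Field F] [Algebra ℂ F] [IsFunctionField ℂ F]

/-- At the parameter `μ`, `γ` is a simple branch of the inverse of `f` in the chart at `w`. -/
structure IsBranchAt (f : F) (w : Place ℂ F) (γ : ℂ → ℂ) (μ : ℂ) : Prop where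
  /-- The value lies in the chart. -/
  mem_ball : γ μ ∈ ball (0 : ℂ) (chartOf w).ε
  /-- The function is regular at the point. -/
  ordGE : OrdGE ((chartOf w).param (γ μ)) f 0
  /-- The function takes the value `μ` there. -/
  fn_eq : (chartOf w).fn f (γ μ) = μ
  /-- It takes this value simply. -/
  ord_eq : ((chartOf w).param (γ μ)).ord (f - algebraMap ℂ F μ) = 1
  /-- The branch is continuous. -/
  continuousAt : ContinuousAt γ μ
  /-- Its derivative is inverse to that of the function. -/
  exists_deriv : ∃ d : ℂ, HasDerivAt γ d μ ∧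
    d * (chartOf w).fn ((chartOf w).coeff (KaehlerDifferential.D ℂ F f)) (γ μ) = 1

/-- At the parameter `μ` the functions `γ w`, `w ∈ S`, are the simple branches of the inverse
of `u`. -/
def BranchesAt (u : F) (S : Finset (Place ℂ F)) (γ : Place ℂ F → ℂ → ℂ) (μ : ℂ) : Prop :=
  zeroDiv ℂ (u - algebraMap ℂ F μ) =
      ∑ w ∈ S, Finsupp.single ((chartOf w).param (γ w μ)) (1 : ℤ) ∧
    ∀ w ∈ S, IsBranchAt u w (γ w) μ

/-- The branch of the inverse of a function through a simple point. -/
theorem exists_branch {f : F} (hf : Transcendental ℂ f) {a : ℂ} {w : Place ℂ F}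
    (hsimple : w.ord (f - algebraMap ℂ F a) = 1) :
    ∃ γ : ℂ → ℂ, γ a = 0 ∧ ∀ᶠ μ in 𝓝 a, IsBranchAt f w γ μ := by
  have hreg : OrdGE ((chartOf w).param 0) f 0 := by
    rw [(chartOf w).param_zero]
    simpa using ((ordGE_iff.2 (Or.inr (by omega)) :
      OrdGE w (f - algebraMap ℂ F a) 0)).add (ordGE_algebraMap _ a)
  have hd0 : (chartOf w).fn ((chartOf w).coeff (KaehlerDifferential.D ℂ F f)) 0 ≠ 0 :=
    fn_coeff_D_ne_zero (mem_ball_self (chartOf w).ε_pos) hreg (a := a)
      (by rw [(chartOf w).param_zero]; exact hsimple)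
  set ch := chartOf w
  set f' := ch.coeff (KaehlerDifferential.D ℂ F f)
  have hb := mem_ball_self (x := (0 : ℂ)) ch.ε_pos
  have han := Chart.analyticAt_fn hb hreg
  -- `fn f` is a local homeomorphism at zero, as its derivative is nonzero there.
  have hst : HasStrictDerivAt (ch.fn f) (ch.fn f' 0) 0 := by
    have := han.hasStrictDerivAt
    rwa [(Chart.hasDerivAt_fn hb hreg).2.deriv] at this
  have hF := hst.hasStrictFDerivAt_equiv hd0
  -- the local inverse
  let h := hF.toOpenPartialHomeomorph (ch.fn f)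
  have h0a : ch.fn f 0 = a := by
    rw [Chart.fn, ch.param_zero]
    exact evalAt_eq (ordGE_iff.2 (Or.inr (show 0 < w.ord (f - algebraMap ℂ F a) by omega)))
  have hsrc : (0 : ℂ) ∈ h.source := hF.mem_toOpenPartialHomeomorph_source
  have hatgt : a ∈ h.target := h0a ▸ h.map_source hsrc
  have hγa : h.symm a = 0 := by
    conv_lhs => rw [← h0a]
    exact h.left_inv hsrc
  refine ⟨h.symm, hγa, ?_⟩
  -- Near zero the point stays in the chart, regular, with nonzero derivative.
  have hev : ∀ᶠ z in 𝓝 (0 : ℂ), z ∈ ball (0 : ℂ) ch.ε ∧ OrdGE (ch.param z) f 0 ∧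
      ch.fn f' z ≠ 0 :=
    (show ∀ᶠ z in 𝓝 (0 : ℂ), z ∈ ball (0 : ℂ) ch.ε from isOpen_ball.mem_nhds hb).and
      ((Chart.eventually_regular hb hreg).and
        ((Chart.analyticAt_fn hb (Chart.hasDerivAt_fn hb hreg).1).continuousAt.eventually_ne
          hd0))
  have hc0 := h.symm.continuousAt (x := a) (by simpa using hatgt)
  rw [ContinuousAt, hγa] at hc0
  filter_upwards [hc0.eventually hev, h.open_target.mem_nhds hatgt] with μ ⟨hμb, hμr, hμd⟩ hμt
  have hright : ch.fn f (h.symm μ) = μ := h.right_inv hμt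
  have hcμ : ContinuousAt h.symm μ := h.symm.continuousAt (by simpa using hμt)
  obtain ⟨hreg', hder⟩ := Chart.hasDerivAt_fn hμb hμr
  refine ⟨hμb, hμr, hright, ?_, hcμ, (ch.fn f' (h.symm μ))⁻¹, ?_, inv_mul_cancel₀ hμd⟩
  -- The zero is simple as `df` does not vanish.
  · show (ch.param (h.symm μ)).ord (f - algebraMap ℂ F μ) = 1
    have hval : evalAt (ch.param (h.symm μ)) f = μ := hright
    have hspec := evalAt_spec hμr
    rw [hval] at hspec
    have hne := gen_sub_ne_zero hf μ
    have hge := hspec.le_ord hne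
    have hDfμ : KaehlerDifferential.D ℂ F (f - algebraMap ℂ F μ) =
        KaehlerDifferential.D ℂ F f := by
      rw [map_sub, Derivation.map_algebraMap, sub_zero]
    have hdd := ordDifferential_D_eq (ch.param (h.symm μ)) (f := f - algebraMap ℂ F μ)
      (by exact_mod_cast (by omega :
        (ch.param (h.symm μ)).ord (f - algebraMap ℂ F μ) ≠ 0))
    rw [hDfμ, Chart.ordDifferential_param hμb] at hdd
    have hz : (ch.param (h.symm μ)).ord f' = 0 := by
      by_contra hz
      have hne' : f' ≠ 0 := fun h0 => hz (by rw [h0, Place.ord_zero])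
      refine hμd ((evalAt_eq_zero_iff hreg').2 (ordGE_iff.2 (Or.inr ?_)))
      have : 0 ≤ (ch.param (h.symm μ)).ord f' := hreg'.le_ord hne'
      change (1 : ℤ) ≤ (ch.param (h.symm μ)).ord f'
      omega
    simp only [f'] at hz
    omega
  -- the derivative of the inverse
  · refine HasDerivAt.of_local_left_inverse hcμ hder hμd ?_
    filter_upwards [h.open_target.mem_nhds hμt] with y hy
    exact h.right_inv hy

/-- Local branches of the inverse of a function over a value with simple fibre. -/
theorem exists_branches {f : F} (hf : Transcendental ℂ f) {a : ℂ} (S : Finset (Place ℂ F))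
    (hS : ∀ w, w ∈ S ↔ 0 < w.ord (f - algebraMap ℂ F a))
    (hsimple : ∀ w ∈ S, w.ord (f - algebraMap ℂ F a) = 1) :
    ∃ γ : Place ℂ F → ℂ → ℂ, (∀ w ∈ S, γ w a = 0) ∧ ∀ᶠ μ in 𝓝 a, BranchesAt f S γ μ := by
  classical
  have hex : ∀ w : Place ℂ F, ∃ γ : ℂ → ℂ, w ∈ S → γ a = 0 ∧ ∀ᶠ μ in 𝓝 a, IsBranchAt f w γ μ := by
    intro w
    by_cases hw : w ∈ S
    · obtain ⟨γ, hγ⟩ := exists_branch hf (hsimple w hw)
      exact ⟨γ, fun _ => hγ⟩
    · exact ⟨0, fun h => absurd h hw⟩
  choose γ hγ using hex
  refine ⟨γ, fun w hw => (hγ w hw).1, ?_⟩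
  have hev : ∀ᶠ μ in 𝓝 a, ∀ w ∈ S, IsBranchAt f w (γ w) μ :=
    (Filter.eventually_all_finset S).2 fun w hw => (hγ w hw).2
  have hQc : ∀ w ∈ S, ContinuousAt (fun μ => (chartOf w).param (γ w μ)) a := fun w hw => by
    refine ContinuousAt.comp (g := (chartOf w).param) ?_ (hγ w hw).2.self_of_nhds.continuousAt
    rw [(hγ w hw).1]
    exact Chart.continuousAt_param (mem_ball_self (chartOf w).ε_pos)
  have hinj := eventually_injective_of_continuousAt
    (Q := fun (w : S) μ => (chartOf (w : Place ℂ F)).param (γ w μ)) (fun w => hQc w w.2)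
    fun w w' he => Subtype.ext (by
      simpa [(hγ _ w.2).1, (hγ _ w'.2).1, Chart.param_zero] using he)
  filter_upwards [hev, hinj] with μ hμ hinj'
  refine ⟨?_, hμ⟩
  rw [← Finset.sum_coe_sort]
  exact zeroDiv_sub_eq_sum (fun v v' he => hinj' v v' he)
    (fun v => by rw [(hμ v v.2).ord_eq]; exact one_pos)
    (by rw [Fintype.card_coe]; exact degree_poleDiv_eq_card hS hsimple)

end Fermat.JAC
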