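import Fermat.Agent.JAC.Value
import Mathlib.Topology.Compactification.OnePoint.Sphere
import Mathlib.Analysis.Complex.Basic
import Mathlib.Analysis.Complex.Polynomial.Basic

/-!
# The space of places of a complex function field

The topology is `placeTopology`; `exists_place_of_placeLike` gives a place for each place-like
map.
-/

set_option autoImplicit false
set_option linter.unusedSectionVars false

noncomputable section

open AlgebraicCurve Topology Set Filter
open scoped OnePoint

namespace Fermat.JAC

open Fermat.FF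

variable (F : Type*) [Field F] [Algebra ℂ F] [FF.IsFunctionField ℂ F]

/-- The topology of pointwise convergence of the values of all functions. -/
instance placeTopology : TopologicalSpace (Place ℂ F) :=
  TopologicalSpace.induced value inferInstance

/-- The value map embeds the places into a product of spheres. -/
theorem isEmbedding_value : IsEmbedding (value : Place ℂ F → F → OnePoint ℂ) :=
  ⟨⟨rfl⟩, value_injective⟩

/-- The space of places is Hausdorff. -/
instance : T2Space (Place ℂ F) := (isEmbedding_value F).t2Space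

variable {F}

/-- The value of each function is continuous in the place. -/
theorem continuous_value (f : F) : Continuous fun v : Place ℂ F => value v f :=
  (continuous_apply f : Continuous fun φ : F → OnePoint ℂ => φ f).comp
    (continuous_induced_dom : Continuous (value : Place ℂ F → F → OnePoint ℂ))

/-- Operations on finite values extended to a closed relation. -/
theorem isClosed_binOp (op : ℂ × ℂ → ℂ) (hop : Continuous op) :
    IsClosed {p : (OnePoint ℂ × OnePoint ℂ) × OnePoint ℂ |
      ∀ a b : ℂ, p.1.1 = (a : OnePoint ℂ) → p.1.2 = (b : OnePoint ℂ) →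
        p.2 = (op (a, b) : OnePoint ℂ)} := by
  rw [← isOpen_compl_iff]
  have h1 : IsOpen {q : (ℂ × ℂ) × OnePoint ℂ | q.2 ≠ (op q.1 : OnePoint ℂ)} :=
    isOpen_ne_fun continuous_snd (OnePoint.continuous_coe.comp (hop.comp continuous_fst))
  have h2 := ((OnePoint.isOpenMap_coe.prodMap OnePoint.isOpenMap_coe).prodMap
    (IsOpenMap.id (X := OnePoint ℂ))) _ h1
  convert h2 using 1
  ext ⟨⟨x, y⟩, z⟩
  simp only [mem_compl_iff, mem_ofPred_eq, not_forall, mem_image, Prod.exists,
    Prod.map_apply, id_eq, Prod.mk.injEq]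
  constructor
  · rintro ⟨a, b, ha, hb, hne⟩
    exact ⟨a, b, z, hne, ⟨ha.symm, hb.symm⟩, rfl⟩
  · rintro ⟨a, b, c, hne, ⟨ha, hb⟩, rfl⟩
    exact ⟨a, b, ha.symm, hb.symm, hne⟩

/-- Points of the product which behave like values at a place. -/
def placeLike : Set (F → OnePoint ℂ) :=
  {φ | (∀ c : ℂ, φ (algebraMap ℂ F c) = (c : OnePoint ℂ)) ∧
    (∀ (f g : F) (a b : ℂ), φ f = a → φ g = b → φ (f + g) = ((a + b : ℂ) : OnePoint ℂ)) ∧
    (∀ (f g : F) (a b : ℂ), φ f = a → φ g = b → φ (f * g) = ((a * b : ℂ) : OnePoint ℂ)) ∧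
    (∀ f : F, φ f ∈ ((↑) '' Metric.closedBall (0 : ℂ) 1) ∨
      φ f⁻¹ ∈ ((↑) '' Metric.closedBall (0 : ℂ) 1))}

/-- The closed unit disc is closed in the sphere. -/
theorem isClosed_coe_closedBall :
    IsClosed (((↑) : ℂ → OnePoint ℂ) '' Metric.closedBall (0 : ℂ) 1) :=
  OnePoint.isClosed_image_coe.2 ⟨Metric.isClosed_closedBall, isCompact_closedBall _ _⟩

/-- The place-like maps form a closed set. -/
theorem isClosed_placeLike : IsClosed (placeLike (F := F)) := by
  refine IsClosed.inter ?_ (IsClosed.inter ?_ (IsClosed.inter ?_ ?_))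
  · change IsClosed {φ : F → OnePoint ℂ | ∀ c : ℂ, φ (algebraMap ℂ F c) = (c : OnePoint ℂ)}
    rw [ofPred_forall]
    exact isClosed_iInter fun c => isClosed_eq (continuous_apply _) continuous_const
  · change IsClosed {φ : F → OnePoint ℂ | ∀ (f g : F) (a b : ℂ), φ f = a → φ g = b →
      φ (f + g) = ((a + b : ℂ) : OnePoint ℂ)}
    rw [ofPred_forall]
    refine isClosed_iInter fun f => ?_
    rw [ofPred_forall]
    refine isClosed_iInter fun g => ?_
    exact (isClosed_binOp _ continuous_add).preimage
      (f := fun φ : F → OnePoint ℂ => ((φ f, φ g), φ (f + g))) (by fun_prop)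
  · change IsClosed {φ : F → OnePoint ℂ | ∀ (f g : F) (a b : ℂ), φ f = a → φ g = b →
      φ (f * g) = ((a * b : ℂ) : OnePoint ℂ)}
    rw [ofPred_forall]
    refine isClosed_iInter fun f => ?_
    rw [ofPred_forall]
    refine isClosed_iInter fun g => ?_
    exact (isClosed_binOp _ continuous_mul).preimage
      (f := fun φ : F → OnePoint ℂ => ((φ f, φ g), φ (f * g))) (by fun_prop)
  · change IsClosed {φ : F → OnePoint ℂ | ∀ f : F, φ f ∈ _ ∨ φ f⁻¹ ∈ _}
    rw [ofPred_forall]
    refine isClosed_iInter fun f => ?_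
    exact (isClosed_coe_closedBall.preimage
        (continuous_apply f : Continuous fun φ : F → OnePoint ℂ => φ f)).union
      (isClosed_coe_closedBall.preimage
        (continuous_apply f⁻¹ : Continuous fun φ : F → OnePoint ℂ => φ f⁻¹))

/-- The value map of a place is place-like. -/
theorem value_mem_placeLike (v : Place ℂ F) : value v ∈ placeLike := by
  refine ⟨fun c => value_algebraMap v c, fun f g a b => value_add v, fun f g a b => value_mul v,
    fun f => ?_⟩
  by_cases hf0 : f = 0
  · left
    exact ⟨0, by simp, (value_eq_zero_iff.2 (Or.inl hf0)).symm⟩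
  by_cases hf : value v f = ∞
  · right
    exact ⟨0, by simp, ((value_or_inv_eq_zero v f).resolve_left (not_not.2 hf)).symm⟩
  obtain ⟨a, ha⟩ := OnePoint.ne_infty_iff_exists.1 hf
  by_cases h1 : ‖a‖ ≤ 1
  · exact Or.inl ⟨a, by simpa using h1, ha⟩
  right
  have ha0 : a ≠ 0 := by
    rintro rfl; simp at h1
  have hfi : value v f⁻¹ ≠ ∞ := fun e => by
    rcases value_or_inv_eq_zero v f⁻¹ with h | h
    · exact h e
    · rw [inv_inv, ← ha, OnePoint.coe_eq_coe] at h
      exact ha0 h
  obtain ⟨b, hb⟩ := OnePoint.ne_infty_iff_exists.1 hfi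
  refine ⟨b, ?_, hb⟩
  have := value_mul v ha.symm hb.symm
  rw [mul_inv_cancel₀ hf0, ← map_one (algebraMap ℂ F), value_algebraMap,
    OnePoint.coe_eq_coe] at this
  rw [Metric.mem_closedBall, dist_zero_right]
  have hb' : ‖a‖ * ‖b‖ = 1 := by rw [← norm_mul, ← this, norm_one]
  nlinarith [norm_nonneg b]

namespace placeLike

variable {φ : F → OnePoint ℂ} (hφ : φ ∈ placeLike)

include hφ

/-- A place-like map sends `0` to `0`. -/
theorem map_zero : φ 0 = ((0 : ℂ) : OnePoint ℂ) := by
  simpa using hφ.1 0

/-- A place-like map sends `1` to `1`. -/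
theorem map_one : φ 1 = ((1 : ℂ) : OnePoint ℂ) := by
  simpa using hφ.1 1

/-- A place-like map is additive on finite values. -/
theorem map_add {f g : F} {a b : ℂ} (hf : φ f = a) (hg : φ g = b) :
    φ (f + g) = ((a + b : ℂ) : OnePoint ℂ) := hφ.2.1 f g a b hf hg

/-- A place-like map is multiplicative on finite values. -/
theorem map_mul {f g : F} {a b : ℂ} (hf : φ f = a) (hg : φ g = b) :
    φ (f * g) = ((a * b : ℂ) : OnePoint ℂ) := hφ.2.2.1 f g a b hf hg

/-- A place-like map commutes with negation on finite values. -/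
theorem map_neg {f : F} {a : ℂ} (hf : φ f = a) : φ (-f) = ((-a : ℂ) : OnePoint ℂ) := by
  have h := map_mul hφ (hφ.1 (-1)) hf
  rwa [RingHom.map_neg, RingHom.map_one, neg_one_mul, neg_one_mul] at h

/-- Either `f` or its inverse has a finite image. -/
theorem mem_or_inv_mem (f : F) : φ f ≠ ∞ ∨ φ f⁻¹ ≠ ∞ := by
  rcases hφ.2.2.2 f with ⟨a, -, h⟩ | ⟨a, -, h⟩
  · exact Or.inl (by rw [← h]; exact OnePoint.coe_ne_infty a)
  · exact Or.inr (by rw [← h]; exact OnePoint.coe_ne_infty a)

/-- The functions with finite image under a place-like map, as a subring. -/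
def toSubring : Subring F where
  carrier := {f | φ f ≠ ∞}
  one_mem' := by simp [map_one hφ]
  zero_mem' := by simp [map_zero hφ]
  add_mem' := by
    intro f g hf hg
    obtain ⟨a, ha⟩ := OnePoint.ne_infty_iff_exists.1 hf
    obtain ⟨b, hb⟩ := OnePoint.ne_infty_iff_exists.1 hg
    simp [map_add hφ ha.symm hb.symm]
  mul_mem' := by
    intro f g hf hg
    obtain ⟨a, ha⟩ := OnePoint.ne_infty_iff_exists.1 hf
    obtain ⟨b, hb⟩ := OnePoint.ne_infty_iff_exists.1 hg
    simp [map_mul hφ ha.symm hb.symm]
  neg_mem' := by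
    intro f hf
    obtain ⟨a, ha⟩ := OnePoint.ne_infty_iff_exists.1 hf
    simp [map_neg hφ ha.symm]

/-- The valuation subring of a point of `placeLike`. -/
def valuationSubring : ValuationSubring F :=
  ValuationSubring.ofSubring (toSubring hφ) (mem_or_inv_mem hφ)

/-- The valuation ring consists of the functions with finite image. -/
theorem mem_valuationSubring {f : F} : f ∈ valuationSubring hφ ↔ φ f ≠ ∞ := Iff.rfl

/-- The valuation ring of a place-like map is proper. -/
theorem valuationSubring_ne_top (hx : ∀ σ : F →+* ℂ, ∃ c : ℂ, σ (algebraMap ℂ F c) ≠ c) :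
    valuationSubring hφ ≠ ⊤ := by
  intro htop
  have hall : ∀ f, ∃ a : ℂ, φ f = (a : OnePoint ℂ) := fun f => by
    have : f ∈ valuationSubring hφ := htop ▸ ValuationSubring.mem_top f
    obtain ⟨a, ha⟩ := OnePoint.ne_infty_iff_exists.1 ((mem_valuationSubring hφ).1 this)
    exact ⟨a, ha.symm⟩
  choose r hr using hall
  let σ : F →+* ℂ :=
    { toFun := r
      map_one' := OnePoint.coe_injective ((hr 1).symm.trans (map_one hφ))
      map_zero' := OnePoint.coe_injective ((hr 0).symm.trans (map_zero hφ))
      map_add' := fun f g =>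
        OnePoint.coe_injective ((hr _).symm.trans (map_add hφ (hr f) (hr g)))
      map_mul' := fun f g =>
        OnePoint.coe_injective ((hr _).symm.trans (map_mul hφ (hr f) (hr g))) }
  obtain ⟨c, hc⟩ := hx σ
  exact hc (OnePoint.coe_injective ((hr _).symm.trans (hφ.1 c)))

end placeLike

/-- If the function field has a place, no map to `ℂ` fixes the constants. -/
theorem no_ringHom_retraction (σ : F →+* ℂ) (v : Place ℂ F) :
    ∃ c : ℂ, σ (algebraMap ℂ F c) ≠ c := by
  by_contra hcon
  push Not at hcon
  apply v.ne_top'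
  refine SetLike.ext fun f => ⟨fun _ => ValuationSubring.mem_top f, fun _ => ?_⟩
  have : f = algebraMap ℂ F (σ f) := σ.injective (hcon (σ f)).symm
  rw [this]
  exact v.algebraMap_mem' _

/-- Every place-like map comes from a place. -/
theorem exists_place_of_placeLike {φ : F → OnePoint ℂ} (hφ : φ ∈ placeLike) :
    ∃ v : Place ℂ F, value v = φ := by
  obtain ⟨w⟩ := nonempty_place ℂ F
  have hc : ∀ c : ℂ, algebraMap ℂ F c ∈ placeLike.valuationSubring hφ := fun c => by
    rw [placeLike.mem_valuationSubring, hφ.1 c]; exact OnePoint.coe_ne_infty c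
  have htop := placeLike.valuationSubring_ne_top hφ (fun σ => no_ringHom_retraction σ w)
  refine ⟨placeOfValuationSubring hc htop, funext fun f => ?_⟩
  set v : Place ℂ F := placeOfValuationSubring hc htop with hv
  have hmem : ∀ g : F, OrdGE v g 0 ↔ φ g ≠ ∞ := fun g => by
    rw [← mem_iff_ordGE, hv, placeOfValuationSubring_toValuationSubring]; rfl
  by_cases hf : φ f = ∞
  · rw [hf]
    by_contra h
    exact (hmem f).1 (value_ne_infty_iff.1 h) hf
  obtain ⟨a, ha⟩ := OnePoint.ne_infty_iff_exists.1 hf
  rw [← ha]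
  have hd : φ (f - algebraMap ℂ F a) = ((0 : ℂ) : OnePoint ℂ) := by
    have h := placeLike.map_add hφ ha.symm (placeLike.map_neg hφ (hφ.1 a))
    rwa [← sub_eq_add_neg, add_neg_cancel] at h
  set d := f - algebraMap ℂ F a with hd'
  rw [value_eq_coe_iff, ← hd', ordGE_iff]
  by_contra hcon
  push Not at hcon
  obtain ⟨h0, hord⟩ := hcon
  obtain ⟨b, hb⟩ := OnePoint.ne_infty_iff_exists.1 <| (hmem d⁻¹).1
    (ordGE_iff.2 (Or.inr (by rw [v.ord_inv]; omega)))
  have h1 := placeLike.map_mul hφ hd hb.symm
  rw [mul_inv_cancel₀ h0, placeLike.map_one hφ, zero_mul, OnePoint.coe_eq_coe] at h1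
  exact one_ne_zero h1

/-- The space of places is compact. -/
instance : CompactSpace (Place ℂ F) := by
  refine ⟨(isEmbedding_value F).isCompact_iff.2 ?_⟩
  have : value '' (univ : Set (Place ℂ F)) = placeLike := by
    ext φ
    constructor
    · rintro ⟨v, -, rfl⟩; exact value_mem_placeLike v
    · intro hφ
      obtain ⟨v, hv⟩ := exists_place_of_placeLike hφ
      exact ⟨v, trivial, hv⟩
  rw [this]
  exact isClosed_placeLike.isCompact

end Fermat.JAC
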