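import Fermat.Agent.JAC.Coord
import Fermat.Agent.JAC.Topology

/-!
# Holomorphic charts on the space of places

The parametrisation is `param`, and `fn` is the value of a function along it.
-/

set_option autoImplicit false

noncomputable section

open AlgebraicCurve Polynomial Metric Filter Topology
open scoped Polynomial.Bivariate

namespace Fermat.JAC

open Fermat.FF

variable {F : Type*} [Field F] [Algebra ℂ F] [IsFunctionField ℂ F]

/-- A point on a plane curve is the image of a place. -/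
theorem exists_place_over {P : Place ℂ F} (cd : Coord P) {z w : ℂ}
    (hG : cd.G.evalEval z w = 0) :
    ∃ Q : Place ℂ F, value Q cd.t = (z : OnePoint ℂ) ∧ value Q cd.y = (w : OnePoint ℂ) := by
  -- the algebra generated by the two coordinates, and the ideal of the point `(z, w)`
  let R : Subalgebra ℂ F := (aevalAeval (R := ℂ) cd.t cd.y).range
  let π := (aevalAeval (R := ℂ) cd.t cd.y).rangeRestrict
  let M : Ideal ℂ[X][Y] := RingHom.ker (evalEvalRingHom z w)
  have hker : RingHom.ker π.toRingHom ≤ M := fun H hH => by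
    obtain ⟨u, rfl⟩ := cd.dvd_of_eval H (congrArg Subtype.val (RingHom.mem_ker.1 hH))
    change evalEvalRingHom z w (cd.G * u) = 0
    rw [coe_evalEvalRingHom, evalEval_mul, hG, zero_mul]
  have hsurj : Function.Surjective π.toRingHom := AlgHom.rangeRestrict_surjective _
  -- the ideal is proper, as the equation vanishes at the point
  have hI : Ideal.map π.toRingHom M ≠ ⊤ := by
    intro h
    have := congrArg (Ideal.comap π.toRingHom) h
    rw [Ideal.comap_map_of_surjective _ hsurj, Ideal.comap_top, sup_eq_left.2] at this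
    · exact one_ne_zero (α := ℂ) (by
        have h1 : (1 : ℂ[X][Y]) ∈ M := this ▸ Submodule.mem_top
        simp [M] at h1)
    · intro H hH
      exact hker (by simpa [RingHom.mem_ker] using hH)
  have hmemt : π (C (X - C z)) ∈ Ideal.map π.toRingHom M :=
    Ideal.mem_map_of_mem _ (by simp [M])
  have hmemy : π (X - C (C w)) ∈ Ideal.map π.toRingHom M :=
    Ideal.mem_map_of_mem _ (by simp [M])
  have hval : ((π (C (X - C z)) : R) : F) = cd.t - algebraMap ℂ F z := by
    change aevalAeval cd.t cd.y (C (X - C z)) = _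
    rw [aevalAeval_C, map_sub, aeval_X, aeval_C]
  have hne : π (C (X - C z)) ≠ 0 := fun h => by
    have h1 : cd.t - algebraMap ℂ F z = 0 := by rw [← hval, h]; rfl
    have h2 := cd.ord_t
    rw [sub_eq_zero.1 h1, ord_algebraMap] at h2
    omega
  -- so it is centred at a place, where the coordinates take the values `z` and `w`
  obtain ⟨Q, -, hQ⟩ := exists_place_center R _ hI hmemt hne
  refine ⟨Q, value_eq_coe_iff.2 (hval ▸ hQ _ hmemt), value_eq_coe_iff.2 ?_⟩
  have := hQ _ hmemy
  rwa [show ((π (X - C (C w)) : R) : F) = cd.y - algebraMap ℂ F w by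
    change aevalAeval cd.t cd.y (X - C (C w)) = _
    rw [map_sub, aevalAeval_Y, aevalAeval_C, aeval_C]] at this

namespace Chart

variable {P : Place ℂ F} (ch : Chart P)

/-- Each point of the branch is the image of a place. -/
theorem exists_param {z : ℂ} (hz : z ∈ ball (0 : ℂ) ch.ε) :
    ∃ Q : Place ℂ F,
      value Q ch.t = (z : OnePoint ℂ) ∧ value Q ch.y = (ch.φ z : OnePoint ℂ) :=
  exists_place_over ch.toCoord (ch.φ_spec z hz).2

open Classical in
/-- The parametrisation of a neighbourhood of `P`. -/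
def param (z : ℂ) : Place ℂ F :=
  if hz : z ∈ ball (0 : ℂ) ch.ε then (ch.exists_param hz).choose else P

variable {ch}

/-- The first coordinate at the parametrised place. -/
theorem value_t_param {z : ℂ} (hz : z ∈ ball (0 : ℂ) ch.ε) :
    value (ch.param z) ch.t = (z : OnePoint ℂ) := by
  rw [param, dif_pos hz]; exact (ch.exists_param hz).choose_spec.1

/-- The second coordinate at the parametrised place. -/
theorem value_y_param {z : ℂ} (hz : z ∈ ball (0 : ℂ) ch.ε) :
    value (ch.param z) ch.y = (ch.φ z : OnePoint ℂ) := by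
  rw [param, dif_pos hz]; exact (ch.exists_param hz).choose_spec.2

/-- Orders at a point of the branch are analytic orders times that of the translated first
coordinate. -/
theorem ord_eq_mul {Q : Place ℂ F} {z : ℂ} (hz : z ∈ ball (0 : ℂ) ch.ε)
    (ht : value Q ch.t = (z : OnePoint ℂ)) (hy : value Q ch.y = (ch.φ z : OnePoint ℂ))
    {H : ℂ[X][Y]} (hH : aevalAeval ch.t ch.y H ≠ 0) :
    Q.ord (aevalAeval ch.t ch.y H) =
      analyticOrderNatAt (ch.along H) z * Q.ord (ch.t - algebraMap ℂ F z) := by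
  obtain ⟨N, D, hN, hD, hdvd⟩ := exists_normalForm hz ht hy H hH
  have h := ch.aevalAeval_congr hdvd
  obtain ⟨hD0, hDord⟩ := ne_zero_of_evalEval_ne ht hy hD
  obtain ⟨hN0, hNord⟩ := ne_zero_of_evalEval_ne ht hy hN
  rw [map_mul, map_mul, map_pow, aevalAeval_C, map_sub, aeval_X, aeval_C] at h
  have h' := congrArg Q.ord h
  rw [Q.ord_mul hH hD0, hDord, add_zero] at h'
  rcases eq_or_ne (analyticOrderNatAt (ch.along H) z) 0 with h0 | h0
  · rw [h0, pow_zero, one_mul, hNord] at h'
    rw [h', h0]; simp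
  have hne : ch.t - algebraMap ℂ F z ≠ 0 := fun h1 => by
    rw [h1, zero_pow h0, zero_mul] at h
    exact mul_ne_zero hH hD0 h
  rw [h', Q.ord_mul (pow_ne_zero _ hne) hN0, hNord, add_zero, ord_pow]

/-- All orders at a point of the branch are multiples of that of the first coordinate. -/
theorem ord_eq_mul_frac {Q : Place ℂ F} {z : ℂ} (hz : z ∈ ball (0 : ℂ) ch.ε)
    (ht : value Q ch.t = (z : OnePoint ℂ)) (hy : value Q ch.y = (ch.φ z : OnePoint ℂ))
    (f : F) : ∃ k : ℤ, Q.ord f = k * Q.ord (ch.t - algebraMap ℂ F z) := by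
  obtain ⟨p, q, hq, rfl⟩ := ch.exists_frac f
  rcases eq_or_ne (aevalAeval ch.t ch.y p) 0 with hp | hp
  · exact ⟨0, by rw [hp, zero_div, Q.ord_zero, zero_mul]⟩
  exact ⟨_ - _, by rw [ord_div Q hp hq, ord_eq_mul hz ht hy hp, ord_eq_mul hz ht hy hq, sub_mul]⟩

/-- The first coordinate is a uniformiser at every point of the branch. -/
theorem ord_t_sub {Q : Place ℂ F} {z : ℂ} (hz : z ∈ ball (0 : ℂ) ch.ε)
    (ht : value Q ch.t = (z : OnePoint ℂ)) (hy : value Q ch.y = (ch.φ z : OnePoint ℂ)) :
    Q.ord (ch.t - algebraMap ℂ F z) = 1 := by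
  obtain ⟨u, -, hu⟩ := exists_ord_eq_one Q
  obtain ⟨k, hk⟩ := ord_eq_mul_frac hz ht hy u
  have hpos : 0 ≤ Q.ord (ch.t - algebraMap ℂ F z) := by
    rcases eq_or_ne (ch.t - algebraMap ℂ F z) 0 with h | h
    · rw [h, Q.ord_zero]
    · exact le_trans (by norm_num) ((value_eq_coe_iff.1 ht).le_ord h)
  rw [hu] at hk
  exact Int.eq_one_of_dvd_one hpos ⟨k, by rw [hk, mul_comm]⟩

/-- The order of a polynomial in the coordinates is its analytic order along the branch. -/
theorem ord_aevalAeval {Q : Place ℂ F} {z : ℂ} (hz : z ∈ ball (0 : ℂ) ch.ε)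
    (ht : value Q ch.t = (z : OnePoint ℂ)) (hy : value Q ch.y = (ch.φ z : OnePoint ℂ))
    {H : ℂ[X][Y]} (hH : aevalAeval ch.t ch.y H ≠ 0) :
    Q.ord (aevalAeval ch.t ch.y H) = analyticOrderNatAt (ch.along H) z := by
  rw [ord_eq_mul hz ht hy hH, ord_t_sub hz ht hy, mul_one]

/-- The branch meets only one place over each of its points. -/
theorem eq_param {Q : Place ℂ F} {z : ℂ} (hz : z ∈ ball (0 : ℂ) ch.ε)
    (ht : value Q ch.t = (z : OnePoint ℂ)) (hy : value Q ch.y = (ch.φ z : OnePoint ℂ)) :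
    Q = ch.param z := by
  have key : ∀ f : F, Q.ord f = (ch.param z).ord f := fun f => by
    obtain ⟨p, q, hq, rfl⟩ := ch.exists_frac f
    rcases eq_or_ne (aevalAeval ch.t ch.y p) 0 with hp | hp
    · rw [hp, zero_div, Q.ord_zero, Place.ord_zero]
    rw [ord_div Q hp hq, ord_div _ hp hq, ord_aevalAeval hz ht hy hp,
      ord_aevalAeval hz ht hy hq, ord_aevalAeval hz (value_t_param hz) (value_y_param hz) hp,
      ord_aevalAeval hz (value_t_param hz) (value_y_param hz) hq]
  apply Place.ext
  ext f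
  rw [mem_iff, mem_iff, key f]

/-- A place whose coordinates lie in the box is on the branch. -/
theorem eq_param_of_mem_box {Q : Place ℂ F} {z w : ℂ} (hz : z ∈ ball (0 : ℂ) ch.ε)
    (hw : w ∈ ball ch.c ch.δ) (ht : value Q ch.t = (z : OnePoint ℂ))
    (hy : value Q ch.y = (w : OnePoint ℂ)) : Q = ch.param z :=
  eq_param hz ht (by rw [hy, ch.φ_unique z hz w hw (ch.toCoord.evalEval_G ht hy)])

/-- The chart is centred at `P`. -/
theorem param_zero : ch.param 0 = P :=
  (eq_param_of_mem_box (mem_ball_self ch.ε_pos) (mem_ball_self ch.δ_pos) ch.toCoord.value_t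
    ch.value_y).symm

variable (ch)

/-- The domain of a chart. -/
def domain : Set (Place ℂ F) := ch.param '' ball 0 ch.ε

/-- The domain is cut out by the two coordinates lying in their balls. -/
theorem domain_eq : ch.domain =
    {Q | value Q ch.t ∈ ((↑) '' ball (0 : ℂ) ch.ε : Set (OnePoint ℂ)) ∧
      value Q ch.y ∈ ((↑) '' ball ch.c ch.δ : Set (OnePoint ℂ))} := by
  ext Q
  constructor
  · rintro ⟨z, hz, rfl⟩
    exact ⟨⟨z, hz, (value_t_param hz).symm⟩, _, (ch.φ_spec z hz).1, (value_y_param hz).symm⟩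
  · rintro ⟨⟨z, hz, ht⟩, w, hw, hy⟩
    exact ⟨z, hz, (eq_param_of_mem_box hz hw ht.symm hy.symm).symm⟩

/-- The domain of a chart is open. -/
theorem isOpen_domain : IsOpen ch.domain := by
  rw [domain_eq]
  exact ((OnePoint.isOpen_image_coe.2 isOpen_ball).preimage (continuous_value ch.t)).inter
    ((OnePoint.isOpen_image_coe.2 isOpen_ball).preimage (continuous_value ch.y))

/-- The centre lies in the domain. -/
theorem mem_domain_self : P ∈ ch.domain := ⟨0, mem_ball_self ch.ε_pos, param_zero⟩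

/-- The parametrisation is injective on the disc. -/
theorem injOn_param : Set.InjOn ch.param (ball 0 ch.ε) := fun z hz z' hz' h => by
  have := value_t_param hz
  rw [h, value_t_param hz', OnePoint.coe_eq_coe] at this
  exact this.symm

/-- The value of a function along a chart (zero at the poles). -/
def fn (f : F) (z : ℂ) : ℂ := evalAt (ch.param z) f

variable {ch}

/-- A function regular at a point of the branch is a quotient with nonvanishing denominator. -/
theorem exists_rep {f : F} {z : ℂ} (hz : z ∈ ball (0 : ℂ) ch.ε)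
    (hf : OrdGE (ch.param z) f 0) :
    ∃ p q : ℂ[X][Y], q.evalEval z (ch.φ z) ≠ 0 ∧
      f = aevalAeval ch.t ch.y p / aevalAeval ch.t ch.y q := by
  have ht := value_t_param hz
  have hy := value_y_param hz
  obtain ⟨p, q, hq, rfl⟩ := ch.exists_frac f
  rcases eq_or_ne (aevalAeval ch.t ch.y p) 0 with hp | hp
  · exact ⟨0, 1, by simp, by rw [hp, map_zero, zero_div, zero_div]⟩
  obtain ⟨N, D, hN, hD, hdvd⟩ := exists_normalForm hz ht hy p hp
  obtain ⟨N', D', hN', hD', hdvd'⟩ := exists_normalForm hz ht hy q hq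
  have hk := hf.le_ord (div_ne_zero hp hq)
  rw [ord_div _ hp hq, ord_aevalAeval hz ht hy hp, ord_aevalAeval hz ht hy hq] at hk
  obtain ⟨m, hm⟩ := Nat.le.dest (show analyticOrderNatAt (ch.along q) z ≤
    analyticOrderNatAt (ch.along p) z by omega)
  refine ⟨C (X - C z) ^ m * (N * D'), D * N', by rw [evalEval_mul]; exact mul_ne_zero hD hN', ?_⟩
  have e1 := ch.aevalAeval_congr hdvd
  have e2 := ch.aevalAeval_congr hdvd'
  rw [← hm, pow_add] at e1
  simp only [map_mul] at e1 e2 ⊢
  rw [div_eq_div_iff hq (mul_ne_zero (ne_zero_of_evalEval_ne ht hy hD).1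
    (ne_zero_of_evalEval_ne ht hy hN').1)]
  calc _ = aevalAeval ch.t ch.y p * aevalAeval ch.t ch.y D * aevalAeval ch.t ch.y N' := by ring
    _ = _ := by rw [e1]; linear_combination (-(aevalAeval ch.t ch.y (C (X - C z) ^ m)) *
        aevalAeval ch.t ch.y N) * e2

/-- A quotient of polynomials in the coordinates is regular in the chart where the denominator is
nonzero, with value the quotient. -/
theorem fn_eq_div {f : F} {p q : ℂ[X][Y]}
    (hf : f = aevalAeval ch.t ch.y p / aevalAeval ch.t ch.y q) {z : ℂ}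
    (hz : z ∈ ball (0 : ℂ) ch.ε) (hq : q.evalEval z (ch.φ z) ≠ 0) :
    OrdGE (ch.param z) f 0 ∧ ch.fn f z = ch.along p z / ch.along q z := by
  have hv := value_aevalAeval (value_t_param hz) (value_y_param hz)
  obtain ⟨hq0, hqord⟩ := ne_zero_of_evalEval_ne (value_t_param hz) (value_y_param hz) hq
  have hp1 : OrdGE (ch.param z) (aevalAeval ch.t ch.y p) 0 :=
    value_ne_infty_iff.1 (by rw [hv p]; exact OnePoint.coe_ne_infty _)
  have hreg : OrdGE (ch.param z) f 0 := by
    rw [hf, div_eq_mul_inv]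
    simpa using hp1.mul (ordGE_iff.2 (Or.inr (by rw [Place.ord_inv, hqord, neg_zero]) :
      (aevalAeval ch.t ch.y q)⁻¹ = 0 ∨ 0 ≤ (ch.param z).ord (aevalAeval ch.t ch.y q)⁻¹))
  refine ⟨hreg, ?_⟩
  have hfq : f * aevalAeval ch.t ch.y q = aevalAeval ch.t ch.y p := by
    rw [hf, div_mul_cancel₀ _ hq0]
  have hq1 : OrdGE (ch.param z) (aevalAeval ch.t ch.y q) 0 :=
    value_ne_infty_iff.1 (by rw [hv q]; exact OnePoint.coe_ne_infty _)
  have := evalAt_mul hreg hq1
  rw [hfq, evalAt_of_value (hv p), evalAt_of_value (hv q)] at this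
  exact eq_div_of_mul_eq hq this.symm

/-- Regularity is an open condition along the chart. -/
theorem eventually_regular {f : F} {z : ℂ} (hz : z ∈ ball (0 : ℂ) ch.ε)
    (hf : OrdGE (ch.param z) f 0) : ∀ᶠ x in 𝓝 z, OrdGE (ch.param x) f 0 := by
  obtain ⟨p, q, hq, hpq⟩ := exists_rep hz hf
  filter_upwards [(ch.analyticAt_along q hz).continuousAt.eventually_ne hq,
    isOpen_ball.mem_nhds hz] with x hx hxb
  exact (fn_eq_div hpq hxb hx).1

/-- A regular function is analytic along the chart. -/
theorem analyticAt_fn {f : F} {z : ℂ} (hz : z ∈ ball (0 : ℂ) ch.ε)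
    (hf : OrdGE (ch.param z) f 0) : AnalyticAt ℂ (ch.fn f) z := by
  obtain ⟨p, q, hq, hpq⟩ := exists_rep hz hf
  refine AnalyticAt.congr ((ch.analyticAt_along p hz).div (ch.analyticAt_along q hz) hq) ?_
  filter_upwards [(ch.analyticAt_along q hz).continuousAt.eventually_ne hq,
    isOpen_ball.mem_nhds hz] with x hx hxb
  exact (fn_eq_div hpq hxb hx).2.symm

/-- A regular function has value `fn` along the chart. -/
theorem value_param {f : F} {z : ℂ} (hf : OrdGE (ch.param z) f 0) :
    value (ch.param z) f = (ch.fn f z : OnePoint ℂ) := value_of_ordGE hf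

/-- Along the chart the first coordinate is the parameter. -/
theorem fn_t {z : ℂ} (hz : z ∈ ball (0 : ℂ) ch.ε) : ch.fn ch.t z = z :=
  evalAt_of_value (value_t_param hz)

/-- Laurent form of a nonzero function at a point of the chart. -/
theorem exists_factor {f : F} (hf : f ≠ 0) {z₀ : ℂ} (hz : z₀ ∈ ball (0 : ℂ) ch.ε) :
    ∃ u : ℂ → ℂ, AnalyticAt ℂ u z₀ ∧ u z₀ ≠ 0 ∧
      ∀ᶠ x in 𝓝[≠] z₀, OrdGE (ch.param x) f 0 ∧ (ch.param x).ord f = 0 ∧
        ch.fn f x = (x - z₀) ^ (ch.param z₀).ord f * u x := by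
  set m := (ch.param z₀).ord f with hm
  set τ := ch.t - algebraMap ℂ F z₀ with hτ
  have hτ1 : (ch.param z₀).ord τ = 1 := ord_t_sub hz (value_t_param hz) (value_y_param hz)
  have hτ0 : τ ≠ 0 := fun h => by rw [h, Place.ord_zero] at hτ1; omega
  -- divide by the power of a local parameter
  set g := f * τ ^ (-m) with hg
  have hg0 : g ≠ 0 := mul_ne_zero hf (zpow_ne_zero _ hτ0)
  have hgord : (ch.param z₀).ord g = 0 := by
    rw [hg, Place.ord_mul _ hf (zpow_ne_zero _ hτ0), Place.ord_zpow, hτ1]; omega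
  have hgreg : OrdGE (ch.param z₀) g 0 := ordGE_iff.2 (Or.inr hgord.ge)
  have hu0 : ch.fn g z₀ ≠ 0 := fun h => by
    have := ((evalAt_eq_zero_iff hgreg).1 h).le_ord hg0
    omega
  refine ⟨ch.fn g, analyticAt_fn hz hgreg, hu0, ?_⟩
  filter_upwards [nhdsWithin_le_nhds (eventually_regular hz hgreg),
    nhdsWithin_le_nhds ((analyticAt_fn hz hgreg).continuousAt.eventually_ne hu0),
    nhdsWithin_le_nhds (isOpen_ball.mem_nhds hz), self_mem_nhdsWithin] with x hxg hxu hxb hxne
  have hxne' : x - z₀ ≠ 0 := sub_ne_zero.2 hxne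
  -- near `z₀` the parameter has value `x - z₀`
  have hτv : value (ch.param x) τ = ((x - z₀ : ℂ) : OnePoint ℂ) :=
    value_sub _ (value_t_param hxb) (value_algebraMap _ _)
  have hτreg : OrdGE (ch.param x) τ 0 := value_ne_infty_iff.1 (by simp [hτv])
  have hτord : (ch.param x).ord τ = 0 := by
    by_contra h
    rw [value_eq_zero_iff.2 (Or.inr (lt_of_le_of_ne (hτreg.le_ord hτ0) (Ne.symm h))),
      OnePoint.coe_eq_coe] at hτv
    exact hxne' hτv.symm
  have hgordx : (ch.param x).ord g = 0 := by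
    by_contra h
    apply hxu
    rw [fn, evalAt_eq_zero_iff hxg]
    exact ordGE_iff.2 (Or.inr (by have := hxg.le_ord hg0; omega))
  -- so `f` is that power times a unit
  have hfg : f = g * τ ^ m := by
    rw [hg, mul_assoc, ← zpow_add₀ hτ0, neg_add_cancel, zpow_zero, mul_one]
  have hford : (ch.param x).ord f = 0 := by
    rw [hfg, Place.ord_mul _ hg0 (zpow_ne_zero _ hτ0), Place.ord_zpow, hgordx, hτord]; simp
  refine ⟨ordGE_iff.2 (Or.inr hford.ge), hford, ?_⟩
  have hτm : ∀ k : ℕ, ch.fn (τ ^ k) x = (x - z₀) ^ k := fun k =>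
    evalAt_of_value (value_pow hτv k)
  obtain ⟨k, hk | hk⟩ := m.eq_nat_or_neg
  · rw [hk, zpow_natCast, ← hτm k, mul_comm]
    conv_lhs => rw [fn, hfg, hk, zpow_natCast, evalAt_mul hxg (by simpa using hτreg.pow k)]
    rfl
  · have hfx : ch.fn g x = ch.fn f x * (x - z₀) ^ k := by
      rw [← hτm k]
      change evalAt _ g = _
      rw [hg, hk, neg_neg, zpow_natCast,
        evalAt_mul (ordGE_iff.2 (Or.inr hford.ge)) (by simpa using hτreg.pow k)]
      rfl
    rw [hk, zpow_neg, zpow_natCast, hfx]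
    field_simp

end Chart

end Fermat.JAC
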