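import Fermat.Agent.JAC.Chart
import Fermat.Agent.FF.Kaehler

/-!
# Charts: topology and differentials

The coefficient of a differential is `coeff`, matched with derivatives by `hasDerivAt_fn`.
-/

set_option autoImplicit false

noncomputable section

open AlgebraicCurve Polynomial Metric Filter Topology KaehlerDifferential
open scoped Polynomial.Bivariate OnePoint

namespace Fermat.JAC

open Fermat.FF

variable {F : Type*} [Field F] [Algebra ℂ F] [IsFunctionField ℂ F]

/-- The value of a function from that of its inverse. -/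
theorem value_eq_coe_inv {Q : Place ℂ F} {f : F} {r : ℂ} (hf : f ≠ 0)
    (h : value Q f⁻¹ = (r : OnePoint ℂ)) :
    value Q f = if r = 0 then ∞ else (r⁻¹ : ℂ) := by
  split_ifs with hr
  · subst hr
    rcases value_eq_zero_iff.1 h with h0 | h0
    · exact absurd (inv_eq_zero.1 h0) hf
    · rw [value_eq_infty_iff]; rw [Q.ord_inv] at h0; omega
  · have hne : value Q f ≠ ∞ := by
      rw [ne_eq, value_eq_infty_iff]
      intro hlt
      have : value Q f⁻¹ = ((0 : ℂ) : OnePoint ℂ) :=
        value_eq_zero_iff.2 (Or.inr (by rw [Q.ord_inv]; omega))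
      rw [h, OnePoint.coe_eq_coe] at this
      exact hr this
    obtain ⟨a, ha⟩ := OnePoint.ne_infty_iff_exists.1 hne
    have := value_mul Q ha.symm h
    rw [mul_inv_cancel₀ hf, ← map_one (algebraMap ℂ F), value_algebraMap,
      OnePoint.coe_eq_coe] at this
    rw [← ha, OnePoint.coe_eq_coe]
    exact eq_inv_of_mul_eq_one_left this.symm

namespace Chart

variable {P : Place ℂ F} {ch : Chart P}

/-- The parametrisation of a chart is continuous. -/
theorem continuousAt_param {z : ℂ} (hz : z ∈ ball (0 : ℂ) ch.ε) : ContinuousAt ch.param z := by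
  -- continuity of the value of each function
  rw [(isEmbedding_value F).isInducing.continuousAt_iff]
  refine tendsto_pi_nhds.2 fun f => ?_
  change Tendsto (fun x => value (ch.param x) f) (𝓝 z) (𝓝 (value (ch.param z) f))
  -- a regular function has an analytic expansion
  by_cases hf : OrdGE (ch.param z) f 0
  · rw [value_param hf]
    refine Tendsto.congr' ?_ ((OnePoint.continuous_coe.tendsto _).comp
      (analyticAt_fn hz hf).continuousAt)
    filter_upwards [eventually_regular hz hf] with x hx
    exact (value_param hx).symm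
  -- at a pole the inverse function tends to zero, so the value tends to infinity
  have hlt : (ch.param z).ord f < 0 := by
    rwa [← not_mem_iff, mem_iff_ordGE]
  have hf0 : f ≠ 0 := fun h => by rw [h, Place.ord_zero] at hlt; omega
  have hinv : OrdGE (ch.param z) f⁻¹ 0 := ordGE_iff.2 (Or.inr (by rw [Place.ord_inv]; omega))
  have h0 : ch.fn f⁻¹ z = 0 :=
    (evalAt_eq_zero_iff hinv).2 (ordGE_iff.2 (Or.inr (by rw [Place.ord_inv]; omega)))
  rw [value_eq_infty_iff.2 hlt]
  have hlim : Tendsto (ch.fn f⁻¹) (𝓝 z) (𝓝 0) := h0 ▸ (analyticAt_fn hz hinv).continuousAt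
  rw [(OnePoint.hasBasis_nhds_infty).tendsto_right_iff]
  rintro s ⟨-, hs⟩
  obtain ⟨R, hR⟩ := hs.isBounded.exists_norm_le
  have hR' : (0 : ℝ) < max R 1 := lt_max_of_lt_right one_pos
  filter_upwards [eventually_regular hz hinv,
    hlim.eventually (ball_mem_nhds (0 : ℂ) (inv_pos.2 hR'))] with x hx hxsmall
  rw [value_eq_coe_inv hf0 (value_param hx)]
  split_ifs with hr
  · exact Or.inr rfl
  · refine Or.inl ⟨_, ?_, rfl⟩
    intro hmem
    have h1 := (hR _ hmem).trans (le_max_left R 1)
    rw [norm_inv] at h1
    rw [dist_zero_right] at hxsmall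
    have h2 := inv_strictAnti₀ (norm_pos_iff.2 hr) hxsmall
    rw [inv_inv] at h2
    linarith

/-- The parametrisation is continuous on the disc. -/
theorem continuousOn_param : ContinuousOn ch.param (ball 0 ch.ε) := fun _ hz =>
  (continuousAt_param hz).continuousWithinAt

variable (ch)

/-- The coordinate on the domain of a chart. -/
def coord (Q : Place ℂ F) : ℂ := evalAt Q ch.t

variable {ch}

/-- The coordinate inverts the parametrisation. -/
theorem coord_param {z : ℂ} (hz : z ∈ ball (0 : ℂ) ch.ε) : ch.coord (ch.param z) = z :=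
  fn_t hz

/-- On the domain the first coordinate has the coordinate as its value. -/
theorem value_t_of_mem {Q : Place ℂ F} (hQ : Q ∈ ch.domain) :
    value Q ch.t = (ch.coord Q : OnePoint ℂ) := by
  obtain ⟨z, hz, rfl⟩ := hQ
  rw [coord_param hz, value_t_param hz]

/-- The coordinate maps the domain into the disc. -/
theorem coord_mem_ball {Q : Place ℂ F} (hQ : Q ∈ ch.domain) : ch.coord Q ∈ ball (0 : ℂ) ch.ε := by
  obtain ⟨z, hz, rfl⟩ := hQ
  rwa [coord_param hz]

/-- The parametrisation inverts the coordinate. -/
theorem param_coord {Q : Place ℂ F} (hQ : Q ∈ ch.domain) : ch.param (ch.coord Q) = Q := by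
  obtain ⟨z, hz, rfl⟩ := hQ
  rw [coord_param hz]

/-- The coordinate is continuous on the domain. -/
theorem continuousOn_coord : ContinuousOn ch.coord ch.domain := by
  rw [OnePoint.isOpenEmbedding_coe.isEmbedding.isInducing.continuousOn_iff]
  exact (continuous_value ch.t).continuousOn.congr fun Q hQ => (value_t_of_mem hQ).symm

variable (ch)

/-- A chart as a homeomorphism of a disc with an open set of places. -/
def toOPH : OpenPartialHomeomorph ℂ (Place ℂ F) where
  toFun := ch.param
  invFun := ch.coord
  source := ball 0 ch.ε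
  target := ch.domain
  map_source' := fun z hz => ⟨z, hz, rfl⟩
  map_target' := fun _ hQ => coord_mem_ball hQ
  left_inv' := fun _ hz => coord_param hz
  right_inv' := fun _ hQ => param_coord hQ
  open_source := isOpen_ball
  open_target := ch.isOpen_domain
  continuousOn_toFun := continuousOn_param
  continuousOn_invFun := continuousOn_coord

variable {ch}

/-- The parametrisation maps open subsets of the disc to open sets. -/
theorem isOpen_image_param {W : Set ℂ} (hW : IsOpen W) (hsub : W ⊆ ball 0 ch.ε) :
    IsOpen (ch.param '' W) :=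
  ch.toOPH.isOpen_image_of_subset_source hW hsub

/-- The coordinate is a uniformiser at each parametrised place. -/
theorem ord_t_sub_param {z : ℂ} (hz : z ∈ ball (0 : ℂ) ch.ε) :
    (ch.param z).ord (ch.t - algebraMap ℂ F z) = 1 :=
  ord_t_sub hz (value_t_param hz) (value_y_param hz)

/-- Translating the coordinate does not change its differential. -/
theorem D_t_sub (z : ℂ) :
    D ℂ F (ch.t - algebraMap ℂ F z) = D ℂ F ch.t := by
  rw [map_sub, Derivation.map_algebraMap, sub_zero]

variable (ch) in
/-- The differential of the coordinate is nonzero. -/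
theorem D_t_ne_zero : D ℂ F ch.t ≠ 0 := by
  have h := D_ne_zero_of_ord_eq_one (ch.param 0) (ord_t_sub_param (mem_ball_self ch.ε_pos))
  rwa [D_t_sub] at h

variable (ch) in
/-- The differential of the coordinate spans all differentials. -/
theorem span_D_t : Submodule.span F {D ℂ F ch.t} = ⊤ := by
  have h := span_D_eq_top (ch.param 0) (ord_t_sub_param (mem_ball_self ch.ε_pos))
  rwa [D_t_sub] at h

variable (ch) in
/-- Every differential is a multiple of that of the coordinate. -/
theorem exists_coeff (ω : Ω[F⁄ℂ]) : ∃ h : F, h • D ℂ F ch.t = ω :=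
  Submodule.mem_span_singleton.1 (ch.span_D_t ▸ Submodule.mem_top)

variable (ch) in
/-- The coefficient of a differential with respect to the coordinate. -/
def coeff (ω : Ω[F⁄ℂ]) : F := (ch.exists_coeff ω).choose

/-- The coefficient times the differential of the coordinate gives back the differential. -/
theorem coeff_smul (ω : Ω[F⁄ℂ]) : ch.coeff ω • D ℂ F ch.t = ω := (ch.exists_coeff ω).choose_spec

/-- The coefficient is unique. -/
theorem coeff_eq {ω : Ω[F⁄ℂ]} {h : F} (hh : h • D ℂ F ch.t = ω) : ch.coeff ω = h :=
  smul_left_injective F ch.D_t_ne_zero ((coeff_smul ω).trans hh.symm)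

/-- The coefficient is additive. -/
theorem coeff_add (ω ω' : Ω[F⁄ℂ]) : ch.coeff (ω + ω') = ch.coeff ω + ch.coeff ω' :=
  coeff_eq (by rw [add_smul, coeff_smul, coeff_smul])

/-- The coefficient is linear over the function field. -/
theorem coeff_smul' (a : F) (ω : Ω[F⁄ℂ]) : ch.coeff (a • ω) = a * ch.coeff ω :=
  coeff_eq (by rw [mul_smul, coeff_smul])

/-- The order of a differential along the chart is that of its coefficient. -/
theorem ordDifferential_param {z : ℂ} (hz : z ∈ ball (0 : ℂ) ch.ε) (ω : Ω[F⁄ℂ]) :
    (ch.param z).ordDifferential ω = (ch.param z).ord (ch.coeff ω) := by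
  conv_lhs => rw [← coeff_smul (ch := ch) ω, ← D_t_sub (ch := ch) z]
  exact ordDifferential_smul_D _ (ord_t_sub_param hz) _

omit [IsFunctionField ℂ F] in
/-- The differential of a polynomial in two functions. -/
theorem D_aevalAeval (t y : F) (H : ℂ[X][Y]) :
    D ℂ F (aevalAeval t y H) = aevalAeval t y (pderivX H) • D ℂ F t
      + aevalAeval t y (Polynomial.derivative H) • D ℂ F y := by
  induction H using Polynomial.induction_on' with
  | add p q hp hq => simp only [map_add, hp, hq, add_smul]; abel
  | monomial n a =>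
    rw [pderivX_monomial, derivative_monomial, aevalAeval_monomial, aevalAeval_monomial,
      aevalAeval_monomial, Derivation.leibniz, Derivation.leibniz_pow, Derivation.map_aeval,
      smul_smul, map_mul, map_natCast, ← Nat.cast_smul_eq_nsmul F]
    simp only [smul_smul, mul_comm, mul_left_comm, mul_assoc]
    abel

/-- Differentiating the equation of the curve along the branch gives zero. -/
theorem evalEval_pderivX_add {z : ℂ} (hz : z ∈ ball (0 : ℂ) ch.ε) :
    (pderivX ch.G).evalEval z (ch.φ z) +
      (Polynomial.derivative ch.G).evalEval z (ch.φ z) * deriv ch.φ z = 0 := by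
  have h := hasDerivAt_evalEval_comp ch.G
    (ch.φ_diff.differentiableAt (isOpen_ball.mem_nhds hz)).hasDerivAt
  refine h.unique ((hasDerivAt_const z (0 : ℂ)).congr_of_eventuallyEq ?_)
  filter_upwards [isOpen_ball.mem_nhds hz] with x hx
  exact (ch.φ_spec x hx).2

/-- The differential of a function corresponds to its derivative along the chart. -/
theorem hasDerivAt_fn {f : F} {z : ℂ} (hz : z ∈ ball (0 : ℂ) ch.ε)
    (hf : OrdGE (ch.param z) f 0) :
    OrdGE (ch.param z) (ch.coeff (D ℂ F f)) 0 ∧
      HasDerivAt (ch.fn f) (ch.fn (ch.coeff (D ℂ F f)) z) z := by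
  obtain ⟨p, q, hq, hpq⟩ := exists_rep hz hf
  let ev := aevalAeval (R := ℂ) ch.t ch.y
  let GX := pderivX ch.G
  let GY := Polynomial.derivative ch.G
  have hGY : GY.evalEval z (ch.φ z) ≠ 0 := ch.deriv_ne_box z hz _ (ch.φ_spec z hz).1
  obtain ⟨hGY0, -⟩ := ne_zero_of_evalEval_ne (value_t_param hz) (value_y_param hz) hGY
  obtain ⟨hq0, -⟩ := ne_zero_of_evalEval_ne (value_t_param hz) (value_y_param hz) hq
  let Pn : ℂ[X][Y] := q * (pderivX p * GY - Polynomial.derivative p * GX)
    - p * (pderivX q * GY - Polynomial.derivative q * GX)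
  let Qn : ℂ[X][Y] := q ^ 2 * GY
  have hQn : Qn.evalEval z (ch.φ z) ≠ 0 := by
    simp only [Qn, evalEval_mul, evalEval_pow]
    exact mul_ne_zero (pow_ne_zero _ hq) hGY
  -- Differentiate `G (t, y) = 0`, then `f = p / q`.
  have hy : ev GY • D ℂ F ch.y = -(ev GX • D ℂ F ch.t) := by
    rw [eq_neg_iff_add_eq_zero, add_comm, ← D_aevalAeval, ch.eval_G, map_zero]
  have hDH : ∀ H : ℂ[X][Y], ev GY • D ℂ F (ev H) =
      ev (pderivX H * GY - Polynomial.derivative H * GX) • D ℂ F ch.t := fun H => by
    rw [D_aevalAeval, smul_add, smul_comm (ev GY) (ev (Polynomial.derivative H)), hy, smul_neg,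
      smul_smul, smul_smul, ← sub_eq_add_neg, ← sub_smul, map_sub, map_mul, map_mul]
    congr 1
    ring
  -- the coefficient of `D f` as a quotient of polynomials
  have hcoeff : ch.coeff (D ℂ F f) = ev Pn / ev Qn := by
    apply coeff_eq
    have hQn0 : ev Qn ≠ 0 := (ne_zero_of_evalEval_ne (value_t_param hz) (value_y_param hz) hQn).1
    apply smul_right_injective (Ω[F⁄ℂ]) hQn0
    simp only [smul_smul, mul_div_cancel₀ _ hQn0]
    have hq0' : ev q ≠ 0 := hq0
    rw [hpq, Derivation.leibniz_div, smul_smul, smul_sub, smul_smul, smul_smul]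
    rw [show ev Qn * (ev q)⁻¹ ^ 2 * ev q = ev q * ev GY by
        simp only [Qn, map_mul, map_pow]; field_simp,
      show ev Qn * (ev q)⁻¹ ^ 2 * ev p = ev p * ev GY by
        simp only [Qn, map_mul, map_pow]; field_simp,
      mul_smul, mul_smul, hDH, hDH, smul_smul, smul_smul, ← sub_smul]
    simp only [Pn, map_sub, map_mul]
  obtain ⟨hreg, hval⟩ := fn_eq_div hcoeff hz hQn
  refine ⟨hreg, ?_⟩
  have hd := fun H : ℂ[X][Y] => hasDerivAt_evalEval_comp H
    (ch.φ_diff.differentiableAt (isOpen_ball.mem_nhds hz)).hasDerivAt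
  -- The quotient rule along the chart gives the same value.
  have hquot := (hd p).div (hd q) hq
  have hfun : ch.fn f =ᶠ[𝓝 z] fun x => ch.along p x / ch.along q x := by
    filter_upwards [(ch.analyticAt_along q hz).continuousAt.eventually_ne hq,
      isOpen_ball.mem_nhds hz] with x hx hxb
    exact (fn_eq_div hpq hxb hx).2
  refine (hquot.congr_of_eventuallyEq hfun).congr_deriv ?_
  rw [hval]
  -- compare the two through the equation of the tangent
  have hrel := evalEval_pderivX_add hz (ch := ch)
  simp only [along, Pn, Qn, GX, GY, evalEval_mul, evalEval_sub, evalEval_pow]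
  have hGY' : (Polynomial.derivative ch.G).evalEval z (ch.φ z) ≠ 0 := hGY
  field_simp
  linear_combination (q.evalEval z (ch.φ z) * (Polynomial.derivative p).evalEval z (ch.φ z)
    - p.evalEval z (ch.φ z) * (Polynomial.derivative q).evalEval z (ch.φ z)) * hrel

end Chart

end Fermat.JAC
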