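import Fermat.Agent.FF.API

/-!
# Extensions of the constant field: linear algebra

The extension is described by the class `IsConstExt`, and `linearIndependent` is linear
disjointness.
-/

set_option autoImplicit false

noncomputable section

open IntermediateField

namespace Fermat.JAC

/-- `F` is the constant field extension of `F₀` along `k → K`. -/
class IsConstExt (k K F₀ F : Type*) [Field k] [Field K] [Field F₀] [Field F] [Algebra k K]
    [Algebra k F₀] [Algebra K F] [Algebra F₀ F] : Prop where
  /-- The two maps from `k` to `F` agree. -/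
  comm : ∀ c : k, algebraMap F₀ F (algebraMap k F₀ c) = algebraMap K F (algebraMap k K c)
  /-- Constants independent over `k` stay independent over `F₀`. -/
  coeff_eq_zero : ∀ (n : ℕ) (c : Fin n → K) (f : Fin n → F₀), LinearIndependent k c →
    ∑ i, algebraMap K F (c i) * algebraMap F₀ F (f i) = 0 → ∀ i, f i = 0
  /-- `F` is generated by `F₀` over `K`. -/
  adjoin_eq_top : IntermediateField.adjoin K (Set.range (algebraMap F₀ F)) = ⊤

namespace ConstExt

variable {k K F₀ F : Type*} [Field k] [Field K] [Field F₀] [Field F] [Algebra k K]
  [Algebra k F₀] [Algebra K F] [Algebra F₀ F] [IsConstExt k K F₀ F]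

variable (k K) in
/-- The inclusion is semilinear over the constants. -/
theorem map_smul (a : k) (f : F₀) :
    algebraMap F₀ F (a • f) = algebraMap k K a • algebraMap F₀ F f := by
  rw [Algebra.smul_def, map_mul, IsConstExt.comm (K := K), Algebra.smul_def]

/-- Linearly independent functions stay independent. -/
theorem linearIndependent {ι : Type*} {f : ι → F₀} (hf : LinearIndependent k f) :
    LinearIndependent K (algebraMap F₀ F ∘ f) := by
  classical
  rw [linearIndependent_iff']
  intro s c hc i hi
  let V := Submodule.span k (c '' (s : Set ι))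
  have : FiniteDimensional k V := FiniteDimensional.span_of_finite k (s.finite_toSet.image c)
  let e := Module.finBasis k V
  have hcV : ∀ j ∈ s, c j ∈ V := fun j hj => Submodule.subset_span ⟨j, hj, rfl⟩
  let a : ι → Fin (Module.finrank k V) → k := fun j l =>
    if hj : j ∈ s then e.repr ⟨c j, hcV j hj⟩ l else 0
  have hca : ∀ j ∈ s, c j = ∑ l, a j l • (e l : K) := fun j hj => by
    have h := congrArg Subtype.val (e.sum_repr ⟨c j, hcV j hj⟩)
    simp only [Submodule.coe_sum, Submodule.coe_smul_of_tower] at h
    simp only [a, dif_pos hj]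
    exact h.symm
  have hz := IsConstExt.coeff_eq_zero (F₀ := F₀) (F := F) _ (fun l => (e l : K))
    (fun l => ∑ j ∈ s, a j l • f j) (e.linearIndependent.map' V.subtype V.ker_subtype) (by
      rw [← hc]
      simp only [map_sum, Finset.mul_sum, Function.comp_apply, Algebra.smul_def]
      rw [Finset.sum_comm]
      refine Finset.sum_congr rfl fun j hj => ?_
      conv_rhs => rw [hca j hj]
      simp only [map_sum, Finset.sum_mul, Algebra.smul_def, map_mul]
      exact Finset.sum_congr rfl fun l _ => by rw [IsConstExt.comm (K := K)]; ring)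
  have ha : ∀ l, a i l = 0 := fun l => linearIndependent_iff'.mp hf s (fun j => a j l) (hz l) i hi
  rw [hca i hi]
  simp [ha]

/-- A function of `F₀` in the `K`-span of a subset of `F₀` is in its `k`-span. -/
theorem mem_span_of_mem {S : Set F₀} {g : F₀}
    (h : algebraMap F₀ F g ∈ Submodule.span K (algebraMap F₀ F '' S)) :
    g ∈ Submodule.span k S := by
  obtain ⟨b, hbS, hspan, hb⟩ := exists_linearIndependent k S
  by_contra hg
  rw [← hspan] at hg
  have hSb : Submodule.span K (algebraMap F₀ F '' S) ≤ Submodule.span K (algebraMap F₀ F '' b) := by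
    refine Submodule.span_le.mpr ?_
    rintro _ ⟨s, hs, rfl⟩
    have hs' : s ∈ Submodule.span k b := hspan ▸ Submodule.subset_span hs
    clear hs
    induction hs' using Submodule.span_induction with
    | mem x hx => exact Submodule.subset_span ⟨x, hx, rfl⟩
    | zero => simp
    | add x y _ _ hx hy => rw [map_add]; exact add_mem hx hy
    | smul a x _ hx => rw [map_smul k K]; exact Submodule.smul_mem _ _ hx
  have hins : LinearIndepOn k id (insert g b) :=
    LinearIndepOn.id_insert hb hg
  have hK : LinearIndepOn K (algebraMap F₀ F) (insert g b) :=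
    linearIndependent (K := K) (F := F) hins
  have hnot := (linearIndepOn_insert (fun hgb => hg (Submodule.subset_span hgb))).mp hK
  exact hnot.2 (hSb h)

variable (k K F) in
/-- Extending the constants keeps transcendence. -/
theorem transcendental {y : F₀} (hy : Transcendental k y) :
    Transcendental K (algebraMap F₀ F y) := by
  have hpow : LinearIndependent k (fun i : ℕ => y ^ i) := by
    rw [linearIndependent_iff']
    intro s a ha i hi
    have h0 : Polynomial.aeval y (∑ j ∈ s, Polynomial.C (a j) * Polynomial.X ^ j) = 0 := by
      simpa [Algebra.smul_def] using ha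
    have := congrArg (fun p => Polynomial.coeff p i) (transcendental_iff.mp hy _ h0)
    simpa [Polynomial.finsetSum_coeff, Polynomial.coeff_C_mul, Polynomial.coeff_X_pow,
      hi] using this
  have h := linearIndependent (K := K) (F := F) hpow
  rintro ⟨p, hp0, hp⟩
  refine hp0 (Polynomial.ext fun i => ?_)
  rw [Polynomial.coeff_zero]
  by_contra hi
  rw [Polynomial.aeval_eq_sum_range] at hp
  refine hi (linearIndependent_iff'.mp h (Finset.range (p.natDegree + 1)) (fun j => p.coeff j) ?_ i
    (Finset.mem_range.mpr (Nat.lt_succ_of_le (Polynomial.le_natDegree_of_ne_zero hi))))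
  simpa using hp

/-- The subfield `k(y)` maps into `K(y)`. -/
theorem algebraMap_mem_adjoin {y : F₀} (r : k⟮y⟯) :
    algebraMap F₀ F (r : F₀) ∈ K⟮algebraMap F₀ F y⟯ := by
  obtain ⟨x, hx⟩ := r
  change algebraMap F₀ F x ∈ _
  induction hx using IntermediateField.adjoin_induction with
  | mem z hz => rw [hz]; exact mem_adjoin_simple_self K _
  | algebraMap c => rw [IsConstExt.comm (K := K)]; exact IntermediateField.algebraMap_mem _ _
  | add a b _ _ ha hb => rw [map_add]; exact add_mem ha hb
  | inv a _ ha => rw [map_inv₀]; exact inv_mem ha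
  | mul a b _ _ ha hb => rw [map_mul]; exact mul_mem ha hb

/-- The degree over `K(y)` is at most the degree over `k(y)`. -/
theorem finiteDimensional_and_finrank_le (y : F₀) [FiniteDimensional k⟮y⟯ F₀] :
    FiniteDimensional K⟮algebraMap F₀ F y⟯ F ∧
      Module.finrank K⟮algebraMap F₀ F y⟯ F ≤ Module.finrank k⟮y⟯ F₀ := by
  let L := K⟮algebraMap F₀ F y⟯
  let b := Module.finBasis k⟮y⟯ F₀
  let S : Submodule L F := Submodule.span L (Set.range (algebraMap F₀ F ∘ b))
  have : FiniteDimensional L S := FiniteDimensional.span_of_finite L (Set.finite_range _)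
  -- `F₀` lies in the span of a basis over the smaller rational field
  have hf : ∀ f : F₀, algebraMap F₀ F f ∈ S := fun f => by
    rw [← b.sum_repr f, map_sum]
    refine Submodule.sum_mem _ fun i _ => ?_
    rw [IntermediateField.smul_def, smul_eq_mul, map_mul]
    exact Submodule.smul_mem S (⟨_, algebraMap_mem_adjoin (b.repr f i)⟩ : L)
      (Submodule.subset_span ⟨i, rfl⟩)
  let A : Subalgebra L F := Algebra.adjoin L (Set.range (algebraMap F₀ F))
  -- so does the algebra it generates
  have hA : ∀ z ∈ A, z ∈ S := fun z hz => by
    rw [← Subalgebra.mem_toSubmodule, Algebra.adjoin_eq_span] at hz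
    refine Submodule.span_le.mpr (fun w hw => ?_) hz
    have hw' : w ∈ MonoidHom.mrange (algebraMap F₀ F).toMonoidHom :=
      Submonoid.closure_le.mpr (fun _ h => h) hw
    obtain ⟨f, rfl⟩ := hw'
    exact hf f
  have : FiniteDimensional L A :=
    FiniteDimensional.of_injective
      ({ toFun := fun a => ⟨(a : F), hA _ a.2⟩, map_add' := fun _ _ => rfl,
         map_smul' := fun _ _ => rfl } : A →ₗ[L] S)
      fun a b h => Subtype.ext (congrArg Subtype.val h :)
  -- which is a field, hence all of `F`
  let E : IntermediateField K F :=
    { carrier := {z | z ∈ A}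
      mul_mem' := fun ha hb => A.mul_mem ha hb
      one_mem' := A.one_mem
      add_mem' := fun ha hb => A.add_mem ha hb
      zero_mem' := A.zero_mem
      algebraMap_mem' := fun c => by
        change algebraMap L F (algebraMap K L c) ∈ A
        exact A.algebraMap_mem _
      inv_mem' := fun z hz => by
        have halg : IsAlgebraic L ((⟨z, hz⟩ : A) : F) :=
          ((IsIntegral.of_finite L (⟨z, hz⟩ : A)).map A.val).isAlgebraic
        exact A.inv_mem_of_algebraic halg }
  have htop : ∀ z : F, z ∈ S := fun z => hA z <| by
    have : IntermediateField.adjoin K (Set.range (algebraMap F₀ F)) ≤ E :=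
      IntermediateField.adjoin_le_iff.mpr fun w hw => Algebra.subset_adjoin hw
    rw [IsConstExt.adjoin_eq_top (k := k)] at this
    exact this (IntermediateField.mem_top : z ∈ _)
  have hS : S = ⊤ := eq_top_iff.mpr fun z _ => htop z
  have hfd : FiniteDimensional L F :=
    Module.Finite.equiv ((LinearEquiv.ofEq _ _ hS).trans Submodule.topEquiv)
  refine ⟨hfd, ?_⟩
  have h1 : Module.finrank L F = Module.finrank L S := by rw [hS, finrank_top]
  refine h1.trans_le ((finrank_range_le_card (R := L) _).trans ?_)
  rw [Fintype.card_fin]

end ConstExt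

end Fermat.JAC

end
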