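import Fermat.Agent.JAC.ConstExtPlaces
import Fermat.Agent.JAC.EvalDiv
import Fermat.Prelude.Def_AlgebraicCurve_BaseChangeGalois
import Mathlib.FieldTheory.IsAlgClosed.Classification
import Mathlib.LinearAlgebra.TensorProduct.Basis
import Mathlib.RingTheory.TensorProduct.Maps

/-!
# Extensions of the constant field: `Pic⁰` and descent of torsion

The map is `pic0Ext`, injective, and `natCard_torsion_eq` compares the torsion.
-/

set_option autoImplicit false

noncomputable section

open AlgebraicCurve TensorProduct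

namespace Fermat.JAC

open Fermat.FF

/-- A transcendental element can be translated by `1` by an automorphism. -/
theorem exists_algEquiv_shift {k K : Type*} [Field k] [Field K] [Algebra k K] [IsAlgClosed K]
    {a : K} (ha : Transcendental k a) : ∃ σ : K ≃ₐ[k] K, σ a = a + 1 := by
  classical
  have hs : AlgebraicIndepOn k id ({a} : Set K) :=
    algebraicIndependent_unique_type_iff.mpr ha
  obtain ⟨t, hat, ht⟩ := exists_isTranscendenceBasis_superset hs
  let i : t := ⟨a, hat rfl⟩
  let v : t → K := Subtype.val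
  have := IsAlgClosed.isAlgClosure_of_transcendence_basis v ht
  let s : MvPolynomial t k ≃ₐ[k] MvPolynomial t k := AlgEquiv.ofAlgHom
    (MvPolynomial.aeval fun j => MvPolynomial.X j + if j = i then 1 else 0)
    (MvPolynomial.aeval fun j => MvPolynomial.X j - if j = i then 1 else 0)
    (by ext j; by_cases h : j = i <;> simp [h])
    (by ext j; by_cases h : j = i <;> simp [h])
  let A := Algebra.adjoin k (Set.range v)
  let q : MvPolynomial t k ≃ₐ[k] A := ht.1.aevalEquiv
  let e : A ≃ₐ[k] A := q.symm.trans (s.trans q)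
  let φ : K ≃+* K := IsAlgClosure.equivOfEquiv K K e.toRingEquiv
  have hφ : ∀ x : A, φ (x : K) = (e x : K) :=
    fun x => IsAlgClosure.equivOfEquiv_algebraMap K K e.toRingEquiv x
  refine ⟨AlgEquiv.ofRingEquiv (f := φ) fun c => ?_, ?_⟩
  · have := hφ (algebraMap k A c)
    rwa [e.commutes] at this
  · change φ a = a + 1
    have hq : (q (MvPolynomial.X i) : K) = a := by simp [q, v, i, AlgebraicIndependent.aevalEquiv]
    conv_lhs => rw [← hq]
    rw [hφ]
    simp only [e, AlgEquiv.trans_apply, AlgEquiv.symm_apply_apply]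
    simp [s, hq]

namespace ConstExt

variable {k K F₀ F : Type*} [Field k] [Field K] [Field F₀] [Field F] [Algebra k K]
  [Algebra k F₀] [Algebra K F] [Algebra F₀ F] [IsConstExt k K F₀ F]

/-- An automorphism of the constants extends to `F`, fixing `F₀`. -/
theorem exists_semilinearAut (σ : K ≃ₐ[k] K) :
    ∃ g : SemilinearAut K F, (∀ c, SemilinearAut.baseAut g c = σ c) ∧
      ∀ f : F₀, g • algebraMap F₀ F f = algebraMap F₀ F f := by
  let : Algebra k F := ((algebraMap K F).comp (algebraMap k K)).toAlgebra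
  have : IsScalarTower k K F := IsScalarTower.of_algebraMap_eq fun _ => rfl
  have : IsScalarTower k F₀ F :=
    IsScalarTower.of_algebraMap_eq fun c => (IsConstExt.comm (K := K) (F₀ := F₀) (F := F) c).symm
  let ι : K ⊗[k] F₀ →ₐ[k] F :=
    Algebra.TensorProduct.productMap (IsScalarTower.toAlgHom k K F) (IsScalarTower.toAlgHom k F₀ F)
  -- `K ⊗ F₀ → F` is injective by linear disjointness.
  have hinj : Function.Injective ι := by
    rw [injective_iff_map_eq_zero]
    intro z hz
    let b := Module.Basis.ofVectorSpace k K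
    obtain ⟨c, rfl⟩ := TensorProduct.eq_repr_basis_left b z
    suffices h : ∀ j ∈ c.support, c j = 0 from
      Finset.sum_eq_zero fun j hj => by change b j ⊗ₜ[k] c j = 0; rw [h j hj, tmul_zero]
    let en := c.support.equivFin.symm
    have h0 := IsConstExt.coeff_eq_zero (k := k) (F₀ := F₀) (F := F) _ (fun l => b (en l))
      (fun l => c (en l)) (b.linearIndependent.comp (fun l => (en l : _))
        (Subtype.val_injective.comp en.injective)) (by
        rw [Finsupp.sum, map_sum, ← Finset.sum_attach] at hz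
        rw [← hz]
        exact Fintype.sum_equiv en _ _ fun l => by simp [ι])
    intro j hj
    simpa [en] using h0 (c.support.equivFin ⟨j, hj⟩)
  let : Algebra (K ⊗[k] F₀) F := ι.toRingHom.toAlgebra
  have : FaithfulSMul (K ⊗[k] F₀) F := (faithfulSMul_iff_algebraMap_injective _ _).mpr hinj
  -- The quotients of its image form `F`, so `F` is its fraction field.
  let Q : IntermediateField K F :=
    { carrier := {z | ∃ x y, y ≠ 0 ∧ z = ι x / ι y}
      mul_mem' := by
        rintro _ _ ⟨x, y, hy, rfl⟩ ⟨x', y', hy', rfl⟩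
        refine ⟨x * x', y * y', fun h => ?_, by rw [map_mul, map_mul, div_mul_div_comm]⟩
        have := congrArg ι h
        rw [map_mul, map_zero, mul_eq_zero] at this
        exact this.elim (fun h => hy (hinj (by rw [h, map_zero])))
          fun h => hy' (hinj (by rw [h, map_zero]))
      one_mem' := ⟨1, 1, fun h => one_ne_zero (α := F) (by rw [← map_one ι, h, map_zero]), by simp⟩
      add_mem' := by
        rintro _ _ ⟨x, y, hy, rfl⟩ ⟨x', y', hy', rfl⟩
        have h1 : ι y ≠ 0 := fun h => hy (hinj (by rw [h, map_zero]))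
        have h2 : ι y' ≠ 0 := fun h => hy' (hinj (by rw [h, map_zero]))
        refine ⟨x * y' + y * x', y * y', fun h => ?_, by
          rw [map_add, map_mul, map_mul, map_mul, div_add_div _ _ h1 h2]⟩
        exact mul_ne_zero h1 h2 (by rw [← map_mul, h, map_zero])
      zero_mem' := ⟨0, 1, fun h => one_ne_zero (α := F) (by rw [← map_one ι, h, map_zero]), by simp⟩
      algebraMap_mem' := fun c => ⟨c ⊗ₜ 1, 1,
        fun h => one_ne_zero (α := F) (by rw [← map_one ι, h, map_zero]), by simp [ι]⟩
      inv_mem' := by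
        rintro _ ⟨x, y, hy, rfl⟩
        rcases eq_or_ne x 0 with rfl | hx
        · exact ⟨0, y, hy, by simp⟩
        · exact ⟨y, x, hx, inv_div _ _⟩ }
  have htop : ∀ z : F, z ∈ Q := fun z => by
    have : IntermediateField.adjoin K (Set.range (algebraMap F₀ F)) ≤ Q :=
      IntermediateField.adjoin_le_iff.mpr (by
        rintro _ ⟨f, rfl⟩
        exact ⟨(1 : K) ⊗ₜ f, 1, fun h => one_ne_zero (α := F) (by rw [← map_one ι, h, map_zero]),
          by simp [ι]⟩)
    rw [IsConstExt.adjoin_eq_top (k := k)] at this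
    exact this IntermediateField.mem_top
  have : IsFractionRing (K ⊗[k] F₀) F := IsFractionRing.of_field (K ⊗[k] F₀) F fun z => by
    obtain ⟨x, y, -, h⟩ := htop z
    exact ⟨x, y, h⟩
  -- So `σ ⊗ id` extends to `F`.
  let τ : K ⊗[k] F₀ ≃+* K ⊗[k] F₀ :=
    (Algebra.TensorProduct.congr σ (AlgEquiv.refl : F₀ ≃ₐ[k] F₀)).toRingEquiv
  let φ : F ≃+* F := IsFractionRing.ringEquivOfRingEquiv τ
  have hφ : ∀ x, φ (ι x) = ι (τ x) := fun x => IsFractionRing.ringEquivOfRingEquiv_algebraMap τ x
  have hK : ∀ c : K, φ (algebraMap K F c) = algebraMap K F (σ c) := fun c => by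
    have := hφ (c ⊗ₜ 1)
    simpa [ι, τ] using this
  refine ⟨⟨(φ, σ.toRingEquiv), hK⟩, fun _ => rfl, fun f => ?_⟩
  have := hφ ((1 : K) ⊗ₜ f)
  simp [ι, τ] at this
  exact this

variable [IsAlgClosed k] [IsAlgClosed K] [IsFunctionField k F₀] [IsFunctionField K F]

variable (k K F₀ F) in
/-- Extension of degree-zero divisors. -/
def extDegZero : Divisor.degZero (K := k) (F := F₀) →+ Divisor.degZero (K := K) (F := F) :=
  ((extDiv K F).domRestrict _).codRestrict _ fun D => by
    rw [Divisor.mem_degZero]
    change Divisor.degree (extDiv K F (D : Divisor k F₀)) = 0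
    rw [degree_extDiv]
    exact D.2

variable (k K F₀ F) in
/-- The map `Pic⁰(F₀) → Pic⁰(F)`. -/
def pic0Ext : Pic0 k F₀ →+ Pic0 K F :=
  QuotientAddGroup.map _ _ (extDegZero k K F₀ F) (by
    rintro ⟨D, hD0⟩ hD
    simp only [AddSubgroup.mem_addSubgroupOf, AddSubgroup.mem_comap] at hD ⊢
    obtain ⟨f, hf, hD⟩ := hD
    have e : D = divOf k f := Finsupp.ext fun v => by rw [hD, divOf_apply]
    refine ⟨algebraMap F₀ F f, by simpa using hf, fun w => ?_⟩
    change extDiv K F D w = _
    rw [e, extDiv_divOf, divOf_apply])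

/-- The extension of the class of a divisor. -/
theorem pic0Ext_mk (D : Divisor.degZero (K := k) (F := F₀)) :
    pic0Ext k K F₀ F (Pic0.mk D) = Pic0.mk (extDegZero k K F₀ F D) := rfl

/-- A divisor of degree zero has a twist by a given place with a one-dimensional space of
sections. -/
private theorem exists_ell_add_single_eq_one {D : Divisor K F} (hD : Divisor.degree D = 0)
    (O : Place K F) : ∃ r : ℕ, ell (D + Finsupp.single O (r : ℤ)) = 1 := by
  classical
  have hdeg : ∀ r : ℕ, Divisor.degree (D + Finsupp.single O (r : ℤ)) = r := fun r => by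
    rw [map_add, Divisor.degree_single, deg_eq_one, hD]; simp
  have hex : ∃ r : ℕ, ell (D + Finsupp.single O (r : ℤ)) ≠ 0 := ⟨genusFF K F, fun h => by
    have := riemann_inequality (D + Finsupp.single O (genusFF K F : ℤ))
    rw [hdeg, h] at this
    omega⟩
  set r := Nat.find hex
  have hr : ell (D + Finsupp.single O (r : ℤ)) ≠ 0 := Nat.find_spec hex
  refine ⟨r, ?_⟩
  rcases Nat.eq_zero_or_pos r with h0 | hpos
  · obtain ⟨f', hf', he⟩ := ell_eq_one_of_degree_zero (by rw [hdeg, h0]; rfl) hr
    rw [he, ← zero_add (divOf K f'), ell_add_divOf _ hf', ell_zero]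
  · have hm := Nat.find_min hex (m := r - 1) (by omega)
    rw [ne_eq, not_not] at hm
    have h1 := ell_add_le (D + Finsupp.single O ((r - 1 : ℕ) : ℤ))
      (E := Finsupp.single O (1 : ℤ)) (by simp)
    rw [add_assoc, ← Finsupp.single_add, hm, Divisor.degree_single, deg_eq_one,
      show (((r - 1 : ℕ) : ℤ) + 1) = (r : ℤ) by omega] at h1
    omega

/-- An effective divisor with a one-dimensional space of sections is the only effective divisor
in its class. -/
private theorem eq_of_ell_eq_one {E E' : Divisor K F} (hell : ell E = 1) (hE : 0 ≤ E)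
    (hE' : 0 ≤ E') {h : F} (hh : h ≠ 0) (he : E' = E + divOf K h) : E' = E := by
  have hmem : h ∈ riemannRochSpace E := (nonneg_add_divOf_iff hh).mp (he ▸ hE')
  have h1mem : (1 : F) ∈ riemannRochSpace E :=
    (nonneg_add_divOf_iff one_ne_zero).mp (Finsupp.le_def.mpr fun v => by
      simpa using Finsupp.le_def.mp hE v)
  obtain ⟨c, hc⟩ := exists_smul_eq_of_finrank_eq_one (K := K) hell
    (x := ⟨1, h1mem⟩) (fun h' => one_ne_zero (congrArg Subtype.val h')) ⟨h, hmem⟩
  have hc' : algebraMap K F c = h := by
    have := congrArg Subtype.val hc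
    simpa [Algebra.smul_def] using this
  rw [he]
  ext v
  simp [← hc', ord_algebraMap]

/-- An automorphism fixing a degree-zero class and the twisting place fixes the effective
representative of the twisted class. -/
private theorem smul_eq_self_of_pic0_smul_eq {D : Divisor.degZero (K := K) (F := F)}
    {O : Place K F} {r : ℤ} {f : F} (hf0 : f ≠ 0)
    (hE : 0 ≤ (D : Divisor K F) + Finsupp.single O r + divOf K f)
    (hell : ell ((D : Divisor K F) + Finsupp.single O r + divOf K f) = 1)
    {γ : SemilinearAut K F} (hO : γ • O = O) (hD : γ • Pic0.mk D = Pic0.mk D) :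
    γ • ((D : Divisor K F) + Finsupp.single O r + divOf K f) =
      (D : Divisor K F) + Finsupp.single O r + divOf K f := by
  rw [SemilinearAut.pic0_smul_mk, Pic0.mk, Pic0.mk, QuotientAddGroup.eq] at hD
  obtain ⟨p, hp0, hp⟩ := hD
  have hγD : γ • (D : Divisor K F) = D - divOf K p := Finsupp.ext fun v => by
    have := hp v
    simp at this
    rw [Finsupp.sub_apply, divOf_apply, SemilinearAut.divisor_smul_apply]
    omega
  refine eq_of_ell_eq_one hell hE (Finsupp.le_def.mpr fun w => by
    rw [SemilinearAut.divisor_smul_apply]; simpa using Finsupp.le_def.mp hE _)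
    (h := γ • f * (p⁻¹ * f⁻¹)) ?_ ?_
  · exact mul_ne_zero (by simpa using hf0) (mul_ne_zero (inv_ne_zero hp0) (inv_ne_zero hf0))
  · rw [smul_add, smul_add, SemilinearAut.smul_single, hO, ← divOf_smul, hγD,
      divOf_mul (by simpa using hf0) (mul_ne_zero (inv_ne_zero hp0) (inv_ne_zero hf0)),
      divOf_mul (inv_ne_zero hp0) (inv_ne_zero hf0), divOf_inv, divOf_inv]
    abel

/-- The effective representative of a twisted class has a finite orbit under the automorphisms
fixing the twisting place and a multiple of the class. -/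
private theorem finite_range_smul (n : ℕ) [Finite (Pic0.torsion K F n)]
    {D : Divisor.degZero (K := K) (F := F)} {O : Place K F} {r : ℤ} {f : F} (hf0 : f ≠ 0)
    (hE : 0 ≤ (D : Divisor K F) + Finsupp.single O r + divOf K f)
    (hell : ell ((D : Divisor K F) + Finsupp.single O r + divOf K f) = 1) :
    (Set.range fun g : {g : SemilinearAut K F //
        g • O = O ∧ n • (g • Pic0.mk D) = n • Pic0.mk D} =>
      g.1 • ((D : Divisor K F) + Finsupp.single O r + divOf K f)).Finite := by
  set G := {g : SemilinearAut K F // g • O = O ∧ n • (g • Pic0.mk D) = n • Pic0.mk D}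
  let T : G → Pic0.torsion K F n := fun g => ⟨g.1 • Pic0.mk D - Pic0.mk D, by
    rw [Pic0.mem_torsion, natCast_zsmul, nsmul_sub, g.2.2, sub_self]⟩
  have hfac : Function.FactorsThrough
      (fun g : G => g.1 • ((D : Divisor K F) + Finsupp.single O r + divOf K f)) T := by
    intro g g' h
    have h1 := smul_eq_self_of_pic0_smul_eq hf0 hE hell (γ := g'.1⁻¹ * g.1)
      (by rw [mul_smul, g.2.1, inv_smul_eq_iff, g'.2.1])
      (by rw [mul_smul, show g.1 • Pic0.mk D = g'.1 • Pic0.mk D from
        sub_left_injective (congrArg Subtype.val h), inv_smul_smul])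
    rwa [mul_smul, inv_smul_eq_iff] at h1
  refine (Set.finite_range (Function.extend T
    (fun g => g.1 • ((D : Divisor K F) + Finsupp.single O r + divOf K f)) 0)).subset ?_
  rintro _ ⟨g, rfl⟩
  exact ⟨T g, hfac.extend_apply _ g⟩

/-- An automorphism fixing `F₀` fixes every extended place. -/
private theorem smul_ext {g : SemilinearAut K F}
    (hg : ∀ x : F₀, g • algebraMap F₀ F x = algebraMap F₀ F x) (v : Place k F₀) :
    g • ext K F v = ext K F v := by
  obtain ⟨t, -, ht⟩ := exists_ord_eq_one v
  have h1 : (g • ext K F v).ord (algebraMap F₀ F t) = 1 := by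
    rw [← hg t, SemilinearAut.ord_smul, ord_ext, ht]
  obtain ⟨v', hv'⟩ := mem_range_ext_of_ord_ne_zero (k := k) (F₀ := F₀) (h1.trans_ne one_ne_zero)
  rw [← hv']
  by_contra hne
  obtain ⟨z, hz0, hz, hz'⟩ := exists_pos_neg (fun h : v' = v => hne (by rw [h]))
  have h2 : (g • ext K F v).ord (algebraMap F₀ F z) = v.ord z := by
    rw [← hg z, SemilinearAut.ord_smul, ord_ext]
  rw [← hv', ord_ext] at h2
  omega

/-- An automorphism fixing the extended places fixes the extended classes. -/
private theorem smul_pic0Ext {g : SemilinearAut K F}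
    (hg : ∀ v : Place k F₀, g • ext K F v = ext K F v)
    (x : Pic0 k F₀) : g • pic0Ext k K F₀ F x = pic0Ext k K F₀ F x := by
  obtain ⟨⟨D₁, hD₁⟩, rfl⟩ := Pic0.mk_surjective x
  rw [pic0Ext_mk, SemilinearAut.pic0_smul_mk]
  refine congrArg Pic0.mk (Subtype.ext ?_)
  change g • extDiv K F D₁ = extDiv K F D₁
  rw [SemilinearAut.divisor_smul_def]
  change Finsupp.mapDomain _ (Finsupp.mapDomain (ext K F) D₁) = Finsupp.mapDomain (ext K F) D₁
  rw [← Finsupp.mapDomain_comp]
  exact Finsupp.mapDomain_congr fun v _ => hg v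

/-- At a place which is no extension, a nonconstant function of `F₀` has a transcendental
value. -/
private theorem transcendental_evalAt {w : Place K F}
    (hw : w ∉ Set.range (ext K F (k := k) (F₀ := F₀))) {x : F₀} (hx : Transcendental k x) :
    Transcendental k (evalAt w (algebraMap F₀ F x)) := by
  have h0 : w.ord (algebraMap F₀ F x) = 0 :=
    not_not.mp fun h => hw (mem_range_ext_of_ord_ne_zero h)
  refine fun halg => hw ?_
  obtain ⟨c, hc'⟩ := minpoly.degree_eq_one_iff.mp
    (IsAlgClosed.degree_eq_one_of_irreducible k (minpoly.irreducible halg.isIntegral))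
  refine mem_range_ext_of_ord_ne_zero (f := x - algebraMap k F₀ c) ?_
  have hne : algebraMap F₀ F (x - algebraMap k F₀ c) ≠ 0 := fun h => hx (by
    rw [map_eq_zero, sub_eq_zero] at h; exact h ▸ isAlgebraic_algebraMap c)
  have := OrdGE.le_ord (n := 1) (v := w) (by
    rw [map_sub, IsConstExt.comm (K := K), hc']
    exact evalAt_spec (ordGE_of_ord_eq_zero h0)) hne
  omega

variable [CharZero k] [CharZero K]

/-- Extension of constants is injective on `Pic⁰`. -/
theorem pic0Ext_injective : Function.Injective (pic0Ext k K F₀ F) := by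
  rw [injective_iff_map_eq_zero]
  intro x hx
  obtain ⟨⟨D, hD0⟩, rfl⟩ := Pic0.mk_surjective x
  rw [pic0Ext_mk, Pic0.mk, QuotientAddGroup.eq_zero_iff] at hx
  obtain ⟨h, hh0, hh⟩ := hx
  rw [Pic0.mk, QuotientAddGroup.eq_zero_iff]
  have hell : ell (extDiv K F D) ≠ 0 := by
    rw [show extDiv K F D = 0 + divOf K h from Finsupp.ext fun w => by
      rw [zero_add, divOf_apply]; exact hh w, ell_add_divOf _ hh0, ell_zero]
    exact one_ne_zero
  rw [ell_extDiv] at hell
  obtain ⟨f, hf0, hf⟩ := exists_effective_of_ell_ne_zero hell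
  have := eq_zero_of_nonneg_of_degree hf (by
    rw [map_add, degree_divOf, add_zero]; exact hD0)
  refine ⟨f⁻¹, inv_ne_zero hf0, fun v => ?_⟩
  have h2 := DFunLike.congr_fun this v
  simp at h2
  change D v = _
  rw [Place.ord_inv]
  omega

omit [CharZero k] [CharZero K] in
/-- Extension of constants preserves torsion. -/
theorem map_torsion (n : ℕ) {x : Pic0 k F₀} (hx : x ∈ Pic0.torsion k F₀ n) :
    pic0Ext k K F₀ F x ∈ Pic0.torsion K F n := by
  rw [Pic0.mem_torsion] at hx ⊢
  rw [← map_zsmul, hx, map_zero]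

omit [CharZero k] in
/-- A place which is no extension has an infinite orbit under an automorphism fixing all the
extended places. -/
private theorem exists_infinite_orbit {w : Place K F}
    (hw : w ∉ Set.range (ext K F (k := k) (F₀ := F₀))) :
    ∃ g : SemilinearAut K F, (∀ v : Place k F₀, g • ext K F v = ext K F v) ∧
      (Set.range fun m : ℕ => (g ^ m) • w).Infinite := by
  obtain ⟨x, hx, -, -⟩ := IsFunctionField.exists_separating (K := k) (F := F₀)
  obtain ⟨σ, hσ⟩ := exists_algEquiv_shift (transcendental_evalAt hw hx)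
  obtain ⟨g, hgK, hgF⟩ := exists_semilinearAut (F₀ := F₀) (F := F) σ
  have hfix : ∀ (v : Place k F₀) (m : ℕ), (g ^ m) • ext K F v = ext K F v := fun v m =>
    MulAction.mem_stabilizer_iff.mp
      (pow_mem (MulAction.mem_stabilizer_iff.mpr (smul_ext hgF v)) m)
  have hval : ∀ m : ℕ, evalAt ((g ^ m) • w) (algebraMap F₀ F x) =
      evalAt w (algebraMap F₀ F x) + m := by
    intro m
    induction m with
    | zero => simp
    | succ m ih =>
      have hge : OrdGE ((g ^ m) • w) (algebraMap F₀ F x) 0 := ordGE_of_ord_eq_zero (not_not.mp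
        fun h => by
          obtain ⟨v, hv⟩ := mem_range_ext_of_ord_ne_zero (k := k) (F₀ := F₀) h
          exact hw ⟨v, MulAction.injective (g ^ m) ((hfix v m).trans hv)⟩)
      rw [pow_succ', mul_smul]
      conv_lhs => rw [← hgF x]
      rw [evalAt_smul g hge, ih, hgK, map_add σ, map_natCast σ, hσ]
      push_cast
      ring
  refine ⟨g, smul_ext hgF, Set.infinite_range_of_injective fun m m' h => ?_⟩
  have := congrArg (fun u => evalAt u (algebraMap F₀ F x)) h
  simpa [hval] using this

omit [CharZero k] in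
/-- A divisor with a finite orbit under the automorphisms fixing the extended places is supported
on extended places. -/
private theorem mem_range_ext_of_finite_orbit {E : Divisor K F}
    (horb : (Set.range fun g : {g : SemilinearAut K F //
        ∀ v : Place k F₀, g • ext K F v = ext K F v} => g.1 • E).Finite)
    {w : Place K F} (hw : w ∈ E.support) : w ∈ Set.range (ext K F (k := k) (F₀ := F₀)) := by
  by_contra hn
  obtain ⟨g, hfix, hinf⟩ := exists_infinite_orbit hn
  refine hinf ((horb.biUnion (t := fun D : Divisor K F => (D.support : Set (Place K F)))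
    (fun D _ => D.support.finite_toSet)).subset ?_)
  rintro _ ⟨m, rfl⟩
  refine Set.mem_biUnion ⟨⟨g ^ m, fun v => MulAction.mem_stabilizer_iff.mp
    (pow_mem (MulAction.mem_stabilizer_iff.mpr (hfix v)) m)⟩, rfl⟩ ?_
  rw [Finset.mem_coe, Finsupp.mem_support_iff]
  change ((g ^ m) • E) ((g ^ m) • w) ≠ 0
  rw [SemilinearAut.divisor_smul_apply_smul]
  exact Finsupp.mem_support_iff.mp hw

omit [CharZero k] in
/-- A class with a multiple defined over the algebraically closed subfield is defined over it. -/
theorem mem_range_of_nsmul_mem_range (n : ℕ) [Finite (Pic0.torsion K F n)] {x : Pic0 K F}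
    (hx : n • x ∈ (pic0Ext k K F₀ F).range) : x ∈ (pic0Ext k K F₀ F).range := by
  obtain ⟨⟨D, hD0⟩, rfl⟩ := Pic0.mk_surjective x
  obtain ⟨v₀⟩ := nonempty_place k F₀
  set O := ext K F v₀
  obtain ⟨r, hr⟩ := exists_ell_add_single_eq_one (Divisor.mem_degZero.mp hD0) O
  obtain ⟨f, hf0, hf⟩ := exists_effective_of_ell_ne_zero (by rw [hr]; exact one_ne_zero)
  set E := D + Finsupp.single O (r : ℤ) + divOf K f with hE
  -- the automorphisms fixing the extended places fix `n • x`
  have horb : (Set.range fun g : {g : SemilinearAut K F //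
      ∀ v : Place k F₀, g • ext K F v = ext K F v} => g.1 • E).Finite := by
    refine (finite_range_smul (D := ⟨D, hD0⟩) n hf0 hf
      (by rw [ell_add_divOf _ hf0, hr])).subset ?_
    rintro _ ⟨g, rfl⟩
    refine ⟨⟨g.1, g.2 v₀, ?_⟩, rfl⟩
    obtain ⟨x₁, hx₁⟩ := hx
    have h1 := smul_pic0Ext g.2 x₁
    rw [hx₁] at h1
    rw [← h1]
    exact (map_nsmul (DistribSMul.toAddMonoidHom (Pic0 K F) g.1) n (Pic0.mk ⟨D, hD0⟩)).symm
  let E₀ : Divisor k F₀ := Finsupp.comapDomain (ext K F) E ext_injective.injOn
  have hE₀ : extDiv K F E₀ = E := Finsupp.mapDomain_comapDomain _ ext_injective _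
    fun w hw => mem_range_ext_of_finite_orbit horb hw
  have hd0 : Divisor.degree (E₀ - Finsupp.single v₀ (r : ℤ)) = 0 := by
    rw [map_sub, ← degree_extDiv (K := K) (F := F) E₀, hE₀, hE, map_add, map_add, degree_divOf,
      Divisor.mem_degZero.mp hD0, Divisor.degree_single, Divisor.degree_single, deg_eq_one,
      deg_eq_one]
    simp
  refine ⟨Pic0.mk ⟨E₀ - Finsupp.single v₀ (r : ℤ), hd0⟩, ?_⟩
  rw [pic0Ext_mk, Pic0.mk, Pic0.mk, QuotientAddGroup.eq]
  refine ⟨f⁻¹, inv_ne_zero hf0, fun w => ?_⟩
  change (-(extDiv K F (E₀ - Finsupp.single v₀ (r : ℤ))) + D : Divisor K F) w = _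
  have hs : extDiv K F (Finsupp.single v₀ (r : ℤ)) = Finsupp.single O (r : ℤ) :=
    Finsupp.mapDomain_single
  rw [map_sub, hE₀, hs, hE]
  simp [Place.ord_inv]
  omega

omit [CharZero k] in
/-- When the `n`-torsion upstairs is finite, all of it is defined over the algebraically closed
subfield. -/
theorem torsion_le_range (n : ℕ) [Finite (Pic0.torsion K F n)] {x : Pic0 K F}
    (hx : x ∈ Pic0.torsion K F n) : x ∈ (pic0Ext k K F₀ F).range := by
  refine mem_range_of_nsmul_mem_range n ?_
  rw [← natCast_zsmul, Pic0.mem_torsion.mp hx]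
  exact zero_mem _

/-- Torsion is unchanged by an extension of algebraically closed constant fields. -/
theorem natCard_torsion_eq (n : ℕ) [Finite (Pic0.torsion K F n)] :
    Nat.card (Pic0.torsion k F₀ n) = Nat.card (Pic0.torsion K F n) := by
  refine Nat.card_eq_of_bijective
    (fun x : Pic0.torsion k F₀ n =>
      (⟨pic0Ext k K F₀ F x, map_torsion n x.2⟩ : Pic0.torsion K F n))
    ⟨fun x y h => Subtype.ext (pic0Ext_injective (congrArg Subtype.val h)), fun y => ?_⟩
  obtain ⟨x, hx⟩ := torsion_le_range (k := k) (F₀ := F₀) n y.2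
  refine ⟨⟨x, ?_⟩, Subtype.ext hx⟩
  have hy := Pic0.mem_torsion.mp y.2
  rw [← hx, ← map_zsmul, map_eq_zero_iff _ pic0Ext_injective] at hy
  exact Pic0.mem_torsion.mpr hy

end ConstExt

end Fermat.JAC

end
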