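import Fermat.Agent.JAC.ConstExt
import Fermat.Agent.FF.Genus

/-!
# Extensions of the constant field: places and divisors

The extension of a place is `ext`, and `ell_extDiv` preserves the dimensions of the spaces `L(D)`.
-/

set_option autoImplicit false

noncomputable section

open AlgebraicCurve IntermediateField

namespace Fermat.JAC

open Fermat.FF

namespace ConstExt

variable {k K F₀ F : Type*} [Field k] [Field K] [Field F₀] [Field F] [Algebra k K]
  [Algebra k F₀] [Algebra K F] [Algebra F₀ F] [IsConstExt k K F₀ F]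
  [IsAlgClosed K] [IsFunctionField K F]

/-- Some place lies above each place. -/
theorem exists_above (v : Place k F₀) :
    ∃ w : Place K F, (∀ f, OrdGE v f 0 → OrdGE w (algebraMap F₀ F f) 0) ∧
      ∀ t, v.ord t = 1 → 1 ≤ w.ord (algebraMap F₀ F t) := by
  classical
  obtain ⟨t, ht0, ht⟩ := exists_ord_eq_one v
  let S₀ : Set F₀ := {f | OrdGE v f 0}
  let S₁ : Submodule k F₀ :=
    { carrier := {f | OrdGE v f 1}
      zero_mem' := ordGE_zero _ _
      add_mem' := fun ha hb => ha.add hb
      smul_mem' := fun c _ hf => hf.smul c }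
  -- the ring generated by functions regular at `v`
  let R : Subalgebra K F := Algebra.adjoin K (algebraMap F₀ F '' S₀)
  have htS : t ∈ S₀ := (ordGE_iff_of_ne ht0).mpr (by omega)
  let r₀ : R := ⟨algebraMap F₀ F t, Algebra.subset_adjoin ⟨t, htS, rfl⟩⟩
  have hR : ∀ r ∈ R, r ∈ Submodule.span K (algebraMap F₀ F '' S₀) := by
    intro r hr
    rw [← Subalgebra.mem_toSubmodule, Algebra.adjoin_eq_span] at hr
    refine Submodule.span_mono (fun w hw => ?_) hr
    refine Submonoid.closure_induction (fun x hx => hx) ⟨1, ordGE_one v, map_one _⟩ ?_ hw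
    rintro _ _ _ _ ⟨a, ha, rfl⟩ ⟨b, hb, rfl⟩
    exact ⟨a * b, (by simpa using OrdGE.mul ha hb : OrdGE v (a * b) 0), map_mul _ _ _⟩
  -- `t` is not a unit in it
  have hI : Ideal.span {r₀} ≠ ⊤ := by
    intro h
    obtain ⟨r, hr⟩ := Ideal.mem_span_singleton'.mp ((Ideal.eq_top_iff_one _).mp h)
    have hr' : (r : F) * algebraMap F₀ F t = 1 := congrArg Subtype.val hr
    have hmem : algebraMap F₀ F 1 ∈ Submodule.span K (algebraMap F₀ F '' (S₁ : Set F₀)) := by
      rw [map_one, ← hr']
      generalize hrF : (r : F) = z
      have hz := hR z (hrF ▸ r.2)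
      clear hr' hrF
      induction hz using Submodule.span_induction with
      | mem x hx =>
        obtain ⟨a, ha, rfl⟩ := hx
        refine Submodule.subset_span ⟨a * t, ?_, map_mul _ _ _⟩
        exact (OrdGE.mul ha (ordGE_ord v t)).mono (by omega)
      | zero => simp
      | add x y _ _ hx hy => rw [add_mul]; exact add_mem hx hy
      | smul a x _ hx => rw [smul_mul_assoc]; exact Submodule.smul_mem _ _ hx
    have h1 := mem_span_of_mem (k := k) hmem
    rw [Submodule.span_eq] at h1
    have h2 := (show OrdGE v (1 : F₀) 1 from h1).le_ord one_ne_zero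
    rw [Place.ord_one] at h2
    omega
  have hr₀ : r₀ ≠ 0 := fun h =>
    ht0 ((map_eq_zero (algebraMap F₀ F)).mp (congrArg Subtype.val h))
  -- so some place is centred at it
  obtain ⟨w, hw0, hw1⟩ := exists_place_center R (Ideal.span {r₀}) hI
    (Ideal.mem_span_singleton_self r₀) hr₀
  refine ⟨w, fun f hf => hw0 ⟨_, Algebra.subset_adjoin ⟨f, hf, rfl⟩⟩, fun s hs => ?_⟩
  have hs0 : s ≠ 0 := fun h => by simp [h] at hs
  have hu : OrdGE v (s / t) 0 := (ordGE_iff_of_ne (div_ne_zero hs0 ht0)).mpr
    (by rw [ord_div v hs0 ht0]; omega)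
  have h := (hw0 ⟨_, Algebra.subset_adjoin ⟨s / t, hu, rfl⟩⟩).mul
    (hw1 r₀ (Ideal.mem_span_singleton_self r₀))
  rw [← map_mul, div_mul_cancel₀ _ ht0] at h
  have := h.le_ord (fun h0 => hs0 ((map_eq_zero _).mp h0))
  omega

variable (K F) in
/-- The extension of a place. -/
def ext (v : Place k F₀) : Place K F := (exists_above v).choose

/-- Functions regular at a place are regular at its extension. -/
theorem ordGE_ext_zero {v : Place k F₀} {f : F₀} (h : OrdGE v f 0) :
    OrdGE (ext K F v) (algebraMap F₀ F f) 0 := (exists_above v).choose_spec.1 f h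

/-- A uniformiser vanishes at the extension. -/
theorem one_le_ord_ext {v : Place k F₀} {t : F₀} (h : v.ord t = 1) :
    1 ≤ (ext K F v).ord (algebraMap F₀ F t) := (exists_above v).choose_spec.2 t h

/-- Units at a place are units at its extension. -/
theorem ord_ext_unit {v : Place k F₀} {f : F₀} (hf : f ≠ 0) (h : v.ord f = 0) :
    (ext K F v).ord (algebraMap F₀ F f) = 0 := by
  have h1 := (ordGE_ext_zero (K := K) (F := F) (v := v) ((ordGE_iff_of_ne hf).mpr h.ge)).le_ord
    (by simpa using hf)
  have h2 := (ordGE_ext_zero (K := K) (F := F) (v := v) (f := f⁻¹)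
    ((ordGE_iff_of_ne (inv_ne_zero hf)).mpr (by rw [v.ord_inv]; omega))).le_ord
    (by simpa using hf)
  rw [map_inv₀, Place.ord_inv] at h2
  omega

/-- Orders at an extension are multiples of the order of a uniformiser there. -/
theorem ord_ext_eq_mul {v : Place k F₀} {t : F₀} (ht : v.ord t = 1) (f : F₀) :
    (ext K F v).ord (algebraMap F₀ F f) = v.ord f * (ext K F v).ord (algebraMap F₀ F t) := by
  rcases eq_or_ne f 0 with rfl | hf
  · simp
  have ht0 : t ≠ 0 := fun h => by simp [h] at ht
  have htn : t ^ v.ord f ≠ 0 := zpow_ne_zero _ ht0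
  have h0 : v.ord (f / t ^ v.ord f) = 0 := by rw [ord_div v hf htn, v.ord_zpow, ht]; ring
  have h := ord_ext_unit (K := K) (F := F) (div_ne_zero hf htn) h0
  rw [map_div₀, map_zpow₀, ord_div _ (by simpa using hf) (zpow_ne_zero _ (by simpa using ht0)),
    Place.ord_zpow] at h
  omega

/-- Different places have different extensions. -/
theorem ext_injective : Function.Injective (ext K F : Place k F₀ → Place K F) := by
  intro v v' h
  by_contra hne
  obtain ⟨z, hz0, hzv, hzv'⟩ := exists_pos_neg hne
  obtain ⟨t, -, ht⟩ := exists_ord_eq_one v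
  obtain ⟨t', -, ht'⟩ := exists_ord_eq_one v'
  have h1 := ord_ext_eq_mul (K := K) (F := F) ht z
  have h2 := ord_ext_eq_mul (K := K) (F := F) ht' z
  rw [h] at h1
  have e1 := one_le_ord_ext (K := K) (F := F) ht
  have e2 := one_le_ord_ext (K := K) (F := F) ht'
  rw [h] at e1
  nlinarith

variable [IsAlgClosed k] [IsFunctionField k F₀]

/-- The zeros of a function of `F₀` in `F` are the extensions of its zeros, with the same orders. -/
theorem zeros_eq {y : F₀} (hy : Transcendental k y) :
    (∀ v : Place k F₀, 0 < v.ord y → (ext K F v).ord (algebraMap F₀ F y) = v.ord y) ∧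
      ∀ w : Place K F, 0 < w.ord (algebraMap F₀ F y) →
        w ∈ Set.range (ext K F (k := k) (F₀ := F₀)) := by
  classical
  have hy' := transcendental k K F hy
  have := finiteDimensional_adjoin hy
  obtain ⟨-, hle⟩ := finiteDimensional_and_finrank_le (k := k) (K := K) (F := F) y
  set Z := (finite_setOf_ord_pos hy).toFinset
  set W := (finite_setOf_ord_pos hy').toFinset
  -- Both sums of zero orders equal the degree of `y`, which cannot grow upstairs.
  have hsum0 : ∑ v ∈ Z, v.ord y = Module.finrank k⟮y⟯ F₀ := sum_zeros_eq hy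
  have hsum : ∑ w ∈ W, w.ord (algebraMap F₀ F y) = Module.finrank K⟮algebraMap F₀ F y⟯ F :=
    sum_zeros_eq hy'
  -- Orders do not decrease on extension, so equality holds and there are no other zeros.
  have hge : ∀ v ∈ Z, v.ord y ≤ (ext K F v).ord (algebraMap F₀ F y) := fun v hv => by
    simp only [Z, Set.Finite.mem_toFinset, Set.mem_ofPred_eq] at hv
    obtain ⟨t, -, ht⟩ := exists_ord_eq_one v
    have e := one_le_ord_ext (K := K) (F := F) ht
    rw [ord_ext_eq_mul ht y]
    nlinarith
  have hsub : Z.image (ext K F) ⊆ W := fun w hw => by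
    obtain ⟨v, hv, rfl⟩ := Finset.mem_image.mp hw
    have := hge v hv
    simp only [Z, W, Set.Finite.mem_toFinset, Set.mem_ofPred_eq] at hv ⊢
    omega
  have himg : ∑ w ∈ Z.image (ext K F), w.ord (algebraMap F₀ F y)
      = ∑ v ∈ Z, (ext K F v).ord (algebraMap F₀ F y) :=
    Finset.sum_image fun a _ b _ h => ext_injective h
  have hsd := Finset.sum_sdiff (f := fun w => w.ord (algebraMap F₀ F y)) hsub
  have hsum_ge := Finset.sum_le_sum hge
  have hpos : ∀ w ∈ W \ Z.image (ext K F), 0 < w.ord (algebraMap F₀ F y) := fun w hw => by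
    have := (Finset.mem_sdiff.mp hw).1
    simpa [W] using this
  have hrest0 : 0 ≤ ∑ w ∈ W \ Z.image (ext K F), w.ord (algebraMap F₀ F y) :=
    Finset.sum_nonneg fun w hw => (hpos w hw).le
  refine ⟨fun v hv => ?_, fun w hw => ?_⟩
  · have heq : ∑ u ∈ Z, u.ord y = ∑ u ∈ Z, (ext K F u).ord (algebraMap F₀ F y) := by omega
    exact ((Finset.sum_eq_sum_iff_of_le hge).mp heq v (by simpa [Z] using hv)).symm
  · by_contra hn
    have hwm : w ∈ W \ Z.image (ext K F) := Finset.mem_sdiff.mpr
      ⟨by simpa [W] using hw, fun h => hn (by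
        obtain ⟨v, -, rfl⟩ := Finset.mem_image.mp h; exact ⟨v, rfl⟩)⟩
    have := Finset.single_le_sum (fun u hu => (hpos u hu).le) hwm
    omega

/-- Extensions of places are unramified. -/
@[simp] theorem ord_ext (v : Place k F₀) (f : F₀) :
    (ext K F v).ord (algebraMap F₀ F f) = v.ord f := by
  obtain ⟨t, -, ht⟩ := exists_ord_eq_one v
  have hty : Transcendental k t := transcendental_of_ord_ne_zero (v := v) (by omega)
  rw [ord_ext_eq_mul ht f, (zeros_eq hty).1 v (by omega), ht, mul_one]

/-- Vanishing orders may be read at the extension. -/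
theorem ordGE_ext_iff {v : Place k F₀} {f : F₀} {n : ℤ} :
    OrdGE (ext K F v) (algebraMap F₀ F f) n ↔ OrdGE v f n := by
  simp [ordGE_iff]

/-- A place where some function of `F₀` is not a unit is an extension. -/
theorem mem_range_ext_of_ord_ne_zero {w : Place K F} {f : F₀}
    (h : w.ord (algebraMap F₀ F f) ≠ 0) : w ∈ Set.range (ext K F (k := k) (F₀ := F₀)) := by
  have hf : f ∉ Set.range (algebraMap k F₀) := by
    rintro ⟨c, rfl⟩
    rw [IsConstExt.comm (K := K), ord_algebraMap] at h
    exact h rfl
  have hf' : f⁻¹ ∉ Set.range (algebraMap k F₀) := fun ⟨c, hc⟩ => hf ⟨c⁻¹, by simp [hc]⟩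
  rcases lt_or_gt_of_ne h with hlt | hgt
  · exact (zeros_eq (transcendental_of_not_mem hf')).2 w (by rw [map_inv₀, w.ord_inv]; omega)
  · exact (zeros_eq (transcendental_of_not_mem hf)).2 w hgt

/-- Values at an extension are the values downstairs. -/
theorem evalAt_ext {v : Place k F₀} {f : F₀} (h : OrdGE v f 0) :
    evalAt (ext K F v) (algebraMap F₀ F f) = algebraMap k K (evalAt v f) := by
  refine evalAt_eq ?_
  rw [← IsConstExt.comm (F₀ := F₀) (F := F), ← map_sub, ordGE_ext_iff]
  exact evalAt_spec h

variable (K F) in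
/-- The extension of a divisor. -/
def extDiv : Divisor k F₀ →+ Divisor K F := Finsupp.mapDomain.addMonoidHom (ext K F)

omit [IsAlgClosed k] [IsFunctionField k F₀] in
/-- The multiplicity of an extended divisor at an extended place. -/
@[simp] theorem extDiv_apply_ext (D : Divisor k F₀) (v : Place k F₀) :
    extDiv K F D (ext K F v) = D v := Finsupp.mapDomain_apply ext_injective D v

omit [IsAlgClosed k] [IsFunctionField k F₀] in
/-- An extended divisor lives on extended places. -/
theorem extDiv_apply_of_notMem (D : Divisor k F₀) {w : Place K F}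
    (hw : w ∉ Set.range (ext K F (k := k) (F₀ := F₀))) : extDiv K F D w = 0 :=
  Finsupp.mapDomain_of_notMem_range D w hw

/-- Extension of constants keeps degrees. -/
@[simp] theorem degree_extDiv (D : Divisor k F₀) :
    Divisor.degree (extDiv K F D) = Divisor.degree D := by
  rw [degree_eq_sum, degree_eq_sum]
  exact Finsupp.sum_mapDomain_index_inj ext_injective

omit [IsAlgClosed k] [IsFunctionField k F₀] in
/-- Extension keeps divisors effective. -/
theorem extDiv_nonneg {D : Divisor k F₀} (h : 0 ≤ D) : 0 ≤ extDiv K F D :=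
  Finsupp.le_def.mpr fun w => by
    by_cases hw : w ∈ Set.range (ext K F (k := k) (F₀ := F₀))
    · obtain ⟨v, rfl⟩ := hw
      simpa using Finsupp.le_def.mp h v
    · simp [extDiv_apply_of_notMem D hw]

/-- Extension of a principal divisor is principal. -/
theorem extDiv_divOf (f : F₀) : extDiv K F (divOf k f) = divOf K (algebraMap F₀ F f) := by
  ext w
  by_cases hw : w ∈ Set.range (ext K F (k := k) (F₀ := F₀))
  · obtain ⟨v, rfl⟩ := hw
    simp
  · rw [extDiv_apply_of_notMem _ hw, divOf_apply]
    by_contra h
    exact hw (mem_range_ext_of_ord_ne_zero (Ne.symm h))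

/-- Polar divisors commute with extension of constants. -/
theorem poleDiv_algebraMap (f : F₀) :
    poleDiv K (algebraMap F₀ F f) = extDiv K F (poleDiv k f) := by
  ext w
  by_cases hw : w ∈ Set.range (ext K F (k := k) (F₀ := F₀))
  · obtain ⟨v, rfl⟩ := hw
    simp
  · rw [extDiv_apply_of_notMem _ hw, poleDiv_apply]
    by_contra h
    exact hw (mem_range_ext_of_ord_ne_zero (f := f) (by omega))

/-- Sections of a divisor are sections of its extension. -/
theorem mem_extDiv_of_mem {D : Divisor k F₀} {f : F₀} (h : f ∈ riemannRochSpace D) :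
    algebraMap F₀ F f ∈ riemannRochSpace (extDiv K F D) := by
  rw [mem_riemannRochSpace] at h ⊢
  intro w
  by_cases hw : w ∈ Set.range (ext K F (k := k) (F₀ := F₀))
  · obtain ⟨v, rfl⟩ := hw
    rw [extDiv_apply_ext, ordGE_ext_iff]
    exact h v
  · rw [extDiv_apply_of_notMem _ hw, neg_zero, ordGE_iff]
    refine .inr (le_of_eq ?_)
    by_contra hne
    exact hw (mem_range_ext_of_ord_ne_zero (Ne.symm hne))

/-- Extension does not decrease the dimension of sections. -/
theorem ell_le_ell_extDiv (D : Divisor k F₀) : ell D ≤ ell (extDiv K F D) := by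
  let b := Module.finBasis k (riemannRochSpace D)
  have hli := linearIndependent (K := K) (F := F)
    (b.linearIndependent.map' (riemannRochSpace D).subtype (riemannRochSpace D).ker_subtype)
  have hli' : LinearIndependent K
      (fun i => (⟨_, mem_extDiv_of_mem (b i).2⟩ : riemannRochSpace (extDiv K F D))) :=
    LinearIndependent.of_comp (riemannRochSpace (extDiv K F D)).subtype hli
  exact (Fintype.card_fin _).symm.trans_le hli'.fintype_card_le_finrank

/-- Ramification indices are unchanged by extension of constants. -/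
theorem ramIndex_ext (x : F₀) (v : Place k F₀) :
    ramIndex (algebraMap F₀ F x) (ext K F v) = ramIndex x v := by
  unfold ramIndex
  rw [ord_ext]
  split
  · next h =>
    rw [evalAt_ext (ordGE_iff.mpr (.inr h)), ← IsConstExt.comm (F₀ := F₀) (F := F), ← map_sub,
      ord_ext]
  · rfl

variable (k K F₀ F) in
/-- The genus does not change. -/
theorem genusFF_eq [CharZero k] [CharZero K] : genusFF K F = genusFF k F₀ := by
  classical
  obtain ⟨x, hx, -, -⟩ := IsFunctionField.exists_separating (K := k) (F := F₀)
  have hx' := transcendental k K F hx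
  -- `≥`: extending a canonical divisor gives at most a canonical one, by Hurwitz
  have hge : genusFF k F₀ ≤ genusFF K F := by
    obtain ⟨R, hR, -⟩ := hurwitz_of_tame hx (separable_of_charZero hx) (tame_of_charZero hx)
    obtain ⟨R', hR', -⟩ := hurwitz_of_tame hx' (separable_of_charZero hx') (tame_of_charZero hx')
    have h₀ := isCanonical_ramDiv hx (tame_of_charZero hx) (R - (2 : ℤ) • poleDiv k x)
      fun v => by simp [hR]
    have h₁ := isCanonical_ramDiv hx' (tame_of_charZero hx')
      (R' - (2 : ℤ) • poleDiv K (algebraMap F₀ F x)) fun v => by simp [hR']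
    have hle : extDiv K F R ≤ R' := Finsupp.le_def.mpr fun w => by
      by_cases hw : w ∈ Set.range (ext K F (k := k) (F₀ := F₀))
      · obtain ⟨v, rfl⟩ := hw
        rw [extDiv_apply_ext, hR, hR', ramIndex_ext]
      · rw [extDiv_apply_of_notMem _ hw, hR']
        have := ramIndex_pos hx' w
        omega
    calc genusFF k F₀ = ell (R - (2 : ℤ) • poleDiv k x) := h₀.2.symm
      _ ≤ ell (extDiv K F (R - (2 : ℤ) • poleDiv k x)) := ell_le_ell_extDiv _
      _ ≤ ell (R' - (2 : ℤ) • poleDiv K (algebraMap F₀ F x)) := by
        refine ell_mono ?_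
        rw [map_sub, map_zsmul, ← poleDiv_algebraMap]
        exact sub_le_sub_right hle _
      _ = genusFF K F := h₁.2
  refine le_antisymm ?_ hge
  -- `≤`: compare Riemann-Roch in degree `2 g + 1`
  set m := 2 * genusFF K F + 1
  obtain ⟨v⟩ := nonempty_place k F₀
  let D : Divisor k F₀ := Finsupp.single v (m : ℤ)
  have hd : Divisor.degree D = m := by rw [Divisor.degree_single, deg_eq_one]; simp
  have h1 := ell_le_ell_extDiv (K := K) (F := F) D
  have h2 := ell_of_degree_ge (D := extDiv K F D) (by rw [degree_extDiv, hd]; simp only [m]; omega)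
  have h3 := riemann_inequality D
  rw [degree_extDiv] at h2
  omega

omit [IsAlgClosed K] [IsFunctionField K F] in
/-- A basis of a Riemann–Roch space spans its extension of scalars. -/
theorem finrank_span_image_riemannRochSpace_le (D : Divisor k F₀) :
    Module.finrank K (Submodule.span K (algebraMap F₀ F '' (riemannRochSpace D : Set F₀))) ≤
      ell D := by
  let b := Module.finBasis k (riemannRochSpace D)
  have : algebraMap F₀ F '' (riemannRochSpace D : Set F₀) ⊆
      Submodule.span K (Set.range fun i => algebraMap F₀ F (b i : F₀)) := by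
    rintro _ ⟨f, hf, rfl⟩
    have hs := congrArg Subtype.val (b.sum_repr ⟨f, hf⟩)
    simp only [Submodule.coe_sum, Submodule.coe_smul_of_tower] at hs
    rw [← hs, map_sum]
    refine Submodule.sum_mem _ fun i _ => ?_
    rw [map_smul k K]
    exact Submodule.smul_mem _ _ (Submodule.subset_span ⟨i, rfl⟩)
  have hfin : FiniteDimensional K
      (Submodule.span K (Set.range fun i => algebraMap F₀ F (b i : F₀))) :=
    FiniteDimensional.span_of_finite K (Set.finite_range _)
  refine (Submodule.finrank_mono (Submodule.span_le.mpr this)).trans ?_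
  exact (finrank_range_le_card (R := K) _).trans (by rw [Fintype.card_fin]; rfl)

variable [CharZero k] [CharZero K]

/-- In degree at least `2 g - 1` the space of an extended divisor is spanned by the original one. -/
theorem riemannRochSpace_le_span_of_degree_ge {D : Divisor k F₀}
    (h : 2 * (genusFF k F₀ : ℤ) - 1 ≤ Divisor.degree D) :
    riemannRochSpace (extDiv K F D) ≤
      Submodule.span K (algebraMap F₀ F '' (riemannRochSpace D : Set F₀)) := by
  let S := Submodule.span K (algebraMap F₀ F '' (riemannRochSpace D : Set F₀))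
  let b := Module.finBasis k (riemannRochSpace D)
  have hli := linearIndependent (K := K) (F := F)
    (b.linearIndependent.map' (riemannRochSpace D).subtype (riemannRochSpace D).ker_subtype)
  have hS : S ≤ riemannRochSpace (extDiv K F D) := Submodule.span_le.mpr (by
    rintro _ ⟨f, hf, rfl⟩; exact mem_extDiv_of_mem hf)
  have : FiniteDimensional K S := Submodule.finiteDimensional_of_le hS
  have hli' : LinearIndependent K (fun i => (⟨algebraMap F₀ F (b i : F₀),
      Submodule.subset_span ⟨_, (b i).2, rfl⟩⟩ : S)) :=
    LinearIndependent.of_comp S.subtype hli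
  have h1 := hli'.fintype_card_le_finrank
  rw [Fintype.card_fin] at h1
  have h2 := ell_of_degree_ge h
  have h3 := ell_of_degree_ge (D := extDiv K F D)
    (by rw [degree_extDiv, genusFF_eq k K F₀ F]; exact h)
  rw [degree_extDiv, genusFF_eq k K F₀ F] at h3
  refine (Submodule.eq_of_le_of_finrank_le hS ?_).ge
  have h4 : ell (extDiv K F D) ≤ ell D := by omega
  exact h4.trans h1

omit [CharZero k] [CharZero K] in
/-- The order of a combination with independent coefficients is the minimum of the orders. -/
theorem ordGE_of_ordGE_sum {n : ℕ} {c : Fin n → K} (hc : LinearIndependent k c)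
    {f : Fin n → F₀} {v : Place k F₀} {N : ℤ}
    (h : OrdGE (ext K F v) (∑ i, algebraMap K F (c i) * algebraMap F₀ F (f i)) N) (i : Fin n) :
    OrdGE v (f i) N := by
  classical
  -- A common lower bound `M < N` can be raised by one.
  have key : ∀ (j : ℕ) (M : ℤ), M + j = N → (∀ i, OrdGE v (f i) M) → ∀ i, OrdGE v (f i) N := by
    intro j
    induction j with
    | zero => intro M hM hf; simpa [← hM] using hf
    | succ j ih =>
      intro M hM hf
      refine ih (M + 1) (by push_cast at hM ⊢; omega) fun i => ?_
      -- Scaled by `t` of order `-M`, the values of the `f i` satisfy `∑ e i • c i = 0`.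
      obtain ⟨t, ht0, ht⟩ := exists_ord_eq v (-M)
      have hft : ∀ i, OrdGE v (t * f i) 0 := fun i =>
        ((ordGE_ord v t).mul (hf i)).mono (by omega)
      have hsum : OrdGE (ext K F v)
          (∑ i, algebraMap K F (c i) * algebraMap F₀ F (t * f i)) 1 := by
        have := ((ordGE_ord (ext K F v) (algebraMap F₀ F t)).mul h).mono (m := 1)
          (by rw [ord_ext, ht]; omega)
        rw [Finset.mul_sum] at this
        convert this using 2 with i
        rw [map_mul]; ring
      let e : Fin n → k := fun i => evalAt v (t * f i)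
      have hz : ∑ i, e i • c i = 0 := by
        refine eq_zero_of_ordGE_one (v := ext K F v) ?_
        have h2 : OrdGE (ext K F v) (∑ i, algebraMap K F (c i) *
            (algebraMap F₀ F (t * f i) - algebraMap K F (algebraMap k K (e i)))) 1 := by
          refine OrdGE.sum fun i _ => ?_
          rw [← IsConstExt.comm (F₀ := F₀) (F := F), ← map_sub]
          simpa using (ordGE_algebraMap (ext K F v) (c i)).mul
            (ordGE_ext_iff.mpr (evalAt_spec (hft i)))
        have := hsum.sub h2
        rw [← Finset.sum_sub_distrib] at this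
        simpa [Algebra.smul_def, mul_sub, mul_comm] using this
      -- By independence they all vanish, so every order is at least `M + 1`.
      have he : evalAt v (t * f i) = 0 := Fintype.linearIndependent_iff.mp hc e hz i
      have h1 := (evalAt_eq_zero_iff (hft i)).mp he
      have h3 := (ordGE_ord v t⁻¹).mul h1
      rw [inv_mul_cancel_left₀ ht0] at h3
      exact h3.mono (by rw [v.ord_inv, ht]; omega)
  obtain ⟨M, hM⟩ : ∃ M : ℤ, ∀ i, OrdGE v (f i) M := by
    refine ⟨-((∑ i, |v.ord (f i)|) + |N|), fun i => (ordGE_ord v (f i)).mono ?_⟩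
    have := Finset.single_le_sum (f := fun i => |v.ord (f i)|) (fun i _ => abs_nonneg _)
      (Finset.mem_univ i)
    have := neg_abs_le (v.ord (f i))
    have := abs_nonneg N
    omega
  rcases le_or_gt N M with hNM | hMN
  · exact (hM i).mono hNM
  · exact key (N - M).toNat M (by omega) hM i

omit [IsAlgClosed k] [IsAlgClosed K] [IsFunctionField k F₀] [IsFunctionField K F] [CharZero k]
  [CharZero K] in
/-- An element of a span is a combination with independent coefficients. -/
theorem exists_repr (S : Submodule k F₀) {z : F}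
    (hz : z ∈ Submodule.span K (algebraMap F₀ F '' (S : Set F₀))) :
    ∃ (n : ℕ) (c : Fin n → K) (f : Fin n → F₀), LinearIndependent k c ∧ (∀ i, f i ∈ S) ∧
      z = ∑ i, algebraMap K F (c i) * algebraMap F₀ F (f i) := by
  classical
  obtain ⟨T, g, hT, hTz⟩ := Submodule.mem_span_iff_exists_finset_subset.mp hz |> fun
    ⟨g, T, h1, _, h2⟩ => (⟨T, g, h1, h2⟩ : ∃ (T : Finset F) (g : F → K),
      (T : Set F) ⊆ algebraMap F₀ F '' (S : Set F₀) ∧ ∑ a ∈ T, g a • a = z)
  choose s hsS hsz using fun a : T => hT a.2
  let V := Submodule.span k (Set.range fun a : T => g a)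
  have : FiniteDimensional k V := FiniteDimensional.span_of_finite k (Set.finite_range _)
  let e := Module.finBasis k V
  let r : T → Fin (Module.finrank k V) → k := fun a =>
    e.repr ⟨g a, Submodule.subset_span ⟨a, rfl⟩⟩
  refine ⟨_, fun l => (e l : K), fun l => ∑ a, r a l • s a,
    e.linearIndependent.map' V.subtype V.ker_subtype,
    fun l => S.sum_mem fun a _ => S.smul_mem _ (hsS a), ?_⟩
  rw [← hTz, ← Finset.sum_attach T]
  simp only [map_sum, Finset.mul_sum]
  rw [Finset.sum_comm]
  refine Finset.sum_congr rfl fun a _ => ?_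
  have hg : g a = ∑ l, r a l • (e l : K) := by
    have h := congrArg Subtype.val (e.sum_repr ⟨g a, Submodule.subset_span ⟨a, rfl⟩⟩)
    simp only [Submodule.coe_sum, Submodule.coe_smul_of_tower] at h
    exact h.symm
  conv_lhs => rw [Algebra.smul_def, hg, map_sum, Finset.sum_mul, ← hsz a]
  refine Finset.sum_congr rfl fun l _ => ?_
  simp only [Algebra.smul_def, map_mul, IsConstExt.comm (K := K)]
  ring

/-- Riemann–Roch spaces are obtained by extension of scalars. -/
theorem riemannRochSpace_extDiv (D : Divisor k F₀) :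
    riemannRochSpace (extDiv K F D) =
      Submodule.span K (algebraMap F₀ F '' (riemannRochSpace D : Set F₀)) := by
  refine le_antisymm (fun z hz => ?_) (Submodule.span_le.mpr (by
    rintro _ ⟨f, hf, rfl⟩; exact mem_extDiv_of_mem hf))
  obtain ⟨v₀⟩ := nonempty_place k F₀
  set N : ℕ := (2 * (genusFF k F₀ : ℤ) - Divisor.degree D).toNat
  set D' := D + Finsupp.single v₀ (N : ℤ)
  have hDD' : D ≤ D' := le_add_of_nonneg_right (by simp)
  have hext : extDiv K F D ≤ extDiv K F D' := by
    rw [← sub_nonneg, ← map_sub]; exact extDiv_nonneg (sub_nonneg.mpr hDD')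
  have hdeg : 2 * (genusFF k F₀ : ℤ) - 1 ≤ Divisor.degree D' := by
    rw [map_add, Divisor.degree_single, deg_eq_one]; push_cast; omega
  obtain ⟨n, c, f, hc, -, rfl⟩ :=
    exists_repr (riemannRochSpace D')
      (riemannRochSpace_le_span_of_degree_ge hdeg (riemannRochSpace_mono hext hz))
  rw [mem_riemannRochSpace] at hz
  refine Submodule.sum_mem _ fun i _ => ?_
  rw [← Algebra.smul_def]
  refine Submodule.smul_mem _ _ (Submodule.subset_span ⟨f i, ?_, rfl⟩)
  rw [SetLike.mem_coe, mem_riemannRochSpace]
  exact fun v => ordGE_of_ordGE_sum hc (by simpa using hz (ext K F v)) i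

/-- Extension of constants keeps the dimensions of Riemann–Roch spaces. -/
theorem ell_extDiv (D : Divisor k F₀) : ell (extDiv K F D) = ell D := by
  refine le_antisymm ?_ (ell_le_ell_extDiv D)
  rw [ell, riemannRochSpace_extDiv]
  exact finrank_span_image_riemannRochSpace_le D

end ConstExt

end Fermat.JAC

end
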