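import Fermat.Agent.JAC.Value
import Fermat.Agent.JAC.Branch
import Mathlib.Analysis.Analytic.Order
import Mathlib.Analysis.Complex.Polynomial.Basic

/-!
# Plane coordinates near a place, and the analytic branch they define

The data are a `Chart`, and `exists_normalForm` is the normal form along the branch.
-/

set_option autoImplicit false

noncomputable section

open AlgebraicCurve Polynomial Metric Filter Topology
open scoped Polynomial.Bivariate

namespace Fermat.JAC

open Fermat.FF

/-- A nonsingular plane model at the place `P`, with first coordinate a uniformiser. -/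
structure Coord {F : Type*} [Field F] [Algebra ℂ F] [IsFunctionField ℂ F] (P : Place ℂ F) where
  /-- The first coordinate `t`, a uniformiser at the place. -/
  t : F
  /-- The second coordinate `y` of the plane model. -/
  y : F
  /-- The value of `y` at the place. -/
  c : ℂ
  /-- The equation of the plane model. -/
  G : ℂ[X][Y]
  /-- `t` is a uniformiser. -/
  ord_t : P.ord t = 1
  /-- `y` takes the value `c` at the place. -/
  value_y : value P y = (c : OnePoint ℂ)
  /-- `G (t, y) = 0`. -/
  eval_G : aevalAeval t y G = 0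
  /-- `G` divides every relation between `t` and `y`. -/
  dvd_of_eval : ∀ H : ℂ[X][Y], aevalAeval t y H = 0 → G ∣ H
  /-- The `y`-derivative of `G` does not vanish at `(0, c)`. -/
  deriv_ne : (Polynomial.derivative G).evalEval 0 c ≠ 0
  /-- Every function is a quotient of polynomials in `t` and `y`. -/
  exists_frac : ∀ f : F, ∃ p q : ℂ[X][Y], aevalAeval t y q ≠ 0 ∧
    f = aevalAeval t y p / aevalAeval t y q
  /-- A polynomial nonzero on the curve has a multiple equal on it to a polynomial in `t`. -/
  exists_inv : ∀ H : ℂ[X][Y], aevalAeval t y H ≠ 0 → ∃ (V : ℂ[X][Y]) (A : ℂ[X]), A ≠ 0 ∧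
    aevalAeval t y (H * V) = aevalAeval t y (C A)

variable {F : Type*} [Field F] [Algebra ℂ F] [IsFunctionField ℂ F]

omit [IsFunctionField ℂ F] in
/-- Evaluation of a monomial at two functions. -/
theorem aevalAeval_monomial (t y : F) (n : ℕ) (a : ℂ[X]) :
    aevalAeval t y (Polynomial.monomial n a) = aeval t a * y ^ n := by
  rw [← Polynomial.C_mul_X_pow_eq_monomial, map_mul, map_pow, aevalAeval_C, aevalAeval_Y]

/-- The value of a polynomial in a regular function. -/
theorem value_aeval {Q : Place ℂ F} {t : F} {z : ℂ} (ht : value Q t = (z : OnePoint ℂ))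
    (a : ℂ[X]) : value Q (aeval t a) = ((a.eval z : ℂ) : OnePoint ℂ) := by
  induction a using Polynomial.induction_on with
  | C c => simp
  | add p q hp hq => rw [map_add, eval_add]; exact value_add Q hp hq
  | monomial n c h =>
    rw [pow_succ, ← mul_assoc, map_mul, aeval_X, eval_mul, eval_X]
    exact value_mul Q h ht

/-- The value of a power of a regular function. -/
theorem value_pow {Q : Place ℂ F} {f : F} {a : ℂ} (hf : value Q f = (a : OnePoint ℂ)) (n : ℕ) :
    value Q (f ^ n) = ((a ^ n : ℂ) : OnePoint ℂ) := by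
  induction n with
  | zero => rw [pow_zero, pow_zero, ← map_one (algebraMap ℂ F), value_algebraMap]
  | succ n ih => rw [pow_succ, pow_succ]; exact value_mul Q ih hf

/-- The value of a polynomial in two regular functions. -/
theorem value_aevalAeval {Q : Place ℂ F} {t y : F} {z w : ℂ}
    (ht : value Q t = (z : OnePoint ℂ)) (hy : value Q y = (w : OnePoint ℂ)) (H : ℂ[X][Y]) :
    value Q (aevalAeval t y H) = ((H.evalEval z w : ℂ) : OnePoint ℂ) := by
  induction H using Polynomial.induction_on' with
  | add p q hp hq => rw [map_add, evalEval_add]; exact value_add Q hp hq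
  | monomial n a =>
    rw [aevalAeval_monomial, evalEval_monomial]
    exact value_mul Q (value_aeval ht a) (value_pow hy n)

/-- A polynomial not vanishing at the values gives a unit at the place. -/
theorem ne_zero_of_evalEval_ne {Q : Place ℂ F} {t y : F} {z w : ℂ}
    (ht : value Q t = (z : OnePoint ℂ)) (hy : value Q y = (w : OnePoint ℂ)) {H : ℂ[X][Y]}
    (hH : H.evalEval z w ≠ 0) : aevalAeval t y H ≠ 0 ∧ Q.ord (aevalAeval t y H) = 0 := by
  have h := value_aevalAeval ht hy H
  have h1 : OrdGE Q (aevalAeval t y H) 0 :=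
    value_ne_infty_iff.1 (by rw [h]; exact OnePoint.coe_ne_infty _)
  refine ⟨fun h0 => hH ?_, ?_⟩
  · rw [h0, ← map_zero (algebraMap ℂ F), value_algebraMap, OnePoint.coe_eq_coe] at h
    exact h.symm
  by_contra hord
  apply hH
  have hne : aevalAeval t y H ≠ 0 := fun h0 => hord (by rw [h0, Q.ord_zero])
  have := h1.le_ord hne
  rw [value_eq_zero_iff.2 (Or.inr (by omega)), OnePoint.coe_eq_coe] at h
  exact h.symm

/-- One step of the division by the local parameter on a nonsingular plane curve. -/
theorem exists_peel (G : ℂ[X][Y]) (z w : ℂ) (hG : G.evalEval z w = 0) (H : ℂ[X][Y])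
    (hH : H.evalEval z w = 0) :
    ∃ D H' : ℂ[X][Y], D.evalEval z w = (Polynomial.derivative G).evalEval z w ∧
      G ∣ H * D - C (X - C z) * H' := by
  obtain ⟨G₁, hG₁⟩ := X_sub_C_dvd_sub_C_eval (a := (C w : ℂ[X])) (p := G)
  obtain ⟨H₁, hH₁⟩ := X_sub_C_dvd_sub_C_eval (a := (C w : ℂ[X])) (p := H)
  obtain ⟨g₀, hg₀⟩ : (X - C z) ∣ G.eval (C w) := dvd_iff_isRoot.2 hG
  obtain ⟨h₀, hh₀⟩ : (X - C z) ∣ H.eval (C w) := dvd_iff_isRoot.2 hH
  refine ⟨G₁, C h₀ * G₁ - C g₀ * H₁, ?_, H₁, ?_⟩
  · have h := congrArg (fun p => (Polynomial.derivative p).evalEval z w) hG₁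
    simp only [map_sub, derivative_C, sub_zero, derivative_mul, derivative_X, one_mul,
      evalEval_add, evalEval_mul, evalEval_sub, evalEval_X] at h
    simpa [evalEval_C] using h.symm
  · have eG : G = C (G.eval (C w)) + (X - C (C w)) * G₁ := by rw [← hG₁]; ring
    have eH : H = C (H.eval (C w)) + (X - C (C w)) * H₁ := by rw [← hH₁]; ring
    rw [hg₀, C_mul] at eG
    rw [hh₀, C_mul] at eH
    linear_combination G₁ * eH - H₁ * eG

/-- A coordinate pair together with its analytic branch on a disc. -/
structure Chart (P : Place ℂ F) extends Coord P where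
  /-- The radius of the disc in `t`. -/
  ε : ℝ
  /-- The radius of the disc in `y`. -/
  δ : ℝ
  /-- The branch `y = φ t`. -/
  φ : ℂ → ℂ
  /-- `ε` is positive. -/
  ε_pos : 0 < ε
  /-- `δ` is positive. -/
  δ_pos : 0 < δ
  /-- The branch is holomorphic on the disc. -/
  φ_diff : DifferentiableOn ℂ φ (ball 0 ε)
  /-- The branch lies in the box and on the curve. -/
  φ_spec : ∀ z ∈ ball 0 ε, φ z ∈ ball c δ ∧ G.evalEval z (φ z) = 0
  /-- It contains every point of the curve in the box. -/
  φ_unique : ∀ z ∈ ball 0 ε, ∀ w ∈ ball c δ, G.evalEval z w = 0 → w = φ z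
  /-- The `y`-derivative of `G` has no zero in the box. -/
  deriv_ne_box : ∀ z ∈ ball 0 ε, ∀ w ∈ ball c δ, (Polynomial.derivative G).evalEval z w ≠ 0

/-- The first coordinate vanishes at the place. -/
theorem Coord.value_t {P : Place ℂ F} (cd : Coord P) :
    value P cd.t = ((0 : ℂ) : OnePoint ℂ) :=
  value_eq_zero_iff.2 (Or.inr (by rw [cd.ord_t]; norm_num))

/-- The values of the coordinates satisfy the equation of the curve. -/
theorem Coord.evalEval_G {P : Place ℂ F} (cd : Coord P) {Q : Place ℂ F} {z w : ℂ}
    (ht : value Q cd.t = (z : OnePoint ℂ)) (hy : value Q cd.y = (w : OnePoint ℂ)) :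
    cd.G.evalEval z w = 0 := by
  have h := value_aevalAeval ht hy cd.G
  rw [cd.eval_G, ← map_zero (algebraMap ℂ F), value_algebraMap, OnePoint.coe_eq_coe] at h
  exact h.symm

/-- Every coordinate pair has an analytic branch. -/
theorem Coord.exists_chart {P : Place ℂ F} (cd : Coord P) : Nonempty (Chart P) := by
  obtain ⟨ε, hε, δ, hδ, φ, -, h2, h3, h4, h5⟩ :=
    exists_analytic_branch cd.G cd.c (cd.evalEval_G cd.value_t cd.value_y) cd.deriv_ne
  exact ⟨{ cd with
    ε := ε, δ := δ, φ := φ, ε_pos := hε, δ_pos := hδ, φ_diff := h2,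
    φ_spec := h3, φ_unique := h4, deriv_ne_box := h5 }⟩

namespace Chart

variable {P : Place ℂ F} (ch : Chart P)

/-- A polynomial in the coordinates as a function on the parameter disc. -/
def along (H : ℂ[X][Y]) (z : ℂ) : ℂ := H.evalEval z (ch.φ z)

/-- Restriction to the branch is multiplicative. -/
theorem along_mul (H H' : ℂ[X][Y]) (z : ℂ) :
    ch.along (H * H') z = ch.along H z * ch.along H' z := evalEval_mul _ _ _ _

/-- Polynomials are holomorphic along the branch. -/
theorem differentiableOn_along (H : ℂ[X][Y]) :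
    DifferentiableOn ℂ (ch.along H) (ball 0 ch.ε) := fun _ hz =>
  (hasDerivAt_evalEval_comp H
    (ch.φ_diff.differentiableAt (isOpen_ball.mem_nhds hz)).hasDerivAt).differentiableAt
      |>.differentiableWithinAt

/-- Polynomials are analytic along the branch. -/
theorem analyticAt_along (H : ℂ[X][Y]) {z : ℂ} (hz : z ∈ ball (0 : ℂ) ch.ε) :
    AnalyticAt ℂ (ch.along H) z :=
  (ch.differentiableOn_along H).analyticAt (isOpen_ball.mem_nhds hz)

/-- Along the branch only the class modulo the equation matters. -/
theorem along_congr {H H' : ℂ[X][Y]} (h : ch.G ∣ H - H') {z : ℂ} (hz : z ∈ ball (0 : ℂ) ch.ε) :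
    ch.along H z = ch.along H' z := by
  obtain ⟨u, hu⟩ := h
  have := congrArg (fun p => p.evalEval z (ch.φ z)) hu
  simp only [evalEval_sub, evalEval_mul, (ch.φ_spec z hz).2, zero_mul, sub_eq_zero] at this
  exact this

/-- In the function field only the class modulo the equation matters. -/
theorem aevalAeval_congr {H H' : ℂ[X][Y]} (h : ch.G ∣ H - H') :
    aevalAeval ch.t ch.y H = aevalAeval ch.t ch.y H' := by
  obtain ⟨u, hu⟩ := h
  rw [← sub_eq_zero, ← map_sub, hu, map_mul, ch.eval_G, zero_mul]

/-- A polynomial nonzero in the function field has finite order along the branch. -/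
theorem analyticOrderAt_along_ne_top {H : ℂ[X][Y]} (hH : aevalAeval ch.t ch.y H ≠ 0) {z : ℂ}
    (hz : z ∈ ball (0 : ℂ) ch.ε) : analyticOrderAt (ch.along H) z ≠ ⊤ := by
  obtain ⟨V, A, hA, hHV⟩ := ch.exists_inv H hH
  intro htop
  rw [analyticOrderAt_eq_top] at htop
  have hev : ∀ᶠ x in 𝓝 z, A.eval x = 0 := by
    filter_upwards [htop, isOpen_ball.mem_nhds hz] with x hx hxb
    have := ch.along_congr (ch.dvd_of_eval (H * V - C A) (by rw [map_sub, hHV, sub_self])) hxb
    rw [ch.along_mul, hx, zero_mul, along, evalEval_C] at this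
    exact this.symm
  exact hA (eq_zero_of_infinite_isRoot A (infinite_of_mem_nhds z hev))

variable {ch}

/-- Normal form of a nonzero polynomial in the coordinates at a point of the branch. -/
theorem exists_normalForm {Q : Place ℂ F} {z : ℂ} (hz : z ∈ ball (0 : ℂ) ch.ε)
    (ht : value Q ch.t = (z : OnePoint ℂ)) (hy : value Q ch.y = (ch.φ z : OnePoint ℂ))
    (H : ℂ[X][Y]) (hH : aevalAeval ch.t ch.y H ≠ 0) :
    ∃ N D : ℂ[X][Y], N.evalEval z (ch.φ z) ≠ 0 ∧ D.evalEval z (ch.φ z) ≠ 0 ∧
      ch.G ∣ H * D - C (X - C z) ^ (analyticOrderNatAt (ch.along H) z) * N := by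
  obtain ⟨n, hn⟩ : ∃ n, analyticOrderNatAt (ch.along H) z = n := ⟨_, rfl⟩
  induction n generalizing H with
  | zero =>
    -- order zero: `H` does not vanish at the point
    refine ⟨H, 1, ?_, by simp, by rw [hn]; simp⟩
    have h := Nat.cast_analyticOrderNatAt (ch.analyticOrderAt_along_ne_top hH hz)
    rw [hn, Nat.cast_zero] at h
    exact (ch.analyticAt_along H hz).analyticOrderAt_eq_zero.1 h.symm
  | succ n ih =>
    have h0 : H.evalEval z (ch.φ z) = 0 :=
      apply_eq_zero_of_analyticOrderNatAt_ne_zero (f := ch.along H) (by rw [hn]; omega)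
    -- otherwise peel off a factor `X - z`
    obtain ⟨D, H', hD, hdvd⟩ := exists_peel ch.G z (ch.φ z) (ch.φ_spec z hz).2 H h0
    have hD0 : D.evalEval z (ch.φ z) ≠ 0 := hD ▸ ch.deriv_ne_box z hz _ (ch.φ_spec z hz).1
    have hev := ch.aevalAeval_congr hdvd
    have hH' : aevalAeval ch.t ch.y H' ≠ 0 := fun h => by
      rw [map_mul, map_mul, h, mul_zero] at hev
      exact mul_ne_zero hH (ne_zero_of_evalEval_ne ht hy hD0).1 hev
    -- which lowers the order by one
    have hord : analyticOrderNatAt (ch.along H') z = n := by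
      have hcongr : (ch.along H * ch.along D) =ᶠ[𝓝 z] (fun x => x - z) * ch.along H' := by
        filter_upwards [isOpen_ball.mem_nhds hz] with x hx
        have := ch.along_congr hdvd hx
        simp only [along_mul] at this
        simpa [along, evalEval_C] using this
      have h1 := analyticOrderAt_congr hcongr
      rw [analyticOrderAt_mul (ch.analyticAt_along H hz) (ch.analyticAt_along D hz),
        analyticOrderAt_mul (by fun_prop : AnalyticAt ℂ (fun x : ℂ => x - z) z)
          (ch.analyticAt_along H' hz),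
        (ch.analyticAt_along D hz).analyticOrderAt_eq_zero.2 hD0, add_zero,
        analyticOrderAt_id_sub_const_self,
        ← Nat.cast_analyticOrderNatAt (ch.analyticOrderAt_along_ne_top hH hz),
        ← Nat.cast_analyticOrderNatAt (ch.analyticOrderAt_along_ne_top hH' hz), hn] at h1
      norm_cast at h1
      omega
    obtain ⟨N, D', hN, hD', hdvd'⟩ := ih H' hH' hord
    rw [hord] at hdvd'
    refine ⟨N, D * D', hN, by rw [evalEval_mul]; exact mul_ne_zero hD0 hD', ?_⟩
    rw [hn]
    have := (hdvd.mul_right D').add (hdvd'.mul_left (C (X - C z)))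
    convert this using 1
    ring

end Chart

end Fermat.JAC
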