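import Fermat.Agent.JAC.Coord
import Fermat.Agent.FF.Approx
import Fermat.Agent.FF.Along
import Fermat.Agent.FF.Degree
import Fermat.Agent.FF.Constructions
import Mathlib.FieldTheory.PrimitiveElement
import Mathlib.FieldTheory.Minpoly.IsIntegrallyClosed
import Mathlib.RingTheory.Norm.Basic
import Mathlib.LinearAlgebra.Matrix.Charpoly.Minpoly
import Mathlib.RingTheory.Polynomial.UniqueFactorization
import Mathlib.RingTheory.Adjoin.PowerBasis

/-!
# Existence of nonsingular plane coordinates at every place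

The main result is `exists_chart_at`, with a fixed choice `chartOf`.
-/

set_option autoImplicit false

noncomputable section

open AlgebraicCurve Polynomial IntermediateField
open scoped Polynomial.Bivariate OnePoint

namespace Fermat.JAC

open Fermat.FF

variable {F : Type*} [Field F] [Algebra ℂ F] [IsFunctionField ℂ F]

omit [IsFunctionField ℂ F] in
/-- Evaluation at two functions as `eval₂` over evaluation at the first. -/
theorem aevalAeval_eq_eval₂ (t s : F) (p : ℂ[X][Y]) :
    aevalAeval t s p = eval₂ (aeval t : ℂ[X] →ₐ[ℂ] F).toRingHom s p := by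
  induction p using Polynomial.induction_on' with
  | add p q hp hq => rw [map_add, eval₂_add, hp, hq]
  | monomial n a => rw [aevalAeval_monomial, eval₂_monomial]; rfl

/-- A function regular wherever `t` is regular is integral over `ℂ[t]`. -/
theorem isIntegralElem_of_forall_ordGE {t f : F}
    (h : ∀ v : Place ℂ F, OrdGE v t 0 → OrdGE v f 0) :
    (aeval t : ℂ[X] →ₐ[ℂ] F).toRingHom.IsIntegralElem f := by
  rcases eq_or_ne f 0 with rfl | hf
  · exact RingHom.isIntegralElem_zero _
  let R : Subalgebra ℂ F := (aevalAeval (R := ℂ) t f⁻¹).range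
  let s : R := ⟨f⁻¹, X, by simp⟩
  have hI : Ideal.span {s} = ⊤ := by
    by_contra hI
    obtain ⟨v, hv, hv'⟩ := exists_place_center R _ hI (Ideal.mem_span_singleton_self s)
      (fun h0 => inv_ne_zero hf (congrArg Subtype.val h0))
    have h1 := (hv' s (Ideal.mem_span_singleton_self s)).le_ord (inv_ne_zero hf)
    have h2 := (h v (hv ⟨t, C X, aevalAeval_X t f⁻¹⟩)).le_ord hf
    simp only [s, Place.ord_inv] at h1
    omega
  obtain ⟨⟨b, p, hp⟩, hb⟩ := isUnit_iff_exists_inv.1 (Ideal.span_singleton_eq_top.1 hI)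
  have hb' : f⁻¹ * b = 1 := congrArg Subtype.val hb
  have hbf : b = f := by
    field_simp at hb'
    exact hb'
  change aevalAeval t f⁻¹ p = b at hp
  rw [hbf, aevalAeval_eq_eval₂] at hp
  let : Invertible f := invertibleOfNonzero hf
  let : Invertible f⁻¹ := invertibleInv
  have hrev := eval₂_reverse_mul_pow (aeval t : ℂ[X] →ₐ[ℂ] F).toRingHom f⁻¹ p
  rw [hp, invOf_eq_inv, inv_inv] at hrev
  refine ⟨X ^ (p.natDegree + 1) - p.reverse, monic_X_pow_sub
    ((degree_le_natDegree).trans_lt ?_), ?_⟩
  · exact_mod_cast Nat.lt_succ_of_le (reverse_natDegree_le p)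
  · rw [eval₂_sub, eval₂_pow, eval₂_X, sub_eq_zero, pow_succ']
    rw [inv_pow, mul_inv_eq_iff_eq_mul₀ (pow_ne_zero _ hf)] at hrev
    exact hrev.symm

/-- A function has finitely many poles. -/
theorem finite_poles (f : F) : {v : Place ℂ F | v.ord f < 0}.Finite :=
  (finite_setOf_ord_ne_zero (K := ℂ) f).subset fun _ h => ne_of_lt h

/-- A polynomial in `t` clears the finite poles of `f`, normalised at `0` where `f` is regular. -/
theorem exists_multiplier (t f : F) :
    ∃ A : ℂ[X], A ≠ 0 ∧ (∀ v : Place ℂ F, OrdGE v t 0 → OrdGE v (aeval t A * f) 0) ∧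
      ((∀ v : Place ℂ F, value v t = ((0 : ℂ) : OnePoint ℂ) → OrdGE v f 0) → A.eval 0 = 1) := by
  classical
  let S : Finset (Place ℂ F) := (finite_poles f).toFinset.filter fun v => OrdGE v t 0
  let fac : Place ℂ F → ℂ[X] := fun v =>
    if evalAt v t = 0 then X else 1 - C (evalAt v t)⁻¹ * X
  refine ⟨∏ v ∈ S, fac v ^ (-v.ord f).toNat, ?_, ?_, ?_⟩
  -- the product is nonzero
  · refine Finset.prod_ne_zero_iff.2 fun v _ => pow_ne_zero _ ?_
    simp only [fac]; split_ifs with h
    · exact X_ne_zero
    · intro h0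
      simpa using congrArg (eval 0) h0
  -- it clears the poles of `f` where `t` is finite
  · intro v hv
    have hfacreg : ∀ w, OrdGE v (aeval t (fac w)) 0 := fun w => ordGE_aeval hv _
    rw [map_prod]
    by_cases hmem : v ∈ S
    · have hz : OrdGE v (aeval t (fac v)) 1 := by
        have hval := value_aeval (value_of_ordGE hv) (fac v)
        have h0 : (fac v).eval (evalAt v t) = 0 := by
          simp only [fac]; split_ifs with h
          · simp [h]
          · simp [inv_mul_cancel₀ h]
        rw [h0, value_eq_coe_iff, map_zero, sub_zero] at hval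
        exact hval
      rw [← Finset.mul_prod_erase S _ hmem, map_pow, mul_assoc, mul_comm (∏ x ∈ _, _) f,
        ← mul_assoc]
      have hord : v.ord f < 0 := by
        simp [S] at hmem; exact hmem.1
      have hrest : OrdGE v (∏ x ∈ S.erase v, aeval t (fac x ^ (-x.ord f).toNat)) 0 := by
        refine Finset.prod_induction _ (fun x => OrdGE v x 0)
          (fun a b ha hb => by simpa using ha.mul hb) (ordGE_one v) fun x _ => ?_
        rw [map_pow]
        simpa using (hfacreg x).pow (-x.ord f).toNat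
      have h1 : OrdGE v (aeval t (fac v) ^ (-v.ord f).toNat * f) 0 :=
        ((hz.pow (-v.ord f).toNat).mul (ordGE_ord v f)).mono
          (by rw [mul_one, Int.toNat_of_nonneg (by omega)]; omega)
      simpa using h1.mul hrest
    · have hf : OrdGE v f 0 := ordGE_iff.2 (Or.inr (by
        by_contra hlt
        exact hmem (by simp [S, hv]; omega)))
      have hall : OrdGE v (∏ x ∈ S, aeval t (fac x ^ (-x.ord f).toNat)) 0 := by
        refine Finset.prod_induction _ (fun x => OrdGE v x 0)
          (fun a b ha hb => by simpa using ha.mul hb) (ordGE_one v) fun x _ => ?_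
        rw [map_pow]
        simpa using (hfacreg x).pow (-x.ord f).toNat
      simpa using hall.mul hf
  -- if `f` is regular over `t = 0` its value there is `1`
  · intro h0
    rw [eval_prod]
    refine Finset.prod_eq_one fun v hv => ?_
    simp [S] at hv
    have : evalAt v t ≠ 0 := fun he => by
      have := (h0 v (by rw [value_of_ordGE hv.2, he]))
      have hf0 : f ≠ 0 := fun hf0 => by simp [hf0] at hv
      have := this.le_ord hf0
      omega
    simp [fac, this]

/-- An element with value `1` at `P` and `0` at the other zeros of `t`. -/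
theorem exists_separating_approx {P : Place ℂ F} {t : F} (ht : P.ord t = 1) :
    ∃ y : F, value P y = ((1 : ℂ) : OnePoint ℂ) ∧
      ∀ Q : Place ℂ F, value Q t = ((0 : ℂ) : OnePoint ℂ) → Q ≠ P →
        value Q y = ((0 : ℂ) : OnePoint ℂ) := by
  classical
  have ht0 : t ≠ 0 := fun h => by simp [h] at ht
  have hS : {w : Place ℂ F | 0 < w.ord t}.Finite :=
    (finite_setOf_ord_ne_zero (K := ℂ) t).subset fun _ h => ne_of_gt h
  obtain ⟨y, hy⟩ := exists_approx hS.toFinset (fun w => if w = P then (1 : F) else 0) 1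
  refine ⟨y, ?_, fun Q hQ hne => ?_⟩
  · rw [value_eq_coe_iff, map_one]
    simpa using hy P (by simp [ht])
  · have hpos := (value_eq_zero_iff.1 hQ).resolve_left ht0
    rw [value_eq_coe_iff, map_zero]
    simpa [hne] using hy Q (by simpa using hpos)

omit [IsFunctionField ℂ F] in
/-- Some combination `y + l u`, with `u` a multiple of a primitive element `s` by a nonzero element
of `ℂ⟮t⟯`, is primitive over `ℂ⟮t⟯`. -/
theorem exists_primitive_combination {t : F} (htr : Transcendental ℂ t)
    [Finite (IntermediateField ℂ⟮t⟯ F)] (y : F) {s : F} (hs : (ℂ⟮t⟯)⟮s⟯ = ⊤) {B : ℂ[X]}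
    (hB0 : B ≠ 0) :
    ∃ l : ℂ, (ℂ⟮t⟯)⟮y + algebraMap ℂ F l * (t * (aeval t B * s))⟯ = ⊤ := by
  have ht0 : t ≠ 0 := fun h => htr ⟨X, X_ne_zero, by simp [h]⟩
  set u := t * (aeval t B * s) with hu
  obtain ⟨l, m, hlm, heq⟩ := Finite.exists_ne_map_eq_of_infinite
    fun l : ℂ => (ℂ⟮t⟯)⟮y + algebraMap ℂ F l * u⟯
  refine ⟨l, ?_⟩
  set E := (ℂ⟮t⟯)⟮y + algebraMap ℂ F l * u⟯
  have h1 : y + algebraMap ℂ F l * u ∈ E := mem_adjoin_simple_self _ _
  have h2 : y + algebraMap ℂ F m * u ∈ E :=
    heq.symm ▸ mem_adjoin_simple_self _ (y + algebraMap ℂ F m * u)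
  have hmem : ∀ a : ℂ⟮t⟯, (a : F) ∈ E := fun a => E.algebraMap_mem a
  have hdiff := E.sub_mem h1 h2
  rw [add_sub_add_left_eq_sub, ← sub_mul, ← map_sub] at hdiff
  have hne : algebraMap ℂ F (l - m) ≠ 0 := (_root_.map_ne_zero _).2 (sub_ne_zero.2 hlm)
  have hB : aeval t B ≠ 0 := fun h0 => htr ⟨B, hB0, h0⟩
  rw [eq_top_iff, ← hs]
  refine adjoin_simple_le_iff.2 ?_
  have h3 := E.mul_mem (E.inv_mem (E.mul_mem (hmem (algebraMap ℂ ℂ⟮t⟯ (l - m)))
    (hmem ⟨t * aeval t B, ℂ⟮t⟯.mul_mem (mem_adjoin_simple_self ℂ t)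
      (algebra_adjoin_le_adjoin ℂ {t} (Polynomial.aeval_mem_adjoin_singleton ℂ t))⟩))) hdiff
  have : (algebraMap ℂ F (l - m) * (t * aeval t B))⁻¹ * (algebraMap ℂ F (l - m) * u) = s := by
    rw [hu]
    field_simp
  rw [← this]
  exact h3

/-- A primitive element over `ℂ⟮t⟯`, regular where `t` is, with value `1` at `P` and `0` at the
other zeros of `t`. -/
theorem exists_separating_primitive {P : Place ℂ F} {t : F} (ht : P.ord t = 1) :
    ∃ y : F, (ℂ⟮t⟯)⟮y⟯ = ⊤ ∧ value P y = ((1 : ℂ) : OnePoint ℂ) ∧
      (∀ Q : Place ℂ F, value Q t = ((0 : ℂ) : OnePoint ℂ) → Q ≠ P →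
        value Q y = ((0 : ℂ) : OnePoint ℂ)) ∧
      ∀ v : Place ℂ F, OrdGE v t 0 → OrdGE v y 0 := by
  have htr : Transcendental ℂ t := transcendental_of_ord_ne_zero (v := P) (by omega)
  let F₀ : IntermediateField ℂ F := ℂ⟮t⟯
  have : FiniteDimensional F₀ F := finiteDimensional_adjoin htr
  have : CharZero F₀ := charZero_of_injective_algebraMap (algebraMap ℂ F₀).injective
  have : Algebra.IsSeparable F₀ F := Algebra.IsAlgebraic.isSeparable_of_perfectField
  have : Finite (IntermediateField F₀ F) :=
    Field.finite_intermediateField_of_exists_primitive_element F₀ F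
      (Field.exists_primitive_element F₀ F)
  -- an approximation with the wanted values at the zeros of `t`
  obtain ⟨y₀, hy₀P, hy₀Q⟩ := exists_separating_approx ht
  have hy₀reg : ∀ Q : Place ℂ F, value Q t = ((0 : ℂ) : OnePoint ℂ) → OrdGE Q y₀ 0 := by
    intro Q hQ
    apply value_ne_infty_iff.1
    by_cases hne : Q = P
    · subst hne; simp [hy₀P]
    · simp [hy₀Q Q hQ hne]
  -- multipliers in `t` making it and a primitive element regular where `t` is
  obtain ⟨A, -, hA, hA0⟩ := exists_multiplier t y₀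
  obtain ⟨s₀, hs₀⟩ := Field.exists_primitive_element F₀ F
  obtain ⟨B, hB0, hB, -⟩ := exists_multiplier t s₀
  -- add a multiple of `t B s₀` to make it primitive, without changing the values
  obtain ⟨l, hl⟩ := exists_primitive_combination htr (aeval t A * y₀) hs₀ hB0
  have hval : ∀ Q : Place ℂ F, value Q t = ((0 : ℂ) : OnePoint ℂ) → ∀ b : ℂ,
      value Q y₀ = (b : OnePoint ℂ) →
      value Q (aeval t A * y₀ + algebraMap ℂ F l * (t * (aeval t B * s₀))) = (b : OnePoint ℂ) :=
    fun Q hQ b hb => by
      have h1 := value_mul Q (value_aeval hQ A) hb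
      rw [hA0 hy₀reg, one_mul] at h1
      have hreg : OrdGE Q t 0 := value_ne_infty_iff.1 (by simp [hQ])
      have h2 := value_mul Q hQ (value_of_ordGE (hB Q hreg))
      rw [zero_mul] at h2
      have h3 := value_add Q h1 (value_mul Q (value_algebraMap Q l) h2)
      rwa [mul_zero, add_zero] at h3
  refine ⟨_, hl, hval P (value_eq_zero_iff.2 (Or.inr (by omega))) 1 hy₀P,
    fun Q hQ hne => hval Q hQ 0 (hy₀Q Q hQ hne), fun v hv => (hA v hv).add ?_⟩
  simpa using (ordGE_algebraMap v l).mul
    (by simpa using hv.mul (hB v hv) : OrdGE v (t * (aeval t B * s₀)) 0)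

section Fibre

variable {F₀ : IntermediateField ℂ F} [IsFunctionField ℂ F₀] [FiniteDimensional F₀ F]

omit [IsFunctionField ℂ F] [IsFunctionField ℂ F₀] in
/-- Below a place where an element of the subfield has order one there is no ramification. -/
theorem ramificationIndex_eq_one_of_ord_eq_one {P : Place ℂ F} {t₀ : F₀}
    (ht : P.ord (t₀ : F) = 1) :
    P.ramificationIndex F₀ = 1 ∧ (P.restrict F₀).ord t₀ = 1 := by
  have ht' : P.ord (algebraMap F₀ F t₀) = 1 := ht
  have he : P.ramificationIndex F₀ = 1 := by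
    have h := P.ramificationIndex_dvd_ord (F := F₀) (f := t₀)
      (fun h => by simp [h] at ht)
    rw [ht'] at h
    exact_mod_cast Int.eq_one_of_dvd_one (Int.natCast_nonneg _) h
  refine ⟨he, ?_⟩
  have h := P.ord_restrict (F := F₀) t₀
  rw [ht', he] at h
  simpa using h.symm

/-- The norm of `c - y` for `y` separating an unramified `P` from the rest of its fibre. -/
theorem exists_evalAt_norm_sub {P : Place ℂ F} (he : P.ramificationIndex F₀ = 1) {y : F}
    (hP : value P y = ((1 : ℂ) : OnePoint ℂ))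
    (hQ : ∀ w ∈ (P.restrict F₀).fiber F, w ≠ P → value w y = ((0 : ℂ) : OnePoint ℂ)) :
    ∃ m : ℕ, ∀ c : ℂ, evalAt (P.restrict F₀) (Algebra.norm F₀ (algebraMap ℂ F c - y)) =
      (c - 1) * c ^ m := by
  classical
  set v := P.restrict F₀
  refine ⟨∑ w ∈ (v.fiber F).erase P, w.ramificationIndex F₀, fun c => ?_⟩
  have hmem : P ∈ v.fiber F := Place.restrict_mem_fiber P
  have hreg : ∀ w ∈ v.fiber F, value w y ≠ ∞ := fun w hw => by
    by_cases hne : w = P
    · subst hne; simp [hP]
    · simp [hQ w hw hne]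
  rw [evalAt_norm v (fun w hw => (ordGE_algebraMap w c).sub
      (value_ne_infty_iff.1 (hreg w hw))), ← Finset.mul_prod_erase _ _ hmem, he, pow_one,
    ← Finset.prod_pow_eq_pow_sum]
  congr 1
  · exact evalAt_of_value (value_sub P (value_algebraMap P c) hP)
  · refine Finset.prod_congr rfl fun w hw => ?_
    rw [Finset.mem_erase] at hw
    rw [evalAt_of_value (value_sub w (value_algebraMap w c) (hQ w hw.2 hw.1)), sub_zero]

omit [IsFunctionField ℂ F] in
/-- At a zero of `t₀` the norm of `c - y` is the fibre over zero of the minimal polynomial. -/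
theorem evalAt_norm_sub_eq_evalEval {y : F} (hl : F₀⟮y⟯ = ⊤) {t₀ : F₀} {G : ℂ[X][Y]}
    (hG : minpoly F₀ y = G.map (aeval t₀ : ℂ[X] →ₐ[ℂ] F₀).toRingHom) {v : Place ℂ F₀}
    (hv : 0 < v.ord t₀) (c : ℂ) :
    evalAt v (Algebra.norm F₀ (algebraMap ℂ F c - y)) = G.evalEval 0 c := by
  have hadj : Algebra.adjoin F₀ {y} = ⊤ := by
    rw [← adjoin_simple_toSubalgebra_of_isAlgebraic (Algebra.IsAlgebraic.isAlgebraic y), hl,
      top_toSubalgebra]
  let pb := PowerBasis.ofAdjoinEqTop (Algebra.IsIntegral.isIntegral y) hadj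
  have hdet : Algebra.norm F₀ (algebraMap ℂ F c - y) =
      (minpoly F₀ y).eval (algebraMap ℂ F₀ c) := by
    rw [Algebra.norm_eq_matrix_det pb.basis, map_sub,
      IsScalarTower.algebraMap_apply ℂ F₀ F, AlgHom.commutes]
    have := charpoly_leftMulMatrix pb
    simp only [pb, PowerBasis.ofAdjoinEqTop_gen] at this ⊢
    rw [← this, Matrix.eval_charpoly]
    rfl
  rw [hdet, hG, show algebraMap ℂ F₀ c = (aeval t₀ : ℂ[X] →ₐ[ℂ] F₀).toRingHom (C c) from
    (aeval_C t₀ c).symm, eval_map, eval₂_at_apply]
  exact evalAt_of_value (value_aeval (Q := v) (t := t₀)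
    (value_eq_zero_iff.2 (Or.inr (by omega))) (G.eval (C c)))

end Fibre

section Generic

variable {R K L : Type*} [CommRing R] [Field K] [Field L] [Algebra R K] [IsFractionRing R K]
  [Algebra R L] [Algebra K L] [IsScalarTower R K L]

/-- An element of `K[y]` is a quotient of two values of polynomials over `R`. -/
theorem exists_frac_of_mem_adjoin [IsDomain R] {y f : L} (hf : f ∈ Algebra.adjoin K {y}) :
    ∃ p q : R[X], Polynomial.aeval y q ≠ 0 ∧
      f = Polynomial.aeval y p / Polynomial.aeval y q := by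
  have hinj : Function.Injective (algebraMap R L) := by
    rw [IsScalarTower.algebraMap_eq R K L]
    exact (algebraMap K L).injective.comp (IsFractionRing.injective R K)
  rw [Algebra.adjoin_singleton_eq_range_aeval] at hf
  obtain ⟨r, rfl⟩ := hf
  induction r using Polynomial.induction_on' with
  | add r r' hr hr' =>
    obtain ⟨p, q, hq, h⟩ := hr
    obtain ⟨p', q', hq', h'⟩ := hr'
    refine ⟨p * q' + p' * q, q * q', by rw [map_mul]; exact mul_ne_zero hq hq', ?_⟩
    simp only [map_add, map_mul] at *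
    rw [h, h', div_add_div _ _ hq hq']
    ring
  | monomial n a =>
    obtain ⟨a₁, a₂, ha₂, ha⟩ := IsFractionRing.div_surjective (A := R) a
    have ha₂' : algebraMap R L a₂ ≠ 0 := fun h0 => by
      rw [← map_zero (algebraMap R L)] at h0
      exact nonZeroDivisors.ne_zero ha₂ (hinj h0)
    refine ⟨Polynomial.monomial n a₁, C a₂, by rw [aeval_C]; exact ha₂', ?_⟩
    rw [Polynomial.aeval_monomial, aeval_C]
    change Polynomial.aeval y (Polynomial.monomial n a) = _
    rw [Polynomial.aeval_monomial, ← ha, map_div₀, ← IsScalarTower.algebraMap_apply,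
      ← IsScalarTower.algebraMap_apply]
    ring

end Generic

/-- A nonzero value at an integral element divides a nonzero constant. -/
theorem exists_mul_eq_C {R L : Type*} [CommRing R] [IsDomain R] [Field L] [Algebra R L] {y : L}
    (hint : IsIntegral R y) (H : R[X]) (hH : Polynomial.aeval y H ≠ 0) :
    ∃ (V : R[X]) (a : R), a ≠ 0 ∧
      Polynomial.aeval y (H * V) = Polynomial.aeval y (C a) := by
  have hintH : IsIntegral R (Polynomial.aeval y H) :=
    adjoin_le_integralClosure hint (Polynomial.aeval_mem_adjoin_singleton _ _)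
  obtain ⟨p, hp0, hp⟩ : ∃ p : R[X], p ≠ 0 ∧ Polynomial.aeval (Polynomial.aeval y H) p = 0 :=
    ⟨minpoly R (Polynomial.aeval y H), minpoly.ne_zero hintH, minpoly.aeval _ _⟩
  induction hn : p.natDegree using Nat.strong_induction_on generalizing p with
  | _ n ih =>
    by_cases hc : p.coeff 0 = 0
    · have hdiv := X_mul_divX_add p
      rw [hc, map_zero, add_zero] at hdiv
      have hp' : Polynomial.aeval (Polynomial.aeval y H) p.divX = 0 := by
        rw [← hdiv, map_mul, aeval_X, mul_eq_zero] at hp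
        exact hp.resolve_left hH
      have hne : p.divX ≠ 0 := fun h0 => hp0 (by rw [← hdiv, h0, mul_zero])
      refine ih _ ?_ p.divX hne hp' rfl
      have hdeg := congrArg natDegree hdiv
      rw [natDegree_mul X_ne_zero hne, natDegree_X] at hdeg
      omega
    · refine ⟨-(Polynomial.aeval H p.divX), p.coeff 0, hc, ?_⟩
      rw [map_mul, map_neg, ← Polynomial.aeval_algHom_apply, aeval_C]
      rw [← X_mul_divX_add p, map_add, map_mul, aeval_X, aeval_C] at hp
      linear_combination -hp

/-- Every place has a nonsingular plane model with a uniformiser as first coordinate. -/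
theorem exists_coord (P : Place ℂ F) : Nonempty (Coord P) := by
  classical
  obtain ⟨t, ht0, ht⟩ := exists_ord_eq_one P
  have htr : Transcendental ℂ t := transcendental_of_ord_ne_zero (v := P) (by omega)
  obtain ⟨y, hl, hvalP, hvalQ, hreg⟩ := exists_separating_primitive ht
  let F₀ : IntermediateField ℂ F := ℂ⟮t⟯
  have : FiniteDimensional F₀ F := finiteDimensional_adjoin htr
  have : IsFunctionField ℂ F₀ := isFunctionField_intermediateField F₀
  let t₀ : F₀ := ⟨t, mem_adjoin_simple_self ℂ t⟩
  -- integrality and the minimal polynomial over `ℂ[t]`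
  let algX : Algebra ℂ[X] F₀ := (aeval t₀).toRingHom.toAlgebra
  let algXF : Algebra ℂ[X] F := (aeval t).toRingHom.toAlgebra
  have hcomp : ∀ a : ℂ[X], (algebraMap ℂ[X] F₀ a : F) = aeval t a := fun a =>
    (aeval_algHom_apply F₀.val t₀ a).symm
  have : IsScalarTower ℂ[X] F₀ F := IsScalarTower.of_algebraMap_eq fun a => (hcomp a).symm
  have hinjF : Function.Injective (algebraMap ℂ[X] F) := transcendental_iff_injective.1 htr
  have : FaithfulSMul ℂ[X] F := (faithfulSMul_iff_algebraMap_injective ℂ[X] F).2 hinjF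
  have : Module.IsTorsionFree ℂ[X] F := inferInstance
  have : FaithfulSMul ℂ[X] F₀ := (faithfulSMul_iff_algebraMap_injective ℂ[X] F₀).2
    fun a b hab => hinjF (by
      change aeval t a = aeval t b
      rw [← hcomp, ← hcomp, hab])
  have : IsFractionRing ℂ[X] F₀ := IsFractionRing.of_field ℂ[X] F₀ fun z => by
    obtain ⟨r, q, hrq⟩ := (mem_adjoin_simple_iff ℂ (z : F)).1 z.2
    refine ⟨r, q, Subtype.ext ?_⟩
    simp only [IntermediateField.coe_div, hcomp]
    exact hrq
  have hint : IsIntegral ℂ[X] y := isIntegralElem_of_forall_ordGE hreg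
  set G := minpoly ℂ[X] y with hG
  have haeval : ∀ H : ℂ[X][Y], aevalAeval t y H = Polynomial.aeval y H :=
    aevalAeval_eq_eval₂ t y
  -- the fibre over zero
  obtain ⟨he, hvt⟩ := ramificationIndex_eq_one_of_ord_eq_one (F₀ := F₀) (P := P) (t₀ := t₀) ht
  have hfib : ∀ w ∈ (P.restrict F₀).fiber F, value w t = ((0 : ℂ) : OnePoint ℂ) := fun w hw => by
    rw [Place.mem_fiber] at hw
    refine value_eq_zero_iff.2 (Or.inr ?_)
    have h := w.ord_restrict (F := F₀) t₀
    rw [hw, hvt, mul_one] at h
    rw [show w.ord t = _ from h]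
    exact_mod_cast w.ramificationIndex_pos (F := F₀)
  obtain ⟨m, hm⟩ := exists_evalAt_norm_sub he hvalP fun w hw => hvalQ w (hfib w hw)
  have hG0 : G.map (evalRingHom 0) = (X - 1) * X ^ m := Polynomial.funext fun c => by
    rw [map_evalRingHom_eval, ← evalAt_norm_sub_eq_evalEval hl (v := P.restrict F₀)
      (t₀ := t₀) (minpoly.isIntegrallyClosed_eq_field_fractions' F₀ hint) (by omega) c, hm]
    simp
  refine ⟨⟨t, y, 1, G, ht, hvalP, ?_, ?_, ?_, ?_, ?_⟩⟩
  · rw [haeval]; exact minpoly.aeval _ _
  · intro H hH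
    rw [haeval] at hH
    exact minpoly.isIntegrallyClosed_dvd hint hH
  · rw [← map_evalRingHom_eval, ← derivative_map, hG0]
    simp
  · intro f
    simp only [haeval]
    refine exists_frac_of_mem_adjoin (K := F₀) ?_
    rw [← adjoin_simple_toSubalgebra_of_isAlgebraic (Algebra.IsAlgebraic.isAlgebraic y), hl]
    trivial
  · intro H hH
    simp only [haeval] at hH ⊢
    exact exists_mul_eq_C hint H hH

/-- Every place has a chart. -/
theorem exists_chart_at (P : Place ℂ F) : Nonempty (Chart P) :=
  (exists_coord P).some.exists_chart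

/-- A fixed chart at each place. -/
def chartOf (P : Place ℂ F) : Chart P := (exists_chart_at P).some

end Fermat.JAC
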