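import Fermat.Agent.JAC.PicMaps

/-!
# Degrees of the two maps of a correspondence

The main result is `finrankAlong_eq_of_common`, equality of the two degrees.
-/

set_option autoImplicit false

noncomputable section

open AlgebraicCurve

namespace Fermat.JAC

open Fermat.FF

variable {K F F' : Type*} [Field K] [Field F] [Field F'] [Algebra K F] [Algebra K F']
  [IsAlgClosed K] [IsFunctionField K F] [IsFunctionField K F']

/-- Pullback takes the divisor of zeros of `x` to that of its image. -/
theorem pullDiv_zeroDiv (φ : F →ₐ[K] F') (x : F) :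
    pullDiv φ (zeroDiv K x) = zeroDiv K (φ x) := by
  ext w
  rw [pullDiv_apply, zeroDiv_apply, zeroDiv_apply, ord_below,
    mul_max_of_nonneg _ _ (Int.natCast_nonneg _), mul_zero]

/-- The divisor of zeros of `φ x` has degree `deg φ` times that of the divisor of zeros of `x`. -/
theorem degree_zeroDiv_map (φ : F →ₐ[K] F') (x : F) :
    Divisor.degree (zeroDiv K (φ x)) = (finrankAlong K φ : ℤ) * Divisor.degree (zeroDiv K x) := by
  rw [← pullDiv_zeroDiv, degree_pullDiv]

/-- A transcendental function has zeros. -/
theorem degree_zeroDiv_pos {x : F} (hx : Transcendental K x) :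
    0 < Divisor.degree (zeroDiv K x) := by
  rw [degree_zeroDiv hx]
  have := finiteDimensional_adjoin hx
  exact_mod_cast Module.finrank_pos

/-- An automorphism moving `x` to `y` and back preserves the degree. -/
theorem degree_zeroDiv_of_invol (σ : F ≃ₐ[K] F) {x y : F} (hx : Transcendental K x) (h : σ x = y)
    (h' : σ y = x) : Divisor.degree (zeroDiv K y) = Divisor.degree (zeroDiv K x) := by
  have h1 := degree_zeroDiv_map σ.toAlgHom x
  have h2 := degree_zeroDiv_map σ.toAlgHom y
  rw [show σ.toAlgHom x = y from h] at h1
  rw [show σ.toAlgHom y = x from h'] at h2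
  have hpos := degree_zeroDiv_pos (K := K) hx
  rw [h1, ← mul_assoc] at h2
  have hf : (finrankAlong K σ.toAlgHom : ℤ) * finrankAlong K σ.toAlgHom = 1 :=
    mul_right_cancel₀ hpos.ne' (by rw [one_mul]; exact h2.symm)
  rw [h1, Int.eq_one_of_mul_eq_one_right (Int.natCast_nonneg _) hf, one_mul]

/-- If `ι x` and `ι y` are the images of a function on `F` under the two maps, and `x`, `y` have
equal degrees, then the two maps have equal degrees. -/
theorem finrankAlong_eq_of_common {F₁ : Type*} [Field F₁] [Algebra K F₁] [IsFunctionField K F₁]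
    (α β : F →ₐ[K] F') {j : F} (hj : Transcendental K j) (ι : F₁ →ₐ[K] F') {x y : F₁}
    (hα : ι x = α j) (hβ : ι y = β j)
    (hxy : Divisor.degree (zeroDiv K x) = Divisor.degree (zeroDiv K y)) :
    finrankAlong K α = finrankAlong K β := by
  have h1 := degree_zeroDiv_map α j
  have h2 := degree_zeroDiv_map β j
  rw [← hα, degree_zeroDiv_map, hxy, ← degree_zeroDiv_map, hβ, h2] at h1
  exact_mod_cast mul_right_cancel₀ (degree_zeroDiv_pos (K := K) hj).ne' h1.symm

end Fermat.JAC

end
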