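import Mathlib

/-!
# Operators given by the Hecke formula on coefficients

On a space with injective coefficient functionals `a n` (`n ≥ 1`), operators satisfying
`a n (A ℓ ω) = a (ℓ n) ω + ℓ a (n / ℓ) (D ℓ ω)` (`ℓ` prime, the last term for `ℓ ∣ n`) commute,
commute with a compatible conjugation and make `a 1` a cyclic vector of the dual space.
-/

set_option autoImplicit false

noncomputable section

namespace Fermat.JAC

/-- Operators with the Hecke effect on coefficients; `D ℓ` is the diamond operator, or zero. -/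
structure HeckeFormula (S : Type*) [AddCommGroup S] [Module ℂ S] where
  /-- The coefficient functionals `a n`. -/
  a : ℕ → S →ₗ[ℂ] ℂ
  /-- `a 0` is zero. -/
  a_zero : a 0 = 0
  /-- A vector with all coefficients zero is zero. -/
  ext_a : ∀ ω, (∀ n, a n ω = 0) → ω = 0
  /-- The Hecke operator `A ℓ` at each prime. -/
  A : Nat.Primes → Module.End ℂ S
  /-- The diamond operators, or zero. -/
  D : Nat.Primes → Module.End ℂ S
  /-- The effect of `A ℓ` on coefficients. -/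
  formula : ∀ (ℓ : Nat.Primes) (n : ℕ) (ω : S), a n (A ℓ ω) =
    a ((ℓ : ℕ) * n) ω + if (ℓ : ℕ) ∣ n then (ℓ : ℂ) * a (n / ℓ) (D ℓ ω) else 0

variable {S : Type*} [AddCommGroup S] [Module ℂ S] (h : HeckeFormula S)

/-- The coefficients determine an element. -/
theorem HeckeFormula.eq_of_a {ω η : S} (e : ∀ n, h.a n ω = h.a n η) : ω = η :=
  sub_eq_zero.mp (h.ext_a _ fun n => by rw [map_sub, e, sub_self])

/-- The Hecke operators commute if the diamond operators commute with them. -/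
theorem HeckeFormula.commute_A (hAD : ∀ ℓ ℓ' ω, h.A ℓ (h.D ℓ' ω) = h.D ℓ' (h.A ℓ ω))
    (hDD : ∀ ℓ ℓ' ω, h.D ℓ (h.D ℓ' ω) = h.D ℓ' (h.D ℓ ω)) (ℓ ℓ' : Nat.Primes) :
    h.A ℓ * h.A ℓ' = h.A ℓ' * h.A ℓ := by
  rcases eq_or_ne ℓ ℓ' with rfl | hne
  · rfl
  -- it is enough to compare coefficients
  refine LinearMap.ext fun ω => h.eq_of_a fun n => ?_
  have hco : (ℓ : ℕ).Coprime ℓ' :=
    (Nat.coprime_primes ℓ.2 ℓ'.2).mpr fun e => hne (Subtype.ext e)
  -- expand a product of two operators by the formula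
  have key : ∀ r r' : Nat.Primes, (r : ℕ).Coprime r' → h.a n (h.A r (h.A r' ω)) =
      h.a ((r : ℕ) * r' * n) ω +
      (if (r' : ℕ) ∣ n then (r' : ℂ) * h.a (r * (n / r')) (h.D r' ω) else 0) +
      (if (r : ℕ) ∣ n then (r : ℂ) * h.a (r' * (n / r)) (h.D r ω) else 0) +
      if (r : ℕ) * r' ∣ n then (r : ℂ) * r' * h.a (n / (r * r')) (h.D r' (h.D r ω)) else 0 := by
    intro r r' hrr
    rw [h.formula, h.formula, ← hAD]
    have h1 : ((r' : ℕ) ∣ (r : ℕ) * n) ↔ (r' : ℕ) ∣ n :=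
      ⟨fun hd => hrr.symm.dvd_of_dvd_mul_left hd, fun hd => hd.mul_left _⟩
    have e1 : (if (r' : ℕ) ∣ (r : ℕ) * n then
        (r' : ℂ) * h.a ((r : ℕ) * n / r') (h.D r' ω) else 0) =
        if (r' : ℕ) ∣ n then (r' : ℂ) * h.a (r * (n / r')) (h.D r' ω) else 0 := by
      by_cases hd : (r' : ℕ) ∣ n
      · rw [if_pos (h1.mpr hd), if_pos hd, Nat.mul_div_assoc _ hd]
      · rw [if_neg (fun hd' => hd (h1.mp hd')), if_neg hd]
    rw [e1]
    by_cases hd : (r : ℕ) ∣ n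
    · rw [if_pos hd, if_pos hd, h.formula]
      obtain ⟨m, hm⟩ := hd
      have h2 : ((r : ℕ) * r' ∣ n) ↔ (r' : ℕ) ∣ n / r := by
        rw [hm, Nat.mul_div_cancel_left _ r.2.pos]
        exact Nat.mul_dvd_mul_iff_left r.2.pos
      rw [show ((r' : ℕ) * ((r : ℕ) * n)) = (r : ℕ) * r' * n by ring]
      by_cases hd' : (r' : ℕ) ∣ n / r
      · rw [if_pos hd', if_pos (h2.mpr hd'), Nat.div_div_eq_div_mul]
        ring
      · rw [if_neg hd', if_neg (fun hh => hd' (h2.mp hh))]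
        ring
    · rw [if_neg hd, if_neg hd, if_neg fun hh => hd ((dvd_mul_right _ _).trans hh),
        show ((r' : ℕ) * ((r : ℕ) * n)) = (r : ℕ) * r' * n by ring]
      ring
  change h.a n (h.A ℓ (h.A ℓ' ω)) = h.a n (h.A ℓ' (h.A ℓ ω))
  -- the expansion is symmetric in the two primes
  rw [key ℓ ℓ' hco, key ℓ' ℓ hco.symm, hDD, mul_comm (ℓ : ℕ) (ℓ' : ℕ), mul_comm (ℓ : ℂ) (ℓ' : ℂ)]
  ring

/-- The Hecke operators commute with a conjugation. -/
theorem HeckeFormula.conj_A {c : S →ₛₗ[starRingEnd ℂ] S}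
    (hc : ∀ n ω, h.a n (c ω) = (starRingEnd ℂ) (h.a n ω))
    (hcD : ∀ ℓ ω, c (h.D ℓ ω) = h.D ℓ (c ω)) (ℓ : Nat.Primes) (ω : S) :
    c (h.A ℓ ω) = h.A ℓ (c ω) := h.eq_of_a fun n => by
  rw [hc, h.formula, h.formula, map_add, apply_ite (starRingEnd ℂ), map_mul, map_natCast, map_zero,
    ← hc, ← hc, hcD]

/-- A set of operators containing all `A ℓ` and `D ℓ` makes `a 1` cyclic on the dual space. -/
theorem HeckeFormula.span_cyclic [FiniteDimensional ℂ S]
    (gens : Set (Module.End ℂ (Module.Dual ℂ S)))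
    (hA : ∀ ℓ, (LinearMap.lcomp ℂ ℂ (h.A ℓ) : Module.End ℂ (Module.Dual ℂ S)) ∈
      Algebra.adjoin ℤ gens)
    (hD : ∀ ℓ, (LinearMap.lcomp ℂ ℂ (h.D ℓ) : Module.End ℂ (Module.Dual ℂ S)) ∈
      Algebra.adjoin ℤ gens) :
    Submodule.span ℂ (Set.range fun t : Algebra.adjoin ℤ gens =>
      (t : Module.End ℂ (Module.Dual ℂ S)) (h.a 1)) = ⊤ := by
  set W : Subspace ℂ (Module.Dual ℂ S) :=
        Submodule.span ℂ (Set.range fun t : Algebra.adjoin ℤ gens =>
      (t : Module.End ℂ (Module.Dual ℂ S)) (h.a 1))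
  have hco : W.dualCoannihilator = ⊥ := by
    refine (Submodule.eq_bot_iff _).mpr fun ω hω => h.ext_a ω fun n => ?_
    have h0 : ∀ t ∈ Algebra.adjoin ℤ gens,
        (t : Module.End ℂ (Module.Dual ℂ S)) (h.a 1) ω = 0 := fun t ht =>
      (Submodule.mem_dualCoannihilator ω).mp hω _ (Submodule.subset_span ⟨⟨t, ht⟩, rfl⟩)
    clear hω
    induction n using Nat.strong_induction_on generalizing ω with
    | _ n ih =>
      rcases eq_or_ne n 0 with rfl | hn0
      · rw [h.a_zero, LinearMap.zero_apply]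
      rcases eq_or_ne n 1 with rfl | hn1
      · simpa using h0 1 (one_mem _)
      obtain ⟨hp, m, hm⟩ : n.minFac.Prime ∧ n.minFac ∣ n := ⟨Nat.minFac_prime hn1, n.minFac_dvd⟩
      let ℓ : Nat.Primes := ⟨n.minFac, hp⟩
      have hm0 : m ≠ 0 := by rintro rfl; simp at hm; exact hn0 hm
      have hlt : m < n := by rw [hm]; exact lt_mul_of_one_lt_left hm0.bot_lt hp.one_lt
      have hmoveA : ∀ t ∈ Algebra.adjoin ℤ gens,
          (t : Module.End ℂ (Module.Dual ℂ S)) (h.a 1) (h.A ℓ ω) = 0 := fun t ht =>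
        h0 (LinearMap.lcomp ℂ ℂ (h.A ℓ) * t) (mul_mem (hA ℓ) ht)
      have hmoveD : ∀ t ∈ Algebra.adjoin ℤ gens,
          (t : Module.End ℂ (Module.Dual ℂ S)) (h.a 1) (h.D ℓ ω) = 0 := fun t ht =>
        h0 (LinearMap.lcomp ℂ ℂ (h.D ℓ) * t) (mul_mem (hD ℓ) ht)
      have h1 := ih m hlt (h.A ℓ ω) hmoveA
      rw [h.formula, ih (m / ℓ) ((Nat.div_le_self _ _).trans_lt hlt) (h.D ℓ ω) hmoveD, mul_zero,
        ite_self, add_zero, show ((ℓ : ℕ) * m) = n from hm.symm] at h1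
      exact h1
  have hd := Subspace.finrank_add_finrank_dualCoannihilator_eq W
  rw [hco, finrank_bot, add_zero] at hd
  exact Submodule.eq_top_of_finrank_eq (hd.trans Subspace.dual_finrank_eq.symm)

end Fermat.JAC

end
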