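import Fermat.Agent.JAC.ConstExt
import Fermat.Prelude.Def_ModularCurve_ArithmeticGalois

/-!
# Function fields of Laurent series under extension of the coefficient field

The main results are `isConstExt_lbc` and `exists_finset_fix`.
-/

set_option autoImplicit false

attribute [local instance 10000] SubalgebraClass.toAlgebra HahnSeries.powerSeriesAlgebra

noncomputable section

open ModularCurve IntermediateField

namespace Fermat.JAC

variable (L L' : Type*) [Field L] [Field L'] [Algebra ℚ L] [Algebra ℚ L'] [Algebra L L']
  (F₀ : IntermediateField ℚ (LaurentSeries ℚ))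

/-- Rational series are unchanged by extending coefficients. -/
theorem coeffMap_coeffEmb_ext (x : LaurentSeries ℚ) :
    coeffMap (algebraMap L L') (coeffEmb L x) = coeffEmb L' x := by
  rw [coeffEmb, coeffMap_coeffMap]
  exact coeffMap_congr (Subsingleton.elim _ _) x

omit [Algebra ℚ L] [Algebra ℚ L'] in
/-- Constants map to constants. -/
theorem coeffMap_algebraMap_ext (c : L) :
    coeffMap (algebraMap L L') (algebraMap L (LaurentSeries L) c) =
      algebraMap L' (LaurentSeries L') (algebraMap L L' c) := by
  rw [algebraMap_laurentSeries_eq_single, algebraMap_laurentSeries_eq_single, coeffMap_single]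

/-- Extending coefficients maps one base change into the other. -/
theorem coeffMap_mem_lbc {x : LaurentSeries L} (hx : x ∈ laurentBaseChange L F₀) :
    coeffMap (algebraMap L L') x ∈ laurentBaseChange L' F₀ := by
  induction hx using IntermediateField.adjoin_induction with
  | mem y hy =>
    obtain ⟨z, hz, rfl⟩ := hy
    rw [coeffMap_coeffEmb_ext]
    exact coeffEmb_mem_laurentBaseChange L' hz
  | algebraMap a =>
    rw [coeffMap_algebraMap_ext]
    exact IntermediateField.algebraMap_mem _ _
  | add y z _ _ h1 h2 => rw [map_add]; exact add_mem h1 h2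
  | inv y _ h1 => rw [map_inv₀]; exact inv_mem h1
  | mul y z _ _ h1 h2 => rw [map_mul]; exact mul_mem h1 h2

/-- The inclusion of function fields induced by the extension of coefficients. -/
def lbcMap : laurentBaseChange L F₀ →+* laurentBaseChange L' F₀ :=
  ((coeffMap (algebraMap L L')).comp (laurentBaseChange L F₀).val.toRingHom).codRestrict
    (laurentBaseChange L' F₀).toSubfield fun x => coeffMap_mem_lbc L L' F₀ x.2

/-- On series `lbcMap` maps the coefficients. -/
@[simp]
theorem coe_lbcMap (x : laurentBaseChange L F₀) :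
    (lbcMap L L' F₀ x : LaurentSeries L') = coeffMap (algebraMap L L') (x : LaurentSeries L) := rfl

/-- The algebra structure given by `lbcMap`. -/
@[implicit_reducible]
def lbcAlgebra : Algebra (laurentBaseChange L F₀) (laurentBaseChange L' F₀) :=
  (lbcMap L L' F₀).toAlgebra

attribute [local instance] lbcAlgebra

/-- Extending the coefficients is an extension of constants. -/
theorem isConstExt_lbc :
    IsConstExt L L' (laurentBaseChange L F₀) (laurentBaseChange L' F₀) := by
  refine ⟨fun c => Subtype.ext (coeffMap_algebraMap_ext L L' c), fun n c f hc h i => ?_, ?_⟩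
  · refine Subtype.ext ?_
    ext m
    have h1 := congrArg (fun z : laurentBaseChange L' F₀ => (z : LaurentSeries L').coeff m) h
    simp only [AddSubmonoidClass.coe_finsetSum, MulMemClass.coe_mul, HahnSeries.coeff_sum] at h1
    have h2 : ∀ j, ((algebraMap L' (laurentBaseChange L' F₀) (c j) : LaurentSeries L') *
        (algebraMap (laurentBaseChange L F₀) (laurentBaseChange L' F₀)
          (f j) : LaurentSeries L')).coeff m
        = ((f j : LaurentSeries L).coeff m) • c j := fun j => by
      change (algebraMap L' (LaurentSeries L') (c j) *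
        coeffMap (algebraMap L L') (f j : LaurentSeries L)).coeff m = _
      rw [algebraMap_laurentSeries_eq_single, HahnSeries.coeff_single_mul, sub_zero, coeffMap_coeff,
        Algebra.smul_def, mul_comm]
    rw [Finset.sum_congr rfl fun j _ => h2 j] at h1
    exact Fintype.linearIndependent_iff.mp hc _ h1 i
  · refine IntermediateField.map_injective (laurentBaseChange L' F₀).val ?_
    rw [← AlgHom.fieldRange_eq_map, fieldRange_val, adjoin_map]
    refine le_antisymm (adjoin_le_iff.mpr ?_) (adjoin_le_iff.mpr ?_)
    · rintro _ ⟨_, ⟨x, rfl⟩, rfl⟩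
      exact coeffMap_mem_lbc L L' F₀ x.2
    · rintro _ ⟨z, hz, rfl⟩
      refine subset_adjoin L' _ ⟨_, ⟨⟨coeffEmb L z, coeffEmb_mem_laurentBaseChange L hz⟩, rfl⟩, ?_⟩
      exact coeffMap_coeffEmb_ext L L' z

variable {L} in
/-- Every function is fixed by the automorphisms fixing some finite set of constants. -/
theorem exists_finset_fix (x : laurentBaseChange L F₀) :
    ∃ S : Finset L, ∀ σ : L ≃ₐ[ℚ] L, (∀ a ∈ S, σ a = a) → arithmeticGalois F₀ σ • x = x := by
  classical
  obtain ⟨x, hx⟩ := x
  suffices ∃ S : Finset L, ∀ σ : L ≃ₐ[ℚ] L, (∀ a ∈ S, σ a = a) →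
      coeffMap (σ : L →+* L) x = x by
    obtain ⟨S, hS⟩ := this
    exact ⟨S, fun σ hσ => Subtype.ext (hS σ hσ)⟩
  induction hx using IntermediateField.adjoin_induction with
  | mem y hy =>
    obtain ⟨z, -, rfl⟩ := hy
    exact ⟨∅, fun σ _ => coeffMap_coeffEmb σ z⟩
  | algebraMap a =>
    exact ⟨{a}, fun σ h => by
      rw [coeffMap_algebraMap]
      exact congrArg _ (h a (Finset.mem_singleton_self a))⟩
  | add y z _ _ h1 h2 =>
    obtain ⟨S, hS⟩ := h1
    obtain ⟨T, hT⟩ := h2
    exact ⟨S ∪ T, fun σ h => by
      rw [map_add, hS σ fun a ha => h a (Finset.mem_union_left T ha),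
        hT σ fun a ha => h a (Finset.mem_union_right S ha)]⟩
  | inv y _ h1 =>
    obtain ⟨S, hS⟩ := h1
    exact ⟨S, fun σ h => by rw [map_inv₀, hS σ h]⟩
  | mul y z _ _ h1 h2 =>
    obtain ⟨S, hS⟩ := h1
    obtain ⟨T, hT⟩ := h2
    exact ⟨S ∪ T, fun σ h => by
      rw [map_mul, hS σ fun a ha => h a (Finset.mem_union_left T ha),
        hT σ fun a ha => h a (Finset.mem_union_right S ha)]⟩

end Fermat.JAC

end
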