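import Fermat.Agent.JAC.PicTop
import Fermat.Agent.FF.Genus
import Mathlib.Analysis.Complex.HasPrimitives
import Mathlib.Analysis.Calculus.InverseFunctionTheorem.FDeriv
import Mathlib.LinearAlgebra.Matrix.NonsingularInverse

/-!
# Local logarithm near a nonspecial tuple

The data are a `LogData`, and `injOn_abel`, `isOpen_image_abel` describe the Abel map near the
tuple.
-/

set_option autoImplicit false

noncomputable section

open AlgebraicCurve Metric Filter Topology Set

namespace Fermat.JAC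

open Fermat.FF

variable {F : Type*} [Field F] [Algebra ℂ F] [IsFunctionField ℂ F]

/-- A differential without poles. -/
def IsRegularDiff (ω : Ω[F⁄ℂ]) : Prop := ∀ v : Place ℂ F, 0 ≤ v.ordDifferential ω

/-- The coefficient of a regular differential is regular along every chart. -/
theorem IsRegularDiff.ordGE_coeff {ω : Ω[F⁄ℂ]} (h : IsRegularDiff ω) {P : Place ℂ F}
    {ch : Chart P} {z : ℂ} (hz : z ∈ ball (0 : ℂ) ch.ε) :
    OrdGE (ch.param z) (ch.coeff ω) 0 :=
  ordGE_iff.2 (Or.inr (by rw [← Chart.ordDifferential_param hz]; exact h _))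

variable (F) in
/-- Nonspecial points, a basis of regular differentials, and their primitives near the points. -/
structure LogData where
  /-- The `g` points, jointly nonspecial. -/
  e : Fin (genusFF ℂ F) → Place ℂ F
  /-- The sum of the points is nonspecial: its `ℓ` is one. -/
  ell_e : ell (pts e) = 1
  /-- The `g` regular differentials. -/
  ω : Fin (genusFF ℂ F) → Ω[F⁄ℂ]
  /-- The differentials `ω i` are regular. -/
  ω_regular : ∀ i, IsRegularDiff (ω i)
  /-- Their values at the points form an invertible matrix. -/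
  det_ne : Matrix.det (Matrix.of fun i j =>
    (chartOf (e j)).fn ((chartOf (e j)).coeff (ω i)) 0) ≠ 0
  /-- A radius `r` at most that of every chart at the points. -/
  r : ℝ
  /-- `r` is positive. -/
  r_pos : 0 < r
  /-- `r` is at most the radius of each chart. -/
  r_le : ∀ j, r ≤ (chartOf (e j)).ε
  /-- The discs around the points are disjoint. -/
  disj : Pairwise fun j k => Disjoint ((chartOf (e j)).param '' ball 0 r)
    ((chartOf (e k)).param '' ball 0 r)
  /-- `prim j i` is a primitive of `ω i` near `e j`. -/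
  prim : Fin (genusFF ℂ F) → Fin (genusFF ℂ F) → ℂ → ℂ
  /-- The primitives vanish at the points. -/
  prim_zero : ∀ j i, prim j i 0 = 0
  /-- Their derivatives are the coefficients of the differentials. -/
  prim_deriv : ∀ j i, ∀ z ∈ ball (0 : ℂ) r,
    HasDerivAt (prim j i) ((chartOf (e j)).fn ((chartOf (e j)).coeff (ω i)) z) z

/-- Distinct nonspecial points exist outside a finite set. -/
theorem exists_nonspecial_tuple {S : Set (Place ℂ F)} (hS : S.Finite) :
    ∃ e : Fin (genusFF ℂ F) → Place ℂ F, (∀ i, e i ∉ S) ∧ Function.Injective e ∧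
      ell (pts e) = 1 ∧ h1 (pts e) = 0 := by
  obtain ⟨T, hcard, havoid, hell, hh1⟩ := exists_nonspecial (K := ℂ) (F := F) S hS
  let e : Fin (genusFF ℂ F) ≃ T := (T.equivFinOfCardEq hcard).symm
  have hsum : pts (fun i => (e i : Place ℂ F)) = ∑ v ∈ T, Finsupp.single v (1 : ℤ) := by
    rw [← Finset.sum_coe_sort T, pts]
    exact Fintype.sum_equiv e _ _ fun i => rfl
  exact ⟨fun i => e i, fun i => havoid _ (e i).2,
    Subtype.val_injective.comp e.injective, by rw [hsum]; exact hell,
    by rw [hsum]; exact hh1⟩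

/-- The regular differentials `f • ω₀` attached to a basis of `L(W)`, `W` the canonical divisor
of `ω₀`, have invertible value matrix at a nonspecial tuple of distinct points. -/
theorem det_coeff_ne_zero {ω₀ : Ω[F⁄ℂ]} (hω₀ : ω₀ ≠ 0)
    (b : Module.Basis (Fin (genusFF ℂ F)) ℂ (riemannRochSpace (canonicalDivisorOf hω₀)))
    (hreg : ∀ i, IsRegularDiff ((b i : F) • ω₀)) {e : Fin (genusFF ℂ F) → Place ℂ F}
    (he : Function.Injective e) (hh1 : h1 (pts e) = 0) :
    Matrix.det (Matrix.of fun i j =>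
      (chartOf (e j)).fn ((chartOf (e j)).coeff ((b i : F) • ω₀)) 0) ≠ 0 := by
  classical
  intro h0
  obtain ⟨a, ha, hvec⟩ := Matrix.exists_vecMul_eq_zero_iff.2 h0
  set f : F := ((∑ i, a i • b i : riemannRochSpace (canonicalDivisorOf hω₀)) : F) with hf
  have hf0 : f ≠ 0 := fun h => by
    have h' : ∑ i, a i • b i = 0 := Subtype.ext h
    exact ha (funext fun i => Fintype.linearIndependent_iff.1 b.linearIndependent a h' i)
  -- the combination `f` given by the kernel vector is a section of `W - pts e`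
  have hmem : f ∈ riemannRochSpace (canonicalDivisorOf hω₀ - pts e) := by
    rw [mem_riemannRochSpace]
    intro v
    rw [ordGE_iff_of_ne hf0, Finsupp.sub_apply]
    have hv : -canonicalDivisorOf hω₀ v ≤ v.ord f :=
      ((mem_riemannRochSpace.1 (SetLike.coe_mem _)) v).le_ord hf0
    by_cases hve : ∃ j, e j = v
    · obtain ⟨j, rfl⟩ := hve
      rw [pts_apply, show (Finset.univ.filter fun i => e i = e j) = {j} by
        ext i; simp [he.eq_iff], Finset.card_singleton]
      by_contra hcon
      set ch := chartOf (e j)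
      have h00 := mem_ball_self (x := (0 : ℂ)) ch.ε_pos
      have hcoef : ch.coeff (f • ω₀) = ∑ i, a i • ch.coeff ((b i : F) • ω₀) := by
        apply Chart.coeff_eq
        rw [Finset.sum_smul]
        simp only [smul_assoc, Chart.coeff_smul]
        simp [hf, Finset.sum_smul, smul_assoc]
      have hord : (ch.param 0).ord (ch.coeff (f • ω₀)) =
          canonicalDivisorOf hω₀ (e j) + (e j).ord f := by
        rw [← Chart.ordDifferential_param h00, ch.param_zero, ordDifferential_smul _ hf0 hω₀,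
          canonicalDivisorOf_apply, add_comm]
      have hfne : ch.coeff (f • ω₀) ≠ 0 := by
        rw [Chart.coeff_smul']
        refine mul_ne_zero hf0 fun h => hω₀ ?_
        rw [← Chart.coeff_smul (ch := ch) ω₀, h, zero_smul]
      obtain ⟨hsum, hfn⟩ :=
        fn_sum_smul Finset.univ a fun i _ => (hreg i).ordGE_coeff (ch := ch) h00
      have hzero : ch.fn (ch.coeff (f • ω₀)) 0 = 0 := by
        rw [hcoef, hfn]
        have := congrFun hvec j
        simpa [Matrix.vecMul, dotProduct] using this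
      have h1 := ((evalAt_eq_zero_iff (hcoef ▸ hsum)).1 hzero).le_ord hfne
      omega
    · rw [pts_eq_zero_of_ne fun i hi => hve ⟨i, hi⟩]
      omega
  -- there is none, the tuple being nonspecial
  have hzero : ell (canonicalDivisorOf hω₀ - pts e) = 0 := by
    rw [← (isCanonical_canonicalDivisorOf hω₀).h1_eq]; exact hh1
  rw [Submodule.finrank_eq_zero.1 hzero] at hmem
  exact hf0 ((Submodule.mem_bot ℂ).1 hmem)

/-- The charts at distinct points have discs of a common radius with disjoint images. -/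
theorem exists_disjoint_discs {n : ℕ} {e : Fin n → Place ℂ F} (he : Function.Injective e) :
    ∃ r : ℝ, 0 < r ∧ (∀ j, r ≤ (chartOf (e j)).ε) ∧ Pairwise fun j k =>
      Disjoint ((chartOf (e j)).param '' ball 0 r) ((chartOf (e k)).param '' ball 0 r) := by
  obtain ⟨U, hU, hUd⟩ := (finite_range e).t2_separation
  have hev : ∀ j, ∀ᶠ z in 𝓝 (0 : ℂ), (chartOf (e j)).param z ∈ U (e j) ∧
      z ∈ ball (0 : ℂ) (chartOf (e j)).ε := fun j => by
    have hc := Chart.continuousAt_param (ch := chartOf (e j))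
      (mem_ball_self (chartOf (e j)).ε_pos)
    rw [ContinuousAt, Chart.param_zero] at hc
    exact (hc.eventually ((hU (e j)).2.mem_nhds (hU (e j)).1)).and
      (isOpen_ball.mem_nhds (mem_ball_self (chartOf (e j)).ε_pos))
  obtain ⟨r, hr, hr'⟩ := Metric.eventually_nhds_iff_ball.1 (eventually_all.2 hev)
  refine ⟨r, hr, fun j => le_of_not_gt fun hlt => ?_, fun j k hjk => ?_⟩
  · have hε := (chartOf (e j)).ε_pos
    have hball : ‖((chartOf (e j)).ε : ℂ)‖ = (chartOf (e j)).ε := by
      rw [Complex.norm_real, Real.norm_of_nonneg hε.le]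
    have := (hr' _ (show ((chartOf (e j)).ε : ℂ) ∈ ball (0 : ℂ) r by
      rwa [mem_ball_zero_iff, hball]) j).2
    rw [mem_ball_zero_iff, hball] at this
    exact lt_irrefl _ this
  · refine Disjoint.mono ?_ ?_ (hUd (mem_range_self j) (mem_range_self k) (he.ne hjk))
    · rintro Q ⟨z, hz, rfl⟩; exact (hr' z hz j).1
    · rintro Q ⟨z, hz, rfl⟩; exact (hr' z hz k).1

/-- Logarithm data exist with base points outside a finite set. -/
theorem exists_logData_avoid {S : Set (Place ℂ F)} (hS : S.Finite) :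
    ∃ D : LogData F, ∀ j, D.e j ∉ S := by
  classical
  obtain ⟨e, heS, he, hell, hh1⟩ := exists_nonspecial_tuple hS
  -- a basis of `L(W)`, `W` canonical, gives a basis `ω` of the regular differentials
  obtain ⟨ω₀, hω₀⟩ := exists_ne (0 : Ω[F⁄ℂ])
  let b : Module.Basis (Fin (genusFF ℂ F)) ℂ (riemannRochSpace (canonicalDivisorOf hω₀)) :=
    Module.finBasisOfFinrankEq ℂ _ (isCanonical_canonicalDivisorOf hω₀).2
  have hb0 : ∀ i, (b i : F) ≠ 0 := fun i h => b.ne_zero i (Subtype.ext h)
  let ω := fun i => (b i : F) • ω₀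
  have hreg : ∀ i, IsRegularDiff (ω i) := fun i v => by
    change 0 ≤ v.ordDifferential ((b i : F) • ω₀)
    rw [ordDifferential_smul v (hb0 i) hω₀, ← canonicalDivisorOf_apply hω₀ v]
    have := ((mem_riemannRochSpace.1 (b i).2) v).le_ord (hb0 i)
    omega
  -- disjoint discs, and primitives of the differentials on them
  obtain ⟨r, hr, hrε, hdisj⟩ := exists_disjoint_discs he
  have hrle : ∀ j, ball (0 : ℂ) r ⊆ ball 0 (chartOf (e j)).ε :=
    fun j => ball_subset_ball (hrε j)
  have hprim : ∀ j i, ∃ Φ : ℂ → ℂ, Φ 0 = 0 ∧ ∀ z ∈ ball (0 : ℂ) r,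
      HasDerivAt Φ ((chartOf (e j)).fn ((chartOf (e j)).coeff (ω i)) z) z := fun j i =>
    (DifferentiableOn.isExactOn_ball fun z hz => (Chart.analyticAt_fn (hrle j hz)
      ((hreg i).ordGE_coeff (hrle j hz))).differentiableAt.differentiableWithinAt).with_val_at 0 0
  choose Φ hΦ0 hΦd using hprim
  exact ⟨⟨e, hell, ω, hreg, det_coeff_ne_zero hω₀ b hreg he hh1, r, hr, hrε, hdisj, Φ, hΦ0,
    hΦd⟩, heS⟩

/-- Logarithm data exist. -/
theorem nonempty_logData : Nonempty (LogData F) :=
  ⟨(exists_logData_avoid (F := F) finite_empty).choose⟩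

namespace LogData

variable (D : LogData F)

/-- The chart at the `j`th point. -/
abbrev ch (j : Fin (genusFF ℂ F)) : Chart (D.e j) := chartOf (D.e j)

/-- The `j`th disc. -/
def disc (j : Fin (genusFF ℂ F)) : Set (Place ℂ F) := (D.ch j).param '' ball 0 D.r

/-- The common disc lies in each chart disc. -/
theorem ball_subset (j : Fin (genusFF ℂ F)) : ball (0 : ℂ) D.r ⊆ ball 0 (D.ch j).ε :=
  ball_subset_ball (D.r_le j)

/-- The discs are open. -/
theorem isOpen_disc (j : Fin (genusFF ℂ F)) : IsOpen (D.disc j) :=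
  Chart.isOpen_image_param isOpen_ball (D.ball_subset j)

/-- Each point lies in its disc. -/
theorem mem_disc_self (j : Fin (genusFF ℂ F)) : D.e j ∈ D.disc j :=
  ⟨0, mem_ball_self D.r_pos, Chart.param_zero⟩

/-- The discs are disjoint. -/
theorem eq_of_mem_disc {j k : Fin (genusFF ℂ F)} {Q : Place ℂ F} (hj : Q ∈ D.disc j)
    (hk : Q ∈ D.disc k) : j = k :=
  by_contra fun h => disjoint_left.1 (D.disj h) hj hk

/-- The local logarithm of a point. -/
def loc (Q : Place ℂ F) : Fin (genusFF ℂ F) → ℂ :=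
  fun i => ∑ j, (D.disc j).indicator (fun Q => D.prim j i ((D.ch j).coord Q)) Q

/-- The logarithm on a disc is the primitive at the coordinate. -/
theorem loc_of_mem {j : Fin (genusFF ℂ F)} {Q : Place ℂ F} (hQ : Q ∈ D.disc j)
    (i : Fin (genusFF ℂ F)) : D.loc Q i = D.prim j i ((D.ch j).coord Q) := by
  rw [loc, Finset.sum_eq_single j]
  · rw [indicator_of_mem hQ]
  · intro k _ hkj
    exact indicator_of_notMem (fun h => hkj (D.eq_of_mem_disc h hQ)) _
  · simp

/-- The logarithm at a parametrised point. -/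
theorem loc_param {j : Fin (genusFF ℂ F)} {z : ℂ} (hz : z ∈ ball (0 : ℂ) D.r)
    (i : Fin (genusFF ℂ F)) : D.loc ((D.ch j).param z) i = D.prim j i z := by
  rw [D.loc_of_mem ⟨z, hz, rfl⟩, Chart.coord_param (D.ball_subset j hz)]

/-- The logarithm vanishes at the base points. -/
theorem loc_e (j : Fin (genusFF ℂ F)) : D.loc (D.e j) = 0 := by
  funext i
  rw [← (D.ch j).param_zero, D.loc_param (mem_ball_self D.r_pos), D.prim_zero]
  rfl

/-- The local logarithm of a divisor. -/
def logDiv : Divisor ℂ F →+ (Fin (genusFF ℂ F) → ℂ) :=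
  Finsupp.liftAddHom fun Q => (zmultiplesHom _) (D.loc Q)

/-- The logarithm of a multiple of a point. -/
theorem logDiv_single (Q : Place ℂ F) (n : ℤ) :
    D.logDiv (Finsupp.single Q n) = n • D.loc Q := by
  simp [logDiv]

/-- The logarithm of a tuple is the sum over its points. -/
theorem logDiv_pts {n : ℕ} (T : Fin n → Place ℂ F) : D.logDiv (pts T) = ∑ k, D.loc (T k) := by
  simp [pts, logDiv_single]

/-- The logarithm of the base tuple is zero. -/
theorem logDiv_e : D.logDiv (pts D.e) = 0 := by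
  simp [logDiv_pts, loc_e]

/-- The tuple with given coordinates. -/
def tuple (z : Fin (genusFF ℂ F) → ℂ) : Fin (genusFF ℂ F) → Place ℂ F :=
  fun j => (D.ch j).param (z j)

/-- The coordinates zero give the base tuple. -/
theorem tuple_zero : D.tuple 0 = D.e := funext fun _ => Chart.param_zero

/-- The logarithm in coordinates. -/
def logCoord (z : Fin (genusFF ℂ F) → ℂ) : Fin (genusFF ℂ F) → ℂ :=
  fun i => ∑ j, D.prim j i (z j)

/-- The logarithm of a tuple in coordinates. -/
theorem logDiv_tuple {z : Fin (genusFF ℂ F) → ℂ} (hz : ∀ j, z j ∈ ball (0 : ℂ) D.r) :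
    D.logDiv (pts (D.tuple z)) = D.logCoord z := by
  rw [logDiv_pts]
  funext i
  rw [Finset.sum_apply, logCoord]
  exact Finset.sum_congr rfl fun j _ => D.loc_param (hz j) i

/-- The matrix of the differential of the logarithm. -/
def jac : Matrix (Fin (genusFF ℂ F)) (Fin (genusFF ℂ F)) ℂ :=
  Matrix.of fun i j => (D.ch j).fn ((D.ch j).coeff (D.ω i)) 0

/-- The differential of the logarithm at the base tuple. -/
def jacEquiv : (Fin (genusFF ℂ F) → ℂ) ≃L[ℂ] (Fin (genusFF ℂ F) → ℂ) :=
  (Matrix.toLinearEquiv' D.jac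
    ((Matrix.isUnit_iff_isUnit_det _).2 (isUnit_iff_ne_zero.2 D.det_ne)).invertible
    ).toContinuousLinearEquiv

/-- The differential is multiplication by the matrix. -/
theorem jacEquiv_apply (a : Fin (genusFF ℂ F) → ℂ) (i : Fin (genusFF ℂ F)) :
    D.jacEquiv a i = ∑ j, D.jac i j * a j := by
  change Matrix.toLin' D.jac a i = _
  rw [Matrix.toLin'_apply]
  rfl

/-- The primitives are analytic. -/
theorem analyticAt_prim (j i : Fin (genusFF ℂ F)) {z : ℂ} (hz : z ∈ ball (0 : ℂ) D.r) :
    AnalyticAt ℂ (D.prim j i) z :=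
  DifferentiableOn.analyticAt
    (fun x hx => (D.prim_deriv j i x hx).differentiableAt.differentiableWithinAt)
    (isOpen_ball.mem_nhds hz)

/-- The derivative of the logarithm at the base tuple. -/
theorem hasStrictFDerivAt_logCoord :
    HasStrictFDerivAt D.logCoord (D.jacEquiv : (Fin (genusFF ℂ F) → ℂ) →L[ℂ] _) 0 := by
  rw [hasStrictFDerivAt_pi']
  intro i
  have h := HasStrictFDerivAt.fun_sum (u := (Finset.univ : Finset (Fin (genusFF ℂ F))))
    (A := fun j (z : Fin (genusFF ℂ F) → ℂ) => D.prim j i (z j))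
    (A' := fun j => D.jac i j • ContinuousLinearMap.proj j) (x := 0) fun j _ => by
      have hd := (D.analyticAt_prim j i (mem_ball_self D.r_pos)).hasStrictDerivAt
      rw [(D.prim_deriv j i 0 (mem_ball_self D.r_pos)).deriv] at hd
      exact HasStrictDerivAt.comp_hasStrictFDerivAt (h₂ := D.prim j i)
        (f := fun z : Fin (genusFF ℂ F) → ℂ => z j)
        (0 : Fin (genusFF ℂ F) → ℂ) hd
        ((ContinuousLinearMap.proj (R := ℂ) (φ := fun _ : Fin (genusFF ℂ F) =>
          ℂ) j).hasStrictFDerivAt)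
  refine h.congr_fderiv ?_
  ext a
  simp [jacEquiv_apply]

/-- The open box around the base tuple. -/
def box : Set (Fin (genusFF ℂ F) → Place ℂ F) := {A | ∀ j, A j ∈ D.disc j}

/-- The box is open. -/
theorem isOpen_box : IsOpen D.box := by
  rw [box, show {A : Fin (genusFF ℂ F) → Place ℂ F | ∀ j, A j ∈ D.disc j} =
    univ.pi fun j => D.disc j by ext; simp]
  exact isOpen_set_pi finite_univ fun j _ => D.isOpen_disc j

/-- The base tuple lies in the box. -/
theorem mem_box_e : D.e ∈ D.box := D.mem_disc_self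

/-- Tuples in the box with the same divisor are equal. -/
theorem eq_of_pts_eq {A B : Fin (genusFF ℂ F) → Place ℂ F} (hA : A ∈ D.box) (hB : B ∈ D.box)
    (h : pts A = pts B) : A = B := by
  obtain ⟨σ, hσ⟩ := pts_eq_iff_perm.1 h
  funext j
  have h1 : A j = B (σ j) := congrFun hσ j
  have := D.eq_of_mem_disc (hA j) (h1 ▸ hB (σ j))
  rw [h1, ← this]

end LogData

/-- Equivalent tuples with a one-dimensional space have the same divisor. -/
theorem ptsEquiv_eq {m : ℕ} {A B : Fin m → Place ℂ F} (hB : ell (pts B) ≤ 1)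
    (h : PtsEquiv A B) : pts A = pts B := by
  obtain ⟨f, hf, h⟩ := h
  have hone : (1 : F) ∈ riemannRochSpace (pts B) := mem_riemannRochSpace.2 fun v =>
    (ordGE_one v).mono (by
      have := Finsupp.le_def.1 (pts_nonneg B) v
      rw [Finsupp.coe_zero, Pi.zero_apply] at this
      omega)
  have hmem : f ∈ riemannRochSpace (pts B) := mem_riemannRochSpace.2 fun v => by
    rw [ordGE_iff_of_ne hf]
    have := Finsupp.le_def.1 (pts_nonneg A) v
    rw [h, Finsupp.add_apply, divOf_apply, Finsupp.coe_zero, Pi.zero_apply] at this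
    omega
  obtain ⟨c, hc⟩ : ∃ c : ℂ, c • (1 : F) = f := by
    have hne : (⟨1, hone⟩ : riemannRochSpace (pts B)) ≠ 0 := fun h0 =>
      one_ne_zero (congrArg Subtype.val h0)
    obtain ⟨c, hc⟩ := exists_smul_eq_of_finrank_eq_one
      (le_antisymm hB (Module.finrank_pos_iff_exists_ne_zero.2 ⟨_, hne⟩)) hne ⟨f, hmem⟩
    exact ⟨c, congrArg Subtype.val hc⟩
  rw [h, show divOf ℂ f = 0 from ?_, add_zero]
  ext v
  rw [divOf_apply, ← hc, Algebra.smul_def, mul_one, ord_algebraMap]
  rfl

namespace LogData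

variable (D : LogData F)

/-- Near the nonspecial tuple, all tuples are nonspecial. -/
theorem exists_nbhd_ell_le :
    ∃ W : Set (Fin (genusFF ℂ F) → Place ℂ F), IsOpen W ∧ D.e ∈ W ∧ W ⊆ D.box ∧
      ∀ B ∈ W, ell (pts B) ≤ 1 := by
  obtain ⟨Q, hQ⟩ := (finite_range D.e).infinite_compl.nonempty
  -- the tuples equivalent to one through `Q`
  let C : Set (Fin (genusFF ℂ F) → Place ℂ F) :=
    Prod.snd '' ({p | PtsEquiv p.1 p.2} ∩ ⋃ i, {p | p.1 i = Q})
  have hC : IsClosed C :=
    ((((isClosed_ptsEquiv F _).inter (isClosed_iUnion_of_finite fun i =>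
      isClosed_eq ((continuous_apply i).comp continuous_fst) continuous_const)).isCompact).image
        continuous_snd).isClosed
  have hne : ∀ᶠ B : Fin (genusFF ℂ F) → Place ℂ F in 𝓝 D.e, ∀ i, B i ≠ Q :=
    eventually_all.2 fun i =>
      (continuous_apply i).continuousAt.eventually_ne fun h => hQ ⟨i, h⟩
  obtain ⟨W₀, hW₀, hW₀o, heW₀⟩ := eventually_nhds_iff.1 hne
  -- they avoid `e`
  have heC : D.e ∉ C := by
    rintro ⟨⟨A, B⟩, ⟨hAB, hi⟩, rfl⟩
    obtain ⟨i, hi⟩ := mem_iUnion.1 hi
    have h := ptsEquiv_eq D.ell_e.le hAB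
    obtain ⟨σ, hσ⟩ := pts_eq_iff_perm.1 h
    exact hQ ⟨σ i, (congrFun hσ i).symm.trans hi⟩
  refine ⟨Cᶜ ∩ W₀ ∩ D.box, (hC.isOpen_compl.inter hW₀o).inter D.isOpen_box,
    ⟨⟨heC, heW₀⟩, D.mem_box_e⟩, inter_subset_right, fun B hB => ?_⟩
  obtain ⟨⟨hBC, hBQ⟩, -⟩ := hB
  by_contra hgt
  push Not at hgt
  have hQ0 : pts B Q = 0 := pts_eq_zero_of_ne (hW₀ B hBQ)
  have hreg : ∀ f ∈ riemannRochSpace (pts B), OrdGE Q f 0 := fun f hf => by
    have := mem_riemannRochSpace.1 hf Q
    rwa [hQ0, neg_zero] at this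
  let φ : riemannRochSpace (pts B) →ₗ[ℂ] ℂ :=
    { toFun := fun f => evalAt Q (f : F)
      map_add' := fun f g => evalAt_add (hreg _ f.2) (hreg _ g.2)
      map_smul' := fun a f => by
        simp only [Submodule.coe_smul, Algebra.smul_def, RingHom.id_apply]
        rw [evalAt_mul (ordGE_algebraMap _ _) (hreg _ f.2), evalAt_algebraMap]
        rfl }
  -- if `ell B ≥ 2`, some function of the system vanishes at `Q`
  obtain ⟨⟨f, hf⟩, hker, hf0⟩ : ∃ f ∈ LinearMap.ker φ, f ≠ 0 := by
    refine (Submodule.ne_bot_iff _).1 fun hbot => ?_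
    have h1 := LinearMap.finrank_le_finrank_of_injective (LinearMap.ker_eq_bot.1 hbot)
    rw [Module.finrank_self] at h1
    unfold ell at hgt
    omega
  have hf0' : f ≠ 0 := fun h => hf0 (Subtype.ext h)
  have hnn : 0 ≤ pts B + divOf ℂ f := Finsupp.le_def.2 fun v => by
    have := ((mem_riemannRochSpace.1 hf) v).le_ord hf0'
    rw [Finsupp.add_apply, divOf_apply, Finsupp.coe_zero, Pi.zero_apply]
    omega
  -- so `B` is such a tuple
  obtain ⟨A, hA⟩ := exists_pts_eq hnn (n := genusFF ℂ F) (by simp)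
  refine hBC ⟨(A, B), ⟨⟨f, hf0', hA⟩, mem_iUnion.2 ?_⟩, rfl⟩
  have hpos : pts A Q ≠ 0 := by
    have := ((evalAt_eq_zero_iff (hreg f hf)).1 (LinearMap.mem_ker.1 hker)).le_ord hf0'
    rw [hA, Finsupp.add_apply, hQ0, divOf_apply]
    omega
  by_contra hcon
  exact hpos (pts_eq_zero_of_ne fun i hi => hcon ⟨i, hi⟩)

/-- The Abel map is injective on nonspecial tuples in the box. -/
theorem injOn_abel {W : Set (Fin (genusFF ℂ F) → Place ℂ F)} (hWbox : W ⊆ D.box)
    (hW : ∀ B ∈ W, ell (pts B) ≤ 1) : InjOn abel W := fun _ hA B hB h =>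
  D.eq_of_pts_eq (hWbox hA) (hWbox hB) (ptsEquiv_eq (hW B hB) (abel_eq_abel_iff.1 h))

/-- The Abel map sends open sets of such tuples to open sets. -/
theorem isOpen_image_abel {W W' : Set (Fin (genusFF ℂ F) → Place ℂ F)}
    (hW : ∀ B ∈ W, ell (pts B) ≤ 1) (hW' : IsOpen W') (hsub : W' ⊆ W) :
    IsOpen (abel '' W') := by
  rw [← isQuotientMap_abel.isOpen_preimage]
  have : abel (F := F) ⁻¹' (abel '' W') =
      ⋃ σ : Equiv.Perm (Fin (genusFF ℂ F)), (fun A => A ∘ σ) ⁻¹' W' := by
    ext A
    simp only [mem_preimage, mem_image, mem_iUnion]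
    constructor
    · rintro ⟨B, hB, h⟩
      obtain ⟨σ, hσ⟩ := pts_eq_iff_perm.1 (ptsEquiv_eq (hW B (hsub hB)) (abel_eq_abel_iff.1 h.symm))
      refine ⟨σ.symm, ?_⟩
      have : A ∘ σ.symm = B := by funext i; simp [hσ]
      rwa [this]
    · rintro ⟨σ, hσ⟩
      refine ⟨A ∘ σ, hσ, abel_eq_abel_iff.2 ⟨1, one_ne_zero, ?_⟩⟩
      rw [pts_eq_iff_perm.2 ⟨σ, rfl⟩]
      ext v; simp
  rw [this]
  exact isOpen_iUnion fun σ => hW'.preimage (by fun_prop)

end LogData

end Fermat.JAC
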