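import Fermat.Agent.JAC.LogData

/-!
# The pencil through two nearby members of a linear system

The main results are `exists_stable_nbhd` and `exists_isFibre`, a member at every parameter.
-/

set_option autoImplicit false

noncomputable section

open AlgebraicCurve Metric Filter Set

namespace Fermat.JAC

open Fermat.FF

variable {F : Type*} [Field F] [Algebra ℂ F] [IsFunctionField ℂ F]

/-- Two normalised sections with the same zeros differ by a unit scalar. -/
theorem eq_on_secGraph {N : ℕ} {c c' : Fin (secDim F N) → ℂ} {T : Fin N → Place ℂ F}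
    (h : (c, T) ∈ secGraph F N) (h' : (c', T) ∈ secGraph F N) :
    ∃ a : ℂ, ‖a‖ = 1 ∧ c' = a • c := by
  have h0 : sec c ≠ 0 := fun h0 => by
    have := h.1; rw [sec_eq_zero_iff.1 h0] at this; simp at this
  have h0' : sec c' ≠ 0 := fun h0 => by
    have := h'.1; rw [sec_eq_zero_iff.1 h0] at this; simp at this
  obtain ⟨a, ha⟩ := mem_range_of_forall_ordGE (K := ℂ) (f := sec c' / sec c) fun v => by
    refine ordGE_iff.2 (Or.inr ?_)
    have e1 := congrArg (fun D => D v) h.2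
    have e2 := congrArg (fun D => D v) h'.2
    simp only [Finsupp.add_apply, divOf_apply] at e1 e2
    rw [ord_div v h0' h0]
    omega
  have hc : c' = a • c := by
    refine sub_eq_zero.1 ((sec_eq_zero_iff).1 ?_)
    rw [sub_eq_add_neg, ← neg_one_smul ℂ (a • c), sec_add, sec_smul, sec_smul]
    rw [eq_div_iff h0] at ha
    rw [← ha, Algebra.smul_def a, neg_smul, one_smul, add_neg_cancel]
  refine ⟨a, ?_, hc⟩
  have h1 := mem_sphere_zero_iff_norm.1 h.1
  have h2 := mem_sphere_zero_iff_norm.1 h'.1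
  dsimp only at h1 h2
  rw [hc, norm_smul, h1, mul_one] at h2
  exact h2

/-- A unit multiple of a unit section has the same zero locus. -/
theorem smul_mem_secGraph {N : ℕ} {c : Fin (secDim F N) → ℂ} {T : Fin N → Place ℂ F}
    (h : (c, T) ∈ secGraph F N) {u : ℂ} (hu : ‖u‖ = 1) : (u • c, T) ∈ secGraph F N := by
  have hu0 : u ≠ 0 := by rintro rfl; simp at hu
  have h1 := mem_sphere_zero_iff_norm.1 h.1
  have h0 : sec c ≠ 0 := fun h0 => by
    rw [sec_eq_zero_iff.1 h0] at h1; simp at h1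
  refine ⟨mem_sphere_zero_iff_norm.2 (by dsimp only; rw [norm_smul, hu, one_mul]; exact h1), ?_⟩
  dsimp only
  rw [← h.2]
  congr 1
  ext v
  rw [divOf_apply, divOf_apply, sec_smul, Algebra.smul_def,
    Place.ord_mul _ ((_root_.map_ne_zero _).2 hu0) h0, ord_algebraMap, zero_add]

/-- A segment between nearby unit vectors stays away from zero. -/
theorem norm_segment_ge {E : Type*} [SeminormedAddCommGroup E] [NormedSpace ℂ E] {c₁ c₂ : E}
    (h1 : ‖c₁‖ = 1) (h : ‖c₁ - c₂‖ ≤ 1 / 2) {t : ℝ} (ht : t ∈ Icc (0 : ℝ) 1) :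
    1 / 2 ≤ ‖(1 - (t : ℂ)) • c₁ + (t : ℂ) • c₂‖ := by
  have e : (1 - (t : ℂ)) • c₁ + (t : ℂ) • c₂ = c₁ - (t : ℂ) • (c₁ - c₂) := by module
  rw [e]
  have h2 := norm_sub_norm_le c₁ ((t : ℂ) • (c₁ - c₂))
  have h3 : ‖(t : ℂ) • (c₁ - c₂)‖ ≤ 1 / 2 := by
    rw [norm_smul, Complex.norm_real, Real.norm_of_nonneg ht.1]
    exact (mul_le_of_le_one_left (norm_nonneg _) ht.2).trans h
  linarith

/-- A map whose graph over a set is the unique section of a compact relation is continuous there. -/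
theorem continuousOn_of_compact_graph {α β : Type*} [TopologicalSpace α] [TopologicalSpace β]
    [T2Space α] {f : α → β} {s : Set α} {G : Set (α × β)} (hG : IsCompact G)
    (hmem : ∀ x ∈ s, (x, f x) ∈ G) (huniq : ∀ p ∈ G, p.1 ∈ s → p.2 = f p.1) :
    ContinuousOn f s := by
  refine continuousOn_iff_isClosed.2 fun t ht => ⟨Prod.fst '' (G ∩ Prod.snd ⁻¹' t), ?_, ?_⟩
  · exact ((hG.inter_right (ht.preimage continuous_snd)).image continuous_fst).isClosed
  · ext x
    constructor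
    · rintro ⟨hxt, hxs⟩
      exact ⟨⟨(x, f x), ⟨hmem x hxs, hxt⟩, rfl⟩, hxs⟩
    · rintro ⟨⟨p, ⟨hpG, hpt⟩, rfl⟩, hxs⟩
      exact ⟨by rw [mem_preimage, ← huniq p hpG hxs]; exact hpt, hxs⟩

/-- `c₁` and `c₂` are unit sections with zero loci `A + B + R` and `C + E + R`. -/
def IsPair {g k N : ℕ} (hN : g + g + k = N) (E A B C : Fin g → Place ℂ F) (R : Fin k → Place ℂ F)
    (c₁ c₂ : Fin (secDim F N) → ℂ) : Prop :=
  (c₁, (Fin.append (Fin.append A B) R) ∘ Fin.cast hN.symm) ∈ secGraph F N ∧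
    (c₂, (Fin.append (Fin.append C E) R) ∘ Fin.cast hN.symm) ∈ secGraph F N

omit [IsFunctionField ℂ F] in
/-- Reindexing a tuple keeps its divisor. -/
theorem pts_comp_cast {n m : ℕ} (h : n = m) (T : Fin m → Place ℂ F) :
    pts (T ∘ Fin.cast h) = pts T := by
  subst h; rfl

/-- The pairs of the pencil form a closed set. -/
theorem isClosed_isPair {g k N : ℕ} (hN : g + g + k = N) (E : Fin g → Place ℂ F) :
    IsClosed {q : (((Fin g → Place ℂ F) × (Fin g → Place ℂ F)) × (Fin g → Place ℂ F)) ×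
        ((Fin k → Place ℂ F) × ((Fin (secDim F N) → ℂ) × (Fin (secDim F N) → ℂ))) |
      IsPair hN E q.1.1.1 q.1.1.2 q.1.2 q.2.1 q.2.2.1 q.2.2.2} := by
  have happ : Continuous fun p : ((Fin g → Place ℂ F) × (Fin g → Place ℂ F)) ×
      (Fin k → Place ℂ F) => (Fin.append (Fin.append p.1.1 p.1.2) p.2) ∘ Fin.cast hN.symm := by
    have h1 : Continuous fun p : ((Fin g → Place ℂ F) × (Fin g → Place ℂ F)) ×
        (Fin k → Place ℂ F) => Fin.append (Fin.append p.1.1 p.1.2) p.2 :=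
      continuous_finAppend.comp ((continuous_finAppend.comp continuous_fst).prodMk continuous_snd)
    exact continuous_pi fun i => (continuous_apply _).comp h1
  refine IsClosed.inter ?_ ?_
  · exact (isClosed_secGraph (F := F) N).preimage
      ((continuous_fst.comp (continuous_snd.comp continuous_snd)).prodMk
        (happ.comp (Continuous.prodMk (continuous_fst.comp continuous_fst)
          (continuous_fst.comp continuous_snd))))
  · exact (isClosed_secGraph (F := F) N).preimage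
      ((continuous_snd.comp (continuous_snd.comp continuous_snd)).prodMk
        (happ.comp (Continuous.prodMk ((continuous_snd.comp continuous_fst).prodMk continuous_const)
          (continuous_fst.comp continuous_snd))))

variable (F) in
/-- Triples of tuples. -/
abbrev TripleSpace (g : ℕ) : Type _ :=
  ((Fin g → Place ℂ F) × (Fin g → Place ℂ F)) × (Fin g → Place ℂ F)

variable (F) in
/-- Complements with two sections. -/
abbrev SectionSpace (k N : ℕ) : Type _ :=
  (Fin k → Place ℂ F) × ((Fin (secDim F N) → ℂ) × (Fin (secDim F N) → ℂ))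

variable (F) in
/-- Parameters with a member of the pencil. -/
abbrev MemberSpace (g N : ℕ) : Type _ :=
  ℝ × ((Fin (secDim F N) → ℂ) × (Fin (g + g) → Place ℂ F))

namespace LogData

variable (D : LogData F)

/-- The union of the discs. -/
def discs : Set (Place ℂ F) := ⋃ j, D.disc j

/-- The union of the discs is open. -/
theorem isOpen_discs : IsOpen D.discs := isOpen_iUnion D.isOpen_disc

/-- The logarithm is continuous on the discs. -/
theorem continuousOn_loc : ContinuousOn D.loc D.discs := by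
  intro Q hQ
  obtain ⟨j, hj⟩ := mem_iUnion.1 hQ
  refine ContinuousAt.continuousWithinAt (continuousAt_pi.2 fun i => ?_)
  have hd : Q ∈ (D.ch j).domain := by
    obtain ⟨z, hz, rfl⟩ := hj; exact ⟨z, D.ball_subset j hz, rfl⟩
  have hco := (Chart.continuousOn_coord (ch := D.ch j)).continuousAt
    ((D.ch j).isOpen_domain.mem_nhds hd)
  have hz : (D.ch j).coord Q ∈ ball (0 : ℂ) D.r := by
    obtain ⟨z, hz, rfl⟩ := hj; rwa [Chart.coord_param (D.ball_subset j hz)]
  have h2 : ContinuousAt (fun Q' => D.prim j i ((D.ch j).coord Q')) Q :=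
    ContinuousAt.comp (f := (D.ch j).coord) (D.analyticAt_prim j i hz).continuousAt hco
  refine h2.congr ?_
  filter_upwards [(D.isOpen_disc j).mem_nhds hj] with Q' hQ'
  exact (D.loc_of_mem hQ' i).symm

/-- The moving part of the zero locus along a pencil. -/
def IsFibre {k N : ℕ} (hN : genusFF ℂ F + genusFF ℂ F + k = N) (R : Fin k → Place ℂ F)
    (c₁ c₂ : Fin (secDim F N) → ℂ) (t : ℝ) (c : Fin (secDim F N) → ℂ)
    (T : Fin (genusFF ℂ F + genusFF ℂ F) → Place ℂ F) : Prop :=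
  (c, (Fin.append T R) ∘ Fin.cast hN.symm) ∈ secGraph F N ∧
    (‖(1 - (t : ℂ)) • c₁ + (t : ℂ) • c₂‖ : ℂ) • c = (1 - (t : ℂ)) • c₁ + (t : ℂ) • c₂

variable {k N : ℕ} (hN : genusFF ℂ F + genusFF ℂ F + k = N)

/-- The members of pencils form a closed set. -/
theorem isClosed_isFibre :
    IsClosed {q : ((Fin k → Place ℂ F) × ((Fin (secDim F N) → ℂ) × (Fin (secDim F N) → ℂ))) ×
        (ℝ × ((Fin (secDim F N) → ℂ) × (Fin (genusFF ℂ F + genusFF ℂ F) → Place ℂ F))) |
      IsFibre hN q.1.1 q.1.2.1 q.1.2.2 q.2.1 q.2.2.1 q.2.2.2} := by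
  refine IsClosed.inter ?_ (isClosed_eq (by fun_prop) (by fun_prop))
  have h1 : Continuous fun p : (Fin (genusFF ℂ F + genusFF ℂ F) → Place ℂ F) ×
      (Fin k → Place ℂ F) => (Fin.append p.1 p.2) ∘ Fin.cast hN.symm :=
    continuous_pi fun i => (continuous_apply _).comp continuous_finAppend
  exact (isClosed_secGraph (F := F) N).preimage
    ((continuous_fst.comp (continuous_snd.comp continuous_snd)).prodMk
      (h1.comp (Continuous.prodMk (continuous_snd.comp (continuous_snd.comp continuous_snd))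
        (continuous_fst.comp continuous_fst))))

/-- A member of a short pencil over the base triple lies in the discs: it is proportional to the
sections of the pencil, so moves only on `D.e`. -/
theorem mem_discs_of_base {R : Fin k → Place ℂ F} {c₁ c₂ c : Fin (secDim F N) → ℂ} {t : ℝ}
    {T : Fin (genusFF ℂ F + genusFF ℂ F) → Place ℂ F} (hq : IsPair hN D.e D.e D.e D.e R c₁ c₂)
    (hle : ‖c₁ - c₂‖ ≤ 1 / 2) (ht : t ∈ Icc (0 : ℝ) 1) (hfib : IsFibre hN R c₁ c₂ t c T)
    (i : Fin (genusFF ℂ F + genusFF ℂ F)) : T i ∈ D.discs := by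
  obtain ⟨a, -, hc⟩ := eq_on_secGraph hq.1 hq.2
  have hge := norm_segment_ge (mem_sphere_zero_iff_norm.1 hq.1.1) hle ht
  obtain ⟨hT, hsmul⟩ := hfib
  set w : ℂ := 1 - (t : ℂ) + (t : ℂ) * a
  have hw : (1 - (t : ℂ)) • c₁ + (t : ℂ) • c₂ = w • c₁ := by
    rw [hc, smul_smul, ← add_smul]
  rw [hw] at hsmul hge
  set ν : ℝ := ‖w • c₁‖ with hν
  have hν0 : (ν : ℂ) ≠ 0 := by
    simp only [ne_eq, Complex.ofReal_eq_zero]; linarith
  have hc' : c = ((ν : ℂ)⁻¹ * w) • c₁ := by
    rw [mul_smul, ← hsmul, smul_smul, inv_mul_cancel₀ hν0, one_smul]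
  have hn : ‖(ν : ℂ)⁻¹ * w‖ = 1 := by
    have h3 := mem_sphere_zero_iff_norm.1 hT.1
    dsimp only at h3
    rwa [hc', norm_smul, mem_sphere_zero_iff_norm.1 hq.1.1, mul_one] at h3
  have hmem := smul_mem_secGraph hq.1 hn
  rw [← hc'] at hmem
  have hpts := hT.2.symm.trans hmem.2
  dsimp only at hpts
  rw [pts_comp_cast, pts_comp_cast, pts_append, pts_append, pts_append] at hpts
  have hTe : pts T = pts D.e + pts D.e := add_right_cancel hpts
  by_contra hnd
  classical
  have hpos : 0 < pts T (T i) := by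
    rw [pts_apply]
    exact_mod_cast Finset.card_pos.2 ⟨i, by simp⟩
  rw [hTe, Finsupp.add_apply, pts_eq_zero_of_ne (T := D.e) (P := T i) fun j hj => hnd (hj ▸
    mem_iUnion.2 ⟨j, D.mem_disc_self j⟩)] at hpos
  exact lt_irrefl 0 (by simp at hpos)

/-- Near the base triple, a pencil can be chosen which stays inside the discs. -/
theorem exists_stable_nbhd :
    ∃ U : Set (Fin (genusFF ℂ F) → Place ℂ F), IsOpen U ∧ D.e ∈ U ∧
      ∀ A ∈ U, ∀ B ∈ U, ∀ C ∈ U, ∀ (R : Fin k → Place ℂ F) (c₁ c₂ : Fin (secDim F N) → ℂ),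
        IsPair hN D.e A B C R c₁ c₂ →
        ∃ u : ℂ, ‖u‖ = 1 ∧ ‖c₁ - u • c₂‖ ≤ 1 / 2 ∧
          ∀ t ∈ Icc (0 : ℝ) 1, ∀ (c : Fin (secDim F N) → ℂ)
            (T : Fin (genusFF ℂ F + genusFF ℂ F) → Place ℂ F),
            IsFibre hN R c₁ (u • c₂) t c T → ∀ i, T i ∈ D.discs := by
  set g := genusFF ℂ F
  set d := secDim F N
  let S : Set (TripleSpace F g × SectionSpace F k N) :=
    {q | IsPair hN D.e q.1.1.1 q.1.1.2 q.1.2 q.2.1 q.2.2.1 q.2.2.2}
  have hSc : IsCompact S := by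
    refine (isCompact_univ.prod (isCompact_univ.prod ((isCompact_sphere (0 : Fin d → ℂ) 1).prod
      (isCompact_sphere (0 : Fin d → ℂ) 1)))).of_isClosed_subset (isClosed_isPair hN D.e)
      fun q hq => ?_
    exact ⟨trivial, trivial, hq.1.1, hq.2.1⟩
  -- `B1`: pairs whose second section has no rotation within `1 / 2` of the first.
  let B1 : Set (TripleSpace F g × SectionSpace F k N) :=
    S ∩ {q | ∀ u : ℂ, ‖u‖ = 1 → 1 / 2 ≤ ‖q.2.2.1 - u • q.2.2.2‖}
  have hB1 : IsCompact B1 := by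
    refine hSc.inter_right ?_
    simp only [ofPred_forall]
    exact isClosed_iInter fun u => isClosed_iInter fun _ =>
      isClosed_le continuous_const (by fun_prop)
  -- `B2`: members of short pencils with a moving point outside the discs. Both sets are compact.
  let B2 : Set ((TripleSpace F g × SectionSpace F k N) × MemberSpace F g N) :=
    ({p | p.1 ∈ S ∧ ‖p.1.2.2.1 - p.1.2.2.2‖ ≤ 1 / 2 ∧ p.2.1 ∈ Icc (0 : ℝ) 1} ∩
      {p | IsFibre hN p.1.2.1 p.1.2.2.1 p.1.2.2.2 p.2.1 p.2.2.1 p.2.2.2}) ∩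
      ⋃ i, {p | p.2.2.2 i ∉ D.discs}
  have hB2 : IsCompact B2 := by
    refine (hSc.prod (isCompact_Icc (a := (0 : ℝ)) (b := 1) |>.prod
      ((isCompact_sphere (0 : Fin d → ℂ) 1).prod isCompact_univ))).of_isClosed_subset
      ((IsClosed.inter ?_ ?_).inter (isClosed_iUnion_of_finite fun i => ?_)) fun p hp => ?_
    · have hle : IsClosed {p : (TripleSpace F g × SectionSpace F k N) × MemberSpace F g N |
          ‖p.1.2.2.1 - p.1.2.2.2‖ ≤ 1 / 2} := isClosed_le (by fun_prop) continuous_const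
      exact ((isClosed_isPair hN D.e).preimage continuous_fst).inter
        (hle.inter (isClosed_Icc.preimage (continuous_fst.comp continuous_snd)))
    · exact (isClosed_isFibre hN).preimage
        (Continuous.prodMk (continuous_snd.comp continuous_fst) continuous_snd)
    · have hc : Continuous fun p : (TripleSpace F g × SectionSpace F k N) × MemberSpace F g N =>
          p.2.2.2 i := (continuous_apply i).comp
        (continuous_snd.comp (continuous_snd.comp continuous_snd))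
      exact D.isOpen_discs.isClosed_compl.preimage hc
    · exact ⟨hp.1.1.1, hp.1.1.2.2, hp.1.2.1.1, trivial⟩
  set p₀ : TripleSpace F g := ((D.e, D.e), D.e)
  -- Over the base triple the two sections are proportional, so `B1` misses it.
  have h1 : p₀ ∉ Prod.fst '' B1 := by
    rintro ⟨⟨x, R, c₁, c₂⟩, ⟨hq, hu⟩, heq⟩
    dsimp only at heq; subst heq
    obtain ⟨a, ha, hc⟩ := eq_on_secGraph hq.1 hq.2
    have ha' : ‖a⁻¹‖ = 1 := by rw [norm_inv, ha, inv_one]
    have := hu a⁻¹ ha'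
    dsimp only at hc this
    have ha0 : a ≠ 0 := by rintro rfl; simp at ha
    rw [hc, smul_smul, inv_mul_cancel₀ ha0, one_smul, sub_self, norm_zero] at this
    norm_num at this
  -- There each member is proportional to `c₁`, so it moves only on `D.e`: `B2` misses it too.
  have h2 : p₀ ∉ (fun p : (TripleSpace F g × SectionSpace F k N) × MemberSpace F g N =>
      p.1.1) '' B2 := by
    rintro ⟨⟨⟨x, R, c₁, c₂⟩, t, c, T⟩, ⟨⟨⟨hq, hle, ht⟩, hfib⟩, hbad⟩, heq⟩
    dsimp only at heq; subst heq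
    obtain ⟨i, hi⟩ := mem_iUnion.1 hbad
    apply hi
    exact D.mem_discs_of_base hN hq hle ht hfib i
  -- A product neighbourhood avoiding both projections is the required one.
  have hopen : IsOpen ((Prod.fst '' B1)ᶜ ∩
      ((fun p : (TripleSpace F g × SectionSpace F k N) × MemberSpace F g N => p.1.1) '' B2)ᶜ) :=
    (hB1.image continuous_fst).isClosed.isOpen_compl.inter
      (hB2.image (continuous_fst.comp continuous_fst)).isClosed.isOpen_compl
  obtain ⟨U₁, U₂, hU₁, he₁, hU₂, he₂, hsub⟩ : ∃ U₁ U₂, IsOpen U₁ ∧ (D.e, D.e) ∈ U₁ ∧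
      IsOpen U₂ ∧ D.e ∈ U₂ ∧
      U₁ ×ˢ U₂ ⊆ (Prod.fst '' B1)ᶜ ∩
        ((fun p : (TripleSpace F g × SectionSpace F k N) × MemberSpace F g N => p.1.1) '' B2)ᶜ := by
    obtain ⟨U₁, U₂, h1', h2', h3', h4', h5'⟩ := isOpen_prod_iff.1 hopen _ _ ⟨h1, h2⟩
    exact ⟨U₁, U₂, h1', h3', h2', h4', h5'⟩
  obtain ⟨V₁, V₂, hV₁, hV₂, hv₁, hv₂, hVsub⟩ := isOpen_prod_iff.1 hU₁ _ _ he₁
  refine ⟨V₁ ∩ V₂ ∩ U₂, (hV₁.inter hV₂).inter hU₂, ⟨⟨hv₁, hv₂⟩, he₂⟩, ?_⟩
  intro A hA B hB C hC R c₁ c₂ hpair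
  have hnot := hsub (show ((((A, B), C)) : TripleSpace F g) ∈ U₁ ×ˢ U₂ from ⟨hVsub ⟨hA.1.1,
    hB.1.2⟩, hC.2⟩)
  obtain ⟨hn1, hn2⟩ := hnot
  have hex : ∃ u : ℂ, ‖u‖ = 1 ∧ ‖c₁ - u • c₂‖ ≤ 1 / 2 := by
    by_contra hcon
    push Not at hcon
    exact hn1 ⟨(((A, B), C), (R, (c₁, c₂))), ⟨hpair, fun u hu => (hcon u hu).le⟩, rfl⟩
  obtain ⟨u, hu, hule⟩ := hex
  refine ⟨u, hu, hule, fun t ht c T hfib i => ?_⟩
  by_contra hbad
  exact hn2 ⟨((((A, B), C), (R, (c₁, u • c₂))), (t, (c, T))),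
    ⟨⟨⟨⟨hpair.1, smul_mem_secGraph hpair.2 hu⟩, hule, ht⟩, hfib⟩, mem_iUnion.2 ⟨i, hbad⟩⟩, rfl⟩

/-- The pencil has a member at every parameter. -/
theorem exists_isFibre {A B C : Fin (genusFF ℂ F) → Place ℂ F} {R : Fin k → Place ℂ F}
    {c₁ c₂ : Fin (secDim F N) → ℂ} (hp : IsPair hN D.e A B C R c₁ c₂)
    (h : ‖c₁ - c₂‖ ≤ 1 / 2) {t : ℝ} (ht : t ∈ Icc (0 : ℝ) 1) :
    ∃ c T, IsFibre hN R c₁ c₂ t c T := by
  set b := (1 - (t : ℂ)) • c₁ + (t : ℂ) • c₂ with hb
  have hge : 1 / 2 ≤ ‖b‖ := norm_segment_ge (mem_sphere_zero_iff_norm.1 hp.1.1) h ht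
  have hb0 : b ≠ 0 := fun h0 => by rw [h0, norm_zero] at hge; linarith
  set c := ((‖b‖ : ℂ))⁻¹ • b with hc
  have hc1 : c ∈ sphere (0 : Fin (secDim F N) → ℂ) 1 := by simp [hc, norm_smul, hb0]
  have hsc : sec c ≠ 0 := fun h0 => by rw [sec_eq_zero_iff.1 h0] at hc1; simp at hc1
  have hsb : ∀ (c' : Fin (secDim F N) → ℂ) (W : Fin (genusFF ℂ F + genusFF ℂ F) → Place ℂ F),
      (c', (Fin.append W R) ∘ Fin.cast hN.symm) ∈ secGraph F N → ∀ v,
      OrdGE v (sec c') (pts R v - Finsupp.single (base F) (N : ℤ) v) := fun c' W hc' v => by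
    have e1 := congrArg (fun D => D v) hc'.2
    simp only [pts_comp_cast, pts_append, Finsupp.add_apply, divOf_apply] at e1
    have := Finsupp.le_def.1 (pts_nonneg W) v
    rw [Finsupp.coe_zero, Pi.zero_apply] at this
    exact ordGE_iff.2 (Or.inr (by omega))
  have hnn : 0 ≤ divOf ℂ (sec c) + Finsupp.single (base F) (N : ℤ) - pts R :=
    Finsupp.le_def.2 fun v => by
      have hall : OrdGE v (sec c) (pts R v - Finsupp.single (base F) (N : ℤ) v) := by
        rw [hc, hb, sec_smul, sec_add, sec_smul, sec_smul]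
        exact (((hsb c₁ _ hp.1 v).smul _).add ((hsb c₂ _ hp.2 v).smul _)).smul _
      have := hall.le_ord hsc
      rw [Finsupp.sub_apply, Finsupp.add_apply, divOf_apply, Finsupp.coe_zero, Pi.zero_apply]
      omega
  obtain ⟨T, hT⟩ := exists_pts_eq hnn (n := genusFF ℂ F + genusFF ℂ F) (by simp; omega)
  refine ⟨c, T, ⟨hc1, ?_⟩, ?_⟩
  · change divOf ℂ (sec c) + _ = _
    rw [pts_comp_cast, pts_append, hT]
    abel
  · rw [← hb, hc, smul_smul, mul_inv_cancel₀ (by simpa using hb0), one_smul]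

end LogData

end Fermat.JAC
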