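import Fermat.Agent.JAC.Sections
import Fermat.Agent.FF.LinearSystem
import Mathlib.Analysis.Complex.AbsMax
import Mathlib.Topology.Algebra.Group.Defs

/-!
# `Pic⁰` of a complex function field as a compact connected topological group

The topology `picTopology` is coinduced by the Abel map `abel` on `g`-tuples of points.
-/

set_option autoImplicit false

noncomputable section

open AlgebraicCurve Metric Filter Topology Set

namespace Fermat.JAC

open Fermat.FF

variable {F : Type*} [Field F] [Algebra ℂ F] [IsFunctionField ℂ F]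

/-- Linear equivalence of two tuples of points. -/
def PtsEquiv {m : ℕ} (A B : Fin m → Place ℂ F) : Prop :=
  ∃ f : F, f ≠ 0 ∧ pts A = pts B + divOf ℂ f

/-- Concatenation of tuples is continuous. -/
theorem continuous_finAppend {m n : ℕ} :
    Continuous fun p : (Fin m → Place ℂ F) × (Fin n → Place ℂ F) => Fin.append p.1 p.2 := by
  refine continuous_pi fun i => ?_
  refine Fin.addCases (fun j => ?_) (fun j => ?_) i
  · simp only [Fin.append_left]; fun_prop
  · simp only [Fin.append_right]; fun_prop

/-- A divisor of degree at least the genus is linearly equivalent to a tuple of points. -/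
theorem exists_pts_eq_add_divOf (D : Divisor ℂ F) {n : ℕ} (hdeg : Divisor.degree D = n)
    (hn : genusFF ℂ F ≤ n) :
    ∃ (R : Fin n → Place ℂ F) (f : F), f ≠ 0 ∧ pts R = D + divOf ℂ f := by
  have hne : ell D ≠ 0 := by
    have := riemann_inequality D
    rw [hdeg] at this
    omega
  obtain ⟨f, hf, hf0⟩ : ∃ f ∈ riemannRochSpace D, f ≠ 0 := by
    by_contra hcon
    push Not at hcon
    apply hne
    rw [ell, show riemannRochSpace D = ⊥ from (Submodule.eq_bot_iff _).2 hcon, finrank_bot]
  have hnn : 0 ≤ D + divOf ℂ f := Finsupp.le_def.2 fun v => by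
    have := ((mem_riemannRochSpace.1 hf) v).le_ord hf0
    rw [Finsupp.add_apply, divOf_apply, Finsupp.coe_zero, Pi.zero_apply]
    omega
  obtain ⟨R, hR⟩ := exists_pts_eq hnn (n := n) (by rw [map_add, hdeg, degree_divOf, add_zero])
  exact ⟨R, f, hf0, hR⟩

/-- A complementary tuple inside a large multiple of the base point. -/
theorem exists_complement {m : ℕ} (B : Fin m → Place ℂ F) {N k : ℕ} (hN : N = m + k)
    (hk : genusFF ℂ F ≤ k) :
    ∃ (R : Fin k → Place ℂ F) (f : F), f ≠ 0 ∧
      pts B + pts R = Finsupp.single (base F) (N : ℤ) + divOf ℂ f := by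
  obtain ⟨R, f, hf0, hR⟩ := exists_pts_eq_add_divOf (Finsupp.single (base F) (N : ℤ) - pts B)
    (by rw [map_sub, degree_pts]; simp [hN]) hk
  exact ⟨R, f, hf0, by rw [hR]; abel⟩

variable (F) in
/-- Linear equivalence of tuples is closed. -/
theorem isClosed_ptsEquiv (m : ℕ) :
    IsClosed {p : (Fin m → Place ℂ F) × (Fin m → Place ℂ F) | PtsEquiv p.1 p.2} := by
  set g := genusFF ℂ F
  set d := secDim F (m + g)
  -- `S`: sections of degree `m + g` vanishing at `A + R` and at `B + R`, for a complement `R`.
  let S : Set ((((Fin m → Place ℂ F) × (Fin m → Place ℂ F)) × (Fin g → Place ℂ F)) ×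
      ((Fin d → ℂ) × (Fin d → ℂ))) :=
    {q | (q.2.1, Fin.append q.1.1.1 q.1.2) ∈ secGraph F (m + g) ∧
      (q.2.2, Fin.append q.1.1.2 q.1.2) ∈ secGraph F (m + g)}
  have hSc : IsClosed S := by
    refine IsClosed.inter ?_ ?_
    · exact (isClosed_secGraph _).preimage ((continuous_fst.comp continuous_snd).prodMk
        (continuous_finAppend.comp (((continuous_fst.comp continuous_fst).comp
          continuous_fst).prodMk (continuous_snd.comp continuous_fst))))
    · exact (isClosed_secGraph _).preimage ((continuous_snd.comp continuous_snd).prodMk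
        (continuous_finAppend.comp (((continuous_snd.comp continuous_fst).comp
          continuous_fst).prodMk (continuous_snd.comp continuous_fst))))
  -- It is a closed set in a product of compact spaces.
  have hScompact : IsCompact S :=
    ((isCompact_univ.prod ((isCompact_sphere (0 : Fin d → ℂ) 1).prod
      (isCompact_sphere (0 : Fin d → ℂ) 1))).of_isClosed_subset hSc)
      fun q hq => ⟨trivial, hq.1.1, hq.2.1⟩
  -- The equivalent pairs are its image: the quotient of the two sections is the function.
  have heq : {p : (Fin m → Place ℂ F) × (Fin m → Place ℂ F) | PtsEquiv p.1 p.2} =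
      (fun q => q.1.1) '' S := by
    ext ⟨A, B⟩
    constructor
    · rintro ⟨f, hf, hAB⟩
      dsimp only at hAB
      obtain ⟨R, s, hs, hR⟩ := exists_complement B (N := m + g) rfl le_rfl
      obtain ⟨c', hc'⟩ := exists_mem_secGraph (T := Fin.append B R) hs
        (by rw [pts_append]; exact hR)
      obtain ⟨c, hc⟩ := exists_mem_secGraph (T := Fin.append A R) (mul_ne_zero hf hs)
        (by rw [pts_append, hAB, divOf_mul hf hs, add_right_comm, hR]; abel)
      exact ⟨(((A, B), R), (c, c')), ⟨hc, hc'⟩, rfl⟩
    · rintro ⟨⟨⟨⟨A', B'⟩, R⟩, c, c'⟩, ⟨⟨hn, hc⟩, hn', hc'⟩, heq⟩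
      simp only [Prod.mk.injEq] at heq
      obtain ⟨rfl, rfl⟩ := heq
      dsimp only at hn hc hn' hc'
      have h0 : sec c ≠ 0 := fun h0 => by
        rw [sec_eq_zero_iff] at h0; rw [h0] at hn; simp at hn
      have h0' : sec c' ≠ 0 := fun h0 => by
        rw [sec_eq_zero_iff] at h0; rw [h0] at hn'; simp at hn'
      refine ⟨sec c / sec c', div_ne_zero h0 h0', ?_⟩
      rw [pts_append] at hc hc'
      rw [div_eq_mul_inv, divOf_mul h0 (inv_ne_zero h0'), divOf_inv,
        eq_sub_of_add_eq hc.symm, eq_sub_of_add_eq hc'.symm]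
      abel
  rw [heq]
  exact (hScompact.image (continuous_fst.comp continuous_fst)).isClosed

/-- The tuple constantly equal to the base place. -/
abbrev baseTuple (F : Type*) [Field F] [Algebra ℂ F] [IsFunctionField ℂ F] :
    Fin (genusFF ℂ F) → Place ℂ F := fun _ => base F

/-- A tuple minus the base tuple has degree zero. -/
theorem pts_sub_baseTuple_mem (A : Fin (genusFF ℂ F) → Place ℂ F) :
    pts A - pts (baseTuple F) ∈ Divisor.degZero (K := ℂ) (F := F) := by
  rw [Divisor.mem_degZero]; simp

/-- The Abel map on `g`-tuples of points. -/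
def abel (A : Fin (genusFF ℂ F) → Place ℂ F) : Pic0 ℂ F :=
  Pic0.mk ⟨pts A - pts (baseTuple F), pts_sub_baseTuple_mem A⟩

/-- Two classes are equal iff their divisors differ by a principal one. -/
theorem pic0_mk_eq_iff {D E : Divisor.degZero (K := ℂ) (F := F)} :
    Pic0.mk D = Pic0.mk E ↔ ∃ f : F, f ≠ 0 ∧ (D : Divisor ℂ F) = E + divOf ℂ f := by
  rw [Pic0.mk, Pic0.mk, QuotientAddGroup.eq_iff_sub_mem, AddSubgroup.mem_addSubgroupOf,
    Divisor.mem_principal, Divisor.IsPrincipal]
  refine exists_congr fun f => and_congr_right fun _ => ?_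
  constructor
  · intro h
    ext v
    have := h v
    rw [AddSubgroupClass.coe_sub, Finsupp.sub_apply] at this
    rw [Finsupp.add_apply, divOf_apply]
    omega
  · intro h v
    rw [AddSubgroupClass.coe_sub, h, add_sub_cancel_left, divOf_apply]

/-- The fibres of the Abel map are linear equivalence classes. -/
theorem abel_eq_abel_iff {A B : Fin (genusFF ℂ F) → Place ℂ F} :
    abel A = abel B ↔ PtsEquiv A B := by
  rw [abel, abel, pic0_mk_eq_iff]
  refine exists_congr fun f => and_congr_right fun _ => ?_
  change pts A - pts (baseTuple F) = pts B - pts (baseTuple F) + divOf ℂ f ↔ _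
  rw [sub_add_eq_add_sub, sub_left_inj]

/-- Addition of classes as linear equivalence of tuples. -/
theorem abel_add_eq_iff {U V W : Fin (genusFF ℂ F) → Place ℂ F} :
    abel U + abel V = abel W ↔ PtsEquiv (Fin.append U V) (Fin.append W (baseTuple F)) := by
  rw [abel, abel, abel, ← Pic0.mk_add, pic0_mk_eq_iff]
  refine exists_congr fun f => and_congr_right fun _ => ?_
  change pts U - pts (baseTuple F) + (pts V - pts (baseTuple F)) =
    pts W - pts (baseTuple F) + divOf ℂ f ↔ _
  rw [pts_append, pts_append]
  constructor <;> intro h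
  · linear_combination (norm := abel) h
  · linear_combination (norm := abel) h

/-- The Abel map is surjective. -/
theorem surjective_abel : Function.Surjective (abel (F := F)) := by
  intro x
  obtain ⟨⟨D, hD⟩, rfl⟩ := Pic0.mk_surjective x
  rw [Divisor.mem_degZero] at hD
  obtain ⟨A, f, hf0, hA⟩ := exists_pts_eq_add_divOf (D + pts (baseTuple F))
    (by rw [map_add, hD, degree_pts, zero_add]) le_rfl
  refine ⟨A, ?_⟩
  rw [abel, pic0_mk_eq_iff]
  exact ⟨f, hf0, by change pts A - _ = D + _; rw [hA]; abel⟩

/-- The quotient topology from the Abel map. -/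
instance picTopology : TopologicalSpace (Pic0 ℂ F) :=
  TopologicalSpace.coinduced abel inferInstance

/-- The Abel map is continuous. -/
theorem continuous_abel : Continuous (abel (F := F)) := continuous_coinduced_rng

/-- The Abel map is a quotient map. -/
theorem isQuotientMap_abel : IsQuotientMap (abel (F := F)) :=
  ⟨⟨rfl⟩, surjective_abel⟩

/-- `Pic⁰` is compact. -/
instance : CompactSpace (Pic0 ℂ F) := surjective_abel.compactSpace continuous_abel

/-- The Abel map is closed. -/
theorem isClosedMap_abel : IsClosedMap (abel (F := F)) := by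
  intro C hC
  rw [← isQuotientMap_abel.isClosed_preimage]
  have : abel (F := F) ⁻¹' (abel '' C) = Prod.snd '' ({p | PtsEquiv p.1 p.2} ∩ C ×ˢ univ) := by
    ext A
    constructor
    · rintro ⟨B, hB, h⟩
      exact ⟨(B, A), ⟨abel_eq_abel_iff.1 h, hB, trivial⟩, rfl⟩
    · rintro ⟨⟨B, A'⟩, ⟨h, hB, -⟩, rfl⟩
      exact ⟨B, hB, abel_eq_abel_iff.2 h⟩
  rw [this]
  exact ((((isClosed_ptsEquiv F _).inter (hC.prod isClosed_univ)).isCompact).image
    continuous_snd).isClosed

/-- `Pic⁰` is Hausdorff. -/
instance : T2Space (Pic0 ℂ F) := by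
  refine ⟨fun x y hxy => ?_⟩
  have hcl : ∀ z : Pic0 ℂ F, IsClosed (abel (F := F) ⁻¹' {z}) := fun z => by
    obtain ⟨A, rfl⟩ := surjective_abel z
    have : abel (F := F) ⁻¹' {abel A} = (fun B => (B, A)) ⁻¹' {p | PtsEquiv p.1 p.2} := by
      ext B; simp [abel_eq_abel_iff]
    rw [this]
    exact (isClosed_ptsEquiv F _).preimage (continuous_id.prodMk continuous_const)
  obtain ⟨U, V, hU, hV, hxU, hyV, hUV⟩ := normal_separation (hcl x) (hcl y)
    ((disjoint_singleton.2 hxy).preimage _)
  refine ⟨(abel '' Uᶜ)ᶜ, (abel '' Vᶜ)ᶜ, (isClosedMap_abel _ hU.isClosed_compl).isOpen_compl,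
    (isClosedMap_abel _ hV.isClosed_compl).isOpen_compl, ?_, ?_, ?_⟩
  · rintro ⟨A, hA, rfl⟩; exact hA (hxU rfl)
  · rintro ⟨A, hA, rfl⟩; exact hA (hyV rfl)
  · rw [disjoint_left]
    intro z hzU hzV
    obtain ⟨A, rfl⟩ := surjective_abel z
    have hAU : A ∈ U := by_contra fun h => hzU ⟨A, h, rfl⟩
    have hAV : A ∈ V := by_contra fun h => hzV ⟨A, h, rfl⟩
    exact disjoint_left.1 hUV hAU hAV

/-- Linear equivalence after appending a fixed tuple is closed. -/
theorem isClosed_appendEquiv {m : ℕ} (E : Fin m → Place ℂ F) :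
    IsClosed {q : ((Fin m → Place ℂ F) × (Fin m → Place ℂ F)) × (Fin m → Place ℂ F) |
      PtsEquiv (Fin.append q.1.1 q.1.2) (Fin.append q.2 E)} := by
  have h1 : Continuous fun q : ((Fin m → Place ℂ F) × (Fin m → Place ℂ F)) ×
      (Fin m → Place ℂ F) => Fin.append q.1.1 q.1.2 :=
    continuous_finAppend.comp continuous_fst
  have h2 : Continuous fun q : ((Fin m → Place ℂ F) × (Fin m → Place ℂ F)) ×
      (Fin m → Place ℂ F) => Fin.append q.2 E :=
    continuous_finAppend.comp (g := fun p : (Fin m → Place ℂ F) × (Fin m → Place ℂ F) =>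
      Fin.append p.1 p.2) (f := fun q : ((Fin m → Place ℂ F) × (Fin m → Place ℂ F)) ×
      (Fin m → Place ℂ F) => (q.2, E)) (continuous_snd.prodMk continuous_const)
  exact IsClosed.preimage (h1.prodMk h2) (isClosed_ptsEquiv F (m + m))

/-- The sum of two values of the Abel map depends continuously on the tuples. -/
theorem continuous_abel_add : Continuous fun p : (Fin (genusFF ℂ F) → Place ℂ F) ×
    (Fin (genusFF ℂ F) → Place ℂ F) => abel p.1 + abel p.2 := by
  refine continuous_iff_isClosed.2 fun C hC => ?_
  let R : Set (((Fin (genusFF ℂ F) → Place ℂ F) × (Fin (genusFF ℂ F) → Place ℂ F)) ×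
      (Fin (genusFF ℂ F) → Place ℂ F)) :=
    {q | PtsEquiv (Fin.append q.1.1 q.1.2) (Fin.append q.2 (baseTuple F))} ∩
      Prod.snd ⁻¹' (abel ⁻¹' C)
  have hR : IsClosed R := IsClosed.inter (isClosed_appendEquiv (baseTuple F))
    ((hC.preimage continuous_abel).preimage continuous_snd)
  have heq : (fun p : (Fin (genusFF ℂ F) → Place ℂ F) × (Fin (genusFF ℂ F) → Place ℂ F) =>
      abel p.1 + abel p.2) ⁻¹' C = Prod.fst '' R := by
    ext p
    rw [mem_preimage, mem_image]
    constructor
    · intro h
      obtain ⟨W, hW⟩ := surjective_abel (abel p.1 + abel p.2)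
      refine ⟨(p, W), ⟨?_, ?_⟩, rfl⟩
      · exact abel_add_eq_iff.1 hW.symm
      · rw [mem_preimage, mem_preimage, hW]; exact h
    · rintro ⟨⟨q, W⟩, ⟨h, hW⟩, hq⟩
      subst hq
      rw [abel_add_eq_iff.2 h]
      exact hW
  rw [heq]
  exact (hR.isCompact.image continuous_fst).isClosed

/-- Addition is continuous. -/
instance : ContinuousAdd (Pic0 ℂ F) := by
  have hq : IsQuotientMap (Prod.map (abel (F := F)) (abel (F := F))) :=
    (continuous_abel.prodMap continuous_abel).isClosedMap.isQuotientMap
      (continuous_abel.prodMap continuous_abel) (surjective_abel.prodMap surjective_abel)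
  exact ⟨hq.continuous_iff.2 continuous_abel_add⟩

/-- Negation is continuous. -/
instance : ContinuousNeg (Pic0 ℂ F) := by
  refine ⟨continuous_iff_isClosed.2 fun C hC => ?_⟩
  have hcl : IsClosed ({p : Pic0 ℂ F × Pic0 ℂ F | p.1 + p.2 = 0} ∩ Prod.snd ⁻¹' C) :=
    (isClosed_eq continuous_add continuous_const).inter (hC.preimage continuous_snd)
  convert (hcl.isCompact.image continuous_fst).isClosed using 1
  ext x
  constructor
  · intro h; exact ⟨(x, -x), ⟨add_neg_cancel x, h⟩, rfl⟩
  · rintro ⟨⟨a, b⟩, ⟨h, hb⟩, rfl⟩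
    change -a ∈ C
    rwa [neg_eq_of_add_eq_zero_right h]

/-- `Pic⁰` is a topological group. -/
instance : IsTopologicalAddGroup (Pic0 ℂ F) where

/-- A nonconstant function with poles at one place at most. -/
theorem exists_nonconstant_pole_at (P : Place ℂ F) :
    ∃ f : F, f ∉ Set.range (algebraMap ℂ F) ∧ ∀ v, v ≠ P → OrdGE v f 0 := by
  set n : ℕ := 2 * genusFF ℂ F + 1
  have hdeg : Divisor.degree (Finsupp.single P (n : ℤ)) = 2 * (genusFF ℂ F : ℤ) + 1 := by
    rw [Divisor.degree_single, deg_eq_one]; simp [n]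
  have hell := ell_of_degree_ge (D := Finsupp.single P (n : ℤ)) (by omega)
  by_contra hcon
  push Not at hcon
  have hle : riemannRochSpace (Finsupp.single P (n : ℤ)) ≤
      LinearMap.range (Algebra.linearMap ℂ F) := fun f hf => by
    by_contra hf'
    obtain ⟨v, hv, hpole⟩ := hcon f fun ⟨c, hc⟩ => hf' ⟨c, hc⟩
    apply hpole
    simpa [Finsupp.single_eq_of_ne hv] using mem_riemannRochSpace.1 hf v
  have h1 : ell (Finsupp.single P (n : ℤ)) ≤ 1 :=
    (Submodule.finrank_mono hle).trans ((LinearMap.finrank_range_le _).trans_eq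
      (Module.finrank_self ℂ))
  rw [hdeg] at hell
  omega

/-- There are places. -/
instance : Nonempty (Place ℂ F) := nonempty_place ℂ F

/-- The space of places is preconnected: on a clopen set missing the only pole of a nonconstant
function, its modulus would have a maximum. -/
instance : PreconnectedSpace (Place ℂ F) := by
  rw [preconnectedSpace_iff_clopen]
  intro S hS
  by_contra hcon
  -- a clopen `S`, nonempty and missing a place `P`, and a function with its only pole at `P`
  rw [not_or, ← ne_eq, ← ne_eq, ← nonempty_iff_ne_empty, ne_univ_iff_exists_notMem] at hcon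
  obtain ⟨hne, P, hP⟩ := hcon
  obtain ⟨f, hf, hfP⟩ := exists_nonconstant_pole_at P
  have hreg : ∀ v ∈ S, OrdGE v f 0 := fun v hv => hfP v fun h => hP (h ▸ hv)
  have hcont : ContinuousOn (fun v => evalAt v f) S := by
    rw [OnePoint.isOpenEmbedding_coe.isEmbedding.isInducing.continuousOn_iff]
    exact (continuous_value f).continuousOn.congr fun v hv => (value_of_ordGE (hreg v hv)).symm
  -- the modulus of `f` attains a maximum on the compact set `S`, at `Q`
  obtain ⟨Q, hQS, hQmax⟩ := hS.1.isCompact.exists_isMaxOn hne hcont.norm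
  let ch := chartOf Q
  have hev : ∀ᶠ z in 𝓝 (0 : ℂ), ch.param z ∈ S := by
    have := (Chart.continuousAt_param (ch := ch) (mem_ball_self ch.ε_pos))
    rw [ContinuousAt, ch.param_zero] at this
    exact this.eventually (hS.2.mem_nhds hQS)
  have h0 : OrdGE (ch.param 0) f 0 := by rw [ch.param_zero]; exact hreg Q hQS
  -- in a chart at `Q` this is a local maximum of a holomorphic function, so `f` is locally constant
  have hd : ∀ᶠ z in 𝓝 (0 : ℂ), DifferentiableAt ℂ (ch.fn f) z := by
    filter_upwards [Chart.eventually_regular (mem_ball_self ch.ε_pos) h0,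
      isOpen_ball.mem_nhds (mem_ball_self ch.ε_pos)] with z hz hzb
    exact (Chart.analyticAt_fn hzb hz).differentiableAt
  have hmax : IsLocalMax (norm ∘ ch.fn f) 0 := by
    filter_upwards [hev] with z hz
    have := hQmax hz
    simp only [Function.comp, Chart.fn, ch.param_zero]
    exact this
  have hconst := Complex.eventually_eq_of_isLocalMax_norm hd hmax
  -- but `f - c` is a power of the parameter times a unit near `Q`
  set c := ch.fn f 0
  have hne' : f - algebraMap ℂ F c ≠ 0 := fun h => hf ⟨c, (sub_eq_zero.1 h).symm⟩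
  obtain ⟨u, hu, hu0, heq⟩ := Chart.exists_factor (ch := ch) hne' (mem_ball_self ch.ε_pos)
  have : ∀ᶠ z in 𝓝[≠] (0 : ℂ), False := by
    filter_upwards [heq, nhdsWithin_le_nhds hconst, nhdsWithin_le_nhds hev,
      nhdsWithin_le_nhds (hu.continuousAt.eventually_ne hu0), self_mem_nhdsWithin]
      with z hz hzc hzS hzu hz0
    have h1 := hz.2.2
    rw [Chart.fn, sub_eq_add_neg, ← map_neg, evalAt_add (hreg _ hzS) (ordGE_algebraMap _ _),
      evalAt_algebraMap] at h1
    rw [show evalAt (ch.param z) f = c from hzc, add_neg_cancel] at h1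
    exact mul_ne_zero (zpow_ne_zero _ (sub_ne_zero.2 hz0)) hzu h1.symm
  exact this.exists.choose_spec

/-- The space of places is connected. -/
instance : ConnectedSpace (Place ℂ F) where
  toNonempty := inferInstance

/-- `Pic⁰` is connected. -/
instance : ConnectedSpace (Pic0 ℂ F) := surjective_abel.connectedSpace continuous_abel

end Fermat.JAC
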