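import Fermat.Agent.JAC.QDiff

/-!
# Expansions of a correspondence of degree `ℓ` or `ℓ + 1`

The main results are `qdiff_corr_of_card_eq` and `qdiff_corr_of_card_succ`.
-/

set_option autoImplicit false
set_option linter.unusedSectionVars false

noncomputable section

open AlgebraicCurve ModularCurve

namespace Fermat.JAC

open Fermat.FF

variable {F F' : Type*} [Field F] [Algebra ℂ F] [IsFunctionField ℂ F]
  [Field F'] [Algebra ℂ F'] [IsFunctionField ℂ F'] {α β : F →ₐ[ℂ] F'}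
  {e₀ : F →ₐ[ℂ] LaurentSeries ℂ} {e : F' →ₐ[ℂ] LaurentSeries ℂ} {ℓ : ℕ} [NeZero ℓ] {u : ℂˣ}

/-- Along `β` all twisted expansions agree. -/
theorem twist_comp_beta (hβ : e.comp β = (qExpandC ℓ).comp e₀) (hu : IsPrimitiveRoot (u : ℂ) ℓ)
    (i : ℕ) (x : F) : twistC (u ^ i) (e (β x)) = qExpandC ℓ (e₀ x) := by
  have h : e (β x) = qExpandC ℓ (e₀ x) := DFunLike.congr_fun hβ x
  have h1 : (u ^ i) ^ ℓ = 1 := Units.ext (by
    rw [← pow_mul, mul_comm, pow_mul, Units.val_pow_eq_pow_val, Units.val_pow_eq_pow_val,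
      hu.pow_eq_one, one_pow, Units.val_one])
  rw [h, twistC_apply, qExpandC_apply, RED.twist_qExpand, h1, RED.twist_one_apply]

/-- The twisted embeddings are distinct. -/
theorem twist_comp_injective (hu : IsPrimitiveRoot (u : ℂ) ℓ) {y : F'}
    (hy : (e y).coeff (-1 : ℤ) ≠ 0) :
    Function.Injective fun i : Fin ℓ => (twistC (u ^ (i : ℕ))).comp e := fun i j h => by
  have h1 := congrArg (fun z => z.coeff (-1 : ℤ)) (DFunLike.congr_fun h y)
  simp only [AlgHom.comp_apply, twistC_apply, RED.twist_coeff, zpow_neg, zpow_one,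
    Units.val_inv_eq_inv_val, Units.val_pow_eq_pow_val] at h1
  exact Fin.ext (hu.pow_inj i.2 j.2 (inv_injective (mul_right_cancel₀ hy h1)))

/-- Summing over the twists extracts the coefficients divisible by `ℓ`. -/
theorem sum_twist_coeff (hα : e.comp α = e₀) (hu : IsPrimitiveRoot (u : ℂ) ℓ) (ω : Ω[F⁄ℂ]) (n : ℤ) :
    (∑ i : Fin ℓ, qdiff ((twistC (u ^ (i : ℕ))).comp e) (diffPull α ω)).coeff ((ℓ : ℤ) * n) =
      (ℓ : ℂ) * (qdiff e₀ ω).coeff ((ℓ : ℤ) * n) := by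
  have h1 : u ^ ℓ = 1 := Units.ext (by
    rw [Units.val_pow_eq_pow_val, hu.pow_eq_one, Units.val_one])
  have h2 : ∀ i : Fin ℓ, (qdiff ((twistC (u ^ (i : ℕ))).comp e) (diffPull α ω)).coeff ((ℓ : ℤ) * n)
      = (qdiff e₀ ω).coeff ((ℓ : ℤ) * n) := fun i => by
    rw [qdiff_diffPull, AlgHom.comp_assoc, hα, qdiff_twist, RED.twist_coeff,
      show ((u ^ (i : ℕ)) ^ ((ℓ : ℤ) * n) : ℂˣ) = 1 by
        rw [zpow_mul, zpow_natCast, ← pow_mul, mul_comm, pow_mul, h1, one_pow, one_zpow],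
      Units.val_one, one_mul]
  rw [HahnSeries.coeff_sum, Finset.sum_congr rfl fun i _ => h2 i, Finset.sum_const,
    Finset.card_univ, Fintype.card_fin, nsmul_eq_mul]

/-- Degree `ℓ`: extraction of every `ℓ`-th coefficient. -/
theorem qdiff_corr_of_card_eq (hα : e.comp α = e₀) (hβ : e.comp β = (qExpandC ℓ).comp e₀)
    (hu : IsPrimitiveRoot (u : ℂ) ℓ) {y : F'} (hy : (e y).coeff (-1 : ℤ) ≠ 0)
    (hcard : finrankAlong ℂ β = ℓ) (ω : Ω[F⁄ℂ]) (n : ℤ) :
    (qdiff e₀ (diffTr β (diffPull α ω))).coeff n = (qdiff e₀ ω).coeff ((ℓ : ℤ) * n) := by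
  have hsum := sum_twist_coeff hα hu ω n
  rw [← qdiff_diffTr β ((qExpandC ℓ).comp e₀) (fun i : Fin ℓ => (twistC (u ^ (i : ℕ))).comp e)
    (fun i x => twist_comp_beta hβ hu i x) (twist_comp_injective hu hy)
    (by rw [Fintype.card_fin, hcard]), qdiff_qExpand, HahnSeries.coeff_smul, qExpand_coeff_mul,
    smul_eq_mul] at hsum
  exact mul_left_cancel₀ (Nat.cast_ne_zero.mpr (NeZero.ne ℓ)) hsum

/-- Degree `ℓ + 1`, with a further embedding `τ`, which restricts to `q ↦ q^(ℓ²)` of a possibly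
different embedding `e₁` along `α`. -/
theorem qdiff_corr_of_card_succ (hℓ : ℓ ≠ 1) (hα : e.comp α = e₀)
    (hβ : e.comp β = (qExpandC ℓ).comp e₀) (hu : IsPrimitiveRoot (u : ℂ) ℓ) {x : F}
    (hx : (e₀ x).coeff (-1 : ℤ) ≠ 0) {τ : F' →ₐ[ℂ] LaurentSeries ℂ}
    (hτβ : τ.comp β = (qExpandC ℓ).comp e₀) {e₁ : F →ₐ[ℂ] LaurentSeries ℂ}
    (hτα : τ.comp α = (qExpandC (ℓ * ℓ)).comp e₁)
    (hcard : finrankAlong ℂ β = ℓ + 1) (ω : Ω[F⁄ℂ]) (n : ℤ) :
    (qdiff e₀ (diffTr β (diffPull α ω))).coeff n = (qdiff e₀ ω).coeff ((ℓ : ℤ) * n) +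
      if (ℓ : ℤ) ∣ n then (ℓ : ℂ) * (qdiff e₁ ω).coeff (n / ℓ) else 0 := by
  have hℓ' : (ℓ : ℂ) ≠ 0 := Nat.cast_ne_zero.mpr (NeZero.ne ℓ)
  have hy : (e (α x)).coeff (-1 : ℤ) ≠ 0 := by
    rwa [← AlgHom.comp_apply, hα]
  -- The twists of `e` and `τ` are all the extensions along `β`; compare coefficients.
  let σ : Option (Fin ℓ) → (F' →ₐ[ℂ] LaurentSeries ℂ) := fun o =>
    o.elim τ fun i => (twistC (u ^ (i : ℕ))).comp e
  have hne : ∀ i : Fin ℓ, (twistC (u ^ (i : ℕ))).comp e ≠ τ := fun i h => by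
    have h1 := congrArg (fun z => z.coeff (-1 : ℤ)) (DFunLike.congr_fun h (α x))
    simp only [AlgHom.comp_apply, twistC_apply, RED.twist_coeff] at h1
    rw [show τ (α x) = qExpand ℂ (ℓ * ℓ) (e₁ x) from DFunLike.congr_fun hτα x,
      qExpand_coeff_of_not_dvd] at h1
    · exact hy ((mul_eq_zero.mp h1).resolve_left (Units.ne_zero _))
    · intro hd
      have h2 := Int.natCast_dvd.mp hd
      simp only [Int.natAbs_neg, Int.natAbs_one, Nat.dvd_one] at h2
      exact hℓ (Nat.eq_one_of_mul_eq_one_right h2)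
  -- they are distinct
  have hinj : Function.Injective σ := by
    rintro (_ | i) (_ | j) h
    · rfl
    · exact absurd h.symm (hne j)
    · exact absurd h (hne i)
    · exact congrArg some (twist_comp_injective hu hy h)
  have hσ : ∀ o z, σ o (β z) = ((qExpandC ℓ).comp e₀) z := by
    rintro (_ | i) z
    · exact DFunLike.congr_fun hτβ z
    · exact twist_comp_beta hβ hu i z
  -- coefficients of the trace
  have key := congrArg (fun z => z.coeff ((ℓ : ℤ) * n))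
    (qdiff_diffTr β ((qExpandC ℓ).comp e₀) σ hσ hinj
      (by rw [Fintype.card_option, Fintype.card_fin, hcard]) (diffPull α ω))
  simp only [Fintype.sum_option, HahnSeries.coeff_add, σ, Option.elim] at key
  rw [sum_twist_coeff hα hu, qdiff_qExpand, HahnSeries.coeff_smul, qExpand_coeff_mul, smul_eq_mul,
    qdiff_diffPull, hτα, qdiff_qExpand, HahnSeries.coeff_smul, smul_eq_mul] at key
  refine mul_left_cancel₀ hℓ' (key.trans ?_)
  rw [mul_add, add_comm]
  congr 1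
  -- only exponents divisible by `ℓ` remain
  by_cases hn : (ℓ : ℤ) ∣ n
  · obtain ⟨m, rfl⟩ := hn
    rw [if_pos (dvd_mul_right _ m), show (ℓ : ℤ) * ((ℓ : ℤ) * m) = ((ℓ * ℓ : ℕ) : ℤ) * m by
      push_cast; ring, qExpand_coeff_mul,
      Int.mul_ediv_cancel_left _ (by exact_mod_cast NeZero.ne ℓ)]
    push_cast
    ring
  · rw [if_neg hn, qExpand_coeff_of_not_dvd, mul_zero, mul_zero]
    rintro ⟨m, hm⟩
    refine hn ⟨m, mul_left_cancel₀ (by exact_mod_cast NeZero.ne ℓ : (ℓ : ℤ) ≠ 0) ?_⟩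
    rw [hm]
    push_cast
    ring

end Fermat.JAC

end
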