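import Fermat.Agent.JAC.Torus

/-!
# Regular differentials and their local primitives

The space is `regDiff`, with `basis` that of the data and `intCh_diff` for its integrals.
-/

set_option autoImplicit false

noncomputable section

open AlgebraicCurve Metric Filter Set

namespace Fermat.JAC

open Fermat.FF

variable {F : Type*} [Field F] [Algebra ℂ F] [IsFunctionField ℂ F]

/-- Regularity is tested on the coefficient in each chart. -/
theorem isRegularDiff_iff_ordGE {ω : Ω[F⁄ℂ]} :
    IsRegularDiff ω ↔ ∀ v : Place ℂ F, OrdGE v ((chartOf v).coeff ω) 0 := by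
  refine forall_congr' fun v => ?_
  have hb := mem_ball_self (x := (0 : ℂ)) (chartOf v).ε_pos
  have h := Chart.ordDifferential_param hb ω
  rw [(chartOf v).param_zero] at h
  rw [h, ordGE_iff]
  refine ⟨Or.inr, ?_⟩
  rintro (h0 | h0)
  · rw [h0, Place.ord_zero]
  · exact h0

/-- The coefficient is linear over the constants. -/
theorem Chart.coeff_algebraMap_smul {P : Place ℂ F} (ch : Chart P) (c : ℂ) (ω : Ω[F⁄ℂ]) :
    ch.coeff (c • ω) = algebraMap ℂ F c * ch.coeff ω := by
  rw [← algebraMap_smul F c ω, Chart.coeff_smul']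

/-- The coefficient of zero is zero. -/
theorem Chart.coeff_zero {P : Place ℂ F} (ch : Chart P) : ch.coeff 0 = 0 :=
  Chart.coeff_eq (zero_smul _ _)

variable (F) in
/-- The space of regular differentials. -/
def regDiff : Submodule ℂ Ω[F⁄ℂ] where
  carrier := {ω | IsRegularDiff ω}
  zero_mem' := isRegularDiff_iff_ordGE.2 fun v => by
    rw [Chart.coeff_zero]; exact ordGE_zero _ _
  add_mem' := fun {a b} ha hb => isRegularDiff_iff_ordGE.2 fun v => by
    rw [Chart.coeff_add]
    exact (isRegularDiff_iff_ordGE.1 ha v).add (isRegularDiff_iff_ordGE.1 hb v)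
  smul_mem' := fun c ω hω => isRegularDiff_iff_ordGE.2 fun v => by
    rw [Chart.coeff_algebraMap_smul]
    simpa using (ordGE_algebraMap v c).mul (isRegularDiff_iff_ordGE.1 hω v)

variable (F) in
/-- The regular differentials have dimension the genus. -/
theorem finrank_finiteDimensional_regDiff :
    Module.finrank ℂ (regDiff F) = genusFF ℂ F ∧
      FiniteDimensional ℂ (regDiff F) := by
  obtain ⟨ω₀, hω₀⟩ := exists_ne (0 : Ω[F⁄ℂ])
  set W := canonicalDivisorOf hω₀ with hWdef
  have hW : IsCanonical W := isCanonical_canonicalDivisorOf hω₀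
  let e : riemannRochSpace W →ₗ[ℂ] regDiff F :=
    { toFun := fun f => ⟨(f : F) • ω₀, fun v => by
        rcases eq_or_ne (f : F) 0 with h0 | h0
        · have := (regDiff F).zero_mem v
          simpa [h0] using this
        · show 0 ≤ v.ordDifferential ((f : F) • ω₀)
          rw [ordDifferential_smul v h0 hω₀, ← canonicalDivisorOf_apply hω₀ v, ← hWdef]
          have := ((mem_riemannRochSpace.1 f.2) v).le_ord h0
          omega⟩
      map_add' := fun f g => Subtype.ext (by simp [add_smul])
      map_smul' := fun c f => Subtype.ext (by simp [smul_assoc]) }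
  have hinj : Function.Injective e := fun f g h =>
    Subtype.ext (smul_left_injective F hω₀ (congrArg Subtype.val h))
  have hsurj : Function.Surjective e := by
    rintro ⟨ω, hω⟩
    obtain ⟨c, hc⟩ := exists_smul_eq_of_finrank_eq_one IsCurveOver.finrank_kaehler hω₀ ω
    refine ⟨⟨c, mem_riemannRochSpace.2 fun v => ?_⟩, Subtype.ext hc⟩
    rcases eq_or_ne c 0 with h0 | h0
    · rw [h0]; exact ordGE_zero _ _
    · have h1 : 0 ≤ v.ordDifferential ω := hω v
      rw [← hc, ordDifferential_smul v h0 hω₀, ← canonicalDivisorOf_apply hω₀ v, ← hWdef] at h1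
      exact ordGE_iff.2 (Or.inr (by omega))
  let E := LinearEquiv.ofBijective e ⟨hinj, hsurj⟩
  exact ⟨by rw [← E.finrank_eq]; exact hW.2, Module.Finite.equiv E⟩

/-- The regular differentials have dimension the genus. -/
theorem finrank_regDiff : Module.finrank ℂ (regDiff F) = genusFF ℂ F :=
  (finrank_finiteDimensional_regDiff F).1

/-- The regular differentials are finite-dimensional. -/
instance : FiniteDimensional ℂ (regDiff F) := (finrank_finiteDimensional_regDiff F).2

/-- A regular differential has a primitive on each chart disc. -/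
theorem exists_prim {P : Place ℂ F} (ω : regDiff F) :
    ∃ G : ℂ → ℂ, G 0 = 0 ∧ ∀ z ∈ ball (0 : ℂ) (chartOf P).ε,
      HasDerivAt G ((chartOf P).fn ((chartOf P).coeff (ω : Ω[F⁄ℂ])) z) z :=
  (DifferentiableOn.isExactOn_ball fun _ hz => (Chart.analyticAt_fn hz
    (IsRegularDiff.ordGE_coeff ω.2 hz)).differentiableAt.differentiableWithinAt).with_val_at 0 0

/-- The primitive of a regular differential in the chart at `P`, vanishing at `P`. -/
def primAt (P : Place ℂ F) (ω : regDiff F) : ℂ → ℂ :=
  (ball (0 : ℂ) (chartOf P).ε).indicator (exists_prim (P := P) ω).choose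

/-- The derivative of the primitive is the coefficient. -/
theorem hasDerivAt_primAt {P : Place ℂ F} (ω : regDiff F) {z : ℂ}
    (hz : z ∈ ball (0 : ℂ) (chartOf P).ε) :
    HasDerivAt (primAt P ω) ((chartOf P).fn ((chartOf P).coeff (ω : Ω[F⁄ℂ])) z) z := by
  refine ((exists_prim (P := P) ω).choose_spec.2 z hz).congr_of_eventuallyEq ?_
  filter_upwards [isOpen_ball.mem_nhds hz] with x hx
  exact indicator_of_mem hx _

/-- The primitive vanishes at the centre. -/
@[simp] theorem primAt_zero (P : Place ℂ F) (ω : regDiff F) : primAt P ω 0 = 0 := by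
  rw [primAt, indicator_of_mem (mem_ball_self (chartOf P).ε_pos)]
  exact (exists_prim (P := P) ω).choose_spec.1

/-- Two functions with the same derivative on a disc and the same value at its centre agree. -/
theorem eq_of_hasDerivAt_ball {G H : ℂ → ℂ} {a : ℂ} {r : ℝ} {d : ℂ → ℂ}
    (hG : ∀ z ∈ ball a r, HasDerivAt G (d z) z) (hH : ∀ z ∈ ball a r, HasDerivAt H (d z) z)
    (h0 : G a = H a) {z : ℂ} (hz : z ∈ ball a r) : G z = H z := by
  have hd : ∀ x ∈ ball a r, HasDerivAt (fun y => G y - H y) 0 x := fun x hx =>
    ((hG x hx).fun_sub (hH x hx)).congr_deriv (sub_self _)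
  have h := (convex_ball a r).is_const_of_fderivWithin_eq_zero (𝕜 := ℂ)
    (f := fun y => G y - H y) (fun x hx => (hd x hx).differentiableAt.differentiableWithinAt)
    (fun x hx => by
      rw [fderivWithin_of_isOpen isOpen_ball hx, (hd x hx).hasFDerivAt.fderiv]; simp)
    (mem_ball_self ((dist_nonneg (x := z) (y := a)).trans_lt hz)) hz
  simp only [h0, sub_self] at h
  exact sub_eq_zero.1 h.symm

/-- The primitive is unique on any smaller disc. -/
theorem primAt_eq {P : Place ℂ F} (ω : regDiff F) {G : ℂ → ℂ} {r : ℝ}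
    (hr : r ≤ (chartOf P).ε) (h0 : G 0 = 0)
    (hG : ∀ z ∈ ball (0 : ℂ) r,
      HasDerivAt G ((chartOf P).fn ((chartOf P).coeff (ω : Ω[F⁄ℂ])) z) z)
    {z : ℂ} (hz : z ∈ ball (0 : ℂ) r) : primAt P ω z = G z :=
  eq_of_hasDerivAt_ball (fun _ hx => hasDerivAt_primAt ω (ball_subset_ball hr hx)) hG
    (by rw [primAt_zero, h0]) hz

/-- Integration from `P` to the point with coordinate `z` in the chart at `P`. -/
def intCh (P : Place ℂ F) (z : ℂ) : regDiff F →ₗ[ℂ] ℂ where
  toFun ω := primAt P ω z
  map_add' ω η := by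
    by_cases hz : z ∈ ball (0 : ℂ) (chartOf P).ε
    swap
    · simp [primAt, indicator_of_notMem hz]
    refine primAt_eq (ω + η) le_rfl (G := fun x => primAt P ω x + primAt P η x) (by simp)
      (fun x hx => ?_) hz
    refine ((hasDerivAt_primAt ω hx).add (hasDerivAt_primAt η hx)).congr_deriv ?_
    change _ = evalAt _ _
    rw [Submodule.coe_add, Chart.coeff_add, evalAt_add (IsRegularDiff.ordGE_coeff ω.2 hx)
      (IsRegularDiff.ordGE_coeff η.2 hx)]
    rfl
  map_smul' c ω := by
    by_cases hz : z ∈ ball (0 : ℂ) (chartOf P).ε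
    swap
    · simp [primAt, indicator_of_notMem hz]
    refine primAt_eq (c • ω) le_rfl (G := fun x => c * primAt P ω x) (by simp) (fun x hx => ?_) hz
    refine ((hasDerivAt_primAt ω hx).const_mul c).congr_deriv ?_
    change _ = evalAt _ _
    rw [Submodule.coe_smul, Chart.coeff_algebraMap_smul, evalAt_mul (ordGE_algebraMap _ _)
      (IsRegularDiff.ordGE_coeff ω.2 hx), evalAt_algebraMap]
    rfl

/-- Integration is the primitive. -/
theorem intCh_apply (P : Place ℂ F) (z : ℂ) (ω : regDiff F) : intCh P z ω = primAt P ω z := rfl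

/-- Integration to the centre is zero. -/
@[simp] theorem intCh_zero (P : Place ℂ F) : intCh P 0 = 0 :=
  LinearMap.ext fun ω => primAt_zero P ω

namespace LogData

variable (D : LogData F)

/-- The differentials of the data, as regular differentials. -/
def diff (i : Fin (genusFF ℂ F)) : regDiff F := ⟨D.ω i, D.ω_regular i⟩

/-- The differentials of the data are independent. -/
theorem linearIndependent_diff : LinearIndependent ℂ D.diff := by
  rw [Fintype.linearIndependent_iff]
  intro a ha
  by_contra hne
  push Not at hne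
  obtain ⟨i₀, hi₀⟩ := hne
  apply D.det_ne
  refine Matrix.exists_vecMul_eq_zero_iff.1 ⟨a, fun h => hi₀ (congrFun h i₀), funext fun j => ?_⟩
  have h : primAt (D.e j) (∑ i, a i • D.diff i) =
      fun z => ∑ i, a i * primAt (D.e j) (D.diff i) z := funext fun z => by
    rw [← intCh_apply, map_sum]
    simp only [map_smul, smul_eq_mul, intCh_apply]
  have hb := mem_ball_self (x := (0 : ℂ)) (chartOf (D.e j)).ε_pos
  have h1 : HasDerivAt (primAt (D.e j) (∑ i, a i • D.diff i))
      (∑ i, a i * (chartOf (D.e j)).fn ((chartOf (D.e j)).coeff (D.ω i)) 0) 0 := by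
    rw [h]
    exact HasDerivAt.fun_sum fun i _ => (hasDerivAt_primAt (D.diff i) hb).const_mul (a i)
  have h2 : HasDerivAt (primAt (D.e j) (0 : regDiff F)) 0 0 := by
    refine (hasDerivAt_primAt 0 hb).congr_deriv ?_
    rw [Submodule.coe_zero, Chart.coeff_zero, Chart.fn, ← map_zero (algebraMap ℂ F),
      evalAt_algebraMap]
  rw [ha] at h1
  have h3 := h1.unique h2
  simpa [Matrix.vecMul, dotProduct] using h3

/-- The basis of regular differentials of the data. -/
def basis : Module.Basis (Fin (genusFF ℂ F)) ℂ (regDiff F) :=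
  basisOfLinearIndependentOfCardEqFinrank' D.diff D.linearIndependent_diff
    (by rw [Fintype.card_fin, finrank_regDiff])

/-- The basis vectors are the differentials of the data. -/
@[simp] theorem basis_apply (i : Fin (genusFF ℂ F)) : D.basis i = D.diff i := by
  rw [basis, coe_basisOfLinearIndependentOfCardEqFinrank']

/-- The integrals of the basis differentials are the primitives of the data. -/
theorem intCh_diff {j : Fin (genusFF ℂ F)} {z : ℂ} (hz : z ∈ ball (0 : ℂ) D.r)
    (i : Fin (genusFF ℂ F)) : intCh (D.e j) z (D.diff i) = D.prim j i z :=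
  primAt_eq (D.diff i) (D.r_le j) (D.prim_zero j i) (fun _ hx => D.prim_deriv j i _ hx) hz

end LogData

end Fermat.JAC
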