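import Fermat.Agent.JAC.ChartMap
import Fermat.Agent.JAC.CoordExists
import Mathlib.Analysis.Complex.AbsMax

/-!
# Zero loci of sections depend continuously on the section

The incidence set is `secGraph`, closed by `isClosed_secGraph`.
-/

set_option autoImplicit false

noncomputable section

open AlgebraicCurve Metric Filter Topology Set

namespace Fermat.JAC

open Fermat.FF

section General

variable {K F : Type*} [Field K] [Field F] [Algebra K F]

/-- The divisor of a tuple of points. -/
def pts {n : ℕ} (T : Fin n → Place K F) : Divisor K F := ∑ i, Finsupp.single (T i) (1 : ℤ)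

/-- Multiplicities in the divisor of a tuple count entries. -/
theorem pts_apply [DecidableEq (Place K F)] {n : ℕ} (T : Fin n → Place K F) (P : Place K F) :
    pts T P = ((Finset.univ.filter fun i => T i = P).card : ℤ) := by
  simp [pts, Finsupp.finsetSum_apply, Finsupp.single_apply, Finset.sum_boole]

/-- The divisor of a tuple is effective. -/
theorem pts_nonneg {n : ℕ} (T : Fin n → Place K F) : 0 ≤ pts T := by
  classical
  exact Finsupp.le_def.2 fun P => by rw [pts_apply]; simp

/-- Concatenation adds divisors. -/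
theorem pts_append {m n : ℕ} (A : Fin m → Place K F) (B : Fin n → Place K F) :
    pts (Fin.append A B) = pts A + pts B := by
  simp [pts, Fin.sum_univ_add]

/-- The divisor of a tuple vanishes off its entries. -/
theorem pts_eq_zero_of_ne {n : ℕ} {T : Fin n → Place K F} {P : Place K F} (h : ∀ i, T i ≠ P) :
    pts T P = 0 := by
  classical
  rw [pts_apply, Finset.filter_false_of_mem fun i _ => h i]; simp

/-- Two tuples have the same divisor iff they differ by a permutation. -/
theorem pts_eq_iff_perm {n : ℕ} {A B : Fin n → Place K F} :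
    pts A = pts B ↔ ∃ σ : Equiv.Perm (Fin n), A = B ∘ σ := by
  classical
  constructor
  · intro h
    have hcard : ∀ P, (Finset.univ.filter fun i => A i = P).card =
        (Finset.univ.filter fun i => B i = P).card := fun P => by
      have := congrArg (fun D => D P) h
      simp only [pts_apply] at this
      exact_mod_cast this
    have e : ∀ P, {i // A i = P} ≃ {i // B i = P} := fun P =>
      Fintype.equivOfCardEq (by rw [Fintype.card_subtype, Fintype.card_subtype, hcard])
    refine ⟨(Equiv.sigmaFiberEquiv A).symm.trans ((Equiv.sigmaCongrRight e).trans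
      (Equiv.sigmaFiberEquiv B)), funext fun i => ?_⟩
    exact ((e (A i) ⟨i, rfl⟩).2).symm
  · rintro ⟨σ, rfl⟩
    exact Equiv.sum_comp σ fun i => Finsupp.single (B i) (1 : ℤ)

variable [IsAlgClosed K] [IsFunctionField K F]

/-- The divisor of an `n`-tuple has degree `n`. -/
@[simp]
theorem degree_pts {n : ℕ} (T : Fin n → Place K F) : Divisor.degree (pts T) = n := by
  simp [pts]

/-- An effective divisor of degree at most zero is zero. -/
theorem eq_zero_of_nonneg_of_degree_le {D : Divisor K F} (hD : 0 ≤ D)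
    (h : Divisor.degree D ≤ 0) : D = 0 := by
  rw [degree_eq_sum, Finsupp.sum] at h
  ext v
  by_contra hv
  have hpos : ∀ w ∈ D.support, 0 ≤ D w := fun w _ => Finsupp.le_def.1 hD w
  have h1 := Finset.single_le_sum hpos (Finsupp.mem_support_iff.2 hv)
  have h2 := Finsupp.le_def.1 hD v
  simp only [Finsupp.coe_zero, Pi.zero_apply] at h2 hv
  omega

/-- An effective divisor of degree `n` is that of an `n`-tuple. -/
theorem exists_pts_eq {D : Divisor K F} (hD : 0 ≤ D) {n : ℕ} (hn : Divisor.degree D = n) :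
    ∃ T : Fin n → Place K F, pts T = D := by
  classical
  induction n generalizing D with
  | zero =>
    refine ⟨Fin.elim0, ?_⟩
    rw [eq_zero_of_nonneg_of_degree_le hD (le_of_eq (by simpa using hn))]
    simp [pts]
  | succ n ih =>
    obtain ⟨v, hv⟩ : ∃ v, D v ≠ 0 := by
      by_contra h
      push Not at h
      rw [show D = 0 from Finsupp.ext fun v => by simpa using h v, map_zero] at hn
      omega
    have hle : 0 ≤ D - Finsupp.single v 1 := Finsupp.le_def.2 fun w => by
      have := Finsupp.le_def.1 hD w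
      rw [Finsupp.sub_apply]
      by_cases hw : v = w
      · subst hw; simp at this ⊢; omega
      · simpa [Finsupp.single_eq_of_ne (Ne.symm hw)] using this
    obtain ⟨T, hT⟩ := ih hle (by rw [map_sub, hn]; simp)
    refine ⟨Fin.cons v T, ?_⟩
    simp only [pts, Fin.sum_univ_succ, Fin.cons_zero, Fin.cons_succ]
    rw [show ∑ i, Finsupp.single (T i) (1 : ℤ) = D - Finsupp.single v 1 from hT]
    abel

end General

variable {F : Type*} [Field F] [Algebra ℂ F] [IsFunctionField ℂ F]

variable (F) in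
/-- A fixed base place. -/
def base : Place ℂ F := (nonempty_place ℂ F).some

variable (F) in
/-- The dimension of the space of sections of `N · base`. -/
def secDim (N : ℕ) : ℕ := ell (Finsupp.single (base F) (N : ℤ))

variable (F) in
/-- A basis of `L(N · base)`. -/
def secBasis (N : ℕ) :
    Module.Basis (Fin (secDim F N)) ℂ (riemannRochSpace (Finsupp.single (base F) (N : ℤ))) :=
  Module.finBasis ℂ _

/-- The section with given coordinates. -/
def sec {N : ℕ} (c : Fin (secDim F N) → ℂ) : F := ∑ i, c i • (secBasis F N i : F)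

/-- The section as an element of the Riemann–Roch space. -/
theorem sec_eq_coe {N : ℕ} (c : Fin (secDim F N) → ℂ) :
    sec c = ((secBasis F N).equivFun.symm c : F) := by
  simp [sec, Module.Basis.equivFun_symm_apply]

/-- A section vanishes iff its coordinates do. -/
theorem sec_eq_zero_iff {N : ℕ} {c : Fin (secDim F N) → ℂ} : sec c = 0 ↔ c = 0 := by
  rw [sec_eq_coe, ZeroMemClass.coe_eq_zero, LinearEquiv.map_eq_zero_iff]

/-- Every element of the Riemann–Roch space is a section. -/
theorem exists_sec_eq {N : ℕ} {s : F}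
    (hs : s ∈ riemannRochSpace (Finsupp.single (base F) (N : ℤ))) : ∃ c, sec (N := N) c = s :=
  ⟨(secBasis F N).equivFun ⟨s, hs⟩, by rw [sec_eq_coe, LinearEquiv.symm_apply_apply]⟩

/-- Sections are additive in the coordinates. -/
theorem sec_add {N : ℕ} (c d : Fin (secDim F N) → ℂ) : sec (c + d) = sec c + sec d := by
  simp [sec, add_smul, Finset.sum_add_distrib]

/-- Sections are homogeneous in the coordinates. -/
theorem sec_smul {N : ℕ} (a : ℂ) (c : Fin (secDim F N) → ℂ) : sec (a • c) = a • sec c := by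
  simp [sec, Finset.smul_sum, smul_smul]

variable (F) in
/-- Unit sections together with their zero loci. -/
def secGraph (N : ℕ) : Set ((Fin (secDim F N) → ℂ) × (Fin N → Place ℂ F)) :=
  {p | p.1 ∈ sphere 0 1 ∧ divOf ℂ (sec p.1) + Finsupp.single (base F) (N : ℤ) = pts p.2}

/-- A small punctured disc around a point meets no base point. -/
theorem exists_disc_avoid_base (N : ℕ) (P : Place ℂ F) :
    ∃ r > 0, r < (chartOf P).ε ∧ ∀ z ∈ ball (0 : ℂ) r, z ≠ 0 →
      Finsupp.single (base F) (N : ℤ) ((chartOf P).param z) = 0 := by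
  classical
  let ch := chartOf P
  have hev : ∀ᶠ z in 𝓝 (0 : ℂ), z ≠ 0 → Finsupp.single (base F) (N : ℤ) (ch.param z) = 0 := by
    by_cases hP : P = base F
    · filter_upwards [isOpen_ball.mem_nhds (mem_ball_self ch.ε_pos)] with z hz hz0
      rw [Finsupp.single_eq_of_ne]
      intro hb
      exact hz0 (ch.injOn_param hz (mem_ball_self ch.ε_pos) (by rw [hb, Chart.param_zero, hP]))
    · have hne : ch.param 0 ≠ base F := by rw [Chart.param_zero]; exact hP
      filter_upwards [(Chart.continuousAt_param (mem_ball_self ch.ε_pos)).eventually_ne hne]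
        with z hz _
      rw [Finsupp.single_eq_of_ne hz]
  obtain ⟨r, hr, hr'⟩ := Metric.eventually_nhds_iff_ball.1 hev
  exact ⟨min r (ch.ε / 2), lt_min hr (half_pos ch.ε_pos),
    (min_le_right _ _).trans_lt (half_lt_self ch.ε_pos),
    fun z hz => hr' z (ball_subset_ball (min_le_left _ _) hz)⟩

variable {P : Place ℂ F}

/-- The coordinate does not vanish away from the centre. -/
theorem ord_t_param_eq_zero {z : ℂ} (hz : z ∈ ball (0 : ℂ) (chartOf P).ε) (hz0 : z ≠ 0) :
    ((chartOf P).param z).ord (chartOf P).t = 0 := by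
  set ch := chartOf P
  have ht0 : ch.t ≠ 0 := fun h0 => by
    have := ch.ord_t; rw [h0, Place.ord_zero] at this; omega
  have hval := Chart.value_t_param (ch := ch) hz
  have hreg : OrdGE (ch.param z) ch.t 0 := value_ne_infty_iff.1 (by simp [hval])
  by_contra hne
  rw [value_eq_zero_iff.2 (Or.inr (lt_of_le_of_ne (hreg.le_ord ht0) (Ne.symm hne))),
    OnePoint.coe_eq_coe] at hval
  exact hz0 hval.symm

/-- A combination of functions regular at a point of the chart is regular there, with the expected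
value. -/
theorem fn_sum_smul {ι : Type*} (s : Finset ι) (c : ι → ℂ) {σ : ι → F} {z : ℂ}
    (h : ∀ i ∈ s, OrdGE ((chartOf P).param z) (σ i) 0) :
    OrdGE ((chartOf P).param z) (∑ i ∈ s, c i • σ i) 0 ∧
      (chartOf P).fn (∑ i ∈ s, c i • σ i) z = ∑ i ∈ s, c i * (chartOf P).fn (σ i) z := by
  classical
  induction s using Finset.induction_on with
  | empty =>
    simp only [Finset.sum_empty]
    exact ⟨ordGE_zero _ _, by rw [Chart.fn, ← map_zero (algebraMap ℂ F), evalAt_algebraMap]⟩
  | insert i s hi ih =>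
    obtain ⟨ih1, ih2⟩ := ih fun j hj => h j (Finset.mem_insert_of_mem hj)
    rw [Finset.sum_insert hi, Finset.sum_insert hi]
    have h0 := h i (Finset.mem_insert_self i s)
    have h1 := h0.smul (c i)
    refine ⟨h1.add ih1, ?_⟩
    change evalAt _ _ = _
    rw [evalAt_add h1 ih1, Algebra.smul_def, evalAt_mul (ordGE_algebraMap _ _) h0,
      evalAt_algebraMap, ← ih2]
    rfl

/-- **Factoring out zeros**: a function regular on a disc with zeros at least at the given points is
their linear factors times a function regular on the disc. -/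
theorem exists_eq_prod_mul_fn {ι : Type*} {s : Finset ι} {T : ι → Place ℂ F} {r : ℝ}
    (hr : r ≤ (chartOf P).ε) {g : F} (hg : g ≠ 0) (hTd : ∀ i ∈ s, T i ∈ (chartOf P).domain)
    (hord : ∀ w ∈ ball (0 : ℂ) r, ∀ J ⊆ s, (∀ i ∈ J, T i = (chartOf P).param w) →
      (J.card : ℤ) ≤ ((chartOf P).param w).ord g) :
    ∃ q : F, ∀ w ∈ ball (0 : ℂ) r, OrdGE ((chartOf P).param w) q 0 ∧
      (chartOf P).fn g w =
        (∏ i ∈ s, (w - (chartOf P).coord (T i))) * (chartOf P).fn q w := by
  classical
  set ch := chartOf P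
  have hsub : ball (0 : ℂ) r ⊆ ball 0 ch.ε := ball_subset_ball hr
  set π : F := ∏ i ∈ s, (ch.t - algebraMap ℂ F (ch.coord (T i))) with hπ
  have hfac0 : ∀ i ∈ s, ch.t - algebraMap ℂ F (ch.coord (T i)) ≠ 0 := fun i hi h0 => by
    have := Chart.ord_t_sub_param (ch := ch) (Chart.coord_mem_ball (hTd i hi))
    rw [h0, Place.ord_zero] at this; omega
  have hπ0 : π ≠ 0 := Finset.prod_ne_zero_iff.2 hfac0
  have hlin : ∀ w ∈ ball (0 : ℂ) r, ∀ a : ℂ,
      value (ch.param w) (ch.t - algebraMap ℂ F a) = ((w - a : ℂ) : OnePoint ℂ) :=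
    fun w hw a => value_sub _ (Chart.value_t_param (hsub hw)) (value_algebraMap _ _)
  refine ⟨g / π, fun w hw => ?_⟩
  -- the quotient is regular on the disc
  have hreg : OrdGE (ch.param w) (g / π) 0 := by
    rw [ordGE_iff_of_ne (div_ne_zero hg hπ0), ord_div _ hg hπ0, hπ, ord_prod _ _ _ hfac0,
      sub_nonneg]
    refine le_trans ?_ (hord w hw (s.filter fun i => T i = ch.param w) (Finset.filter_subset _ _)
      fun i hi => (Finset.mem_filter.1 hi).2)
    rw [Finset.card_filter, Nat.cast_sum]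
    refine Finset.sum_le_sum fun i hi => ?_
    split_ifs with hTi
    · rw [hTi, Chart.coord_param (hsub hw), Chart.ord_t_sub_param (hsub hw)]; simp
    · have hne : w - ch.coord (T i) ≠ 0 := fun h0 => hTi (by
        rw [sub_eq_zero.1 h0, Chart.param_coord (hTd i hi)])
      have hle := (value_ne_infty_iff.1 (by simp [hlin w hw]) :
        OrdGE (ch.param w) (ch.t - algebraMap ℂ F (ch.coord (T i))) 0).le_ord (hfac0 i hi)
      rcases hle.lt_or_eq with hlt | heq
      · have := hlin w hw (ch.coord (T i))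
        rw [value_eq_zero_iff.2 (Or.inr hlt), OnePoint.coe_eq_coe] at this
        exact absurd this.symm hne
      · rw [← heq]; simp
  refine ⟨hreg, ?_⟩
  -- the value of the product at `w`
  have hv : ∀ J : Finset ι, value (ch.param w)
      (∏ i ∈ J, (ch.t - algebraMap ℂ F (ch.coord (T i)))) =
      ((∏ i ∈ J, (w - ch.coord (T i)) : ℂ) : OnePoint ℂ) := fun J => by
    induction J using Finset.induction_on with
    | empty => simpa using value_algebraMap (ch.param w) (1 : ℂ)
    | insert i J hi ih =>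
      rw [Finset.prod_insert hi, Finset.prod_insert hi]
      exact value_mul _ (hlin w hw _) ih
  change evalAt _ _ = _
  conv_lhs => rw [← mul_div_cancel₀ g hπ0]
  rw [evalAt_mul (value_ne_infty_iff.1 (by simp [hπ, hv s])) hreg, hπ, evalAt_of_value (hv s)]
  rfl

/-- **Maximum principle with given zeros**: a function equal to linear factors with roots in the
half disc times a holomorphic one is small where the linear factors are. -/
theorem norm_le_prod_mul_of_factor {ι : Type*} {s : Finset ι} {a : ι → ℂ} {ρ B : ℝ} (hρ : 0 < ρ)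
    (ha : ∀ i ∈ s, ‖a i‖ < ρ / 2) {f G : ℂ → ℂ} (hG : DiffContOnCl ℂ G (ball 0 ρ))
    (hf : ∀ w ∈ closedBall (0 : ℂ) ρ, f w = (∏ i ∈ s, (w - a i)) * G w)
    (hB : ∀ w ∈ closedBall (0 : ℂ) ρ, ‖f w‖ ≤ B) {z : ℂ} (hz : z ∈ closedBall (0 : ℂ) ρ) :
    ‖f z‖ ≤ (∏ i ∈ s, ‖z - a i‖) * (B / (ρ / 2) ^ s.card) := by
  have hfront : ∀ w ∈ frontier (ball (0 : ℂ) ρ), ‖G w‖ ≤ B / (ρ / 2) ^ s.card := fun w hw => by
    rw [frontier_ball _ hρ.ne', mem_sphere_zero_iff_norm] at hw
    have hw' : w ∈ closedBall (0 : ℂ) ρ := by simp [hw]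
    have hlow : (ρ / 2) ^ s.card ≤ ∏ i ∈ s, ‖w - a i‖ := by
      rw [← Finset.prod_const]
      refine Finset.prod_le_prod (fun _ _ => (half_pos hρ).le) fun i hi => ?_
      have := norm_sub_norm_le w (a i)
      have := ha i hi
      linarith
    have := hB w hw'
    rw [hf w hw', norm_mul, norm_prod] at this
    rw [le_div_iff₀ (pow_pos (half_pos hρ) _), mul_comm]
    exact (mul_le_mul_of_nonneg_right hlow (norm_nonneg _)).trans this
  have hG_le : ‖G z‖ ≤ B / (ρ / 2) ^ s.card :=
    Complex.norm_le_of_forall_mem_frontier_norm_le isBounded_ball hG hfront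
      (by rwa [closure_ball _ hρ.ne'])
  rw [hf z hz, norm_mul, norm_prod]
  exact mul_le_mul_of_nonneg_left hG_le (Finset.prod_nonneg fun _ _ => norm_nonneg _)

/-- A bound by a power of the coordinate near the centre bounds the order below. -/
theorem le_ord_of_norm_fn_le {g : F} (hg : g ≠ 0) (hreg : OrdGE P g 0) {m : ℕ} {C : ℝ}
    (h : ∀ᶠ x in 𝓝 (0 : ℂ), ‖(chartOf P).fn g x‖ ≤ ‖x‖ ^ m * C) : (m : ℤ) ≤ P.ord g := by
  by_contra hlt
  push Not at hlt
  obtain ⟨u, hu, hu0, heq⟩ := Chart.exists_factor (ch := chartOf P) hg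
    (mem_ball_self (chartOf P).ε_pos)
  rw [(chartOf P).param_zero] at heq
  obtain ⟨k, hk⟩ := Int.eq_ofNat_of_zero_le (hreg.le_ord hg)
  rw [hk] at hlt heq
  have hkm : k < m := by exact_mod_cast hlt
  apply hu0
  rw [← norm_eq_zero]
  refine le_antisymm ?_ (norm_nonneg _)
  have hR : Tendsto (fun x : ℂ => ‖x‖ ^ (m - k) * C) (𝓝[≠] 0) (𝓝 0) := by
    refine tendsto_nhdsWithin_of_tendsto_nhds ?_
    have : Continuous fun x : ℂ => ‖x‖ ^ (m - k) * C := by fun_prop
    simpa [Nat.sub_ne_zero_of_lt hkm] using this.tendsto 0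
  refine le_of_tendsto_of_tendsto (tendsto_nhdsWithin_of_tendsto_nhds hu.continuousAt.norm) hR ?_
  filter_upwards [heq, self_mem_nhdsWithin, nhdsWithin_le_nhds h] with x hx hxne h2
  rw [hx.2.2, sub_zero, zpow_natCast, norm_mul, norm_pow,
    ← Nat.add_sub_cancel' hkm.le, pow_add, mul_assoc] at h2
  exact le_of_mul_le_mul_left h2 (pow_pos (norm_pos_iff.2 hxne) _)

/-- The coordinates of a tuple's entries tend to `0` at a tuple with those entries equal to `P`. -/
theorem tendsto_coord_apply {N : ℕ} {c₀ : Fin (secDim F N) → ℂ} {T₀ : Fin N → Place ℂ F}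
    {i : Fin N} (hi : T₀ i = P) :
    (∀ᶠ p : (Fin (secDim F N) → ℂ) × (Fin N → Place ℂ F) in 𝓝 (c₀, T₀),
      p.2 i ∈ (chartOf P).domain) ∧
    Tendsto (fun p : (Fin (secDim F N) → ℂ) × (Fin N → Place ℂ F) => (chartOf P).coord (p.2 i))
      (𝓝 (c₀, T₀)) (𝓝 0) := by
  set ch := chartOf P
  have hc : Continuous fun p : (Fin (secDim F N) → ℂ) × (Fin N → Place ℂ F) => p.2 i := by
    fun_prop
  have hdom := ch.isOpen_domain.mem_nhds ch.mem_domain_self
  have h0 : ch.coord P = 0 :=
    (congrArg ch.coord ch.param_zero.symm).trans (Chart.coord_param (mem_ball_self ch.ε_pos))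
  refine ⟨(hc.tendsto' (c₀, T₀) P hi).eventually hdom, ?_⟩
  exact h0 ▸ ((Chart.continuousOn_coord (ch := ch)).continuousAt hdom).tendsto.comp
    (hc.tendsto' (c₀, T₀) P hi)

/-- Semicontinuity of the order of vanishing. -/
theorem pts_le_of_mem_closure {N : ℕ} {c₀ : Fin (secDim F N) → ℂ} {T₀ : Fin N → Place ℂ F}
    (h : (c₀, T₀) ∈ closure (secGraph F N)) (hc₀ : sec c₀ ≠ 0) (P : Place ℂ F) :
    pts T₀ P ≤ P.ord (sec c₀) + Finsupp.single (base F) (N : ℤ) P := by
  classical
  set M := Finsupp.single (base F) (N : ℤ) with hM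
  obtain ⟨r, hr0, hrε, hrbase⟩ := exists_disc_avoid_base N P
  let ch := chartOf P
  have ht0 : ch.t ≠ 0 := fun h0 => by
    have := ch.ord_t; rw [h0, Place.ord_zero] at this; omega
  -- clearing the pole at the centre
  set e := (M P).toNat with he
  have hMP : (e : ℤ) = M P := Int.toNat_of_nonneg (by
    rw [hM, Finsupp.single_apply]; split_ifs <;> simp)
  have hte : ch.t ^ e ≠ 0 := pow_ne_zero _ ht0
  have hordte : ∀ z ∈ ball (0 : ℂ) r, (ch.param z).ord (ch.t ^ e) = M (ch.param z) := fun z hz => by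
    rw [ord_pow]
    by_cases hz0 : z = 0
    · subst hz0
      rw [Chart.param_zero, ch.ord_t, mul_one, hMP]
    · rw [ord_t_param_eq_zero (ball_subset_ball hrε.le hz) hz0, mul_zero, hrbase z hz hz0]
  set σ : Fin (secDim F N) → F := fun i => (secBasis F N i : F) * ch.t ^ e with hσ
  have hσreg : ∀ i, ∀ z ∈ ball (0 : ℂ) r, OrdGE (ch.param z) (σ i) 0 := fun i z hz => by
    have h1 := mem_riemannRochSpace.1 (secBasis F N i).2 (ch.param z)
    have h2 : OrdGE (ch.param z) (ch.t ^ e) (M (ch.param z)) := by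
      rw [← hordte z hz]; exact ordGE_ord _ _
    simpa [hσ, ← hM] using h1.mul h2
  have hfn : ∀ (c : Fin (secDim F N) → ℂ), ∀ z ∈ ball (0 : ℂ) r,
      OrdGE (ch.param z) (sec c * ch.t ^ e) 0 ∧
      ch.fn (sec c * ch.t ^ e) z = ∑ i, c i * ch.fn (σ i) z := fun c z hz => by
    rw [show sec c * ch.t ^ e = ∑ i, c i • σ i by simp [sec, hσ, Finset.sum_mul]]
    exact fn_sum_smul _ c fun i _ => hσreg i z hz
  -- the bound on a smaller disc
  set I := Finset.univ.filter fun i => T₀ i = P with hI
  rw [pts_apply, ← hI]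
  set ρ := r / 2 with hρ
  have hρ0 : 0 < ρ := half_pos hr0
  have hcl : closedBall (0 : ℂ) ρ ⊆ ball 0 r := closedBall_subset_ball (half_lt_self hr0)
  have han : ∀ {g : F}, (∀ w ∈ ball (0 : ℂ) r, OrdGE (ch.param w) g 0) →
      ∀ w ∈ closedBall (0 : ℂ) ρ, AnalyticAt ℂ (ch.fn g) w := fun hg w hw =>
    Chart.analyticAt_fn (ball_subset_ball hrε.le (hcl hw)) (hg w (hcl hw))
  choose B hB using fun i => (isCompact_closedBall (0 : ℂ) ρ).exists_bound_of_continuousOn
    fun w hw => (han (hσreg i) w hw).continuousAt.continuousWithinAt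
  set C := (∑ i, |B i|) / (ρ / 2) ^ I.card with hC
  have key : ∀ p ∈ secGraph F N, (∀ i ∈ I, p.2 i ∈ ch.domain ∧ ‖ch.coord (p.2 i)‖ < ρ / 2) →
      ∀ z ∈ closedBall (0 : ℂ) ρ,
        ‖∑ i, p.1 i * ch.fn (σ i) z‖ ≤ (∏ i ∈ I, ‖z - ch.coord (p.2 i)‖) * C := by
    rintro ⟨c, T⟩ ⟨hc, hdiv⟩ hT z hz
    dsimp only at hc hdiv hT ⊢
    have hc0 : sec c ≠ 0 := fun h0 => by
      rw [sec_eq_zero_iff] at h0; rw [h0] at hc; simp at hc
    obtain ⟨q, hq⟩ := exists_eq_prod_mul_fn (T := T) hrε.le (mul_ne_zero hc0 hte)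
      (fun i hi => (hT i hi).1) (fun w hw J _ hJ => by
        rw [Place.ord_mul _ hc0 hte, hordte w hw, ← divOf_apply, ← Finsupp.add_apply, hdiv,
          pts_apply]
        exact Nat.cast_le.2 (Finset.card_le_card fun i hi =>
          Finset.mem_filter.2 ⟨Finset.mem_univ i, hJ i hi⟩))
    refine norm_le_prod_mul_of_factor hρ0 (fun i hi => (hT i hi).2) (G := ch.fn q) ⟨?_, ?_⟩
      (f := fun w => ∑ i, c i * ch.fn (σ i) w) (fun w hw => ?_) (fun w hw => ?_) hz
    · exact fun w hw => (han (fun w hw => (hq w hw).1) w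
        (ball_subset_closedBall hw)).differentiableAt.differentiableWithinAt
    · rw [closure_ball _ hρ0.ne']
      exact fun w hw => (han (fun w hw => (hq w hw).1) w hw).continuousAt.continuousWithinAt
    · rw [← (hfn c w (hcl hw)).2]
      exact (hq w (hcl hw)).2
    · refine (norm_sum_le _ _).trans (Finset.sum_le_sum fun i _ => ?_)
      rw [norm_mul]
      exact (mul_le_of_le_one_left (norm_nonneg _) ((norm_le_pi_norm c i).trans
        (mem_sphere_zero_iff_norm.1 hc).le)).trans ((hB i w hw).trans (le_abs_self _))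
  -- passing to the limit
  have hlim : ∀ z ∈ closedBall (0 : ℂ) ρ,
      ‖∑ i, c₀ i * ch.fn (σ i) z‖ ≤ ‖z‖ ^ I.card * C := by
    intro z hz
    have : NeBot (𝓝[secGraph F N] (c₀, T₀)) := mem_closure_iff_nhdsWithin_neBot.1 h
    have htc := fun i (hi : i ∈ I) =>
      tendsto_coord_apply (c₀ := c₀) (Finset.mem_filter.1 hi).2
    have hev := (eventually_all_finset I).2 fun i hi => (htc i hi).1.and
      ((htc i hi).2.norm.eventually_lt tendsto_const_nhds (by rw [norm_zero]; exact half_pos hρ0))
    refine le_of_tendsto_of_tendsto (b := 𝓝[secGraph F N] (c₀, T₀))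
      (f := fun p => ‖∑ i, p.1 i * ch.fn (σ i) z‖)
      (g := fun p => (∏ i ∈ I, ‖z - ch.coord (p.2 i)‖) * C) ?_ ?_ ?_
    · have : Continuous fun p : (Fin (secDim F N) → ℂ) × (Fin N → Place ℂ F) =>
          ‖∑ i, p.1 i * ch.fn (σ i) z‖ := by fun_prop
      exact tendsto_nhdsWithin_of_tendsto_nhds (this.tendsto _)
    · refine tendsto_nhdsWithin_of_tendsto_nhds (Tendsto.mul_const _ ?_)
      rw [show ‖z‖ ^ I.card = ∏ i ∈ I, ‖z - 0‖ by simp]
      exact tendsto_finsetProd I fun i hi => (Tendsto.const_sub z (htc i hi).2).norm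
    · filter_upwards [self_mem_nhdsWithin, nhdsWithin_le_nhds hev] with p hp hp'
      exact key p hp hp' z hz
  -- comparison with the order of the limit
  rw [show P.ord (sec c₀) + M P = P.ord (sec c₀ * ch.t ^ e) by
    rw [Place.ord_mul _ hc₀ hte, ord_pow, ch.ord_t, mul_one, hMP]]
  refine le_ord_of_norm_fn_le (C := C) (mul_ne_zero hc₀ hte) ?_ ?_
  · have := (hfn c₀ 0 (mem_ball_self hr0)).1
    rwa [ch.param_zero] at this
  · filter_upwards [closedBall_mem_nhds (0 : ℂ) hρ0] with x hx
    rw [(hfn c₀ x (hcl hx)).2]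
    exact hlim x hx

/-- The graph of sections and zeros is closed. -/
theorem isClosed_secGraph (N : ℕ) : IsClosed (secGraph F N) := by
  refine isClosed_of_closure_subset fun p hp => ?_
  obtain ⟨c₀, T₀⟩ := p
  have hs : c₀ ∈ sphere (0 : Fin (secDim F N) → ℂ) 1 := by
    have hcl : IsClosed
        {p : (Fin (secDim F N) → ℂ) × (Fin N → Place ℂ F) | p.1 ∈ sphere 0 1} :=
      isClosed_sphere.preimage continuous_fst
    exact closure_minimal (fun q hq => hq.1) hcl hp
  have hc₀ : sec c₀ ≠ 0 := fun h0 => by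
    rw [sec_eq_zero_iff] at h0; rw [h0] at hs; simp at hs
  refine ⟨hs, ?_⟩
  have := eq_zero_of_nonneg_of_degree_le
    (D := divOf ℂ (sec c₀) + Finsupp.single (base F) (N : ℤ) - pts T₀)
    (Finsupp.le_def.2 fun P => by
      rw [Finsupp.sub_apply, Finsupp.add_apply, divOf_apply, Finsupp.coe_zero, Pi.zero_apply,
        sub_nonneg]
      exact pts_le_of_mem_closure hp hc₀ P)
    (by simp)
  exact sub_eq_zero.1 this

/-- An effective divisor in the class of `N · base` is cut out by a unit section. -/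
theorem exists_mem_secGraph {N : ℕ} {T : Fin N → Place ℂ F} {f : F} (hf : f ≠ 0)
    (h : pts T = Finsupp.single (base F) (N : ℤ) + divOf ℂ f) :
    ∃ c, (c, T) ∈ secGraph F N := by
  have hmem : f ∈ riemannRochSpace (Finsupp.single (base F) (N : ℤ)) := by
    rw [mem_riemannRochSpace]
    intro v
    rw [ordGE_iff_of_ne hf]
    have h1 := Finsupp.le_def.1 (pts_nonneg T) v
    rw [h, Finsupp.add_apply, divOf_apply, Finsupp.coe_zero, Pi.zero_apply] at h1
    omega
  obtain ⟨c, hc⟩ := exists_sec_eq hmem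
  have hc0 : c ≠ 0 := fun h0 => hf (by rw [← hc, sec_eq_zero_iff.2 h0])
  have hn : (‖c‖⁻¹ : ℂ) ≠ 0 := by simpa using hc0
  refine ⟨(‖c‖⁻¹ : ℂ) • c, ?_, ?_⟩
  · simp [norm_smul, hc0]
  · change divOf ℂ _ + _ = _
    rw [sec_smul, hc, Algebra.smul_def, h, add_comm (Finsupp.single _ _)]
    congr 1
    ext v
    rw [divOf_apply, divOf_apply, Place.ord_mul _ ((_root_.map_ne_zero _).2 hn) hf,
      ord_algebraMap, zero_add]

end Fermat.JAC
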