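import Fermat.Agent.JAC.RegDiff
import Fermat.Agent.JAC.Branches

/-!
# The canonical uniformisation of `Pic⁰`

`unif`: the surjection from the dual of the regular differentials onto `Pic⁰` of a complex curve,
computing point classes by integrals near every point (`isUnifAt_unif`). Its kernel is the period
lattice (`Periods`); `PicLift` computes with it what pullback and pushforward become.
-/

set_option autoImplicit false

noncomputable section

open AlgebraicCurve Metric Filter Topology Set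

namespace Fermat.JAC

open Fermat.FF

variable {F : Type*} [Field F] [Algebra ℂ F] [IsFunctionField ℂ F]

/-- The class of `Q - P`. -/
def ptClass (Q P : Place ℂ F) : Pic0 ℂ F :=
  Pic0.mk ⟨Finsupp.single Q 1 - Finsupp.single P 1, by rw [Divisor.mem_degZero]; simp⟩

/-- Differences of point classes with a common base. -/
theorem ptClass_sub (Q R P : Place ℂ F) : ptClass Q P - ptClass R P = ptClass Q R := by
  rw [sub_eq_iff_eq_add]
  change _ = Pic0.mk _ + Pic0.mk _
  rw [ptClass, ← Pic0.mk_add]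
  congr 1
  exact Subtype.ext (by simp)

omit [IsFunctionField ℂ F] in
/-- Moving one entry of a tuple changes its divisor by a difference of places. -/
theorem pts_update {n : ℕ} (e : Fin n → Place ℂ F) (j : Fin n) (Q : Place ℂ F) :
    pts (Function.update e j Q) - pts e = Finsupp.single Q 1 - Finsupp.single (e j) 1 := by
  classical
  rw [pts, pts, ← Finset.sum_sub_distrib, Finset.sum_eq_single j]
  · rw [Function.update_self]
  · intro i _ hi; rw [Function.update_of_ne hi, sub_self]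
  · simp

/-- Moving one entry changes the Abel image by a point class. -/
theorem abel_update_sub (e : Fin (genusFF ℂ F) → Place ℂ F) (j : Fin (genusFF ℂ F))
    (Q : Place ℂ F) : abel (Function.update e j Q) - abel e = ptClass Q (e j) := by
  rw [sub_eq_iff_eq_add]
  change Pic0.mk _ = Pic0.mk _ + Pic0.mk _
  rw [← Pic0.mk_add]
  congr 1
  refine Subtype.ext ?_
  rw [AddSubgroup.coe_add]
  change pts (Function.update e j Q) - pts (baseTuple F) =
    Finsupp.single Q 1 - Finsupp.single (e j) 1 + (pts e - pts (baseTuple F))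
  rw [← pts_update e j Q]
  abel

/-- A map of places compatible with values is continuous. -/
theorem continuous_of_value_eq {F' : Type*} [Field F'] [Algebra ℂ F'] [IsFunctionField ℂ F']
    {ψ : F →ₐ[ℂ] F'} {res : Place ℂ F' → Place ℂ F}
    (hres : ∀ Q f, value Q (ψ f) = value (res Q) f) : Continuous res :=
  (isEmbedding_value F).isInducing.continuous_iff.2 <| continuous_pi fun f => by
    change Continuous fun Q => value (res Q) f
    simp only [← hres]
    exact continuous_value (ψ f)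

/-- Transport of the primitives along a map of curves (or a change of chart). -/
theorem eventually_intCh_transport {F' : Type*} [Field F'] [Algebra ℂ F'] [IsFunctionField ℂ F']
    {ψ : F →ₐ[ℂ] F'} {res : Place ℂ F' → Place ℂ F}
    (hres : ∀ Q f, value Q (ψ f) = value (res Q) f) {w : Place ℂ F'} {P : Place ℂ F}
    (hw : res w ∈ (chartOf P).domain) :
    ∀ᶠ z in 𝓝 (0 : ℂ), res ((chartOf w).param z) ∈ (chartOf P).domain ∧
      ∀ (ω : regDiff F) (ω' : regDiff F'), (ω' : Ω[F'⁄ℂ]) =
        ψ ((chartOf P).coeff (ω : Ω[F⁄ℂ])) • KaehlerDifferential.D ℂ F' (ψ (chartOf P).t) →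
        intCh w z ω' = intCh P ((chartOf P).coord (res ((chartOf w).param z))) ω
          - intCh P ((chartOf P).coord (res w)) ω := by
  set ch := chartOf P
  set ch' := chartOf w
  have hb := mem_ball_self (x := (0 : ℂ)) ch'.ε_pos
  -- near `0` the image stays in the target chart
  have hc : ∀ᶠ z in 𝓝 (0 : ℂ), res (ch'.param z) ∈ ch.domain := by
    have h := ((continuous_of_value_eq hres).continuousAt (x := ch'.param 0)).comp
      (Chart.continuousAt_param hb)
    rw [ContinuousAt, Function.comp_apply, ch'.param_zero] at h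
    exact h.eventually (ch.isOpen_domain.mem_nhds hw)
  obtain ⟨r, hr, hball⟩ := Metric.eventually_nhds_iff_ball.1
    (hc.and (isOpen_ball.mem_nhds hb : ∀ᶠ z in 𝓝 (0 : ℂ), z ∈ ball (0 : ℂ) ch'.ε))
  have hγ : ∀ z ∈ ball (0 : ℂ) r, value (ch'.param z) (ψ ch.t) =
      (ch.coord (res (ch'.param z)) : OnePoint ℂ) := fun z hz => by
    rw [hres, Chart.value_t_of_mem (hball z hz).1]
  have hreg : ∀ z ∈ ball (0 : ℂ) r, OrdGE (ch'.param z) (ψ ch.t) 0 := fun z hz =>
    value_ne_infty_iff.1 (by rw [hγ z hz]; exact OnePoint.coe_ne_infty _)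
  have hfn : ∀ z ∈ ball (0 : ℂ) r, ch'.fn (ψ ch.t) z = ch.coord (res (ch'.param z)) :=
    fun z hz => evalAt_of_value (hγ z hz)
  filter_upwards [ball_mem_nhds (0 : ℂ) hr] with z hz
  refine ⟨(hball z hz).1, fun ω ω' hω => ?_⟩
  have hle : ball (0 : ℂ) r ⊆ ball 0 ch'.ε := fun x hx => (hball x hx).2
  -- `G`, the pulled-back primitive, has the derivative of the primitive of `ω'` and vanishes at 0.
  let G : ℂ → ℂ := fun x => intCh P (ch'.fn (ψ ch.t) x) ω - intCh P (ch.coord (res w)) ω
  have h0 : G 0 = 0 := by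
    simp only [G]
    rw [hfn 0 (mem_ball_self hr), ch'.param_zero, sub_self]
  have hG : ∀ x ∈ ball (0 : ℂ) r,
      HasDerivAt G (ch'.fn (ch'.coeff (ω' : Ω[F'⁄ℂ])) x) x := by
    intro x hx
    obtain ⟨hd1, hd2⟩ := Chart.hasDerivAt_fn (hle hx) (hreg x hx)
    have hγx : ch'.fn (ψ ch.t) x ∈ ball (0 : ℂ) ch.ε := by
      rw [hfn x hx]; exact Chart.coord_mem_ball (hball x hx).1
    have h1 := ((hasDerivAt_primAt ω hγx).comp x hd2).sub_const
      (primAt P ω (ch.coord (res w)))
    refine h1.congr_deriv ?_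
    have hQ : ch.param (ch'.fn (ψ ch.t) x) = res (ch'.param x) := by
      rw [hfn x hx, Chart.param_coord (hball x hx).1]
    have hv : value (ch'.param x) (ψ (ch.coeff (ω : Ω[F⁄ℂ]))) =
        (ch.fn (ch.coeff (ω : Ω[F⁄ℂ])) (ch'.fn (ψ ch.t) x) : OnePoint ℂ) := by
      rw [hres, ← hQ]
      exact value_of_ordGE (IsRegularDiff.ordGE_coeff ω.2 hγx)
    change _ = evalAt _ _
    rw [hω, Chart.coeff_smul', evalAt_mul (value_ne_infty_iff.1
      (by rw [hv]; exact OnePoint.coe_ne_infty _)) hd1, evalAt_of_value hv]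
    rfl
  have h2 : ∀ x ∈ ball (0 : ℂ) r, HasDerivAt (primAt w ω')
      (ch'.fn (ch'.coeff (ω' : Ω[F'⁄ℂ])) x) x :=
    fun x hx => hasDerivAt_primAt ω' (hle hx)
  -- so the two agree on the disc
  rw [intCh_apply, eq_of_hasDerivAt_ball h2 hG (by rw [primAt_zero, h0]) hz]
  simp only [G, hfn z hz]

variable (F) in
/-- The dual of the space of regular differentials. -/
abbrev DiffDual : Type _ := regDiff F →ₗ[ℂ] ℂ

/-- The uniformisation computes point classes near `P`. -/
def IsUnifAt (Φ : DiffDual F →+ Pic0 ℂ F) (P : Place ℂ F) : Prop :=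
  ∀ᶠ z in 𝓝 (0 : ℂ), Φ (intCh P z) = ptClass ((chartOf P).param z) P

/-- Uniformising at a point is an open condition. -/
theorem IsUnifAt.eventually_near {Φ : DiffDual F →+ Pic0 ℂ F} {P : Place ℂ F}
    (h : IsUnifAt Φ P) : ∀ᶠ z₀ in 𝓝 (0 : ℂ), IsUnifAt Φ ((chartOf P).param z₀) := by
  obtain ⟨r, hr, hball⟩ := Metric.eventually_nhds_iff_ball.1
    (h.and (isOpen_ball.mem_nhds (mem_ball_self (chartOf P).ε_pos) :
      ∀ᶠ z in 𝓝 (0 : ℂ), z ∈ ball (0 : ℂ) (chartOf P).ε))
  filter_upwards [ball_mem_nhds (0 : ℂ) hr] with z₀ hz₀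
  set ch := chartOf P
  have hd : ch.param z₀ ∈ ch.domain := ⟨z₀, (hball z₀ hz₀).2, rfl⟩
  have ht := eventually_intCh_transport (ψ := AlgHom.id ℂ F) (res := fun Q => Q)
    (fun _ _ => rfl) (w := ch.param z₀) (P := P) hd
  set ch' := chartOf (ch.param z₀)
  have hc : ∀ᶠ z in 𝓝 (0 : ℂ), ch'.param z ∈ ch.param '' ball 0 r := by
    have h' := Chart.continuousAt_param (ch := ch') (mem_ball_self ch'.ε_pos)
    rw [ContinuousAt, ch'.param_zero] at h'
    exact h'.eventually ((Chart.isOpen_image_param isOpen_ball fun x hx => (hball x hx).2).mem_nhds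
      ⟨z₀, hz₀, rfl⟩)
  filter_upwards [ht, hc] with z hz hzc
  obtain ⟨x, hx, hxz⟩ := hzc
  have hint : intCh (ch.param z₀) z = intCh P x - intCh P z₀ := LinearMap.ext fun ω => by
    rw [hz.2 ω ω (by simp [Chart.coeff_smul]), LinearMap.sub_apply, ← hxz,
      Chart.coord_param (hball x hx).2, Chart.coord_param (hball z₀ hz₀).2]
  rw [hint, map_sub, (hball x hx).1, (hball z₀ hz₀).1, hxz, ptClass_sub]

namespace LogData

variable (D : LogData F)

/-- Integration at a base point in the basis of the data. -/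
theorem intCh_e_eq {j : Fin (genusFF ℂ F)} {z : ℂ} (hz : z ∈ ball (0 : ℂ) D.r) :
    intCh (D.e j) z = D.basis.constr ℂ fun i => D.prim j i z :=
  D.basis.ext fun i => by rw [Module.Basis.constr_basis, D.basis_apply, D.intCh_diff hz]

/-- The logarithm on one coordinate axis. -/
theorem logCoord_single {j : Fin (genusFF ℂ F)} (z : ℂ) :
    D.logCoord (Pi.single j z) = fun i => D.prim j i z := by
  classical
  funext i
  rw [logCoord, Finset.sum_eq_single j (fun k _ hk => by
    rw [Pi.single_eq_of_ne hk, D.prim_zero]) (by simp), Pi.single_eq_same]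

/-- The tuple of one coordinate axis moves one entry. -/
theorem tuple_single {j : Fin (genusFF ℂ F)} (z : ℂ) :
    D.tuple (Pi.single j z) = Function.update D.e j ((D.ch j).param z) := by
  classical
  funext k
  rcases eq_or_ne k j with rfl | hk
  · rw [tuple, Pi.single_eq_same, Function.update_self]
  · rw [tuple, Pi.single_eq_of_ne hk, Chart.param_zero, Function.update_of_ne hk]

/-- A surjective uniformisation with kernel a lattice exists, good at the base points. -/
theorem exists_unifAt_e :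
    ∃ Φ : DiffDual F →+ Pic0 ℂ F, Function.Surjective Φ ∧
      DiscreteTopology (AddSubgroup.toIntSubmodule
        (Φ.comp (D.basis.constr ℂ).toLinearMap.toAddMonoidHom).ker) ∧
      Submodule.span ℝ ((Φ.comp (D.basis.constr ℂ).toLinearMap.toAddMonoidHom).ker :
        Set (Fin (genusFF ℂ F) → ℂ)) = ⊤ ∧ ∀ j, IsUnifAt Φ (D.e j) := by
  obtain ⟨Φ₀, hloc, hsurj, hdisc, hspan⟩ := exists_uniformisation_logData D
  let C := (D.basis.constr ℂ : (Fin (genusFF ℂ F) → ℂ) ≃ₗ[ℂ] DiffDual F)
  refine ⟨Φ₀.comp C.symm.toLinearMap.toAddMonoidHom, hsurj.comp C.symm.surjective, ?_,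
    ?_, fun j => ?_⟩
  · rwa [show (Φ₀.comp C.symm.toLinearMap.toAddMonoidHom).comp C.toLinearMap.toAddMonoidHom = Φ₀
      from AddMonoidHom.ext fun v => congrArg Φ₀ (C.symm_apply_apply v)]
  · rwa [show (Φ₀.comp C.symm.toLinearMap.toAddMonoidHom).comp C.toLinearMap.toAddMonoidHom = Φ₀
      from AddMonoidHom.ext fun v => congrArg Φ₀ (C.symm_apply_apply v)]
  · classical
    have hsingle : ContinuousAt (fun z : ℂ => (Pi.single j z : Fin (genusFF ℂ F) → ℂ)) 0 :=
      (continuous_single j).continuousAt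
    rw [ContinuousAt, Pi.single_zero] at hsingle
    filter_upwards [hsingle.eventually hloc, ball_mem_nhds (0 : ℂ) D.r_pos] with z hz hzr
    change Φ₀ (C.symm (intCh (D.e j) z)) = _
    rw [D.intCh_e_eq hzr, LinearEquiv.symm_apply_apply, ← D.logCoord_single, hz, D.tuple_single,
      abel_update_sub]

/-- Every small functional is a sum of integrals from the base points to nearby points. -/
theorem exists_mem_nhds_sum_intCh {U : Set (Fin (genusFF ℂ F) → ℂ)}
    (hU : U ∈ 𝓝 (0 : Fin (genusFF ℂ F) → ℂ)) :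
    ∃ V ∈ 𝓝 (0 : Fin (genusFF ℂ F) → ℂ), ∀ c ∈ V, ∃ z ∈ U,
      D.basis.constr ℂ c = ∑ j, intCh (D.e j) (z j) := by
  have hS := D.hasStrictFDerivAt_logCoord
  have h0 : D.logCoord 0 = 0 := funext fun i => by simp [LogData.logCoord, D.prim_zero]
  have hU' : U ∩ univ.pi (fun _ => ball (0 : ℂ) D.r) ∈ 𝓝 (0 : Fin (genusFF ℂ F) → ℂ) :=
    inter_mem hU ((isOpen_set_pi finite_univ fun _ _ => isOpen_ball).mem_nhds
      fun _ _ => mem_ball_self D.r_pos)
  have hmap := hS.map_nhds_eq_of_equiv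
  rw [h0] at hmap
  refine ⟨D.logCoord '' (U ∩ univ.pi (fun _ => ball (0 : ℂ) D.r)), hmap ▸ image_mem_map hU', ?_⟩
  rintro _ ⟨z, ⟨hzU, hzr⟩, rfl⟩
  refine ⟨z, hzU, ?_⟩
  rw [Finset.sum_congr rfl fun j _ => D.intCh_e_eq (hzr j trivial), ← map_sum]
  congr 1
  funext i
  rw [Finset.sum_apply]
  rfl

end LogData

/-- Homomorphisms on the dual of regular differentials agreeing near all but finitely many
points are equal. -/
theorem hom_ext_intCh {G : Type*} [AddCommGroup G] {φ₁ φ₂ : DiffDual F →+ G}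
    {S : Set (Place ℂ F)} (hS : S.Finite)
    (h : ∀ P ∉ S, ∀ᶠ z in 𝓝 (0 : ℂ), φ₁ (intCh P z) = φ₂ (intCh P z)) : φ₁ = φ₂ := by
  obtain ⟨D, hD⟩ := exists_logData_avoid hS
  have hU : ∀ᶠ z in 𝓝 (0 : Fin (genusFF ℂ F) → ℂ),
      ∀ j, φ₁ (intCh (D.e j) (z j)) = φ₂ (intCh (D.e j) (z j)) :=
    eventually_all.2 fun j =>
      ((continuous_apply j).tendsto (0 : Fin (genusFF ℂ F) → ℂ)).eventually (h (D.e j) (hD j))
  obtain ⟨V, hV, hVU⟩ := D.exists_mem_nhds_sum_intCh hU
  obtain ⟨η, hη, hball⟩ := Metric.mem_nhds_iff.1 hV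
  refine AddMonoidHom.ext fun v => ?_
  obtain ⟨c, rfl⟩ := (D.basis.constr ℂ).surjective v
  obtain ⟨n, hn⟩ := exists_nat_gt (‖c‖ / η)
  have hn0 : n ≠ 0 := by
    rintro rfl
    rw [Nat.cast_zero] at hn
    exact absurd hn (not_lt.2 (div_nonneg (norm_nonneg c) hη.le))
  have hn' : (n : ℂ) ≠ 0 := by exact_mod_cast hn0
  have hmem : (n : ℂ)⁻¹ • c ∈ ball (0 : Fin (genusFF ℂ F) → ℂ) η := by
    have hpos : (0 : ℝ) < n := by exact_mod_cast Nat.pos_of_ne_zero hn0
    rw [mem_ball_zero_iff, norm_smul, norm_inv, Complex.norm_natCast, inv_mul_lt_iff₀ hpos]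
    rw [div_lt_iff₀ hη] at hn
    linarith
  obtain ⟨z, hz, hzc⟩ := hVU _ (hball hmem)
  have hc : D.basis.constr ℂ c = n • D.basis.constr ℂ ((n : ℂ)⁻¹ • c) := by
    rw [map_smul, ← Nat.cast_smul_eq_nsmul ℂ, smul_smul, mul_inv_cancel₀ hn', one_smul]
  rw [hc, map_nsmul, map_nsmul, hzc, map_sum, map_sum]
  exact congrArg _ (Finset.sum_congr rfl fun j _ => hz j)

/-- Near a nonspecial tuple with uniformised entries there is one avoiding a given point. -/
theorem exists_tuple_avoid (D : LogData F) {Φ : DiffDual F →+ Pic0 ℂ F}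
    (hΦ : ∀ j, IsUnifAt Φ (D.e j)) (P : Place ℂ F) :
    ∃ T : Fin (genusFF ℂ F) → Place ℂ F, Function.Injective T ∧ ell (pts T) ≤ 1 ∧
      ∀ j, T j ≠ P ∧ IsUnifAt Φ (T j) := by
  obtain ⟨W, hWo, hWe, hWbox, hWell⟩ := D.exists_nbhd_ell_le
  -- near each entry, off it, places are uniformised and differ from `P`
  have hev : ∀ j, ∀ᶠ x in 𝓝[≠] (0 : ℂ),
      IsUnifAt Φ ((chartOf (D.e j)).param x) ∧ (chartOf (D.e j)).param x ≠ P := by
    intro j
    refine ((hΦ j).eventually_near.filter_mono nhdsWithin_le_nhds).and ?_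
    rcases eq_or_ne (D.e j) P with hP | hP
    · filter_upwards [self_mem_nhdsWithin,
        nhdsWithin_le_nhds (isOpen_ball.mem_nhds (mem_ball_self (chartOf (D.e j)).ε_pos))]
        with x hx hxb he
      refine hx ?_
      have := Chart.coord_param (ch := chartOf (D.e j)) hxb
      rw [he, ← hP] at this
      have h0 := Chart.coord_param (ch := chartOf (D.e j))
        (mem_ball_self (chartOf (D.e j)).ε_pos)
      rw [Chart.param_zero] at h0
      exact this.symm.trans h0
    · have hc := Chart.continuousAt_param (ch := chartOf (D.e j))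
        (mem_ball_self (chartOf (D.e j)).ε_pos)
      rw [ContinuousAt, Chart.param_zero] at hc
      exact nhdsWithin_le_nhds (hc.eventually (isOpen_ne.mem_nhds hP))
  -- tuples with small coordinates stay in the nonspecial neighbourhood
  have hbox : ∀ᶠ x in 𝓝 (0 : Fin (genusFF ℂ F) → ℂ), D.tuple x ∈ W := by
    have hc : ContinuousAt D.tuple 0 := continuousAt_pi.2 fun j =>
      ContinuousAt.comp (g := (D.ch j).param)
        (Chart.continuousAt_param (mem_ball_self (D.ch j).ε_pos)) (continuous_apply j).continuousAt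
    rw [ContinuousAt, D.tuple_zero] at hc
    exact hc.eventually (hWo.mem_nhds hWe)
  obtain ⟨ρ, hρ, hρW⟩ := Metric.eventually_nhds_iff_ball.1 hbox
  -- choose small coordinates avoiding `P`
  have hx : ∀ j, ∃ x ∈ ball (0 : ℂ) ρ, IsUnifAt Φ ((chartOf (D.e j)).param x) ∧
      (chartOf (D.e j)).param x ≠ P := fun j => by
    obtain ⟨x, h1, h2⟩ := ((hev j).and (nhdsWithin_le_nhds (ball_mem_nhds (0 : ℂ) hρ))).exists
    exact ⟨x, h2, h1⟩
  choose x hxρ hxΦ hxP using hx
  have hT : D.tuple x ∈ W := hρW x (by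
    rw [ball_pi _ hρ]; exact fun j _ => hxρ j)
  exact ⟨D.tuple x, fun i j hij => D.eq_of_mem_disc (hWbox hT i)
    (show D.tuple x i ∈ D.disc j from hij ▸ hWbox hT j), hWell _ hT, fun j => ⟨hxP j, hxΦ j⟩⟩

/-- Adding a point to a nonspecial tuple gives a function with simple poles, one of them there. -/
theorem exists_fn_simple_poles {T : Fin (genusFF ℂ F) → Place ℂ F} (hTinj : Function.Injective T)
    {P : Place ℂ F} (hTP : ∀ j, T j ≠ P) (hell : ell (pts T) ≤ 1) :
    ∃ f : F, P.ord f < 0 ∧ ∀ v, v.ord f < 0 → v.ord f = -1 ∧ (v = P ∨ ∃ j, T j = v) := by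
  classical
  -- by Riemann `pts T + P` has two sections, so one has a pole at `P`
  set E := pts T + Finsupp.single P (1 : ℤ)
  have hEdeg : Divisor.degree E = (genusFF ℂ F : ℤ) + 1 := by
    rw [map_add, degree_pts, Divisor.degree_single, deg_eq_one]; simp
  have hEell : 2 ≤ ell E := by
    have := riemann_inequality E
    omega
  obtain ⟨f, hfE, hfc⟩ : ∃ f ∈ riemannRochSpace E, f ∉ riemannRochSpace (pts T) := by
    refine SetLike.not_le_iff_exists.1 fun hle => ?_
    have h1 : ell E ≤ ell (pts T) := Submodule.finrank_mono hle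
    omega
  -- all coefficients of this divisor are at most one, as the points are distinct
  have hEle : ∀ v, E v ≤ 1 ∧ (E v ≠ 0 → v = P ∨ ∃ j, T j = v) := by
    intro v
    simp only [E, Finsupp.add_apply]
    by_cases hv : ∃ j, T j = v
    · obtain ⟨j, rfl⟩ := hv
      rw [pts_apply, show (Finset.univ.filter fun i => T i = T j) = {j} by
        ext i; simp [hTinj.eq_iff], Finsupp.single_eq_of_ne (hTP j)]
      simp
    · rw [pts_eq_zero_of_ne fun i hi => hv ⟨i, hi⟩, Finsupp.single_apply]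
      split_ifs with h
      · exact ⟨le_refl 1, fun _ => Or.inl h.symm⟩
      · exact ⟨by norm_num, fun h0 => absurd rfl h0⟩
  have hf0 : f ≠ 0 := fun h => hfc (h ▸ Submodule.zero_mem _)
  refine ⟨f, ?_, fun v hv => ?_⟩
  -- without a pole at `P` the function would lie in the space of `pts T`
  · by_contra hP
    apply hfc
    rw [mem_riemannRochSpace]
    intro v
    rcases eq_or_ne v P with rfl | hvP
    · rw [pts_eq_zero_of_ne fun i hi => hTP i hi, neg_zero]
      exact ordGE_iff.2 (Or.inr (not_lt.1 hP))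
    · have h1 := mem_riemannRochSpace.1 hfE v
      rwa [Finsupp.add_apply, Finsupp.single_eq_of_ne hvP, add_zero] at h1
  · have h1 := (mem_riemannRochSpace.1 hfE v).le_ord hf0
    have h2 := hEle v
    exact ⟨by omega, h2.2 (by omega)⟩

variable {u : F} {S : Finset (Place ℂ F)} {γ : Place ℂ F → ℂ → ℂ} {μ : ℂ}

/-- The primitive of `h • du` along a branch has derivative the value of `h`. -/
theorem BranchesAt.hasDerivAt_intCh (hμ : BranchesAt u S γ μ)
    (hDu : KaehlerDifferential.D ℂ F u ≠ 0) {ω : regDiff F} {h : F}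
    (hh : h • KaehlerDifferential.D ℂ F u = (ω : Ω[F⁄ℂ])) {w : Place ℂ F} (hw : w ∈ S) :
    HasDerivAt (fun x => intCh w (γ w x) ω) (evalAt ((chartOf w).param (γ w μ)) h) μ := by
  obtain ⟨hball, hreg, -, hord, -, d, hd, hdeq⟩ := hμ.2 w hw
  set ch := chartOf w
  set du := ch.coeff (KaehlerDifferential.D ℂ F u)
  obtain ⟨hd1, -⟩ := Chart.hasDerivAt_fn hball hreg
  have hh' : OrdGE (ch.param (γ w μ)) h 0 := by
    rcases eq_or_ne h 0 with h0 | h0
    · rw [h0]; exact ordGE_zero _ _
    refine ordGE_iff.2 (Or.inr ?_)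
    have h1 : 0 ≤ (ch.param (γ w μ)).ordDifferential (ω : Ω[F⁄ℂ]) := ω.2 _
    have h2 : KaehlerDifferential.D ℂ F (u - algebraMap ℂ F μ) =
        KaehlerDifferential.D ℂ F u := by
      rw [map_sub, Derivation.map_algebraMap, sub_zero]
    rw [← hh, ordDifferential_smul _ h0 hDu, ← h2,
      ordDifferential_D_eq _ (by rw [hord]; norm_num), hord] at h1
    omega
  refine ((hasDerivAt_primAt ω hball).comp μ hd).congr_deriv ?_
  change evalAt (ch.param (γ w μ)) (ch.coeff (ω : Ω[F⁄ℂ])) * d = _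
  rw [← hh, Chart.coeff_smul', evalAt_mul hh' hd1, mul_assoc,
    show evalAt (ch.param (γ w μ)) du * d = 1 by rw [mul_comm]; exact hdeq, mul_one]

/-- The branches end at distinct points. -/
theorem BranchesAt.injOn (hμ : BranchesAt u S γ μ) :
    Set.InjOn (fun w => (chartOf w).param (γ w μ)) S := by
  classical
  intro a ha b hb hab
  by_contra hne
  have h2 := congrArg (fun D => D ((chartOf a).param (γ a μ))) hμ.1
  simp only [zeroDiv_apply, (hμ.2 a ha).ord_eq, Finsupp.finsetSum_apply,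
    Finsupp.single_apply] at h2
  have h3 : ((({a, b} : Finset (Place ℂ F)).card : ℕ) : ℤ) ≤
      ∑ w ∈ S, if (chartOf w).param (γ w μ) = (chartOf a).param (γ a μ) then (1 : ℤ) else 0 := by
    rw [Finset.sum_boole]
    exact_mod_cast Finset.card_le_card fun w hw => by
      simp only [Finset.mem_insert, Finset.mem_singleton] at hw
      rcases hw with rfl | rfl
      · exact Finset.mem_filter.2 ⟨ha, rfl⟩
      · exact Finset.mem_filter.2 ⟨hb, hab.symm⟩
  rw [Finset.card_pair hne] at h3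
  norm_num at h2 h3
  omega

/-- The trace of `h • du`, summed over the branches, vanishes. -/
theorem BranchesAt.sum_evalAt_eq_zero (hμ : BranchesAt u S γ μ) (hu : Transcendental ℂ u) {h : F}
    (hreg : IsRegularDiff (h • KaehlerDifferential.D ℂ F u)) :
    ∑ w ∈ S, evalAt ((chartOf w).param (γ w μ)) h = 0 := by
  classical
  set S' := S.image fun w => (chartOf w).param (γ w μ)
  rw [← Finset.sum_image (f := fun Q => evalAt Q h) hμ.injOn]
  refine sum_eq_zero_of_simple_fiber hu hreg μ S' (fun Q => ?_) (fun Q hQ => ?_)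
  · have h2 := congrArg (fun D => D Q) hμ.1
    simp only [zeroDiv_apply, Finsupp.finsetSum_apply, Finsupp.single_apply] at h2
    constructor
    · intro hQ
      obtain ⟨w, hw, rfl⟩ := Finset.mem_image.1 hQ
      rw [(hμ.2 w hw).ord_eq]; norm_num
    · intro hpos
      by_contra hQ
      rw [Finset.sum_eq_zero fun w hw => if_neg fun he =>
        hQ (Finset.mem_image.2 ⟨w, hw, he⟩)] at h2
      omega
  · obtain ⟨w, hw, rfl⟩ := Finset.mem_image.1 hQ
    exact (hμ.2 w hw).ord_eq

/-- The primitives along all the branches sum to zero. -/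
theorem sum_intCh_branches_eq_zero (hu : Transcendental ℂ u) (hS : S.Nonempty)
    (hγ0 : ∀ w ∈ S, γ w 0 = 0) {δ : ℝ} (hbr : ∀ m ∈ ball (0 : ℂ) δ, BranchesAt u S γ m)
    (hμ : μ ∈ ball (0 : ℂ) δ) : ∑ w ∈ S, intCh w (γ w μ) = 0 := by
  refine LinearMap.ext fun ω => ?_
  rw [LinearMap.sum_apply, LinearMap.zero_apply]
  refine eq_of_hasDerivAt_ball (G := fun m => ∑ w ∈ S, intCh w (γ w m) ω) (H := fun _ => 0)
    (d := fun _ => (0 : ℂ)) ?_ (fun z _ => hasDerivAt_const z 0) ?_ hμ
  · intro m hm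
    have hDu : KaehlerDifferential.D ℂ F u ≠ 0 := by
      intro h0
      obtain ⟨w, hw⟩ := hS
      obtain ⟨-, -, -, -, -, d, -, hdeq⟩ := (hbr m hm).2 w hw
      rw [h0, Chart.coeff_zero, Chart.fn, ← map_zero (algebraMap ℂ F), evalAt_algebraMap,
        mul_zero] at hdeq
      exact zero_ne_one hdeq
    obtain ⟨h, hh⟩ := exists_smul_eq_of_finrank_eq_one IsCurveOver.finrank_kaehler hDu
      (ω : Ω[F⁄ℂ])
    exact (HasDerivAt.fun_sum fun w hw => (hbr m hm).hasDerivAt_intCh hDu hh hw).congr_deriv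
      ((hbr m hm).sum_evalAt_eq_zero hu (hh ▸ ω.2))
  · show ∑ w ∈ S, intCh w (γ w 0) ω = 0
    rw [Finset.sum_eq_zero fun w hw => by rw [hγ0 w hw, intCh_zero, LinearMap.zero_apply]]

/-- The classes along all the branches sum to zero. -/
theorem sum_ptClass_branches_eq_zero (hu : Transcendental ℂ u) (hγ0 : ∀ w ∈ S, γ w 0 = 0)
    (h0 : BranchesAt u S γ 0) (hμ : BranchesAt u S γ μ) :
    ∑ w ∈ S, ptClass ((chartOf w).param (γ w μ)) w = 0 := by
  have hz0 : zeroDiv ℂ (u - algebraMap ℂ F 0) = ∑ w ∈ S, Finsupp.single w (1 : ℤ) := by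
    rw [h0.1]
    exact Finset.sum_congr rfl fun w hw => by rw [hγ0 w hw, Chart.param_zero]
  let π : Divisor.degZero (K := ℂ) (F := F) →+ Pic0 ℂ F :=
    QuotientAddGroup.mk' _
  change ∑ w ∈ S, π _ = 0
  rw [← map_sum, ← map_zero π]
  refine (pic0_mk_eq_iff (E := 0)).2 ⟨(u - algebraMap ℂ F μ) / (u - algebraMap ℂ F 0),
    div_ne_zero (gen_sub_ne_zero hu μ) (gen_sub_ne_zero hu 0), ?_⟩
  rw [AddSubgroup.val_finsetSum, ZeroMemClass.coe_zero, zero_add, Finset.sum_sub_distrib, ← hμ.1,
    ← hz0, div_eq_mul_inv,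
    divOf_mul (gen_sub_ne_zero hu μ) (inv_ne_zero (gen_sub_ne_zero hu 0)),
    divOf_inv, divOf_eq_sub (u - algebraMap ℂ F μ), divOf_eq_sub (u - algebraMap ℂ F 0),
    poleDiv_sub_algebraMap, poleDiv_sub_algebraMap]
  abel

/-- Near the centre a branch inverts `u`. -/
theorem eventually_branch_comp_eq {P : Place ℂ F} (hP : P ∈ S) (hγ0 : γ P 0 = 0) {δ : ℝ}
    (hδ : 0 < δ) (hbr : ∀ m ∈ ball (0 : ℂ) δ, BranchesAt u S γ m) :
    ∀ᶠ z in 𝓝 (0 : ℂ),
      (chartOf P).fn u z ∈ ball (0 : ℂ) δ ∧ γ P ((chartOf P).fn u z) = z := by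
  obtain ⟨hb0, hr0, hfn0, -, -, d, hd, hd1⟩ := (hbr 0 (mem_ball_self hδ)).2 P hP
  rw [hγ0] at hb0 hr0 hfn0 hd1
  have hfc : ContinuousAt ((chartOf P).fn u) 0 := (Chart.analyticAt_fn hb0 hr0).continuousAt
  rw [ContinuousAt, hfn0] at hfc
  have hst := (Chart.analyticAt_fn hb0 hr0).hasStrictDerivAt
  have hne : deriv ((chartOf P).fn u) 0 ≠ 0 := by
    rw [(Chart.hasDerivAt_fn hb0 hr0).2.deriv]
    exact right_ne_zero_of_mul (hd1.trans_ne one_ne_zero)
  have hc := hd.continuousAt
  rw [ContinuousAt, hγ0] at hc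
  filter_upwards [(hc.comp hfc).eventually (hst.eventually_left_inverse hne),
    hst.eventually_left_inverse hne, hfc.eventually (ball_mem_nhds (0 : ℂ) hδ)] with z h1 h2 h3
  have h4 := ((hbr _ h3).2 P hP).fn_eq
  simp only [Function.comp] at h1
  rw [h4] at h1
  exact ⟨h3, h1.symm.trans h2⟩

/-- A uniformisation computing point classes near one nonspecial tuple does so everywhere. -/
theorem isUnifAt_of_logData (D : LogData F) {Φ : DiffDual F →+ Pic0 ℂ F}
    (hΦ : ∀ j, IsUnifAt Φ (D.e j)) (P : Place ℂ F) : IsUnifAt Φ P := by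
  classical
  obtain ⟨T, hTinj, hTell, hT⟩ := exists_tuple_avoid D hΦ P
  obtain ⟨f, hPpole, hpole⟩ := exists_fn_simple_poles hTinj (fun j => (hT j).1) hTell
  set u := f⁻¹
  have hu : Transcendental ℂ u := transcendental_of_ord_ne_zero (v := P)
    (by rw [Place.ord_inv]; omega)
  set S := (finite_setOf_ord_ne_zero (K := ℂ) u).toFinset.filter fun w => 0 < w.ord u with hSdef
  have hS : ∀ w, w ∈ S ↔ 0 < w.ord (u - algebraMap ℂ F 0) := fun w => by
    rw [map_zero, sub_zero, hSdef, Finset.mem_filter, Set.Finite.mem_toFinset]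
    exact ⟨fun h => h.2, fun h => ⟨h.ne', h⟩⟩
  have hSpole : ∀ w ∈ S, w.ord f = -1 ∧ (w = P ∨ ∃ j, T j = w) := fun w hw => by
    have h := (hS w).1 hw
    rw [map_zero, sub_zero, Place.ord_inv] at h
    exact hpole w (by omega)
  have hsimple : ∀ w ∈ S, w.ord (u - algebraMap ℂ F 0) = 1 := fun w hw => by
    rw [map_zero, sub_zero, Place.ord_inv, (hSpole w hw).1]; rfl
  have hPS : P ∈ S := (hS P).2 (by rw [map_zero, sub_zero, Place.ord_inv]; omega)
  obtain ⟨γ, hγ0, hγ⟩ := exists_branches hu S hS hsimple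
  -- the classes are computed along the other branches
  have hev1 : ∀ᶠ μ in 𝓝 (0 : ℂ), ∀ w ∈ S, w ≠ P →
      Φ (intCh w (γ w μ)) = ptClass ((chartOf w).param (γ w μ)) w := by
    refine (Filter.eventually_all_finset S).2 fun w hw => ?_
    by_cases hwP : w = P
    · exact Eventually.of_forall fun _ h => absurd hwP h
    obtain ⟨-, -, -, -, -, d, hd, -⟩ := hγ.self_of_nhds.2 w hw
    have h1 := hd.continuousAt
    rw [ContinuousAt, hγ0 w hw] at h1
    obtain ⟨j, hj⟩ := (hSpole w hw).2.resolve_left hwP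
    filter_upwards [h1.eventually (hj ▸ (hT j).2 : IsUnifAt Φ w)] with μ hμ _
    exact hμ
  obtain ⟨δ, hδ, hδev⟩ := Metric.eventually_nhds_iff_ball.1 (hγ.and hev1)
  have hbr : ∀ m ∈ ball (0 : ℂ) δ, BranchesAt u S γ m := fun m hm => (hδev m hm).1
  -- hence they agree along the branch through `P`
  filter_upwards [eventually_branch_comp_eq hPS (hγ0 P hPS) hδ hbr] with z ⟨hzδ, hz⟩
  set m := (chartOf P).fn u z
  have h1 : Φ (∑ w ∈ S, intCh w (γ w m)) = 0 := by
    rw [sum_intCh_branches_eq_zero hu ⟨P, hPS⟩ hγ0 hbr hzδ, map_zero]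
  have htot := sum_ptClass_branches_eq_zero hu hγ0 (hbr 0 (mem_ball_self hδ)) (hbr m hzδ)
  rw [map_sum, ← Finset.add_sum_erase _ _ hPS, Finset.sum_congr rfl (g := fun w =>
    ptClass ((chartOf w).param (γ w m)) w) fun w hw =>
      (hδev m hzδ).2 w (Finset.mem_of_mem_erase hw) (Finset.ne_of_mem_erase hw)] at h1
  rw [← Finset.add_sum_erase _ _ hPS] at htot
  have := add_right_cancel (h1.trans htot.symm)
  rwa [hz] at this

variable (F) in
/-- A surjective uniformisation with kernel a lattice exists, good at every place. -/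
theorem exists_unifHom :
    ∃ (D : LogData F) (Φ : DiffDual F →+ Pic0 ℂ F), Function.Surjective Φ ∧
      DiscreteTopology (AddSubgroup.toIntSubmodule
        (Φ.comp (D.basis.constr ℂ).toLinearMap.toAddMonoidHom).ker) ∧
      Submodule.span ℝ ((Φ.comp (D.basis.constr ℂ).toLinearMap.toAddMonoidHom).ker :
        Set (Fin (genusFF ℂ F) → ℂ)) = ⊤ ∧ ∀ P, IsUnifAt Φ P := by
  obtain ⟨D⟩ := nonempty_logData (F := F)
  obtain ⟨Φ, h1, h2, h3, h4⟩ := D.exists_unifAt_e
  exact ⟨D, Φ, h1, h2, h3, isUnifAt_of_logData D h4⟩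

variable (F) in
/-- The uniformisation of `Pic⁰` by the dual of the regular differentials. -/
def unif : DiffDual F →+ Pic0 ℂ F := (exists_unifHom F).choose_spec.choose

/-- The uniformisation is surjective. -/
theorem unif_surjective : Function.Surjective (unif F) :=
  (exists_unifHom F).choose_spec.choose_spec.1

/-- The uniformisation computes point classes near every place. -/
theorem isUnifAt_unif (P : Place ℂ F) : IsUnifAt (unif F) P :=
  (exists_unifHom F).choose_spec.choose_spec.2.2.2 P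

end Fermat.JAC
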