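import Fermat.Agent.FF.Existence
import Mathlib.Topology.Compactification.OnePoint.Basic

/-!
# Values in `K ∪ {∞}` at the places of a function field

The value is `value`, and `value_injective` shows that it determines the place.
-/

set_option autoImplicit false

noncomputable section

open AlgebraicCurve
open scoped OnePoint

namespace Fermat.JAC

open Fermat.FF

variable {K F : Type*} [Field K] [Field F] [Algebra K F] [IsAlgClosed K] [IsFunctionField K F]

open Classical in
/-- Value of a function at a place, in `K ∪ {∞}`. -/
def value (v : Place K F) (f : F) : OnePoint K :=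
  if OrdGE v f 0 then ((evalAt v f : K) : OnePoint K) else ∞

/-- A regular function has a finite value. -/
theorem value_of_ordGE {v : Place K F} {f : F} (h : OrdGE v f 0) :
    value v f = ((evalAt v f : K) : OnePoint K) := if_pos h

/-- Finite value means regular. -/
theorem value_ne_infty_iff {v : Place K F} {f : F} : value v f ≠ ∞ ↔ OrdGE v f 0 := by
  rw [value]
  split_ifs with h <;> simp [h]

/-- Infinite value means pole. -/
theorem value_eq_infty_iff {v : Place K F} {f : F} : value v f = ∞ ↔ v.ord f < 0 := by
  rw [← not_iff_not, ← ne_eq, value_ne_infty_iff, ← mem_iff_ordGE, ← not_mem_iff, not_not]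

/-- The value is `c` iff `f - c` vanishes. -/
theorem value_eq_coe_iff {v : Place K F} {f : F} {c : K} :
    value v f = (c : OnePoint K) ↔ OrdGE v (f - algebraMap K F c) 1 := by
  constructor
  · intro h
    have hf : OrdGE v f 0 := value_ne_infty_iff.1 (by simp [h])
    rw [value_of_ordGE hf, OnePoint.coe_eq_coe] at h
    exact h ▸ evalAt_spec hf
  · intro h
    have hf : OrdGE v f 0 := by simpa using (h.mono zero_le_one).add (ordGE_algebraMap v c)
    rw [value_of_ordGE hf, evalAt_eq h]

/-- A finite value is the evaluation. -/
theorem evalAt_of_value {v : Place K F} {f : F} {c : K} (h : value v f = (c : OnePoint K)) :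
    evalAt v f = c := evalAt_eq (value_eq_coe_iff.1 h)

/-- The value is zero iff the function vanishes at the place. -/
theorem value_eq_zero_iff {v : Place K F} {f : F} :
    value v f = ((0 : K) : OnePoint K) ↔ f = 0 ∨ 0 < v.ord f := by
  rw [value_eq_coe_iff, map_zero, sub_zero, ordGE_iff]
  constructor <;> rintro (h | h) <;> first | exact Or.inl h | exact Or.inr (by omega)

/-- The value of a constant. -/
@[simp]
theorem value_algebraMap (v : Place K F) (c : K) :
    value v (algebraMap K F c) = (c : OnePoint K) :=
  value_eq_coe_iff.2 (by simpa using ordGE_zero v 1)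

/-- Finite values add. -/
theorem value_add (v : Place K F) {f g : F} {a b : K} (hf : value v f = (a : OnePoint K))
    (hg : value v g = (b : OnePoint K)) : value v (f + g) = ((a + b : K) : OnePoint K) := by
  have h1 : OrdGE v f 0 := value_ne_infty_iff.1 (by simp [hf])
  have h2 : OrdGE v g 0 := value_ne_infty_iff.1 (by simp [hg])
  rw [value_of_ordGE (h1.add h2), evalAt_add h1 h2, evalAt_of_value hf, evalAt_of_value hg]

/-- Finite values multiply. -/
theorem value_mul (v : Place K F) {f g : F} {a b : K} (hf : value v f = (a : OnePoint K))
    (hg : value v g = (b : OnePoint K)) : value v (f * g) = ((a * b : K) : OnePoint K) := by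
  have h1 : OrdGE v f 0 := value_ne_infty_iff.1 (by simp [hf])
  have h2 : OrdGE v g 0 := value_ne_infty_iff.1 (by simp [hg])
  rw [value_of_ordGE (by simpa using h1.mul h2), evalAt_mul h1 h2, evalAt_of_value hf,
    evalAt_of_value hg]

/-- Finite values negate. -/
theorem value_neg (v : Place K F) {f : F} {a : K} (hf : value v f = (a : OnePoint K)) :
    value v (-f) = ((-a : K) : OnePoint K) := by
  have h := value_mul v (value_algebraMap v (-1)) hf
  rwa [RingHom.map_neg, RingHom.map_one, neg_one_mul, neg_one_mul] at h

/-- Finite values subtract. -/
theorem value_sub (v : Place K F) {f g : F} {a b : K} (hf : value v f = (a : OnePoint K))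
    (hg : value v g = (b : OnePoint K)) : value v (f - g) = ((a - b : K) : OnePoint K) := by
  rw [sub_eq_add_neg, sub_eq_add_neg]
  exact value_add v hf (value_neg v hg)

/-- A function is regular or its inverse vanishes. -/
theorem value_or_inv_eq_zero (v : Place K F) (f : F) :
    value v f ≠ ∞ ∨ value v f⁻¹ = ((0 : K) : OnePoint K) := by
  by_cases h : v.ord f < 0
  · refine Or.inr (value_eq_zero_iff.2 (Or.inr ?_))
    rw [v.ord_inv]; omega
  · exact Or.inl (fun e => h (value_eq_infty_iff.1 e))

/-- A place is determined by the values of all functions. -/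
theorem value_injective : Function.Injective (value : Place K F → F → OnePoint K) := by
  intro v w h
  apply Place.ext
  ext f
  rw [mem_iff_ordGE, mem_iff_ordGE, ← value_ne_infty_iff, ← value_ne_infty_iff, h]

end Fermat.JAC
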